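import Mathlib
import Fermat.Prelude.Def_ModularForm_HeckeOperator
import Fermat.Prelude.Sol.S_CuspFormClass_isZeroAt_heckeT

/-!
# S41 (level raising), forms-level frame: integer matrices of positive determinant

`MPos` is the monoid of `2 × 2` integer matrices of positive determinant, `toGL : MPos →* GL₂(ℝ)`.
All coset identities for the degeneracy maps are proved as identities of integer matrices and
transported to the weight-two slash action through `toGL`.
-/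

set_option autoImplicit false

namespace Fermat.Agent.S41.IntMat

open scoped MatrixGroups ModularForm Manifold
open UpperHalfPlane ModularForm Matrix.SpecialLinearGroup

/-- The monoid of `2 × 2` integer matrices of positive determinant. -/
def MPos : Submonoid (Matrix (Fin 2) (Fin 2) ℤ) where
  carrier := {A | 0 < A.det}
  one_mem' := by simp
  mul_mem' := by
    intro a b ha hb
    show 0 < (a * b).det
    rw [Matrix.det_mul]
    exact mul_pos ha hb

theorem MPos.det_pos (A : MPos) : 0 < (A : Matrix (Fin 2) (Fin 2) ℤ).det := A.2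

/-- Build an element of `MPos` from its entries. -/
def mk4 (a b c d : ℤ) (h : 0 < a * d - b * c) : MPos :=
  ⟨!![a, b; c, d], by
    show 0 < Matrix.det !![a, b; c, d]
    rw [Matrix.det_fin_two_of]; exact h⟩

@[simp] theorem mk4_val (a b c d : ℤ) (h : 0 < a * d - b * c) :
    ((mk4 a b c d h : MPos) : Matrix (Fin 2) (Fin 2) ℤ) = !![a, b; c, d] := rfl

/-- `MPos → GL₂(ℚ)`. -/
noncomputable def toGLQ : MPos →* GL (Fin 2) ℚ where
  toFun A := Matrix.GeneralLinearGroup.mkOfDetNeZero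
    ((A : Matrix (Fin 2) (Fin 2) ℤ).map (Int.cast : ℤ → ℚ)) (by
      have h := A.2
      have e : ((A : Matrix (Fin 2) (Fin 2) ℤ).map (Int.cast : ℤ → ℚ)).det
          = (((A : Matrix (Fin 2) (Fin 2) ℤ).det : ℤ) : ℚ) := by
        rw [Matrix.det_fin_two, Matrix.det_fin_two]; simp
      rw [e]
      exact_mod_cast (ne_of_gt h))
  map_one' := by
    apply Matrix.GeneralLinearGroup.ext
    intro i j
    simp [Matrix.GeneralLinearGroup.mkOfDetNeZero, Matrix.one_apply]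
  map_mul' A B := by
    apply Matrix.GeneralLinearGroup.ext
    intro i j
    simp [Matrix.GeneralLinearGroup.mkOfDetNeZero, Matrix.mul_apply]

@[simp] theorem toGLQ_apply (A : MPos) (i j : Fin 2) :
    (toGLQ A : Matrix (Fin 2) (Fin 2) ℚ) i j = ((A : Matrix (Fin 2) (Fin 2) ℤ) i j : ℚ) := rfl

/-- `MPos → GL₂(ℝ)`. -/
noncomputable def toGL : MPos →* GL (Fin 2) ℝ :=
  (Matrix.GeneralLinearGroup.map (Rat.castHom ℝ)).comp toGLQ

theorem toGL_eq_map (A : MPos) :
    toGL A = Matrix.GeneralLinearGroup.map (Rat.castHom ℝ) (toGLQ A) := rfl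

@[simp] theorem toGL_apply (A : MPos) (i j : Fin 2) :
    (toGL A : Matrix (Fin 2) (Fin 2) ℝ) i j = ((A : Matrix (Fin 2) (Fin 2) ℤ) i j : ℝ) := by
  simp [toGL]

theorem toGL_val_det (A : MPos) :
    (toGL A).val.det = (((A : Matrix (Fin 2) (Fin 2) ℤ).det : ℤ) : ℝ) := by
  rw [Matrix.det_fin_two, Matrix.det_fin_two]
  simp

theorem toGL_val_det_pos (A : MPos) : 0 < (toGL A).val.det := by
  rw [toGL_val_det]
  exact_mod_cast A.2

theorem toGL_det_pos (A : MPos) : 0 < ((toGL A).det : ℝ) := by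
  rw [Matrix.GeneralLinearGroup.val_det_apply]
  exact toGL_val_det_pos A

/-- `SL₂(ℤ) → MPos`. -/
def ofSL : SL(2, ℤ) →* MPos where
  toFun γ := ⟨γ.1, by show 0 < γ.1.det; rw [γ.2]; exact one_pos⟩
  map_one' := rfl
  map_mul' _ _ := rfl

@[simp] theorem ofSL_val (γ : SL(2, ℤ)) :
    ((ofSL γ : MPos) : Matrix (Fin 2) (Fin 2) ℤ) = γ.1 := rfl

theorem toGL_ofSL (γ : SL(2, ℤ)) : toGL (ofSL γ) = mapGL ℝ γ := by
  apply Matrix.GeneralLinearGroup.ext
  intro i j
  simp [mapGL]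


theorem σ_toGL (A : MPos) : UpperHalfPlane.σ (toGL A) = .refl ℝ ℂ := by
  rw [UpperHalfPlane.σ, if_pos (toGL_det_pos A)]

/-- The matrix `[1, j; 0, p]` in `MPos`. -/
def hM (p j : ℕ) (hp : p ≠ 0) : MPos :=
  mk4 1 j 0 p (by
    have : (0 : ℤ) < p := by exact_mod_cast Nat.pos_of_ne_zero hp
    linarith)

/-- The matrix `[p, 0; 0, 1]` in `MPos`. -/
def hD (p : ℕ) (hp : p ≠ 0) : MPos :=
  mk4 p 0 0 1 (by
    have : (0 : ℤ) < p := by exact_mod_cast Nat.pos_of_ne_zero hp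
    linarith)

/-- The scalar matrix `[n, 0; 0, n]` in `MPos`. -/
def scal (n : ℕ) (hn : n ≠ 0) : MPos :=
  mk4 n 0 0 n (by
    have : (0 : ℤ) < n := by exact_mod_cast Nat.pos_of_ne_zero hn
    nlinarith)

theorem toGL_hM (p j : ℕ) (hp : p ≠ 0) : toGL (hM p j hp) = heckeMatrix p j := by
  apply Matrix.GeneralLinearGroup.ext
  intro a b
  rw [val_heckeMatrix hp, toGL_apply]
  fin_cases a <;> fin_cases b <;> simp [hM]

theorem toGL_hD (p : ℕ) (hp : p ≠ 0) : toGL (hD p hp) = heckeDiagMatrix p := by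
  apply Matrix.GeneralLinearGroup.ext
  intro a b
  rw [val_heckeDiagMatrix hp, toGL_apply]
  fin_cases a <;> fin_cases b <;> simp [hD]

/-- Scalar matrices act trivially in weight two. -/
theorem slash_scal (f : ℍ → ℂ) (n : ℕ) (hn : n ≠ 0) :
    f ∣[(2 : ℤ)] toGL (scal n hn) = f := by
  funext τ
  have hn' : (n : ℂ) ≠ 0 := by exact_mod_cast hn
  have hdet : ((toGL (scal n hn)).det : ℝ) = (n : ℝ) * n := by
    rw [Matrix.GeneralLinearGroup.val_det_apply, toGL_val_det]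
    simp [scal, Matrix.det_fin_two_of]
  have hden : denom (toGL (scal n hn)) τ = n := by
    simp [UpperHalfPlane.denom, scal]
  have hsm : toGL (scal n hn) • τ = τ := by
    apply UpperHalfPlane.ext
    rw [UpperHalfPlane.coe_smul_of_det_pos (toGL_det_pos _)]
    simp [UpperHalfPlane.num, UpperHalfPlane.denom, scal]
    field_simp
  rw [ModularForm.slash_apply, σ_toGL, hdet, hden, hsm]
  simp only [ContinuousAlgEquiv.refl_apply]
  have habs : |(n : ℝ) * n| = (n : ℝ) * n := abs_of_nonneg (by positivity)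
  rw [habs]
  norm_num
  field_simp


/-! ### A formal coset-permutation lemma -/

/-- If every `a i` lies in some coset `φ H * r j` and the `a i` are pairwise inequivalent under
`φ H`, then `i ↦ j` is a permutation. -/
theorem exists_perm_of_decomp {M G ι : Type*} [Monoid M] [Group G] [Finite ι] (φ : G →* M)
    (H : Subgroup G) (r a : ι → M)
    (hex : ∀ i, ∃ j, ∃ h ∈ H, a i = φ h * r j)
    (hinj : ∀ i i', (∃ h ∈ H, a i = φ h * a i') → i = i') :
    ∃ σ : Equiv.Perm ι, ∀ i, ∃ h ∈ H, a i = φ h * r (σ i) := by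
  choose σ₀ hσ₀ using hex
  have hinj' : Function.Injective σ₀ := by
    intro i i' hii
    obtain ⟨h, hh, e⟩ := hσ₀ i
    obtain ⟨h', hh', e'⟩ := hσ₀ i'
    refine hinj i i' ⟨h * h'⁻¹, H.mul_mem hh (H.inv_mem hh'), ?_⟩
    rw [e, e', hii, map_mul, mul_assoc, ← mul_assoc (φ h'⁻¹), ← map_mul, inv_mul_cancel, map_one,
      one_mul]
  have hbij : Function.Bijective σ₀ := Finite.injective_iff_bijective.mp hinj'
  exact ⟨Equiv.ofBijective σ₀ hbij, fun i => hσ₀ i⟩

/-- Right multiplication by a right-cancellable `g` permutes pairwise inequivalent representatives. -/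
theorem exists_perm_mul_right {M G ι : Type*} [Monoid M] [Group G] [Finite ι] (φ : G →* M)
    (H : Subgroup G) (r : ι → M) (g : M) (hg : ∀ x y : M, x * g = y * g → x = y)
    (hex : ∀ i, ∃ j, ∃ h ∈ H, r i * g = φ h * r j)
    (hr : ∀ i i', (∃ h ∈ H, r i = φ h * r i') → i = i') :
    ∃ σ : Equiv.Perm ι, ∀ i, ∃ h ∈ H, r i * g = φ h * r (σ i) := by
  refine exists_perm_of_decomp φ H r (fun i => r i * g) hex ?_
  rintro i i' ⟨h, hh, e⟩
  refine hr i i' ⟨h, hh, hg _ _ ?_⟩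
  rw [e, mul_assoc]

theorem ofSL_mul_right_cancel (γ : SL(2, ℤ)) (x y : MPos) (h : x * ofSL γ = y * ofSL γ) : x = y := by
  have h2 := congrArg (· * ofSL γ⁻¹) h
  simp only [mul_assoc, ← map_mul, mul_inv_cancel, map_one, mul_one] at h2
  exact h2

/-! ### Weight-two invariance and sums of slashes -/

open CongruenceSubgroup

/-- Weight-two invariance of a function under `Γ₀(N)`. -/
def Inv (N : ℕ) (f : ℍ → ℂ) : Prop :=
  ∀ γ : SL(2, ℤ), γ ∈ Gamma0 N → f ∣[(2 : ℤ)] toGL (ofSL γ) = f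

theorem inv_coe {N : ℕ} (f : CuspForm (Gamma0 N) 2) : Inv N f := fun γ hγ => by
  rw [toGL_ofSL]
  exact SlashInvariantFormClass.slash_action_eq f _ (Subgroup.mem_map_of_mem _ hγ)

theorem Inv.slash_eq {N : ℕ} {f : ℍ → ℂ} (hf : Inv N f) {A B : MPos} {γ : SL(2, ℤ)}
    (hγ : γ ∈ Gamma0 N) (h : A = ofSL γ * B) :
    f ∣[(2 : ℤ)] toGL A = f ∣[(2 : ℤ)] toGL B := by
  rw [h, map_mul, SlashAction.slash_mul, hf γ hγ]

theorem Inv.mono {N N' : ℕ} (h : N ∣ N') {f : ℍ → ℂ} (hf : Inv N f) : Inv N' f := by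
  intro γ hγ
  refine hf γ ?_
  rw [Gamma0_mem] at hγ ⊢
  have h1 : ((N' : ℤ)) ∣ γ 1 0 := (ZMod.intCast_zmod_eq_zero_iff_dvd _ _).mp hγ
  exact (ZMod.intCast_zmod_eq_zero_iff_dvd _ _).mpr ((Int.natCast_dvd_natCast.mpr h).trans h1)

/-- The permutation hypothesis on a family of representatives. -/
def PermHyp (N N' : ℕ) {ι : Type*} (α : ι → MPos) : Prop :=
  ∀ γ : SL(2, ℤ), γ ∈ Gamma0 N' → ∃ σ : Equiv.Perm ι, ∀ i, ∃ γ' : SL(2, ℤ), γ' ∈ Gamma0 N ∧
    α i * ofSL γ = ofSL γ' * α (σ i)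

theorem inv_sum_slash {N N' : ℕ} {ι : Type*} [Fintype ι] {f : ℍ → ℂ} (hf : Inv N f)
    (α : ι → MPos) (hα : PermHyp N N' α) :
    Inv N' (∑ i, f ∣[(2 : ℤ)] toGL (α i)) := by
  intro γ hγ
  obtain ⟨σ, hσ⟩ := hα γ hγ
  rw [SlashAction.sum_slash, ← Equiv.sum_comp σ (fun i => f ∣[(2 : ℤ)] toGL (α i))]
  refine Finset.sum_congr rfl fun i _ => ?_
  obtain ⟨γ', hγ', h⟩ := hσ i
  rw [← SlashAction.slash_mul, ← map_mul, h, map_mul, SlashAction.slash_mul, hf γ' hγ']

theorem isCusp_of_isCusp {N N' : ℕ} [NeZero N] [NeZero N'] {c : OnePoint ℝ}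
    (hc : IsCusp c ((Gamma0 N' : Subgroup SL(2, ℤ)) : Subgroup (GL (Fin 2) ℝ))) :
    IsCusp c ((Gamma0 N : Subgroup SL(2, ℤ)) : Subgroup (GL (Fin 2) ℝ)) := by
  rw [Subgroup.IsArithmetic.isCusp_iff_isCusp_SL2Z] at hc ⊢
  exact hc

/-- The cusp form `∑ i, f ∣[2] α i` of level `N'` attached to a family `α` of integer matrices
which is permuted (modulo `Γ₀(N)` on the left) by right multiplication by `Γ₀(N')`. -/
noncomputable def sumSlash {N N' : ℕ} [NeZero N] [NeZero N'] {ι : Type*} [Fintype ι]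
    (α : ι → MPos) (hα : PermHyp N N' α) :
    CuspForm (Gamma0 N) 2 →ₗ[ℂ] CuspForm (Gamma0 N') 2 where
  toFun f :=
    { toFun := ∑ i, (f : ℍ → ℂ) ∣[(2 : ℤ)] toGL (α i)
      slash_action_eq' := fun γ hγ => by
        obtain ⟨g, hg, rfl⟩ := hγ
        have := inv_sum_slash (inv_coe f) α hα g hg
        rwa [toGL_ofSL] at this
      holo' := Finset.sum_induction _ (fun g : ℍ → ℂ => MDiff g) (fun _ _ ha hb => ha.add hb)
        mdifferentiable_const (fun _ _ => (CuspFormClass.holo f).slash 2 _)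
      zero_at_cusps' := fun hc => by
        refine P2MW.S_CuspFormClass_isZeroAt_heckeT.ModularForm.S06W2.isZeroAt_sum _ fun i _ => ?_
        rw [toGL_eq_map]
        exact P2MW.S_CuspFormClass_isZeroAt_heckeT.ModularForm.S06W2.isZeroAt_slash_ratCast f
          (toGLQ (α i)) (isCusp_of_isCusp hc) }
  map_add' f g := DFunLike.coe_injective <| by
    show ∑ i, (⇑(f + g) : ℍ → ℂ) ∣[(2 : ℤ)] toGL (α i)
      = (∑ i, (f : ℍ → ℂ) ∣[(2 : ℤ)] toGL (α i)) + ∑ i, (g : ℍ → ℂ) ∣[(2 : ℤ)] toGL (α i)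
    rw [FunLike.coe_add, ← Finset.sum_add_distrib]
    exact Finset.sum_congr rfl fun i _ => SlashAction.add_slash _ _ _ _
  map_smul' c f := DFunLike.coe_injective <| by
    show ∑ i, (⇑(c • f) : ℍ → ℂ) ∣[(2 : ℤ)] toGL (α i)
      = c • ∑ i, (f : ℍ → ℂ) ∣[(2 : ℤ)] toGL (α i)
    rw [FunLike.coe_smul, Finset.smul_sum]
    refine Finset.sum_congr rfl fun i _ => ?_
    rw [ModularForm.smul_slash, σ_toGL, ContinuousAlgEquiv.refl_apply]

theorem coe_sumSlash {N N' : ℕ} [NeZero N] [NeZero N'] {ι : Type*} [Fintype ι]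
    (α : ι → MPos) (hα : PermHyp N N' α) (f : CuspForm (Gamma0 N) 2) :
    (sumSlash α hα f : ℍ → ℂ) = ∑ i, (f : ℍ → ℂ) ∣[(2 : ℤ)] toGL (α i) := rfl


/-! ### Four-entry calculus -/

theorem mk4_congr {a b c d a' b' c' d' : ℤ} {h : 0 < a * d - b * c} {h' : 0 < a' * d' - b' * c'}
    (ha : a = a') (hb : b = b') (hc : c = c') (hd : d = d') : mk4 a b c d h = mk4 a' b' c' d' h' := by
  subst ha hb hc hd
  rfl

theorem mk4_mul (a b c d a' b' c' d' : ℤ) (h : 0 < a * d - b * c) (h' : 0 < a' * d' - b' * c') :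
    mk4 a b c d h * mk4 a' b' c' d' h'
      = mk4 (a * a' + b * c') (a * b' + b * d') (c * a' + d * c') (c * b' + d * d')
          (by nlinarith [mul_pos h h']) := by
  apply Subtype.ext
  show (!![a, b; c, d] : Matrix (Fin 2) (Fin 2) ℤ) * !![a', b'; c', d'] = _
  rw [Matrix.mul_fin_two]
  rfl

theorem MPos.eta (A : MPos) :
    A = mk4 (A.1 0 0) (A.1 0 1) (A.1 1 0) (A.1 1 1) (by
      have h := A.2
      change 0 < A.1.det at h
      rw [Matrix.det_fin_two] at h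
      exact h) := by
  apply Subtype.ext
  show A.1 = !![A.1 0 0, A.1 0 1; A.1 1 0, A.1 1 1]
  exact Matrix.eta_fin_two A.1

/-- Build an element of `SL₂(ℤ)` from its entries. -/
def sl4 (a b c d : ℤ) (h : a * d - b * c = 1) : SL(2, ℤ) :=
  ⟨!![a, b; c, d], by rw [Matrix.det_fin_two_of]; exact h⟩

@[simp] theorem sl4_val (a b c d : ℤ) (h : a * d - b * c = 1) :
    ((sl4 a b c d h : SL(2, ℤ)) : Matrix (Fin 2) (Fin 2) ℤ) = !![a, b; c, d] := rfl

theorem ofSL_sl4 (a b c d : ℤ) (h : a * d - b * c = 1) :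
    ofSL (sl4 a b c d h) = mk4 a b c d (by rw [h]; exact one_pos) := rfl

theorem sl4_mem_Gamma0 {N : ℕ} {a b c d : ℤ} {h : a * d - b * c = 1} :
    sl4 a b c d h ∈ CongruenceSubgroup.Gamma0 N ↔ (N : ℤ) ∣ c := by
  rw [CongruenceSubgroup.Gamma0_mem, ZMod.intCast_zmod_eq_zero_iff_dvd]
  rfl

theorem mem_Gamma0_iff_dvd {N : ℕ} {γ : SL(2, ℤ)} :
    γ ∈ CongruenceSubgroup.Gamma0 N ↔ (N : ℤ) ∣ γ.1 1 0 := by
  rw [CongruenceSubgroup.Gamma0_mem, ZMod.intCast_zmod_eq_zero_iff_dvd]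

theorem SL.eta (γ : SL(2, ℤ)) :
    γ = sl4 (γ.1 0 0) (γ.1 0 1) (γ.1 1 0) (γ.1 1 1) (by
      have h := γ.2
      rw [Matrix.det_fin_two] at h
      exact h) := by
  apply Subtype.ext
  show γ.1 = !![γ.1 0 0, γ.1 0 1; γ.1 1 0, γ.1 1 1]
  exact Matrix.eta_fin_two γ.1

theorem SL.det_eq (γ : SL(2, ℤ)) : γ.1 0 0 * γ.1 1 1 - γ.1 0 1 * γ.1 1 0 = 1 := by
  have h := γ.2
  rw [Matrix.det_fin_two] at h
  exact h

theorem ofSL_eq_mk4 (γ : SL(2, ℤ)) :
    ofSL γ = mk4 (γ.1 0 0) (γ.1 0 1) (γ.1 1 0) (γ.1 1 1) (by rw [SL.det_eq]; exact one_pos) := by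
  apply Subtype.ext
  show γ.1 = !![γ.1 0 0, γ.1 0 1; γ.1 1 0, γ.1 1 1]
  exact Matrix.eta_fin_two γ.1

theorem mk4_eq_iff {a b c d a' b' c' d' : ℤ} {h : 0 < a * d - b * c}
    {h' : 0 < a' * d' - b' * c'} :
    mk4 a b c d h = mk4 a' b' c' d' h' ↔ a = a' ∧ b = b' ∧ c = c' ∧ d = d' := by
  constructor
  · intro e
    have e' : (!![a, b; c, d] : Matrix (Fin 2) (Fin 2) ℤ) = !![a', b'; c', d'] :=
      congrArg Subtype.val e
    have h00 := congrFun (congrFun e' 0) 0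
    have h01 := congrFun (congrFun e' 0) 1
    have h10 := congrFun (congrFun e' 1) 0
    have h11 := congrFun (congrFun e' 1) 1
    simp at h00 h01 h10 h11
    exact ⟨h00, h01, h10, h11⟩
  · rintro ⟨ha, hb, hc, hd⟩
    exact mk4_congr ha hb hc hd


/-- If `A = H * B` as integer matrices and `det A = det B`, then `H ∈ SL₂(ℤ)`. -/
theorem exists_ofSL_mul {A B : MPos} (H : Matrix (Fin 2) (Fin 2) ℤ) (hAB : A.1 = H * B.1)
    (hdet : A.1.det = B.1.det) : ∃ γ : SL(2, ℤ), γ.1 = H ∧ A = ofSL γ * B := by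
  have hB : 0 < B.1.det := B.2
  have h1 : H.det = 1 := by
    have h2 : H.det * B.1.det = 1 * B.1.det := by
      rw [← Matrix.det_mul, ← hAB, hdet, one_mul]
    exact mul_right_cancel₀ (ne_of_gt hB) h2
  exact ⟨⟨H, h1⟩, rfl, Subtype.ext hAB⟩

/-- If `A = B * H` as integer matrices and `det A = det B`, then `H ∈ SL₂(ℤ)`. -/
theorem exists_mul_ofSL {A B : MPos} (H : Matrix (Fin 2) (Fin 2) ℤ) (hAB : A.1 = B.1 * H)
    (hdet : A.1.det = B.1.det) : ∃ γ : SL(2, ℤ), γ.1 = H ∧ A = B * ofSL γ := by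
  have hB : 0 < B.1.det := B.2
  have h1 : H.det = 1 := by
    have h2 : B.1.det * H.det = B.1.det * 1 := by
      rw [← Matrix.det_mul, ← hAB, hdet, mul_one]
    exact mul_left_cancel₀ (ne_of_gt hB) h2
  exact ⟨⟨H, h1⟩, rfl, Subtype.ext hAB⟩

/-- If `H * W = W * t` as integer matrices (`W, t ∈ MPos`), then `H ∈ MPos` with `det H = det t`. -/
theorem exists_mpos_conj (W t : MPos) (H : Matrix (Fin 2) (Fin 2) ℤ) (hH : H * W.1 = W.1 * t.1) :
    ∃ M : MPos, M.1 = H ∧ M * W = W * t ∧ M.1.det = t.1.det := by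
  have hW : 0 < W.1.det := W.2
  have h1 : H.det = t.1.det := by
    have h2 : H.det * W.1.det = t.1.det * W.1.det := by
      rw [← Matrix.det_mul, hH, Matrix.det_mul, mul_comm]
    exact mul_right_cancel₀ (ne_of_gt hW) h2
  have hpos : 0 < H.det := by rw [h1]; exact t.2
  exact ⟨⟨H, hpos⟩, rfl, Subtype.ext hH, h1⟩

theorem MPos.mul_left_cancel' (W x y : MPos) (h : W * x = W * y) : x = y := by
  apply Subtype.ext
  have h' : W.1 * x.1 = W.1 * y.1 := congrArg Subtype.val h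
  have hW : W.1.det ≠ 0 := ne_of_gt W.2
  have := congrArg (fun Z => W.1.adjugate * Z) h'
  simp only [← Matrix.mul_assoc, Matrix.adjugate_mul, Matrix.smul_mul, Matrix.one_mul] at this
  exact smul_right_injective _ hW this

theorem MPos.mul_right_cancel' (W x y : MPos) (h : x * W = y * W) : x = y := by
  apply Subtype.ext
  have h' : x.1 * W.1 = y.1 * W.1 := congrArg Subtype.val h
  have hW : W.1.det ≠ 0 := ne_of_gt W.2
  have := congrArg (fun Z => Z * W.1.adjugate) h'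
  simp only [Matrix.mul_assoc, Matrix.mul_adjugate, Matrix.mul_smul, Matrix.mul_one] at this
  exact smul_right_injective _ hW this

theorem mk4_det (a b c d : ℤ) (h : 0 < a * d - b * c) :
    (mk4 a b c d h).1.det = a * d - b * c := by
  show Matrix.det !![a, b; c, d] = _
  rw [Matrix.det_fin_two_of]

end Fermat.Agent.S41.IntMat
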