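import Mathlib
import Fermat.Agent.S41.IntMat

/-!
# S41 frame: coset representatives for the degeneracy maps `Γ₀(Nq) ⊂ Γ₀(N)` (`q ∤ N` prime)

Integer-matrix identities only. `B : Bez N q` is a Bezout datum `q x - N y = 1`.

* `rho B j = [x, x j + y; N, N j + q] ∈ Γ₀(N)`; the family `R B : Option (ZMod q) → MPos`
  (`none ↦ 1`, `some j ↦ rho B j.val`) represents `Γ₀(Nq) \ Γ₀(N)`;
* `wq B = [q x, y; N q, q]` (Atkin–Lehner, determinant `q`); the family `S B`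
  (`none ↦ wq B`, `some j ↦ [1, j; 0, q]`) represents `Γ₀(Nq) \ Γ₀(Nq) [1,0;0,q] Γ₀(N)`.
-/

set_option autoImplicit false

namespace Fermat.Agent.S41.Degen

open Fermat.Agent.S41.IntMat CongruenceSubgroup
open scoped MatrixGroups

/-- Bezout datum `q x - N y = 1`. -/
structure Bez (N q : ℕ) where
  /-- the coefficient of `q` -/
  x : ℤ
  /-- minus the coefficient of `N` -/
  y : ℤ
  h : (q : ℤ) * x - (N : ℤ) * y = 1

theorem exists_bez {N q : ℕ} (hq : q.Prime) (hqN : ¬ q ∣ N) : Nonempty (Bez N q) := by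
  have hcop : Nat.Coprime q N := (Nat.Prime.coprime_iff_not_dvd hq).mpr hqN
  have h := Int.gcd_eq_gcd_ab (q : ℤ) (N : ℤ)
  have h1 : ((Int.gcd (q : ℤ) (N : ℤ) : ℕ) : ℤ) = 1 := by
    rw [Int.gcd_natCast_natCast]
    exact_mod_cast hcop
  rw [h1] at h
  exact ⟨⟨Int.gcdA q N, -Int.gcdB q N, by linear_combination -h⟩⟩

/-- A chosen Bezout datum. -/
noncomputable def bez {N q : ℕ} (hq : q.Prime) (hqN : ¬ q ∣ N) : Bez N q :=
  (exists_bez hq hqN).some

section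

variable {N q : ℕ} (B : Bez N q)

/-- `rho B j = [x, x j + y; N, N j + q]`. -/
def rho (j : ℤ) : SL(2, ℤ) :=
  sl4 B.x (B.x * j + B.y) N (N * j + q) (by linear_combination B.h)

theorem rho_mem (j : ℤ) : rho B j ∈ Gamma0 N := sl4_mem_Gamma0.mpr (dvd_refl _)

variable [hq : Fact q.Prime]

theorem q_pos : 0 < q := hq.out.pos

theorem q_ne_zero : q ≠ 0 := hq.out.ne_zero

theorem qZ_pos : (0 : ℤ) < (q : ℤ) := by exact_mod_cast hq.out.pos

/-- The Atkin–Lehner matrix `[q x, y; N q, q]` of determinant `q`. -/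
def wq : MPos :=
  mk4 (q * B.x) B.y (N * q) q (by
    have h1 : (q : ℤ) * B.x * q - B.y * (N * q) = q := by linear_combination (q : ℤ) * B.h
    rw [h1]
    exact qZ_pos)

theorem wq_det : (wq B).1.det = q := by
  rw [wq, mk4_det]
  linear_combination (q : ℤ) * B.h

/-- Representatives of `Γ₀(Nq) \ Γ₀(N)`. -/
def R : Option (ZMod q) → MPos
  | none => 1
  | some j => ofSL (rho B (j.val : ℤ))

/-- Representatives of `Γ₀(Nq) \ Γ₀(Nq) [1,0;0,q] Γ₀(N)`. -/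
def S : Option (ZMod q) → MPos
  | none => wq B
  | some j => hM q j.val q_ne_zero

end


section D1

variable {N q : ℕ}

theorem dvdN_of_mul_dvd {c : ℤ} (h : ((N * q : ℕ) : ℤ) ∣ c) : (N : ℤ) ∣ c := by
  push_cast at h
  exact (dvd_mul_right _ _).trans h

theorem dvdq_of_mul_dvd {c : ℤ} (h : ((N * q : ℕ) : ℤ) ∣ c) : (q : ℤ) ∣ c := by
  push_cast at h
  exact (dvd_mul_left _ _).trans h

variable (B : Bez N q)

include B in
theorem coprime_qN : IsCoprime (q : ℤ) (N : ℤ) := ⟨B.x, -B.y, by linear_combination B.h⟩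

include B in
theorem mul_dvd_of_dvd {c : ℤ} (h1 : (N : ℤ) ∣ c) (h2 : (q : ℤ) ∣ c) : ((N * q : ℕ) : ℤ) ∣ c := by
  push_cast
  exact (coprime_qN B).symm.mul_dvd h1 h2

include B in
theorem N_mul_y : ((N : ℤ) : ZMod q) * (-(B.y : ZMod q)) = 1 := by
  have h := congrArg (Int.cast : ℤ → ZMod q) B.h
  push_cast at h
  rw [ZMod.natCast_self, zero_mul, zero_sub] at h
  rw [← h]
  push_cast
  ring

variable [hq : Fact q.Prime]

include B in
theorem N_ne_zero : ((N : ℤ) : ZMod q) ≠ 0 := by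
  intro h0
  have h := N_mul_y B
  rw [h0, zero_mul] at h
  exact zero_ne_one h

theorem R_decomp (r : SL(2, ℤ)) (hr : r ∈ Gamma0 N) :
    ∃ i, ∃ h ∈ Gamma0 (N * q), ofSL r = ofSL h * R B i := by
  have hc : (N : ℤ) ∣ r.1 1 0 := mem_Gamma0_iff_dvd.mp hr
  by_cases hqc : (q : ℤ) ∣ r.1 1 0
  · exact ⟨none, r, mem_Gamma0_iff_dvd.mpr (mul_dvd_of_dvd B hc hqc), by simp [R]⟩
  · set j : ZMod q := ((r.1 1 1 : ℤ) : ZMod q) * (((r.1 1 0 : ℤ) : ZMod q))⁻¹ with hj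
    refine ⟨some j, r * (rho B (j.val : ℤ))⁻¹, ?_, ?_⟩
    · rw [mem_Gamma0_iff_dvd]
      have e : (r * (rho B (j.val : ℤ))⁻¹).1 1 0
          = r.1 1 0 * (N * (j.val : ℤ) + q) - r.1 1 1 * N := by
        simp [rho, Matrix.SpecialLinearGroup.coe_inv, Matrix.adjugate_fin_two, Matrix.mul_apply,
          Fin.sum_univ_two]
        ring
      rw [e]
      apply mul_dvd_of_dvd B
      · exact dvd_sub (hc.mul_right _) (dvd_mul_left _ _)
      · rw [← ZMod.intCast_zmod_eq_zero_iff_dvd]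
        have hc0 : ((r.1 1 0 : ℤ) : ZMod q) ≠ 0 := by
          rwa [Ne, ZMod.intCast_zmod_eq_zero_iff_dvd]
        push_cast
        rw [ZMod.natCast_zmod_val, ZMod.natCast_self, add_zero, hj]
        field_simp
        ring
    · show ofSL r = ofSL (r * (rho B (j.val : ℤ))⁻¹) * ofSL (rho B (j.val : ℤ))
      rw [← map_mul, inv_mul_cancel_right]

theorem R_inj (i i' : Option (ZMod q)) (h : ∃ γ ∈ Gamma0 (N * q), R B i = ofSL γ * R B i') :
    i = i' := by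
  obtain ⟨γ, hγ, e⟩ := h
  have hqc : (q : ℤ) ∣ γ.1 1 0 := dvdq_of_mul_dvd (mem_Gamma0_iff_dvd.mp hγ)
  have hγ0 : ((γ.1 1 0 : ℤ) : ZMod q) = 0 := (ZMod.intCast_zmod_eq_zero_iff_dvd _ _).mpr hqc
  have hN := N_ne_zero B
  have hN' : ((N : ℕ) : ZMod q) ≠ 0 := by simpa using hN
  rcases i with _ | j <;> rcases i' with _ | j'
  · rfl
  · exfalso
    have e1 : (1 : Matrix (Fin 2) (Fin 2) ℤ) = γ.1 * (rho B (j'.val : ℤ)).1 := congrArg Subtype.val e
    have e10 := congrFun (congrFun e1 1) 0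
    simp [rho, Matrix.mul_apply, Fin.sum_univ_two] at e10
    have h11 : ((γ.1 1 1 : ℤ) : ZMod q) = 0 := by
      have h := congrArg (Int.cast : ℤ → ZMod q) e10
      push_cast at h
      rw [hγ0, zero_mul, zero_add] at h
      exact (mul_eq_zero.mp h.symm).resolve_right hN'
    have hd := congrArg (Int.cast : ℤ → ZMod q) (SL.det_eq γ)
    push_cast at hd
    rw [h11, hγ0, mul_zero, mul_zero, sub_zero] at hd
    exact zero_ne_one hd
  · exfalso
    have e1 : (rho B (j.val : ℤ)).1 = γ.1 * 1 := congrArg Subtype.val e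
    rw [mul_one] at e1
    have e10 := congrFun (congrFun e1 1) 0
    simp [rho] at e10
    have h := congrArg (Int.cast : ℤ → ZMod q) e10
    rw [hγ0] at h
    exact hN h
  · have e1 : (rho B (j.val : ℤ)).1 = γ.1 * (rho B (j'.val : ℤ)).1 := congrArg Subtype.val e
    have e10 := congrFun (congrFun e1 1) 0
    have e11 := congrFun (congrFun e1 1) 1
    simp [rho, Matrix.mul_apply, Fin.sum_univ_two] at e10 e11
    have h10 := congrArg (Int.cast : ℤ → ZMod q) e10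
    have h11 := congrArg (Int.cast : ℤ → ZMod q) e11
    push_cast at h10 h11
    rw [hγ0, zero_mul, zero_add] at h10 h11
    have g1 : ((γ.1 1 1 : ℤ) : ZMod q) = 1 := by
      have : ((γ.1 1 1 : ℤ) : ZMod q) * ((N : ℕ) : ZMod q) = 1 * ((N : ℕ) : ZMod q) := by
        rw [one_mul]; exact h10.symm
      exact mul_right_cancel₀ hN' this
    rw [g1, one_mul] at h11
    congr 1
    exact mul_left_cancel₀ hN' (add_right_cancel h11)

/-- Right multiplication by `Γ₀(N)` permutes the representatives `R B` modulo `Γ₀(Nq)`. -/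
theorem permHyp_R : PermHyp (N * q) N (R B) := by
  intro γ hγ
  refine exists_perm_mul_right ofSL (Gamma0 (N * q)) (R B) (ofSL γ) (ofSL_mul_right_cancel γ) ?_
    (R_inj B)
  intro i
  have key : ∃ r : SL(2, ℤ), r ∈ Gamma0 N ∧ R B i * ofSL γ = ofSL r := by
    rcases i with _ | j
    · exact ⟨γ, hγ, by simp [R]⟩
    · exact ⟨rho B (j.val : ℤ) * γ, (Gamma0 N).mul_mem (rho_mem B _) hγ, by simp [R]⟩
  obtain ⟨r, hr, e⟩ := key
  rw [e]
  exact R_decomp B r hr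

end D1


theorem mat_eq {a b c d a' b' c' d' : ℤ} (ha : a = a') (hb : b = b') (hc : c = c') (hd : d = d') :
    (!![a, b; c, d] : Matrix (Fin 2) (Fin 2) ℤ) = !![a', b'; c', d'] := by
  subst ha hb hc hd
  rfl

section D2

variable {N q : ℕ} (B : Bez N q) [hq : Fact q.Prime]

theorem wq_val : (wq B).1 = !![(q : ℤ) * B.x, B.y; (N : ℤ) * q, (q : ℤ)] := rfl

omit hq in
theorem hM_val (p j : ℕ) (hp : p ≠ 0) : (hM p j hp).1 = !![(1 : ℤ), (j : ℤ); 0, (p : ℤ)] := rfl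

omit hq in
theorem hD_val (p : ℕ) (hp : p ≠ 0) : (hD p hp).1 = !![(p : ℤ), 0; 0, 1] := rfl

omit hq in
theorem hM_det (p j : ℕ) (hp : p ≠ 0) : (hM p j hp).1.det = p := by
  rw [hM, mk4_det]; ring

omit hq in
theorem hD_det (p : ℕ) (hp : p ≠ 0) : (hD p hp).1.det = p := by
  rw [hD, mk4_det]; ring

/-- Every integer matrix of determinant `q` with bottom row divisible by `q` and lower-left entry
divisible by `N` lies in `Γ₀(Nq) * S B i` for some `i`. -/
theorem S_decomp (A : MPos) (hdet : A.1.det = q) (h10 : (q : ℤ) ∣ A.1 1 0)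
    (h11 : (q : ℤ) ∣ A.1 1 1) (hN : (N : ℤ) ∣ A.1 1 0) :
    ∃ i, ∃ h ∈ Gamma0 (N * q), A = ofSL h * S B i := by
  obtain ⟨c', hc'⟩ := h10
  obtain ⟨d', hd'⟩ := h11
  have hdet' : A.1 0 0 * d' - A.1 0 1 * c' = 1 := by
    rw [Matrix.det_fin_two, hc', hd'] at hdet
    have : (q : ℤ) * (A.1 0 0 * d' - A.1 0 1 * c') = q * 1 := by linear_combination hdet
    exact mul_left_cancel₀ (ne_of_gt qZ_pos) this
  have hNc' : (N : ℤ) ∣ c' := by
    rw [hc'] at hN
    exact (coprime_qN B).symm.dvd_of_dvd_mul_left hN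
  have hA : A.1 = !![A.1 0 0, A.1 0 1; (q : ℤ) * c', (q : ℤ) * d'] := by
    conv_lhs => rw [Matrix.eta_fin_two A.1, hc', hd']
  by_cases hqa : (q : ℤ) ∣ A.1 0 0
  · obtain ⟨a', ha'⟩ := hqa
    obtain ⟨γ, hγ, e⟩ := exists_ofSL_mul (A := A) (B := wq B)
      !![(q : ℤ) * a' - A.1 0 1 * N, -a' * B.y + A.1 0 1 * B.x;
        (q : ℤ) * c' - q * d' * N, -c' * B.y + q * d' * B.x]
      (by
        rw [wq_val, Matrix.mul_fin_two]
        conv_lhs => rw [hA, ha']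
        exact mat_eq (by linear_combination (-(q : ℤ) * a') * B.h)
          (by linear_combination (-(A.1 0 1)) * B.h)
          (by linear_combination (-(q : ℤ) * c') * B.h)
          (by linear_combination (-(q : ℤ) * d') * B.h))
      (by rw [hdet, wq_det])
    refine ⟨none, γ, ?_, e⟩
    rw [mem_Gamma0_iff_dvd, hγ]
    show ((N * q : ℕ) : ℤ) ∣ (q : ℤ) * c' - q * d' * N
    exact mul_dvd_of_dvd B (dvd_sub (hNc'.mul_left _) (dvd_mul_left _ _))
      (dvd_sub (dvd_mul_right _ _) ⟨d' * N, by ring⟩)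
  · have ha0 : ((A.1 0 0 : ℤ) : ZMod q) ≠ 0 := by
      rwa [Ne, ZMod.intCast_zmod_eq_zero_iff_dvd]
    set j : ZMod q := ((A.1 0 1 : ℤ) : ZMod q) * (((A.1 0 0 : ℤ) : ZMod q))⁻¹ with hj
    obtain ⟨e', he'⟩ : (q : ℤ) ∣ A.1 0 1 - (j.val : ℤ) * A.1 0 0 := by
      rw [← ZMod.intCast_zmod_eq_zero_iff_dvd]
      push_cast
      rw [ZMod.natCast_zmod_val, hj]
      field_simp
      ring
    obtain ⟨γ, hγ, e⟩ := exists_ofSL_mul (A := A) (B := hM q j.val q_ne_zero)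
      !![A.1 0 0, e'; (q : ℤ) * c', d' - (j.val : ℤ) * c']
      (by
        rw [hM_val, Matrix.mul_fin_two]
        conv_lhs => rw [hA]
        exact mat_eq (by ring) (by linear_combination he') (by ring) (by ring))
      (by rw [hdet, hM_det])
    refine ⟨some j, γ, ?_, e⟩
    rw [mem_Gamma0_iff_dvd, hγ]
    show ((N * q : ℕ) : ℤ) ∣ (q : ℤ) * c'
    exact mul_dvd_of_dvd B (hNc'.mul_left _) (dvd_mul_right _ _)

theorem S_inj (i i' : Option (ZMod q)) (h : ∃ γ ∈ Gamma0 (N * q), S B i = ofSL γ * S B i') :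
    i = i' := by
  obtain ⟨γ, -, e⟩ := h
  have hq0 : ((q : ℕ) : ZMod q) = 0 := ZMod.natCast_self q
  rcases i with _ | j <;> rcases i' with _ | j'
  · rfl
  · exfalso
    have e1 : (wq B).1 = γ.1 * (hM q j'.val q_ne_zero).1 := congrArg Subtype.val e
    rw [wq_val, hM_val, Matrix.eta_fin_two γ.1, Matrix.mul_fin_two] at e1
    have e00 := congrFun (congrFun e1 0) 0
    have e01 := congrFun (congrFun e1 0) 1
    simp at e00 e01
    have h01 := congrArg (Int.cast : ℤ → ZMod q) e01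
    rw [← e00] at h01
    push_cast at h01
    rw [hq0] at h01
    simp at h01
    have hy := N_mul_y B
    rw [h01] at hy
    simp at hy
  · exfalso
    have e1 : (hM q j.val q_ne_zero).1 = γ.1 * (wq B).1 := congrArg Subtype.val e
    rw [wq_val, hM_val, Matrix.eta_fin_two γ.1, Matrix.mul_fin_two] at e1
    have e00 := congrFun (congrFun e1 0) 0
    simp at e00
    have h00 := congrArg (Int.cast : ℤ → ZMod q) e00
    push_cast at h00
    rw [hq0] at h00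
    simp at h00
  · have e1 : (hM q j.val q_ne_zero).1 = γ.1 * (hM q j'.val q_ne_zero).1 := congrArg Subtype.val e
    rw [hM_val, hM_val, Matrix.eta_fin_two γ.1, Matrix.mul_fin_two] at e1
    have e00 := congrFun (congrFun e1 0) 0
    have e01 := congrFun (congrFun e1 0) 1
    simp at e00 e01
    have h01 := congrArg (Int.cast : ℤ → ZMod q) e01
    rw [← e00] at h01
    push_cast at h01
    rw [hq0] at h01
    simp at h01
    rw [h01]

theorem S_row (i : Option (ZMod q)) :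
    (q : ℤ) ∣ (S B i).1 1 0 ∧ (q : ℤ) ∣ (S B i).1 1 1 ∧ (N : ℤ) ∣ (S B i).1 1 0 ∧
      (S B i).1.det = q := by
  rcases i with _ | j
  · refine ⟨?_, ?_, ?_, wq_det B⟩
    · show (q : ℤ) ∣ (N : ℤ) * q
      exact dvd_mul_left _ _
    · show (q : ℤ) ∣ (q : ℤ)
      exact dvd_refl _
    · show (N : ℤ) ∣ (N : ℤ) * q
      exact dvd_mul_right _ _
  · refine ⟨?_, ?_, ?_, hM_det q j.val q_ne_zero⟩
    · show (q : ℤ) ∣ (0 : ℤ)
      exact dvd_zero _
    · show (q : ℤ) ∣ (q : ℤ)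
      exact dvd_refl _
    · show (N : ℤ) ∣ (0 : ℤ)
      exact dvd_zero _

/-- Right multiplication by `Γ₀(N)` permutes the representatives `S B` modulo `Γ₀(Nq)`. -/
theorem permHyp_S : PermHyp (N * q) N (S B) := by
  intro γ hγ
  refine exists_perm_mul_right ofSL (Gamma0 (N * q)) (S B) (ofSL γ) (ofSL_mul_right_cancel γ) ?_
    (S_inj B)
  intro i
  obtain ⟨h10, h11, hN, hdet⟩ := S_row B i
  have hc : (N : ℤ) ∣ γ.1 1 0 := mem_Gamma0_iff_dvd.mp hγ
  have hval : (S B i * ofSL γ).1 = (S B i).1 * γ.1 := rfl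
  refine S_decomp B (S B i * ofSL γ) ?_ ?_ ?_ ?_
  · rw [hval, Matrix.det_mul, hdet, γ.2, mul_one]
  · rw [hval, Matrix.mul_apply, Fin.sum_univ_two]
    exact dvd_add (h10.mul_right _) (h11.mul_right _)
  · rw [hval, Matrix.mul_apply, Fin.sum_univ_two]
    exact dvd_add (h10.mul_right _) (h11.mul_right _)
  · rw [hval, Matrix.mul_apply, Fin.sum_univ_two]
    exact dvd_add (hN.mul_right _) (hc.mul_left _)

end D2


section Misc

variable {N q : ℕ} (B : Bez N q)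

omit B in
/-- (M1) the trivial family, for the inclusion `S₂(N) → S₂(Nq)`. -/
theorem permHyp_one : PermHyp N (N * q) (fun _ : Unit => (1 : MPos)) := by
  intro γ hγ
  refine ⟨1, fun _ => ⟨γ, ?_, by simp⟩⟩
  exact mem_Gamma0_iff_dvd.mpr (dvdN_of_mul_dvd (mem_Gamma0_iff_dvd.mp hγ))

variable [hq : Fact q.Prime]

include B in
/-- (M2) the family `{[q,0;0,1]}`, for `f ↦ f ∣ [q,0;0,1]`, `S₂(N) → S₂(Nq)`. -/
theorem permHyp_hD : PermHyp N (N * q) (fun _ : Unit => hD q q_ne_zero) := by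
  intro γ hγ
  have hc := mem_Gamma0_iff_dvd.mp hγ
  obtain ⟨c', hc'⟩ := dvdq_of_mul_dvd hc
  have hNc' : (N : ℤ) ∣ c' := by
    have h1 := dvdN_of_mul_dvd hc
    rw [hc'] at h1
    exact (coprime_qN B).symm.dvd_of_dvd_mul_left h1
  obtain ⟨γ', hγ', e⟩ := exists_ofSL_mul (A := hD q q_ne_zero * ofSL γ) (B := hD q q_ne_zero)
    !![γ.1 0 0, (q : ℤ) * γ.1 0 1; c', γ.1 1 1]
    (by
      show (hD q q_ne_zero).1 * γ.1 = _
      rw [hD_val, Matrix.mul_fin_two]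
      conv_lhs => rw [Matrix.eta_fin_two γ.1, hc', Matrix.mul_fin_two]
      exact mat_eq (by ring) (by ring) (by ring) (by ring))
    (by
      show ((hD q q_ne_zero).1 * γ.1).det = _
      rw [Matrix.det_mul, γ.2, mul_one])
  refine ⟨1, fun _ => ⟨γ', ?_, e⟩⟩
  rw [mem_Gamma0_iff_dvd, hγ']
  exact hNc'

/-- (M3) `wq B` normalises `Γ₀(Nq)`: `W γ = γ' W`. -/
theorem permHyp_wq : PermHyp (N * q) (N * q) (fun _ : Unit => wq B) := by
  intro γ hγ
  obtain ⟨c'', hc''⟩ := mem_Gamma0_iff_dvd.mp hγ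
  push_cast at hc''
  obtain ⟨γ', hγ', e⟩ := exists_ofSL_mul (A := wq B * ofSL γ) (B := wq B)
    !![(q : ℤ) * B.x * γ.1 0 0 + B.y * N * q * c'' - N * q * B.x * γ.1 0 1 - N * B.y * γ.1 1 1,
       -B.x * γ.1 0 0 * B.y - B.y ^ 2 * N * c'' + q * B.x ^ 2 * γ.1 0 1 + B.x * B.y * γ.1 1 1;
       (N : ℤ) * q * (γ.1 0 0 + q * c'' - N * γ.1 0 1 - γ.1 1 1),
       -N * γ.1 0 0 * B.y - N * q * c'' * B.y + N * γ.1 0 1 * q * B.x + γ.1 1 1 * q * B.x]
    (by
      show (wq B).1 * γ.1 = _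
      rw [wq_val, Matrix.mul_fin_two]
      conv_lhs => rw [Matrix.eta_fin_two γ.1, hc'', Matrix.mul_fin_two]
      exact mat_eq
        (by linear_combination (-((q : ℤ) * B.x * γ.1 0 0 + B.y * (N * q * c''))) * B.h)
        (by linear_combination (-((q : ℤ) * B.x * γ.1 0 1 + B.y * γ.1 1 1)) * B.h)
        (by linear_combination (-((N : ℤ) * q * γ.1 0 0 + q * (N * q * c''))) * B.h)
        (by linear_combination (-((N : ℤ) * q * γ.1 0 1 + q * γ.1 1 1)) * B.h))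
    (by
      show ((wq B).1 * γ.1).det = _
      rw [Matrix.det_mul, γ.2, mul_one])
  refine ⟨1, fun _ => ⟨γ', ?_, e⟩⟩
  rw [mem_Gamma0_iff_dvd, hγ']
  show ((N * q : ℕ) : ℤ) ∣ (N : ℤ) * q * (γ.1 0 0 + q * c'' - N * γ.1 0 1 - γ.1 1 1)
  push_cast
  exact dvd_mul_right _ _

/-- (M9a) `wq B` normalises `Γ₀(Nq)`, other direction: `h W = W h'`. -/
theorem wq_normal (h : SL(2, ℤ)) (hh : h ∈ Gamma0 (N * q)) :
    ∃ h' ∈ Gamma0 (N * q), ofSL h * wq B = wq B * ofSL h' := by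
  obtain ⟨c'', hc''⟩ := mem_Gamma0_iff_dvd.mp hh
  push_cast at hc''
  obtain ⟨γ', hγ', e⟩ := exists_mul_ofSL (A := ofSL h * wq B) (B := wq B)
    !![h.1 0 0 * q * B.x + h.1 0 1 * N * q - B.y * N * q * c'' * B.x - B.y * h.1 1 1 * N,
       h.1 0 0 * B.y + h.1 0 1 * q - B.y ^ 2 * N * c'' - B.y * h.1 1 1;
       (N : ℤ) * q * (-h.1 0 0 * B.x - h.1 0 1 * N + q * c'' * B.x ^ 2 + h.1 1 1 * B.x),
       -N * h.1 0 0 * B.y - N * h.1 0 1 * q + B.x * N * q * c'' * B.y + B.x * h.1 1 1 * q]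
    (by
      show h.1 * (wq B).1 = _
      rw [wq_val, Matrix.mul_fin_two]
      conv_lhs => rw [Matrix.eta_fin_two h.1, hc'', Matrix.mul_fin_two]
      exact mat_eq
        (by linear_combination (-(h.1 0 0 * (q * B.x) + h.1 0 1 * (N * q))) * B.h)
        (by linear_combination (-(h.1 0 0 * B.y + h.1 0 1 * q)) * B.h)
        (by linear_combination (-((N : ℤ) * q * c'' * (q * B.x) + h.1 1 1 * (N * q))) * B.h)
        (by linear_combination (-((N : ℤ) * q * c'' * B.y + h.1 1 1 * q)) * B.h))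
    (by
      show (h.1 * (wq B).1).det = _
      rw [Matrix.det_mul, h.2, one_mul])
  refine ⟨γ', ?_, e⟩
  rw [mem_Gamma0_iff_dvd, hγ']
  show ((N * q : ℕ) : ℤ) ∣
    (N : ℤ) * q * (-h.1 0 0 * B.x - h.1 0 1 * N + q * c'' * B.x ^ 2 + h.1 1 1 * B.x)
  push_cast
  exact dvd_mul_right _ _

/-- (M6) `W [1,j;0,q] = q • rho j`. -/
theorem wq_mul_hM (j : ℕ) :
    wq B * hM q j q_ne_zero = scal q q_ne_zero * ofSL (rho B (j : ℤ)) := by
  apply Subtype.ext
  show (wq B).1 * (hM q j q_ne_zero).1 = (scal q q_ne_zero).1 * (rho B (j : ℤ)).1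
  rw [wq_val, hM_val, Matrix.mul_fin_two]
  show _ = (!![(q : ℤ), 0; 0, (q : ℤ)] : Matrix (Fin 2) (Fin 2) ℤ)
    * !![B.x, B.x * (j : ℤ) + B.y; (N : ℤ), (N : ℤ) * (j : ℤ) + q]
  rw [Matrix.mul_fin_two]
  exact mat_eq (by ring) (by ring) (by ring) (by ring)

/-- `[x, y; N, q] ∈ Γ₀(N)`. -/
def gam2 : SL(2, ℤ) := sl4 B.x B.y N q (by linear_combination B.h)

/-- `[q x, y; N, 1] ∈ Γ₀(N)`. -/
def gam1 : SL(2, ℤ) := sl4 (q * B.x) B.y N 1 (by linear_combination B.h)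

/-- `[q x² + N y, x y + y; N q (x + 1), N y + q] ∈ Γ₀(Nq)`. -/
def gam0 : SL(2, ℤ) :=
  sl4 (q * B.x ^ 2 + N * B.y) (B.x * B.y + B.y) (N * q * (B.x + 1)) (N * B.y + q)
    (by linear_combination ((q : ℤ) * B.x - N * B.y + 1) * B.h)

omit hq in
theorem gam2_mem : gam2 B ∈ Gamma0 N := sl4_mem_Gamma0.mpr (dvd_refl _)

omit hq in
theorem gam1_mem : gam1 B ∈ Gamma0 N := sl4_mem_Gamma0.mpr (dvd_refl _)

omit hq in
theorem gam0_mem : gam0 B ∈ Gamma0 (N * q) := by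
  refine sl4_mem_Gamma0.mpr ?_
  push_cast
  exact dvd_mul_right _ _

/-- (M7a) `W = [x, y; N, q] [q,0;0,1]`. -/
theorem wq_eq : wq B = ofSL (gam2 B) * hD q q_ne_zero := by
  apply Subtype.ext
  show (wq B).1 = (!![B.x, B.y; (N : ℤ), (q : ℤ)] : Matrix (Fin 2) (Fin 2) ℤ) * (hD q q_ne_zero).1
  rw [wq_val, hD_val, Matrix.mul_fin_two]
  exact mat_eq (by ring) (by ring) (by ring) (by ring)

/-- (M7b) `[q,0;0,1] W = q • [q x, y; N, 1]`. -/
theorem hD_mul_wq : hD q q_ne_zero * wq B = scal q q_ne_zero * ofSL (gam1 B) := by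
  apply Subtype.ext
  show (hD q q_ne_zero).1 * (wq B).1 = (!![(q : ℤ), 0; 0, (q : ℤ)] : Matrix (Fin 2) (Fin 2) ℤ)
    * !![(q : ℤ) * B.x, B.y; (N : ℤ), 1]
  rw [wq_val, hD_val, Matrix.mul_fin_two, Matrix.mul_fin_two]
  exact mat_eq (by ring) (by ring) (by ring) (by ring)

/-- (M7c) `W W = q • γ₀`, `γ₀ ∈ Γ₀(Nq)`. -/
theorem wq_mul_wq : wq B * wq B = scal q q_ne_zero * ofSL (gam0 B) := by
  apply Subtype.ext
  show (wq B).1 * (wq B).1 = (!![(q : ℤ), 0; 0, (q : ℤ)] : Matrix (Fin 2) (Fin 2) ℤ)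
    * !![(q : ℤ) * B.x ^ 2 + N * B.y, B.x * B.y + B.y; (N : ℤ) * q * (B.x + 1), (N : ℤ) * B.y + q]
  rw [wq_val, Matrix.mul_fin_two, Matrix.mul_fin_two]
  exact mat_eq (by ring) (by ring) (by ring) (by ring)

omit B in
/-- (M8) `[q,0;0,1] [1,j;0,q] = q • [1,j;0,1]`. -/
theorem hD_mul_hM (j : ℕ) :
    hD q q_ne_zero * hM q j q_ne_zero
      = scal q q_ne_zero * ofSL (sl4 1 (j : ℤ) 0 1 (by ring)) := by
  apply Subtype.ext
  show (hD q q_ne_zero).1 * (hM q j q_ne_zero).1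
    = (!![(q : ℤ), 0; 0, (q : ℤ)] : Matrix (Fin 2) (Fin 2) ℤ) * !![(1 : ℤ), (j : ℤ); 0, 1]
  rw [hM_val, hD_val, Matrix.mul_fin_two, Matrix.mul_fin_two]
  exact mat_eq (by ring) (by ring) (by ring) (by ring)

end Misc

end Fermat.Agent.S41.Degen
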