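import Mathlib
import Fermat.Agent.S41.DegenReps

/-!
# S41 frame: the Hecke representatives and their commutation with the Atkin–Lehner matrix

* `Tfam l : Option (ZMod l) → MPos` (`none ↦ [l,0;0,1]`, `some j ↦ [1,j;0,l]`) and the
  decomposition of integer matrices of determinant `l` with lower-left entry divisible by `M₀`;
* `exists_perm_wq_T`, `exists_perm_wq_U`: `W t_i = h t_{σ i} W` with `h ∈ Γ₀(Nq)`, `σ` a permutation.
-/

set_option autoImplicit false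

namespace Fermat.Agent.S41.Degen

open Fermat.Agent.S41.IntMat CongruenceSubgroup
open scoped MatrixGroups

section L

variable {l : ℕ} [hl : Fact l.Prime]

theorem l_ne_zero : l ≠ 0 := hl.out.ne_zero

theorem lZ_pos : (0 : ℤ) < (l : ℤ) := by exact_mod_cast hl.out.pos

/-- Representatives for `T_l`: `none ↦ [l,0;0,1]`, `some j ↦ [1,j;0,l]`. -/
def Tfam (l : ℕ) [Fact l.Prime] : Option (ZMod l) → MPos
  | none => hD l l_ne_zero
  | some j => hM l j.val l_ne_zero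

/-- Integer matrices of determinant `l` with `l ∤ a` and `M₀ ∣ c` lie in `Γ₀(M₀) [1,j;0,l]`. -/
theorem U_decomp (M₀ : ℕ) (A : MPos) (hdet : A.1.det = l) (hM₀ : (M₀ : ℤ) ∣ A.1 1 0)
    (ha : ¬ (l : ℤ) ∣ A.1 0 0) :
    ∃ j : ZMod l, ∃ h ∈ Gamma0 M₀, A = ofSL h * hM l j.val l_ne_zero := by
  have ha0 : ((A.1 0 0 : ℤ) : ZMod l) ≠ 0 := by
    rwa [Ne, ZMod.intCast_zmod_eq_zero_iff_dvd]
  have hdetZ : ((A.1 0 0 : ℤ) : ZMod l) * ((A.1 1 1 : ℤ) : ZMod l)
      - ((A.1 0 1 : ℤ) : ZMod l) * ((A.1 1 0 : ℤ) : ZMod l) = 0 := by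
    rw [Matrix.det_fin_two] at hdet
    have h := congrArg (Int.cast : ℤ → ZMod l) hdet
    push_cast at h
    rw [ZMod.natCast_self] at h
    exact h
  set j : ZMod l := ((A.1 0 1 : ℤ) : ZMod l) * (((A.1 0 0 : ℤ) : ZMod l))⁻¹ with hj
  obtain ⟨e, he⟩ : (l : ℤ) ∣ A.1 0 1 - (j.val : ℤ) * A.1 0 0 := by
    rw [← ZMod.intCast_zmod_eq_zero_iff_dvd]
    push_cast
    rw [ZMod.natCast_zmod_val, hj]
    field_simp
    ring
  obtain ⟨e', he'⟩ : (l : ℤ) ∣ A.1 1 1 - (j.val : ℤ) * A.1 1 0 := by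
    rw [← ZMod.intCast_zmod_eq_zero_iff_dvd]
    push_cast
    rw [ZMod.natCast_zmod_val, hj]
    field_simp
    linear_combination hdetZ
  obtain ⟨γ, hγ, e1⟩ := exists_ofSL_mul (A := A) (B := hM l j.val l_ne_zero)
    !![A.1 0 0, e; A.1 1 0, e']
    (by
      rw [hM_val, Matrix.mul_fin_two]
      conv_lhs => rw [Matrix.eta_fin_two A.1]
      exact mat_eq (by ring) (by linear_combination he) (by ring) (by linear_combination he'))
    (by rw [hdet, hM_det])
  refine ⟨j, γ, ?_, e1⟩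
  rw [mem_Gamma0_iff_dvd, hγ]
  exact hM₀

/-- Integer matrices of determinant `l` with `M₀ ∣ c` lie in `Γ₀(M₀) t_i` (`l ∤ M₀`). -/
theorem T_decomp (M₀ : ℕ) (hlM : ¬ l ∣ M₀) (A : MPos) (hdet : A.1.det = l)
    (hM₀ : (M₀ : ℤ) ∣ A.1 1 0) :
    ∃ i : Option (ZMod l), ∃ h ∈ Gamma0 M₀, A = ofSL h * Tfam l i := by
  by_cases ha : (l : ℤ) ∣ A.1 0 0
  swap
  · obtain ⟨j, h, hh, e⟩ := U_decomp M₀ A hdet hM₀ ha
    exact ⟨some j, h, hh, e⟩
  obtain ⟨a', ha'⟩ := ha
  have hcop : IsCoprime (l : ℤ) (M₀ : ℤ) :=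
    Nat.isCoprime_iff_coprime.mpr ((Nat.Prime.coprime_iff_not_dvd hl.out).mpr hlM)
  have hdet' := hdet
  rw [Matrix.det_fin_two, ha'] at hdet'
  by_cases hc : (l : ℤ) ∣ A.1 1 0
  · obtain ⟨c', hc'⟩ := hc
    obtain ⟨γ, hγ, e1⟩ := exists_ofSL_mul (A := A) (B := hD l l_ne_zero)
      !![a', A.1 0 1; c', A.1 1 1]
      (by
        rw [hD_val, Matrix.mul_fin_two]
        conv_lhs => rw [Matrix.eta_fin_two A.1, ha', hc']
        exact mat_eq (by ring) (by ring) (by ring) (by ring))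
      (by rw [hdet, hD_det])
    refine ⟨none, γ, ?_, e1⟩
    rw [mem_Gamma0_iff_dvd, hγ]
    show (M₀ : ℤ) ∣ c'
    rw [hc'] at hM₀
    exact hcop.symm.dvd_of_dvd_mul_left hM₀
  · have hc0 : ((A.1 1 0 : ℤ) : ZMod l) ≠ 0 := by
      rwa [Ne, ZMod.intCast_zmod_eq_zero_iff_dvd]
    have hb : (l : ℤ) ∣ A.1 0 1 := by
      have h1 : (l : ℤ) ∣ A.1 0 1 * A.1 1 0 := ⟨a' * A.1 1 1 - 1, by linear_combination -hdet'⟩
      rcases (Nat.prime_iff_prime_int.mp hl.out).dvd_or_dvd h1 with h | h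
      · exact h
      · exact absurd h hc
    obtain ⟨b', hb'⟩ := hb
    set j : ZMod l := ((A.1 1 1 : ℤ) : ZMod l) * (((A.1 1 0 : ℤ) : ZMod l))⁻¹ with hj
    obtain ⟨e', he'⟩ : (l : ℤ) ∣ A.1 1 1 - (j.val : ℤ) * A.1 1 0 := by
      rw [← ZMod.intCast_zmod_eq_zero_iff_dvd]
      push_cast
      rw [ZMod.natCast_zmod_val, hj]
      field_simp
      ring
    obtain ⟨γ, hγ, e1⟩ := exists_ofSL_mul (A := A) (B := hM l j.val l_ne_zero)
      !![A.1 0 0, b' - (j.val : ℤ) * a'; A.1 1 0, e']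
      (by
        rw [hM_val, Matrix.mul_fin_two]
        conv_lhs => rw [Matrix.eta_fin_two A.1]
        exact mat_eq (by ring) (by rw [hb', ha']; ring) (by ring) (by linear_combination he'))
      (by rw [hdet, hM_det])
    refine ⟨some j, γ, ?_, e1⟩
    rw [mem_Gamma0_iff_dvd, hγ]
    exact hM₀

theorem U_inj (j j' : ZMod l)
    (h : ∃ γ : SL(2, ℤ), hM l j.val l_ne_zero = ofSL γ * hM l j'.val l_ne_zero) : j = j' := by
  obtain ⟨γ, e⟩ := h
  have hl0 : ((l : ℕ) : ZMod l) = 0 := ZMod.natCast_self l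
  have e1 : (hM l j.val l_ne_zero).1 = γ.1 * (hM l j'.val l_ne_zero).1 := congrArg Subtype.val e
  rw [hM_val, hM_val, Matrix.eta_fin_two γ.1, Matrix.mul_fin_two] at e1
  have e00 := congrFun (congrFun e1 0) 0
  have e01 := congrFun (congrFun e1 0) 1
  simp at e00 e01
  have h01 := congrArg (Int.cast : ℤ → ZMod l) e01
  rw [← e00] at h01
  push_cast at h01
  rw [hl0] at h01
  simp at h01
  exact h01

theorem T_inj (i i' : Option (ZMod l)) (h : ∃ γ : SL(2, ℤ), Tfam l i = ofSL γ * Tfam l i') :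
    i = i' := by
  have hl0 : ((l : ℕ) : ZMod l) = 0 := ZMod.natCast_self l
  rcases i with _ | j <;> rcases i' with _ | j'
  · rfl
  · exfalso
    obtain ⟨γ, e⟩ := h
    have e1 : (hD l l_ne_zero).1 = γ.1 * (hM l j'.val l_ne_zero).1 := congrArg Subtype.val e
    rw [hM_val, hD_val, Matrix.eta_fin_two γ.1, Matrix.mul_fin_two] at e1
    have e10 := congrFun (congrFun e1 1) 0
    have e11 := congrFun (congrFun e1 1) 1
    simp at e10 e11
    have h11 := congrArg (Int.cast : ℤ → ZMod l) e11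
    rw [← e10] at h11
    push_cast at h11
    rw [hl0] at h11
    simp at h11
  · exfalso
    obtain ⟨γ, e⟩ := h
    have e1 : (hM l j.val l_ne_zero).1 = γ.1 * (hD l l_ne_zero).1 := congrArg Subtype.val e
    rw [hM_val, hD_val, Matrix.eta_fin_two γ.1, Matrix.mul_fin_two] at e1
    have e00 := congrFun (congrFun e1 0) 0
    simp at e00
    have h00 := congrArg (Int.cast : ℤ → ZMod l) e00
    push_cast at h00
    rw [hl0] at h00
    simp at h00
  · congr 1
    exact U_inj j j' h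

end L


section WComm

variable {N q : ℕ} (B : Bez N q) [hq : Fact q.Prime]

/-- Conjugating an upper triangular integer matrix by `wq B`: `M W = W [a,b;0,d]`. -/
theorem conj_wq (a b d : ℤ) (h : 0 < a * d - b * 0) :
    ∃ M : MPos, M * wq B = wq B * mk4 a b 0 d h ∧ M.1.det = a * d ∧
      ((N * q : ℕ) : ℤ) ∣ M.1 1 0 ∧
      M.1 0 0 = (q : ℤ) * B.x * a - N * q * B.x * b - N * B.y * d := by
  obtain ⟨M, hM, e, hdet⟩ := exists_mpos_conj (wq B) (mk4 a b 0 d h)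
    !![(q : ℤ) * B.x * a - N * q * B.x * b - N * B.y * d,
       B.x * (-a * B.y + q * B.x * b + B.y * d);
       (N : ℤ) * q * (a - N * b - d), -N * a * B.y + N * q * B.x * b + q * B.x * d]
    (by
      rw [wq_val]
      show _ * _ = _ * (!![a, b; 0, d] : Matrix (Fin 2) (Fin 2) ℤ)
      rw [Matrix.mul_fin_two, Matrix.mul_fin_two]
      exact mat_eq
        (by linear_combination ((q : ℤ) * B.x * a) * B.h)
        (by linear_combination ((q : ℤ) * B.x * b + B.y * d) * B.h)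
        (by linear_combination ((N : ℤ) * q * a) * B.h)
        (by linear_combination ((N : ℤ) * q * b + q * d) * B.h))
  refine ⟨M, e, ?_, ?_, ?_⟩
  · rw [hdet, mk4_det]; ring
  · rw [hM]
    show ((N * q : ℕ) : ℤ) ∣ (N : ℤ) * q * (a - N * b - d)
    push_cast
    exact dvd_mul_right _ _
  · rw [hM]
    rfl

/-- `W t_i = h t_{σ i} W` for the `T_l`-representatives, `l ∤ N q`. -/
theorem exists_perm_wq_T {l : ℕ} [hl : Fact l.Prime] (hlNq : ¬ l ∣ N * q) :
    ∃ σ : Equiv.Perm (Option (ZMod l)), ∀ i, ∃ h ∈ Gamma0 (N * q),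
      wq B * Tfam l i = ofSL h * Tfam l (σ i) * wq B := by
  have key : ∀ i : Option (ZMod l), ∃ M : MPos, M * wq B = wq B * Tfam l i ∧ M.1.det = l ∧
      ((N * q : ℕ) : ℤ) ∣ M.1 1 0 := by
    intro i
    rcases i with _ | j
    · obtain ⟨M, e, hdet, hdvd, -⟩ := conj_wq B (l : ℤ) 0 1 (by
        have := lZ_pos (l := l)
        linarith)
      exact ⟨M, e, by rw [hdet]; ring, hdvd⟩
    · obtain ⟨M, e, hdet, hdvd, -⟩ := conj_wq B 1 (j.val : ℤ) (l : ℤ) (by
        have := lZ_pos (l := l)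
        linarith)
      exact ⟨M, e, by rw [hdet]; ring, hdvd⟩
  choose M hM hdet hdvd using key
  obtain ⟨σ, hσ⟩ := exists_perm_of_decomp ofSL (Gamma0 (N * q)) (Tfam l) M
    (fun i => T_decomp (N * q) hlNq (M i) (hdet i) (hdvd i)) (by
      rintro i i' ⟨h, hh, e⟩
      obtain ⟨h', -, e'⟩ := wq_normal B h hh
      apply T_inj
      refine ⟨h', ?_⟩
      apply MPos.mul_left_cancel' (wq B)
      rw [← hM i, e, mul_assoc, hM i', ← mul_assoc, e', mul_assoc])
  refine ⟨σ, fun i => ?_⟩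
  obtain ⟨h, hh, e⟩ := hσ i
  exact ⟨h, hh, by rw [← hM i, e]⟩

/-- `W u_j = h u_{σ j} W` for the `U_l`-representatives, `l ∣ N`. -/
theorem exists_perm_wq_U {l : ℕ} [hl : Fact l.Prime] (hlN : l ∣ N) :
    ∃ σ : Equiv.Perm (ZMod l), ∀ j : ZMod l, ∃ h ∈ Gamma0 (N * q),
      wq B * hM l j.val l_ne_zero = ofSL h * hM l (σ j).val l_ne_zero * wq B := by
  have key : ∀ j : ZMod l, ∃ M : MPos, M * wq B = wq B * hM l j.val l_ne_zero ∧ M.1.det = l ∧
      ((N * q : ℕ) : ℤ) ∣ M.1 1 0 ∧ ¬ (l : ℤ) ∣ M.1 0 0 := by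
    intro j
    obtain ⟨M, e, hdet, hdvd, h00⟩ := conj_wq B 1 (j.val : ℤ) (l : ℤ) (by
      have := lZ_pos (l := l)
      linarith)
    refine ⟨M, e, by rw [hdet]; ring, hdvd, ?_⟩
    intro hdv
    obtain ⟨n, hn⟩ := Int.natCast_dvd_natCast.mpr hlN
    have h1 : M.1 0 0 = 1 - (l : ℤ) * (n * (q * B.x * (j.val : ℤ) + B.y * l - B.y)) := by
      rw [h00]
      linear_combination B.h - ((q : ℤ) * B.x * (j.val : ℤ) + B.y * l - B.y) * hn
    rw [h1] at hdv
    have h2 : (l : ℤ) ∣ 1 := by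
      have := dvd_add hdv (dvd_mul_right (l : ℤ) (n * (q * B.x * (j.val : ℤ) + B.y * l - B.y)))
      simpa using this
    have h3 := Int.le_of_dvd one_pos h2
    have h4 : (1 : ℤ) < l := by exact_mod_cast hl.out.one_lt
    linarith
  choose M hMe hdet hdvd hnd using key
  obtain ⟨σ, hσ⟩ := exists_perm_of_decomp ofSL (Gamma0 (N * q))
    (fun j : ZMod l => hM l j.val l_ne_zero) M
    (fun j => U_decomp (N * q) (M j) (hdet j) (hdvd j) (hnd j)) (by
      rintro i i' ⟨h, hh, e⟩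
      obtain ⟨h', -, e'⟩ := wq_normal B h hh
      apply U_inj
      refine ⟨h', ?_⟩
      apply MPos.mul_left_cancel' (wq B)
      rw [← hMe i, e, mul_assoc, hMe i', ← mul_assoc, e', mul_assoc])
  refine ⟨σ, fun j => ?_⟩
  obtain ⟨h, hh, e⟩ := hσ j
  exact ⟨h, hh, by rw [← hMe j, e]⟩

end WComm

end Fermat.Agent.S41.Degen
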