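import Mathlib

/-!
# Right-coset corestriction (transfer) of additive characters  (S41, package P1)

For an injective homomorphism `j : H →* G` whose range has finite index and an additive character
`ψ : Additive H →+ A` we define the corestriction `cores j hj ψ : Additive G →+ A`
(right-coset transfer).  The only thing consumers need is the relational characterisation
`cores_apply_of_rel`: for ANY right transversal `r : ι → G` of `j.range` and ANY decomposition
`r x * g = j (γ' x) * r (σ x)`, the value is `∑ x, ψ (γ' x)`.
-/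

set_option autoImplicit false

namespace Fermat.Agent.S41.Cores

variable {G H : Type*} [Group G] [Group H] {A : Type*} [AddCommGroup A]

/-- `r : ι → G` is a right transversal of the range of `j`: every `g` is `j h * r x`, and the
cosets `j(H) * r x` are pairwise distinct. -/
def IsRightTransversal (j : H →* G) {ι : Type*} (r : ι → G) : Prop :=
  (∀ g : G, ∃ x : ι, ∃ h : H, g = j h * r x) ∧ ∀ x y : ι, ∀ h : H, r x = j h * r y → x = y

section canonical

variable (j : H →* G)

/-- The space of right cosets of the range of `j`. -/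
abbrev RQ : Type _ := Quotient (QuotientGroup.rightRel j.range)

instance instFiniteRQ [j.range.FiniteIndex] : Finite (RQ j) :=
  Finite.of_equiv _ (QuotientGroup.quotientRightRelEquivQuotientLeftRel j.range).symm

theorem exists_cof (g : G) : ∃ h : H, g = j h * (Quotient.mk'' g : RQ j).out := by
  have h1 : QuotientGroup.rightRel j.range ((Quotient.mk'' g : RQ j).out) g :=
    Quotient.mk_out (s := QuotientGroup.rightRel j.range) g
  rw [QuotientGroup.rightRel_apply] at h1
  obtain ⟨h, hh⟩ := h1
  exact ⟨h, by rw [hh]; group⟩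

/-- The `H`-cofactor of `g` with respect to the canonical transversal `Quotient.out`. -/
noncomputable def cof (g : G) : H := Classical.choose (exists_cof j g)

theorem cof_spec (g : G) : g = j (cof j g) * (Quotient.mk'' g : RQ j).out :=
  Classical.choose_spec (exists_cof j g)

theorem mk_mul (h : H) (g : G) : (Quotient.mk'' (j h * g) : RQ j) = Quotient.mk'' g := by
  apply Quotient.sound'
  rw [QuotientGroup.rightRel_apply]
  exact ⟨h⁻¹, by rw [map_inv]; group⟩

theorem mk_mul_out (h : H) (q : RQ j) : (Quotient.mk'' (j h * q.out) : RQ j) = q := by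
  rw [mk_mul]
  exact Quotient.out_eq' q

theorem cof_mul_out (hj : Function.Injective j) (h : H) (q : RQ j) :
    cof j (j h * q.out) = h := by
  have h1 := cof_spec j (j h * q.out)
  rw [mk_mul_out] at h1
  exact (hj (mul_right_cancel h1)).symm

/-- Right translation on the coset space. -/
noncomputable def tr (g : G) (q : RQ j) : RQ j := Quotient.mk'' (q.out * g)

theorem tr_mk (g a : G) : tr j g (Quotient.mk'' a) = Quotient.mk'' (a * g) := by
  unfold tr
  obtain ⟨h, hh⟩ := exists_cof j a
  conv_rhs => rw [hh, mul_assoc, mk_mul]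

theorem tr_mul (g g' : G) (q : RQ j) : tr j (g * g') q = tr j g' (tr j g q) := by
  show Quotient.mk'' (q.out * (g * g')) = tr j g' (Quotient.mk'' (q.out * g))
  rw [tr_mk, mul_assoc]

theorem tr_one (q : RQ j) : tr j 1 q = q := by
  unfold tr
  rw [mul_one]
  exact Quotient.out_eq' q

/-- Right translation as a permutation of the coset space. -/
noncomputable def trEquiv (g : G) : RQ j ≃ RQ j where
  toFun := tr j g
  invFun := tr j g⁻¹
  left_inv q := by rw [← tr_mul, mul_inv_cancel, tr_one]
  right_inv q := by rw [← tr_mul, inv_mul_cancel, tr_one]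

theorem out_mul (g : G) (q : RQ j) : q.out * g = j (cof j (q.out * g)) * (tr j g q).out :=
  cof_spec j (q.out * g)

theorem isRightTransversal_out : IsRightTransversal j (fun q : RQ j => q.out) := by
  refine ⟨fun g => ⟨Quotient.mk'' g, cof j g, cof_spec j g⟩, fun x y h hxy => ?_⟩
  have h1 : (Quotient.mk'' x.out : RQ j) = Quotient.mk'' (j h * y.out) := by
    show (Quotient.mk'' ((fun q : RQ j => q.out) x) : RQ j) = _
    rw [hxy]
  rw [mk_mul_out] at h1
  rw [← h1]
  exact (Quotient.out_eq' x).symm

/-- The corestriction as a bare function. -/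
noncomputable def coresFun (ψ : Additive H →+ A) (g : G) : A :=
  ∑ᶠ q : RQ j, ψ (Additive.ofMul (cof j (q.out * g)))

theorem coresFun_eq_of_rel (hj : Function.Injective j) [Finite (RQ j)] {ι : Type*} [Fintype ι]
    (r : ι → G) (hr : IsRightTransversal j r) (ψ : Additive H →+ A) (g : G) (σ : ι → ι)
    (γ' : ι → H) (hrel : ∀ x, r x * g = j (γ' x) * r (σ x)) :
    coresFun j ψ g = ∑ x, ψ (Additive.ofMul (γ' x)) := by
  classical
  have : Fintype (RQ j) := Fintype.ofFinite _
  -- the bijection between the index set and the coset space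
  let e : ι → RQ j := fun x => Quotient.mk'' (r x)
  have he : Function.Bijective e := by
    constructor
    · intro x y hxy
      have h1 : QuotientGroup.rightRel j.range (r x) (r y) := Quotient.exact' hxy
      rw [QuotientGroup.rightRel_apply] at h1
      obtain ⟨h, hh⟩ := h1
      refine (hr.2 y x h ?_).symm
      rw [hh]; group
    · intro q
      obtain ⟨x, h, hx⟩ := hr.1 q.out
      refine ⟨x, ?_⟩
      have h2 : (Quotient.mk'' q.out : RQ j) = Quotient.mk'' (j h * r x) := by rw [← hx]
      rw [mk_mul] at h2
      rw [← Quotient.out_eq' q]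
      exact h2.symm
  -- `σ` is a bijection
  have hσ : Function.Bijective σ := by
    rw [← Finite.injective_iff_bijective]
    intro x y hxy
    have h1 := hrel x
    have h2 := hrel y
    rw [hxy] at h1
    refine hr.2 x y (γ' x * (γ' y)⁻¹) ?_
    have h3 : r x = j (γ' x) * r (σ y) * g⁻¹ := by rw [← h1]; group
    have h4 : r (σ y) = (j (γ' y))⁻¹ * r y * g := by rw [mul_assoc, h2]; group
    rw [h3, h4, map_mul, map_inv]; group
  let k : ι → H := fun x => cof j (r x)
  have hk : ∀ x, r x = j (k x) * (e x).out := fun x => cof_spec j (r x)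
  have hcof : ∀ x, cof j ((e x).out * g) = (k x)⁻¹ * γ' x * k (σ x) := by
    intro x
    have h1 : (e x).out * g = j ((k x)⁻¹ * γ' x * k (σ x)) * (e (σ x)).out := by
      have h2 : (e x).out = (j (k x))⁻¹ * r x := by rw [hk x]; group
      rw [h2, mul_assoc, hrel x]
      conv_lhs => rw [hk (σ x)]
      rw [map_mul, map_mul, map_inv]; group
    rw [h1, cof_mul_out j hj]
  unfold coresFun
  rw [finsum_eq_sum_of_fintype]
  rw [← Fintype.sum_equiv (Equiv.ofBijective e he) (fun x => ψ (Additive.ofMul (cof j ((e x).out * g))))
    (fun q => ψ (Additive.ofMul (cof j (q.out * g)))) (fun x => rfl)]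
  have h5 : ∀ x, ψ (Additive.ofMul (cof j ((e x).out * g)))
      = ψ (Additive.ofMul (γ' x)) + (ψ (Additive.ofMul (k (σ x))) - ψ (Additive.ofMul (k x))) := by
    intro x
    rw [hcof x, ofMul_mul, ofMul_mul, ofMul_inv, map_add, map_add, map_neg]
    abel
  rw [Finset.sum_congr rfl (fun x _ => h5 x), Finset.sum_add_distrib, Finset.sum_sub_distrib]
  have h6 : ∑ x, ψ (Additive.ofMul (k (σ x))) = ∑ x, ψ (Additive.ofMul (k x)) :=
    Equiv.sum_comp (Equiv.ofBijective σ hσ) (fun x => ψ (Additive.ofMul (k x)))
  rw [h6, sub_self, add_zero]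

theorem coresFun_mul (hj : Function.Injective j) [Finite (RQ j)] (ψ : Additive H →+ A)
    (g g' : G) : coresFun j ψ (g * g') = coresFun j ψ g + coresFun j ψ g' := by
  classical
  have : Fintype (RQ j) := Fintype.ofFinite _
  have h1 : coresFun j ψ (g * g') = ∑ q : RQ j,
      ψ (Additive.ofMul (cof j (q.out * g) * cof j ((tr j g q).out * g'))) := by
    refine coresFun_eq_of_rel j hj (fun q : RQ j => q.out) (isRightTransversal_out j) ψ (g * g')
      (fun q => tr j g' (tr j g q)) _ (fun q => ?_)
    have e1 := out_mul j g q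
    have e2 := out_mul j g' (tr j g q)
    calc q.out * (g * g') = (q.out * g) * g' := (mul_assoc _ _ _).symm
      _ = (j (cof j (q.out * g)) * (tr j g q).out) * g' := congrArg (· * g') e1
      _ = j (cof j (q.out * g)) * ((tr j g q).out * g') := mul_assoc _ _ _
      _ = j (cof j (q.out * g)) * (j (cof j ((tr j g q).out * g')) * (tr j g' (tr j g q)).out) :=
          congrArg (j (cof j (q.out * g)) * ·) e2
      _ = _ := by rw [map_mul, mul_assoc]
  have h2 : coresFun j ψ g = ∑ q : RQ j, ψ (Additive.ofMul (cof j (q.out * g))) := by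
    unfold coresFun
    rw [finsum_eq_sum_of_fintype]
  have h3 : coresFun j ψ g' = ∑ q : RQ j, ψ (Additive.ofMul (cof j ((tr j g q).out * g'))) := by
    unfold coresFun
    rw [finsum_eq_sum_of_fintype]
    exact (Equiv.sum_comp (trEquiv j g) (fun q => ψ (Additive.ofMul (cof j (q.out * g'))))).symm
  rw [h1, h2, h3, ← Finset.sum_add_distrib]
  refine Finset.sum_congr rfl fun q _ => ?_
  rw [ofMul_mul, map_add]

end canonical

/-- **Corestriction** (right-coset transfer) along an injective `j : H →* G` of finite index. -/
noncomputable def cores (j : H →* G) (hj : Function.Injective j) [j.range.FiniteIndex] :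
    (Additive H →+ A) →+ (Additive G →+ A) where
  toFun ψ :=
    { toFun := fun a => coresFun j ψ (Additive.toMul a)
      map_zero' := by
        have h := coresFun_mul j hj ψ 1 1
        rw [mul_one] at h
        have h' : coresFun j ψ 1 + 0 = coresFun j ψ 1 + coresFun j ψ 1 := by rw [add_zero]; exact h
        exact (add_left_cancel h').symm
      map_add' := fun a b => coresFun_mul j hj ψ (Additive.toMul a) (Additive.toMul b) }
  map_zero' := by
    ext a
    show coresFun j (0 : Additive H →+ A) (Additive.toMul a) = 0
    unfold coresFun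
    simp
  map_add' ψ ψ' := by
    ext a
    show coresFun j (ψ + ψ') (Additive.toMul a)
      = coresFun j ψ (Additive.toMul a) + coresFun j ψ' (Additive.toMul a)
    unfold coresFun
    rw [← finsum_add_distrib (Set.toFinite _) (Set.toFinite _)]
    rfl

theorem cores_apply (j : H →* G) (hj : Function.Injective j) [j.range.FiniteIndex]
    (ψ : Additive H →+ A) (g : G) :
    cores j hj ψ (Additive.ofMul g) = coresFun j ψ g := rfl

/-- **Relational characterisation of the corestriction.** -/
theorem cores_apply_of_rel (j : H →* G) (hj : Function.Injective j) [j.range.FiniteIndex]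
    {ι : Type*} [Fintype ι] (r : ι → G) (hr : IsRightTransversal j r) (ψ : Additive H →+ A)
    (g : G) (σ : ι → ι) (γ' : ι → H) (hrel : ∀ x, r x * g = j (γ' x) * r (σ x)) :
    cores j hj ψ (Additive.ofMul g) = ∑ x, ψ (Additive.ofMul (γ' x)) :=
  coresFun_eq_of_rel j hj r hr ψ g σ γ' hrel

/-- Existence of a decomposition with respect to any right transversal. -/
theorem exists_rel (j : H →* G) {ι : Type*} (r : ι → G) (hr : IsRightTransversal j r) (g : G) :
    ∃ (σ : ι → ι) (γ' : ι → H), ∀ x, r x * g = j (γ' x) * r (σ x) := by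
  have h := fun x => hr.1 (r x * g)
  choose σ γ' h' using h
  exact ⟨σ, γ', h'⟩

/-- Naturality in the coefficient group. -/
theorem cores_comp {B : Type*} [AddCommGroup B] (j : H →* G) (hj : Function.Injective j)
    [j.range.FiniteIndex] (f : A →+ B) (ψ : Additive H →+ A) :
    cores j hj (f.comp ψ) = f.comp (cores j hj ψ) := by
  classical
  refine AddMonoidHom.ext fun a => ?_
  have : Fintype (RQ j) := Fintype.ofFinite _
  show coresFun j (f.comp ψ) (Additive.toMul a) = f (coresFun j ψ (Additive.toMul a))
  unfold coresFun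
  rw [finsum_eq_sum_of_fintype, finsum_eq_sum_of_fintype, map_sum]
  rfl

/-- `cores ∘ res` is multiplication by the index (stated with any right transversal). -/
theorem cores_comp_res (j : H →* G) (hj : Function.Injective j) [j.range.FiniteIndex]
    {ι : Type*} [Fintype ι] (r : ι → G) (hr : IsRightTransversal j r) (φ : Additive G →+ A) :
    cores j hj (φ.comp (MonoidHom.toAdditive j)) = Fintype.card ι • φ := by
  classical
  refine AddMonoidHom.ext fun a => ?_
  obtain ⟨σ, γ', hrel⟩ := exists_rel j r hr (Additive.toMul a)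
  have hσ : Function.Bijective σ := by
    rw [← Finite.injective_iff_bijective]
    intro x y hxy
    have h1 := hrel x
    have h2 := hrel y
    rw [hxy] at h1
    refine hr.2 x y (γ' x * (γ' y)⁻¹) ?_
    have h3 : r x = j (γ' x) * r (σ y) * (Additive.toMul a)⁻¹ := by rw [← h1]; group
    have h4 : r (σ y) = (j (γ' y))⁻¹ * r y * (Additive.toMul a) := by rw [mul_assoc, h2]; group
    rw [h3, h4, map_mul, map_inv]; group
  have h0 : cores j hj (φ.comp (MonoidHom.toAdditive j)) a
      = ∑ x, (φ.comp (MonoidHom.toAdditive j)) (Additive.ofMul (γ' x)) :=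
    cores_apply_of_rel j hj r hr _ (Additive.toMul a) σ γ' hrel
  rw [h0]
  have h5 : ∀ x, (φ.comp (MonoidHom.toAdditive j)) (Additive.ofMul (γ' x))
      = φ a + (φ (Additive.ofMul (r x)) - φ (Additive.ofMul (r (σ x)))) := by
    intro x
    have h6 : j (γ' x) = r x * Additive.toMul a * (r (σ x))⁻¹ := by rw [hrel x]; group
    show φ (Additive.ofMul (j (γ' x))) = _
    rw [h6, ofMul_mul, ofMul_mul, ofMul_inv, map_add, map_add, map_neg]
    show φ (Additive.ofMul (r x)) + φ a + -φ (Additive.ofMul (r (σ x))) = _
    abel
  rw [Finset.sum_congr rfl (fun x _ => h5 x), Finset.sum_add_distrib, Finset.sum_sub_distrib]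
  have h7 : ∑ x, φ (Additive.ofMul (r (σ x))) = ∑ x, φ (Additive.ofMul (r x)) :=
    Equiv.sum_comp (Equiv.ofBijective σ hσ) (fun x => φ (Additive.ofMul (r x)))
  rw [h7, sub_self, add_zero, Finset.sum_const, Finset.card_univ]
  rfl

end Fermat.Agent.S41.Cores
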