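import Mathlib
import Fermat.Prelude.Def_ModularCurve_PeriodHomPair
import Fermat.Agent.S41.Ihara.Conj
import Fermat.Agent.S41.Cores

/-!
# S41, package (P1): the frame — cohomology lattices and the degeneracy / transfer / Hecke maps

Coefficients: any `AddCommGroup A`; characters are `Additive (Gamma0 M) →+ A` (Prelude shape).

* `res₁ M l`, `res₂ M l : Hom(Γ₀(M), A) →+ Hom(Γ₀(M l), A)`: precomposition with
  `Ihara.inclLevel M l` resp. `Ihara.conjDelta M l` (`γ ↦ δ γ δ⁻¹`, `δ = diag(l, 1)`);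
* `tr₁ M l`, `tr₂ M l : Hom(Γ₀(M l), A) →+ Hom(Γ₀(M), A)`: corestriction (right-coset transfer,
  `Cores.cores`) along the same two injections;
* `heckeT M l := tr₁ M l ∘ res₂ M l` (`= T_l` for `l ∤ M`),
  `heckeU M l := tr₂ M l ∘ res₁ M l` (`= U_l` for `l ∣ M`, `= T_l` for `l ∤ M`);
* `Lat M := parabolicHoms ℤ (Gamma0 M) ℤ`, the cohomology lattice `H¹_par(Γ₀(M), ℤ)`.

Everything is natural in `A` (`*_comp`), so reduction modulo `p` is post-composition with
`Int.castAddHom (ZMod p)`.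
-/

set_option autoImplicit false

open scoped MatrixGroups
open CongruenceSubgroup ModularCurve ModularCurve.Period
open Fermat.Agent.S41.Ihara Fermat.Agent.S41.Cores

namespace Fermat.Agent.S41.Frame

variable {A : Type*} [AddCommGroup A]

/-- Precomposition of additive characters with a group homomorphism. -/
def precomp {G H : Type*} [Group G] [Group H] (j : H →* G) :
    (Additive G →+ A) →+ (Additive H →+ A) where
  toFun φ := φ.comp (MonoidHom.toAdditive j)
  map_zero' := rfl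
  map_add' _ _ := rfl

@[simp] theorem precomp_apply {G H : Type*} [Group G] [Group H] (j : H →* G)
    (φ : Additive G →+ A) (h : H) :
    precomp j φ (Additive.ofMul h) = φ (Additive.ofMul (j h)) := rfl

theorem precomp_comp {B : Type*} [AddCommGroup B] {G H : Type*} [Group G] [Group H]
    (j : H →* G) (f : A →+ B) (φ : Additive G →+ A) :
    precomp j (f.comp φ) = f.comp (precomp j φ) := rfl

/-! ### Finite index of the two copies of `Γ₀(M l)` in `Γ₀(M)` -/

instance finiteIndex_range_inclLevel (M l : ℕ) [NeZero M] [NeZero l] :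
    (inclLevel M l).range.FiniteIndex := by
  have : NeZero (M * l) := ⟨Nat.mul_ne_zero (NeZero.ne M) (NeZero.ne l)⟩
  have h : (inclLevel M l).range = (Gamma0 (M * l)).subgroupOf (Gamma0 M) :=
    Subgroup.inclusion_range _
  rw [h]
  infer_instance

instance finiteIndex_range_conjDelta (M l : ℕ) [NeZero M] [NeZero l] :
    (conjDelta M l).range.FiniteIndex := by
  have : NeZero (M * l) := ⟨Nat.mul_ne_zero (NeZero.ne M) (NeZero.ne l)⟩
  have hle : (Gamma (M * l)).subgroupOf (Gamma0 M) ≤ (conjDelta M l).range := by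
    intro γ hγ
    rw [mem_range_conjDelta_iff]
    rw [Subgroup.mem_subgroupOf, Gamma_mem] at hγ
    have h01 := hγ.2.1
    have h2 : ((M * l : ℕ) : ℤ) ∣ ((γ : SL(2, ℤ)) : Matrix (Fin 2) (Fin 2) ℤ) 0 1 :=
      (ZMod.intCast_zmod_eq_zero_iff_dvd _ _).mp h01
    exact dvd_trans ⟨(M : ℤ), by push_cast; ring⟩ h2
  exact Subgroup.finiteIndex_of_le hle

/-! ### The four maps -/

/-- First degeneracy map on characters: restriction to `Γ₀(M l)`. -/
def res₁ (M l : ℕ) : (Additive (Gamma0 M) →+ A) →+ (Additive (Gamma0 (M * l)) →+ A) :=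
  precomp (inclLevel M l)

/-- Second degeneracy map on characters: `φ ↦ (γ ↦ φ (δ γ δ⁻¹))`, `δ = diag(l, 1)`. -/
def res₂ (M l : ℕ) [NeZero l] : (Additive (Gamma0 M) →+ A) →+ (Additive (Gamma0 (M * l)) →+ A) :=
  precomp (conjDelta M l)

/-- First transfer: corestriction along the inclusion `Γ₀(M l) → Γ₀(M)`. -/
noncomputable def tr₁ (M l : ℕ) [NeZero M] [NeZero l] :
    (Additive (Gamma0 (M * l)) →+ A) →+ (Additive (Gamma0 M) →+ A) :=
  cores (inclLevel M l) (inclLevel_injective M l)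

/-- Second transfer: corestriction along `γ ↦ δ γ δ⁻¹ : Γ₀(M l) → Γ₀(M)`. -/
noncomputable def tr₂ (M l : ℕ) [NeZero M] [NeZero l] :
    (Additive (Gamma0 (M * l)) →+ A) →+ (Additive (Gamma0 M) →+ A) :=
  cores (conjDelta M l) (conjDelta_injective M l)

/-- The Hecke operator `T_l` on characters of `Γ₀(M)` (`l ∤ M`). -/
noncomputable def heckeT (M l : ℕ) [NeZero M] [NeZero l] :
    (Additive (Gamma0 M) →+ A) →+ (Additive (Gamma0 M) →+ A) :=
  (tr₁ M l).comp (res₂ M l)

/-- The Hecke operator `U_l` on characters of `Γ₀(M)` (`l ∣ M`; for `l ∤ M` it is again `T_l`). -/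
noncomputable def heckeU (M l : ℕ) [NeZero M] [NeZero l] :
    (Additive (Gamma0 M) →+ A) →+ (Additive (Gamma0 M) →+ A) :=
  (tr₂ M l).comp (res₁ M l)

@[simp] theorem res₁_apply (M l : ℕ) (φ : Additive (Gamma0 M) →+ A) (γ : Gamma0 (M * l)) :
    res₁ M l φ (Additive.ofMul γ) = φ (Additive.ofMul (inclLevel M l γ)) := rfl

@[simp] theorem res₂_apply (M l : ℕ) [NeZero l] (φ : Additive (Gamma0 M) →+ A)
    (γ : Gamma0 (M * l)) :
    res₂ M l φ (Additive.ofMul γ) = φ (Additive.ofMul (conjDelta M l γ)) := rfl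

/-- Relational characterisation of `tr₁`. -/
theorem tr₁_apply_of_rel (M l : ℕ) [NeZero M] [NeZero l] {ι : Type*} [Fintype ι]
    (r : ι → Gamma0 M) (hr : IsRightTransversal (inclLevel M l) r)
    (ψ : Additive (Gamma0 (M * l)) →+ A) (γ : Gamma0 M) (σ : ι → ι) (γ' : ι → Gamma0 (M * l))
    (hrel : ∀ x, r x * γ = inclLevel M l (γ' x) * r (σ x)) :
    tr₁ M l ψ (Additive.ofMul γ) = ∑ x, ψ (Additive.ofMul (γ' x)) :=
  cores_apply_of_rel _ _ r hr ψ γ σ γ' hrel

/-- Relational characterisation of `tr₂`. -/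
theorem tr₂_apply_of_rel (M l : ℕ) [NeZero M] [NeZero l] {ι : Type*} [Fintype ι]
    (r : ι → Gamma0 M) (hr : IsRightTransversal (conjDelta M l) r)
    (ψ : Additive (Gamma0 (M * l)) →+ A) (γ : Gamma0 M) (σ : ι → ι) (γ' : ι → Gamma0 (M * l))
    (hrel : ∀ x, r x * γ = conjDelta M l (γ' x) * r (σ x)) :
    tr₂ M l ψ (Additive.ofMul γ) = ∑ x, ψ (Additive.ofMul (γ' x)) :=
  cores_apply_of_rel _ _ r hr ψ γ σ γ' hrel

/-! ### Naturality in the coefficient group -/

section naturality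

variable {B : Type*} [AddCommGroup B] (f : A →+ B)

theorem res₁_comp (M l : ℕ) (φ : Additive (Gamma0 M) →+ A) :
    res₁ M l (f.comp φ) = f.comp (res₁ M l φ) := rfl

theorem res₂_comp (M l : ℕ) [NeZero l] (φ : Additive (Gamma0 M) →+ A) :
    res₂ M l (f.comp φ) = f.comp (res₂ M l φ) := rfl

theorem tr₁_comp (M l : ℕ) [NeZero M] [NeZero l] (ψ : Additive (Gamma0 (M * l)) →+ A) :
    tr₁ M l (f.comp ψ) = f.comp (tr₁ M l ψ) := cores_comp _ _ f ψ

theorem tr₂_comp (M l : ℕ) [NeZero M] [NeZero l] (ψ : Additive (Gamma0 (M * l)) →+ A) :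
    tr₂ M l (f.comp ψ) = f.comp (tr₂ M l ψ) := cores_comp _ _ f ψ

theorem heckeT_comp (M l : ℕ) [NeZero M] [NeZero l] (φ : Additive (Gamma0 M) →+ A) :
    heckeT M l (f.comp φ) = f.comp (heckeT M l φ) := by
  show tr₁ M l (res₂ M l (f.comp φ)) = f.comp (tr₁ M l (res₂ M l φ))
  rw [res₂_comp, tr₁_comp]

theorem heckeU_comp (M l : ℕ) [NeZero M] [NeZero l] (φ : Additive (Gamma0 M) →+ A) :
    heckeU M l (f.comp φ) = f.comp (heckeU M l φ) := by
  show tr₂ M l (res₁ M l (f.comp φ)) = f.comp (tr₂ M l (res₁ M l φ))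
  rw [res₁_comp, tr₂_comp]

end naturality

/-! ### `tr ∘ res` is multiplication by the index -/

theorem tr₁_res₁ (M l : ℕ) [NeZero M] [NeZero l] {ι : Type*} [Fintype ι]
    (r : ι → Gamma0 M) (hr : IsRightTransversal (inclLevel M l) r)
    (φ : Additive (Gamma0 M) →+ A) : tr₁ M l (res₁ M l φ) = Fintype.card ι • φ :=
  cores_comp_res _ _ r hr φ

theorem tr₂_res₂ (M l : ℕ) [NeZero M] [NeZero l] {ι : Type*} [Fintype ι]
    (r : ι → Gamma0 M) (hr : IsRightTransversal (conjDelta M l) r)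
    (φ : Additive (Gamma0 M) →+ A) : tr₂ M l (res₂ M l φ) = Fintype.card ι • φ :=
  cores_comp_res _ _ r hr φ

/-! ### The cohomology lattice -/

/-- The cohomology lattice `H¹_par(Γ₀(M), ℤ)`. -/
abbrev Lat (M : ℕ) : Submodule ℤ (Additive (Gamma0 M) →+ ℤ) := parabolicHoms ℤ (Gamma0 M) ℤ

theorem isParabolicHom_res₁ (M l : ℕ) {φ : Additive (Gamma0 M) →+ A}
    (hφ : IsParabolicHom (Gamma0 M) φ) : IsParabolicHom (Gamma0 (M * l)) (res₁ M l φ) :=
  fun γ hγ => hφ (inclLevel M l γ) hγ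

theorem isParabolicHom_res₂ (M l : ℕ) [NeZero l] {φ : Additive (Gamma0 M) →+ A}
    (hφ : IsParabolicHom (Gamma0 M) φ) : IsParabolicHom (Gamma0 (M * l)) (res₂ M l φ) := by
  intro γ hγ
  refine hφ (conjDelta M l γ) ?_
  have h1 : (((conjDelta M l γ : Gamma0 M) : SL(2, ℤ)) : Matrix (Fin 2) (Fin 2) ℤ).trace
      = (((γ : Gamma0 (M * l)) : SL(2, ℤ)) : Matrix (Fin 2) (Fin 2) ℤ).trace := by
    rw [conjDelta_apply_coe, Matrix.trace_fin_two, Matrix.trace_fin_two]
    simp
  rw [h1]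
  exact hγ

end Fermat.Agent.S41.Frame
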