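import Mathlib
import Fermat.Agent.S41.Frame
import Fermat.Agent.S30.BettiHecke.Hom

/-!
# S41 frame, gap (G-a): the coset Hecke operator `T_p` is `tr₁ ∘ res₂` and `tr₂ ∘ res₁`

For a prime `p ∤ N` and ANY coefficient group `A`, on `Hom(Γ₀(N), A)`:

* `tHom_eq_heckeT : BettiHecke.tHom A hp hpN φ = Frame.heckeT N p φ` (`heckeT = tr₁ ∘ res₂`);
* `tHom_eq_heckeU : BettiHecke.tHom A hp hpN φ = Frame.heckeU N p φ` (`heckeU = tr₂ ∘ res₁`);
* `heckeT_eq_heckeU : Frame.heckeT N p φ = Frame.heckeU N p φ`.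

By-products: explicit right transversals of `inclLevel N p` and `conjDelta N p` indexed by
`OnePoint (ZMod p)` (`isRightTransversal_rT`, `isRightTransversal_rU`), hence
`tr₁ (res₁ φ) = (p + 1) • φ` and `tr₂ (res₂ φ) = (p + 1) • φ`.

Method: with `E = diag(p, 1)` resp. `diag(1, p)` there are `r x, g x ∈ Γ₀(N)` with
`E * r x = g x * tMat p x`; the coset identity `tMat x * γ = coc γ x * tMat (σ x)` then gives
`r x * γ = j (h x) * r (σ x)` with `k (h x) = g x * coc γ x * (g (σ x))⁻¹`, where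
`(j, k) = (inclLevel, conjDelta)` resp. `(conjDelta, inclLevel)`; the `g`-terms cancel in the sum
over the permutation `σ`.
-/

set_option autoImplicit false
set_option linter.unnecessarySeqFocus false

open scoped MatrixGroups
open CongruenceSubgroup
open Fermat.Agent.S41.Ihara Fermat.Agent.S41.Cores Fermat.Agent.S41.Frame
open Fermat.Agent.S30.BettiHecke

namespace Fermat.Agent.S41.HeckeBridge

/-! ### Integral matrices of elements of `Γ₀(N)` -/

/-- The integral matrix of an element of `Γ₀(N)`, as a monoid homomorphism. -/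
def cm (N : ℕ) : Gamma0 N →* Matrix (Fin 2) (Fin 2) ℤ where
  toFun g := ((g : SL(2, ℤ)) : Matrix (Fin 2) (Fin 2) ℤ)
  map_one' := rfl
  map_mul' _ _ := rfl

theorem cm_apply (N : ℕ) (g : Gamma0 N) :
    cm N g = ((g : SL(2, ℤ)) : Matrix (Fin 2) (Fin 2) ℤ) := rfl

theorem cm_injective (N : ℕ) : Function.Injective (cm N) := by
  intro g h hgh
  exact Subtype.ext (Subtype.ext hgh)

theorem cm_mul_right_cancel (N : ℕ) (R : Gamma0 N) {X Y : Matrix (Fin 2) (Fin 2) ℤ}
    (h : X * cm N R = Y * cm N R) : X = Y := by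
  have h1 : cm N R * cm N R⁻¹ = 1 := by rw [← map_mul, mul_inv_cancel, map_one]
  calc X = X * cm N R * cm N R⁻¹ := by rw [mul_assoc, h1, mul_one]
    _ = Y * cm N R * cm N R⁻¹ := by rw [h]
    _ = Y := by rw [mul_assoc, h1, mul_one]

theorem cm_mul_left_cancel (N : ℕ) (L : Gamma0 N) {X Y : Matrix (Fin 2) (Fin 2) ℤ}
    (h : cm N L * X = cm N L * Y) : X = Y := by
  have h1 : cm N L⁻¹ * cm N L = 1 := by rw [← map_mul, inv_mul_cancel, map_one]
  calc X = cm N L⁻¹ * (cm N L * X) := by rw [← mul_assoc, h1, one_mul]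
    _ = cm N L⁻¹ * (cm N L * Y) := by rw [h]
    _ = Y := by rw [← mul_assoc, h1, one_mul]

/-- An element of `Γ₀(N)` from its entries. -/
def mkG (N : ℕ) (a b c d : ℤ) (hdet : a * d - b * c = 1) (hc : (N : ℤ) ∣ c) : Gamma0 N :=
  ⟨⟨!![a, b; c, d], by rw [Matrix.det_fin_two_of]; exact hdet⟩, Gamma0_mem_iff_dvd.mpr hc⟩

theorem cm_mkG (N : ℕ) (a b c d : ℤ) (hdet : a * d - b * c = 1) (hc : (N : ℤ) ∣ c) :
    cm N (mkG N a b c d hdet hc) = !![a, b; c, d] := rfl

/-- Integral form of the coset identity `tRep x * γ = coc γ x * tRep (x · γ)`. -/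
theorem tMat_mul_cm {N p : ℕ} (hp : p.Prime) (hpN : ¬ p ∣ N) (γ : Gamma0 N)
    (x : OnePoint (ZMod p)) :
    tMat p x * cm N γ = cm N (coc hp hpN γ x) * tMat p (rPerm hp (γ : SL(2, ℤ)) x) := by
  have h := coc_spec hp hpN γ x
  have h' := congrArg (fun g : GL (Fin 2) ℝ => (g : Matrix (Fin 2) (Fin 2) ℝ)) h
  simp only [Matrix.GeneralLinearGroup.coe_mul, tRep_val hp.ne_zero, mapGL_val] at h'
  have hinj : Function.Injective
      (fun M : Matrix (Fin 2) (Fin 2) ℤ => M.map (Int.cast : ℤ → ℝ)) :=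
    Matrix.map_injective Int.cast_injective
  apply hinj
  simp only [Matrix.map_mul_intCast, cm_apply] at *
  exact h'

/-! ### The abstract bridge -/

section abstract

variable {N p : ℕ}

/-- Core computation: the matrix identity behind the coset relation. -/
theorem key_of (E : Matrix (Fin 2) (Fin 2) ℤ) (r g : OnePoint (ZMod p) → Gamma0 N)
    (hrg : ∀ x, E * cm N (r x) = cm N (g x) * tMat p x)
    (x y : OnePoint (ZMod p)) (γ c m h' : Gamma0 N)
    (hc : tMat p x * cm N γ = cm N c * tMat p y)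
    (e1 : m * r y = r x * γ) (e2 : h' * g y = g x * c) :
    E * cm N m = cm N h' * E := by
  apply cm_mul_right_cancel N (r y)
  calc E * cm N m * cm N (r y) = E * cm N (m * r y) := by
        rw [(cm N).map_mul m (r y), Matrix.mul_assoc]
    _ = E * cm N (r x) * cm N γ := by rw [e1, (cm N).map_mul (r x) γ, Matrix.mul_assoc]
    _ = cm N (g x) * (tMat p x * cm N γ) := by rw [hrg, Matrix.mul_assoc]
    _ = cm N (g x) * (cm N c * tMat p y) := by rw [hc]
    _ = cm N (h' * g y) * tMat p y := by rw [e2, (cm N).map_mul (g x) c, Matrix.mul_assoc]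
    _ = cm N h' * (cm N (g y) * tMat p y) := by rw [(cm N).map_mul h' (g y), Matrix.mul_assoc]
    _ = cm N h' * E * cm N (r y) := by rw [← hrg, Matrix.mul_assoc]

/-- The coset relation for the family `r`. -/
theorem exists_rel_of (hp : p.Prime) (hpN : ¬ p ∣ N)
    (j k : Gamma0 (N * p) →* Gamma0 N) (E : Matrix (Fin 2) (Fin 2) ℤ)
    (hEr : ∀ X Y : Matrix (Fin 2) (Fin 2) ℤ, X * E = Y * E → X = Y)
    (hjk : ∀ h, E * cm N (j h) = cm N (k h) * E)
    (hrange : ∀ m h' : Gamma0 N, E * cm N m = cm N h' * E → m ∈ j.range)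
    (r g : OnePoint (ZMod p) → Gamma0 N)
    (hrg : ∀ x, E * cm N (r x) = cm N (g x) * tMat p x)
    (γ : Gamma0 N) (x : OnePoint (ZMod p)) :
    ∃ h : Gamma0 (N * p), r x * γ = j h * r (rPerm hp (γ : SL(2, ℤ)) x) ∧
      k h = g x * coc hp hpN γ x * (g (rPerm hp (γ : SL(2, ℤ)) x))⁻¹ := by
  have key := key_of E r g hrg x (rPerm hp (γ : SL(2, ℤ)) x) γ (coc hp hpN γ x)
    (r x * γ * (r (rPerm hp (γ : SL(2, ℤ)) x))⁻¹)
    (g x * coc hp hpN γ x * (g (rPerm hp (γ : SL(2, ℤ)) x))⁻¹)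
    (tMat_mul_cm hp hpN γ x) (by group) (by group)
  obtain ⟨h, hh⟩ := hrange _ _ key
  refine ⟨h, ?_, ?_⟩
  · rw [hh]; group
  · apply cm_injective N
    apply hEr
    rw [← hjk, hh, key]

/-- The family `r` is a right transversal of the range of `j`. -/
theorem isRightTransversal_of (hp : p.Prime) (hpN : ¬ p ∣ N)
    (j k : Gamma0 (N * p) →* Gamma0 N) (E : Matrix (Fin 2) (Fin 2) ℤ)
    (hEr : ∀ X Y : Matrix (Fin 2) (Fin 2) ℤ, X * E = Y * E → X = Y)
    (hjk : ∀ h, E * cm N (j h) = cm N (k h) * E)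
    (hrange : ∀ m h' : Gamma0 N, E * cm N m = cm N h' * E → m ∈ j.range)
    (r g : OnePoint (ZMod p) → Gamma0 N)
    (hrg : ∀ x, E * cm N (r x) = cm N (g x) * tMat p x) :
    IsRightTransversal j r := by
  refine ⟨fun g₀ => ?_, fun x y h hxy => ?_⟩
  · obtain ⟨h, hh, -⟩ := exists_rel_of hp hpN j k E hEr hjk hrange r g hrg
      ((r OnePoint.infty)⁻¹ * g₀) OnePoint.infty
    refine ⟨rPerm hp (((r OnePoint.infty)⁻¹ * g₀ : Gamma0 N) : SL(2, ℤ)) OnePoint.infty, h, ?_⟩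
    rw [← hh]; group
  · have e : cm N ((g x)⁻¹ * k h * g y) * tMat p y = tMat p x := by
      apply cm_mul_left_cancel N (g x)
      calc cm N (g x) * (cm N ((g x)⁻¹ * k h * g y) * tMat p y)
          = cm N (g x * ((g x)⁻¹ * k h * g y)) * tMat p y := by
            rw [(cm N).map_mul (g x) ((g x)⁻¹ * k h * g y), Matrix.mul_assoc]
        _ = cm N (k h) * (cm N (g y) * tMat p y) := by
            rw [show g x * ((g x)⁻¹ * k h * g y) = k h * g y by group,
              (cm N).map_mul (k h) (g y), Matrix.mul_assoc]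
        _ = cm N (k h) * E * cm N (r y) := by rw [← hrg, Matrix.mul_assoc]
        _ = E * cm N (j h * r y) := by rw [← hjk, (cm N).map_mul (j h) (r y), Matrix.mul_assoc]
        _ = cm N (g x) * tMat p x := by rw [← hxy, hrg]
    exact ((tMat_unique_aux hp (((g x)⁻¹ * k h * g y : Gamma0 N) : SL(2, ℤ)) y x e).1).symm

/-- **Abstract bridge**: the coset Hecke operator is `cores j ∘ precomp k`. -/
theorem tHom_eq_cores_of [NeZero p] (hp : p.Prime) (hpN : ¬ p ∣ N)
    (j k : Gamma0 (N * p) →* Gamma0 N) (hj : Function.Injective j) [j.range.FiniteIndex]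
    (E : Matrix (Fin 2) (Fin 2) ℤ)
    (hEr : ∀ X Y : Matrix (Fin 2) (Fin 2) ℤ, X * E = Y * E → X = Y)
    (hjk : ∀ h, E * cm N (j h) = cm N (k h) * E)
    (hrange : ∀ m h' : Gamma0 N, E * cm N m = cm N h' * E → m ∈ j.range)
    (r g : OnePoint (ZMod p) → Gamma0 N)
    (hrg : ∀ x, E * cm N (r x) = cm N (g x) * tMat p x)
    {A : Type*} [AddCommGroup A] (φ : Additive (Gamma0 N) →+ A) :
    tHom A hp hpN φ = cores j hj (precomp k φ) := by
  refine AddMonoidHom.ext fun a => ?_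
  obtain ⟨γ, rfl⟩ : ∃ γ : Gamma0 N, Additive.ofMul γ = a := ⟨Additive.toMul a, rfl⟩
  have hr := isRightTransversal_of hp hpN j k E hEr hjk hrange r g hrg
  choose h hh1 hh2 using fun x => exists_rel_of hp hpN j k E hEr hjk hrange r g hrg γ x
  rw [cores_apply_of_rel j hj r hr (precomp k φ) γ (rPerm hp (γ : SL(2, ℤ))) h hh1, tHom_apply]
  have e : ∀ x, precomp k φ (Additive.ofMul (h x)) =
      φ (Additive.ofMul (g x)) + φ (Additive.ofMul (coc hp hpN γ x))
        - φ (Additive.ofMul (g (rPerm hp (γ : SL(2, ℤ)) x))) := by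
    intro x
    rw [precomp_apply, hh2, ofMul_mul, ofMul_mul, ofMul_inv, map_add, map_add, map_neg,
      sub_eq_add_neg]
  rw [Finset.sum_congr rfl (fun x _ => e x), Finset.sum_sub_distrib, Finset.sum_add_distrib,
    Equiv.sum_comp (rPerm hp (γ : SL(2, ℤ))) (fun y => φ (Additive.ofMul (g y)))]
  abel

end abstract

/-! ### The concrete data -/

section concrete

variable {N p : ℕ}

theorem exists_bezout (hp : p.Prime) (hpN : ¬ p ∣ N) :
    ∃ u v : ℤ, (p : ℤ) * u - N * v = 1 := by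
  have hcop : Nat.Coprime p N := (Nat.Prime.coprime_iff_not_dvd hp).mpr hpN
  have h : IsCoprime (p : ℤ) (N : ℤ) := Nat.isCoprime_iff_coprime.mpr hcop
  obtain ⟨a, b, hab⟩ := h
  exact ⟨a, -b, by linear_combination hab⟩

theorem diagT_cancel (hp0 : p ≠ 0) (X Y : Matrix (Fin 2) (Fin 2) ℤ)
    (h : X * !![(p : ℤ), 0; 0, 1] = Y * !![(p : ℤ), 0; 0, 1]) : X = Y := by
  have hpz : (p : ℤ) ≠ 0 := by exact_mod_cast hp0
  ext i k
  have e := congrFun (congrFun h i) k
  fin_cases k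
  · simp only [Matrix.mul_apply, Fin.sum_univ_two, Matrix.of_apply, Matrix.cons_val',
      Matrix.cons_val_zero, Matrix.cons_val_one, Matrix.empty_val', Matrix.cons_val_fin_one,
      Fin.zero_eta, mul_zero, add_zero] at e
    exact mul_right_cancel₀ hpz e
  · simp only [Matrix.mul_apply, Fin.sum_univ_two, Matrix.of_apply, Matrix.cons_val',
      Matrix.cons_val_zero, Matrix.cons_val_one, Matrix.empty_val', Matrix.cons_val_fin_one,
      Fin.mk_one, mul_zero, zero_add, mul_one] at e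
    exact e

theorem diagU_cancel (hp0 : p ≠ 0) (X Y : Matrix (Fin 2) (Fin 2) ℤ)
    (h : X * !![1, 0; 0, (p : ℤ)] = Y * !![1, 0; 0, (p : ℤ)]) : X = Y := by
  have hpz : (p : ℤ) ≠ 0 := by exact_mod_cast hp0
  ext i k
  have e := congrFun (congrFun h i) k
  fin_cases k
  · simp only [Matrix.mul_apply, Fin.sum_univ_two, Matrix.of_apply, Matrix.cons_val',
      Matrix.cons_val_zero, Matrix.cons_val_one, Matrix.empty_val', Matrix.cons_val_fin_one,
      Fin.zero_eta, mul_zero, add_zero, mul_one] at e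
    exact e
  · simp only [Matrix.mul_apply, Fin.sum_univ_two, Matrix.of_apply, Matrix.cons_val',
      Matrix.cons_val_zero, Matrix.cons_val_one, Matrix.empty_val', Matrix.cons_val_fin_one,
      Fin.mk_one, mul_zero, zero_add] at e
    exact mul_right_cancel₀ hpz e

/-- Transversal of `inclLevel N p` (`E = diag(p, 1)`): `∞ ↦ 1`, `j ↦ [u, u j + v; N, N j + p]`. -/
def rT (N p : ℕ) (u v : ℤ) (huv : (p : ℤ) * u - N * v = 1) (x : OnePoint (ZMod p)) : Gamma0 N :=
  x.elim 1 (fun j => mkG N u (u * j.val + v) N (N * j.val + p) (by linear_combination huv)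
    (dvd_refl _))

/-- The cofactors of `rT`: `∞ ↦ 1`, `j ↦ [p u, v; N, 1]`. -/
def gT (N p : ℕ) (u v : ℤ) (huv : (p : ℤ) * u - N * v = 1) (x : OnePoint (ZMod p)) : Gamma0 N :=
  x.elim 1 (fun _ => mkG N (p * u) v N 1 (by linear_combination huv) (dvd_refl _))

theorem rT_gT (u v : ℤ) (huv : (p : ℤ) * u - N * v = 1) (x : OnePoint (ZMod p)) :
    !![(p : ℤ), 0; 0, 1] * cm N (rT N p u v huv x) = cm N (gT N p u v huv x) * tMat p x := by
  induction x using OnePoint.rec with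
  | infty =>
    show !![(p : ℤ), 0; 0, 1] * cm N 1 = cm N 1 * tMat p OnePoint.infty
    rw [map_one, tMat_infty, mul_one, one_mul]
  | coe j =>
    show !![(p : ℤ), 0; 0, 1] * !![u, u * (j.val : ℤ) + v; (N : ℤ), N * (j.val : ℤ) + p]
      = !![(p : ℤ) * u, v; (N : ℤ), 1] * !![1, (j.val : ℤ); 0, (p : ℤ)]
    ext i k
    fin_cases i <;> fin_cases k <;> simp [Matrix.mul_apply, Fin.sum_univ_two] <;> ring

/-- Transversal of `conjDelta N p` (`E = diag(1, p)`): `∞ ↦ [p u, v; N, 1]`, `j ↦ [1, j; 0, 1]`. -/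
def rU (N p : ℕ) (u v : ℤ) (huv : (p : ℤ) * u - N * v = 1) (x : OnePoint (ZMod p)) : Gamma0 N :=
  x.elim (mkG N (p * u) v N 1 (by linear_combination huv) (dvd_refl _))
    (fun j => mkG N 1 j.val 0 1 (by ring) (dvd_zero _))

/-- The cofactors of `rU`: `∞ ↦ [u, v; N, p]`, `j ↦ 1`. -/
def gU (N p : ℕ) (u v : ℤ) (huv : (p : ℤ) * u - N * v = 1) (x : OnePoint (ZMod p)) : Gamma0 N :=
  x.elim (mkG N u v N p (by linear_combination huv) (dvd_refl _)) (fun _ => 1)

theorem rU_gU (u v : ℤ) (huv : (p : ℤ) * u - N * v = 1) (x : OnePoint (ZMod p)) :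
    !![1, 0; 0, (p : ℤ)] * cm N (rU N p u v huv x) = cm N (gU N p u v huv x) * tMat p x := by
  induction x using OnePoint.rec with
  | infty =>
    show !![1, 0; 0, (p : ℤ)] * !![(p : ℤ) * u, v; (N : ℤ), 1]
      = !![u, v; (N : ℤ), (p : ℤ)] * !![(p : ℤ), 0; 0, 1]
    ext i k
    fin_cases i <;> fin_cases k <;> simp [Matrix.mul_apply, Fin.sum_univ_two] <;> ring
  | coe j =>
    show !![1, 0; 0, (p : ℤ)] * !![1, (j.val : ℤ); 0, 1] = cm N 1 * !![1, (j.val : ℤ); 0, (p : ℤ)]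
    rw [map_one, one_mul]
    ext i k
    fin_cases i <;> fin_cases k <;> simp [Matrix.mul_apply, Fin.sum_univ_two]

theorem diagT_incl_conj [NeZero p] (h : Gamma0 (N * p)) :
    !![(p : ℤ), 0; 0, 1] * cm N (inclLevel N p h) = cm N (conjDelta N p h) * !![(p : ℤ), 0; 0, 1] := by
  have hdiv : ((h : SL(2, ℤ)) : Matrix (Fin 2) (Fin 2) ℤ) 1 0 / p * p
      = ((h : SL(2, ℤ)) : Matrix (Fin 2) (Fin 2) ℤ) 1 0 :=
    Int.ediv_mul_cancel (dvd_of_mem_Gamma0_mul h)
  have e : cm N (conjDelta N p h) = !![(h : SL(2, ℤ)) 0 0, p * (h : SL(2, ℤ)) 0 1;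
      (h : SL(2, ℤ)) 1 0 / p, (h : SL(2, ℤ)) 1 1] := conjDelta_apply_coe N p h
  have e' : cm N (inclLevel N p h) = ((h : SL(2, ℤ)) : Matrix (Fin 2) (Fin 2) ℤ) := rfl
  rw [e, e']
  ext i k
  fin_cases i <;> fin_cases k <;> simp [Matrix.mul_apply, Fin.sum_univ_two, hdiv] <;> ring

theorem diagU_conj_incl [NeZero p] (h : Gamma0 (N * p)) :
    !![1, 0; 0, (p : ℤ)] * cm N (conjDelta N p h) = cm N (inclLevel N p h) * !![1, 0; 0, (p : ℤ)] := by
  have hdiv : (p : ℤ) * (((h : SL(2, ℤ)) : Matrix (Fin 2) (Fin 2) ℤ) 1 0 / p)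
      = ((h : SL(2, ℤ)) : Matrix (Fin 2) (Fin 2) ℤ) 1 0 :=
    Int.mul_ediv_cancel' (dvd_of_mem_Gamma0_mul h)
  have e : cm N (conjDelta N p h) = !![(h : SL(2, ℤ)) 0 0, p * (h : SL(2, ℤ)) 0 1;
      (h : SL(2, ℤ)) 1 0 / p, (h : SL(2, ℤ)) 1 1] := conjDelta_apply_coe N p h
  have e' : cm N (inclLevel N p h) = ((h : SL(2, ℤ)) : Matrix (Fin 2) (Fin 2) ℤ) := rfl
  rw [e, e']
  ext i k
  fin_cases i <;> fin_cases k <;> simp [Matrix.mul_apply, Fin.sum_univ_two, hdiv] <;> ring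

theorem mem_range_inclLevel_of (hcop : Nat.Coprime N p) (m h' : Gamma0 N)
    (h : !![(p : ℤ), 0; 0, 1] * cm N m = cm N h' * !![(p : ℤ), 0; 0, 1]) :
    m ∈ (inclLevel N p).range := by
  rw [mem_range_inclLevel_iff hcop]
  have e := congrFun (congrFun h 1) 0
  simp only [Matrix.mul_apply, Fin.sum_univ_two, Matrix.of_apply, Matrix.cons_val',
    Matrix.cons_val_zero, Matrix.cons_val_one, Matrix.empty_val', Matrix.cons_val_fin_one,
    mul_zero, add_zero, zero_mul, zero_add, one_mul, cm_apply] at e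
  exact ⟨_, by rw [e]; ring⟩

theorem mem_range_conjDelta_of [NeZero p] (m h' : Gamma0 N)
    (h : !![1, 0; 0, (p : ℤ)] * cm N m = cm N h' * !![1, 0; 0, (p : ℤ)]) :
    m ∈ (conjDelta N p).range := by
  rw [mem_range_conjDelta_iff]
  have e := congrFun (congrFun h 0) 1
  simp only [Matrix.mul_apply, Fin.sum_univ_two, Matrix.of_apply, Matrix.cons_val',
    Matrix.cons_val_zero, Matrix.cons_val_one, Matrix.empty_val', Matrix.cons_val_fin_one,
    mul_zero, add_zero, zero_mul, zero_add, one_mul, cm_apply] at e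
  exact ⟨_, by rw [e]; ring⟩

end concrete

/-! ### The bridge -/

section bridge

variable {N p : ℕ} [NeZero N] [NeZero p]

/-- **(G-a)**: the coset Hecke operator `T_p` (`p ∤ N`) is `tr₁ ∘ res₂`. -/
theorem tHom_eq_heckeT (hp : p.Prime) (hpN : ¬ p ∣ N) {A : Type*} [AddCommGroup A]
    (φ : Additive (Gamma0 N) →+ A) : tHom A hp hpN φ = heckeT N p φ := by
  have hcop : Nat.Coprime N p := ((Nat.Prime.coprime_iff_not_dvd hp).mpr hpN).symm
  obtain ⟨u, v, huv⟩ := exists_bezout hp hpN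
  exact tHom_eq_cores_of hp hpN (inclLevel N p) (conjDelta N p) (inclLevel_injective N p)
    !![(p : ℤ), 0; 0, 1] (diagT_cancel hp.ne_zero) diagT_incl_conj (mem_range_inclLevel_of hcop)
    (rT N p u v huv) (gT N p u v huv) (rT_gT u v huv) φ

/-- The coset Hecke operator `T_p` (`p ∤ N`) is also `tr₂ ∘ res₁`. -/
theorem tHom_eq_heckeU (hp : p.Prime) (hpN : ¬ p ∣ N) {A : Type*} [AddCommGroup A]
    (φ : Additive (Gamma0 N) →+ A) : tHom A hp hpN φ = heckeU N p φ := by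
  obtain ⟨u, v, huv⟩ := exists_bezout hp hpN
  exact tHom_eq_cores_of hp hpN (conjDelta N p) (inclLevel N p) (conjDelta_injective N p)
    !![1, 0; 0, (p : ℤ)] (diagU_cancel hp.ne_zero) diagU_conj_incl mem_range_conjDelta_of
    (rU N p u v huv) (gU N p u v huv) (rU_gU u v huv) φ

/-- For `p ∤ N`: `tr₁ ∘ res₂ = tr₂ ∘ res₁` on `Hom(Γ₀(N), A)`. -/
theorem heckeT_eq_heckeU (hp : p.Prime) (hpN : ¬ p ∣ N) {A : Type*} [AddCommGroup A]
    (φ : Additive (Gamma0 N) →+ A) : heckeT N p φ = heckeU N p φ :=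
  (tHom_eq_heckeT hp hpN φ).symm.trans (tHom_eq_heckeU hp hpN φ)

omit [NeZero N] in
/-- Explicit right transversal of `inclLevel N p` (`p ∤ N`), indexed by `ℙ¹(𝔽_p)`. -/
theorem isRightTransversal_rT (hp : p.Prime) (hpN : ¬ p ∣ N) (u v : ℤ)
    (huv : (p : ℤ) * u - N * v = 1) : IsRightTransversal (inclLevel N p) (rT N p u v huv) :=
  isRightTransversal_of hp hpN (inclLevel N p) (conjDelta N p) !![(p : ℤ), 0; 0, 1]
    (diagT_cancel hp.ne_zero) diagT_incl_conj
    (mem_range_inclLevel_of ((Nat.Prime.coprime_iff_not_dvd hp).mpr hpN).symm)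
    (rT N p u v huv) (gT N p u v huv) (rT_gT u v huv)

omit [NeZero N] in
/-- Explicit right transversal of `conjDelta N p` (`p ∤ N`), indexed by `ℙ¹(𝔽_p)`. -/
theorem isRightTransversal_rU (hp : p.Prime) (hpN : ¬ p ∣ N) (u v : ℤ)
    (huv : (p : ℤ) * u - N * v = 1) : IsRightTransversal (conjDelta N p) (rU N p u v huv) :=
  isRightTransversal_of hp hpN (conjDelta N p) (inclLevel N p) !![1, 0; 0, (p : ℤ)]
    (diagU_cancel hp.ne_zero) diagU_conj_incl mem_range_conjDelta_of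
    (rU N p u v huv) (gU N p u v huv) (rU_gU u v huv)

omit [NeZero N] in
theorem card_onePoint_zmod : Fintype.card (OnePoint (ZMod p)) = p + 1 := by
  show Fintype.card (Option (ZMod p)) = p + 1
  rw [Fintype.card_option, ZMod.card]

/-- `tr₁ ∘ res₁ = p + 1` for `p ∤ N`. -/
theorem tr₁_res₁_eq (hp : p.Prime) (hpN : ¬ p ∣ N) {A : Type*} [AddCommGroup A]
    (φ : Additive (Gamma0 N) →+ A) : tr₁ N p (res₁ N p φ) = (p + 1) • φ := by
  obtain ⟨u, v, huv⟩ := exists_bezout hp hpN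
  rw [tr₁_res₁ N p _ (isRightTransversal_rT hp hpN u v huv) φ, card_onePoint_zmod]

/-- `tr₂ ∘ res₂ = p + 1` for `p ∤ N`. -/
theorem tr₂_res₂_eq (hp : p.Prime) (hpN : ¬ p ∣ N) {A : Type*} [AddCommGroup A]
    (φ : Additive (Gamma0 N) →+ A) : tr₂ N p (res₂ N p φ) = (p + 1) • φ := by
  obtain ⟨u, v, huv⟩ := exists_bezout hp hpN
  rw [tr₂_res₂ N p _ (isRightTransversal_rU hp hpN u v huv) φ, card_onePoint_zmod]

end bridge

end Fermat.Agent.S41.HeckeBridge
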