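import Mathlib

/-!
# S41 (P3, orbit lemma): the arithmetic input of the orbit sum

`l` a prime with `l ≡ 1 mod p ^ (v_p(2k) + 1)` and `q` not a `p`-th power residue mod `l`
(Kummer condition `q ^ ((l - 1) / p) ≠ 1` in `ZMod l`).  Then `p` divides the order of
`q ^ (2k)` in `ZMod l`, i.e. the orbits of multiplication by `q ^ (2k)` on `(ZMod l)ˣ` have
length divisible by `p`.  This is hypothesis `hord` of `EisOrbit.prod_orbit_T`.
-/

set_option autoImplicit false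

namespace Fermat.Agent.S41.EisArith

/-- Pure divisibility core: if `d ∣ n`, `d ∤ n / p`, `p ^ (e + 1) ∣ n`, then `p ^ (e + 1) ∣ d`. -/
theorem pow_dvd_of_not_dvd_div {p : ℕ} (hp : p.Prime) {d n e : ℕ} (hdn : d ∣ n)
    (hnd : ¬ d ∣ n / p) (hpn : p ^ (e + 1) ∣ n) : p ^ (e + 1) ∣ d := by
  obtain ⟨c, rfl⟩ := hdn
  have hpc : ¬ p ∣ c := by
    rintro ⟨c', rfl⟩
    apply hnd
    have : d * (p * c') / p = d * c' := by
      rw [show d * (p * c') = p * (d * c') by ring]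
      exact Nat.mul_div_cancel_left _ hp.pos
    rw [this]
    exact dvd_mul_right _ _
  have hcop : Nat.Coprime (p ^ (e + 1)) c :=
    Nat.Coprime.pow_left _ ((Nat.Prime.coprime_iff_not_dvd hp).mpr hpc)
  exact hcop.dvd_of_dvd_mul_right hpn

/-- Pure divisibility core: if `p ^ (e + 1) ∣ d` and `p ^ (e + 1) ∤ n` then `p ∣ d / gcd d n`. -/
theorem dvd_div_gcd_of_pow_dvd {p : ℕ} (hp : p.Prime) {d n e : ℕ} (hd : p ^ (e + 1) ∣ d)
    (hn : ¬ p ^ (e + 1) ∣ n) : p ∣ d / Nat.gcd d n := by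
  obtain ⟨d', hd'⟩ := Nat.gcd_dvd_left d n
  have hg0 : 0 < Nat.gcd d n := by
    rcases Nat.eq_zero_or_pos (Nat.gcd d n) with h0 | h0
    · exfalso
      apply hn
      have : n = 0 := (Nat.gcd_eq_zero_iff.mp h0).2
      rw [this]
      exact dvd_zero _
    · exact h0
  have hdiv : d / Nat.gcd d n = d' := Nat.div_eq_of_eq_mul_right hg0 hd'
  rw [hdiv]
  by_contra hpd
  have hcop : Nat.Coprime (p ^ (e + 1)) d' :=
    Nat.Coprime.pow_left _ ((Nat.Prime.coprime_iff_not_dvd hp).mpr hpd)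
  have h1 : p ^ (e + 1) ∣ Nat.gcd d n := by
    apply hcop.dvd_of_dvd_mul_right
    rw [← hd']
    exact hd
  exact hn (h1.trans (Nat.gcd_dvd_right d n))

/-- **Arithmetic input of the orbit lemma.**  If `l ≡ 1 mod p ^ (v_p(2k) + 1)` and `q` is not a
`p`-th power residue modulo the prime `l`, then `p` divides the order of `q ^ (2k)` in `ZMod l`. -/
theorem dvd_orderOf_pow {p l q k : ℕ} (hp : p.Prime) (hl : l.Prime) (hlq : ¬ l ∣ q)
    (hk : 1 ≤ k) (hl1 : l ≡ 1 [MOD p ^ (padicValNat p (2 * k) + 1)])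
    (hkum : (q : ZMod l) ^ ((l - 1) / p) ≠ 1) :
    p ∣ orderOf ((q : ZMod l) ^ (2 * k)) := by
  have : Fact l.Prime := ⟨hl⟩
  have : Fact p.Prime := ⟨hp⟩
  have hq0 : (q : ZMod l) ≠ 0 := by
    intro h0
    exact hlq ((ZMod.natCast_eq_zero_iff q l).mp h0)
  have hfermat : (q : ZMod l) ^ (l - 1) = 1 := ZMod.pow_card_sub_one_eq_one hq0
  have hdn : orderOf (q : ZMod l) ∣ l - 1 := orderOf_dvd_of_pow_eq_one hfermat
  have hnd : ¬ orderOf (q : ZMod l) ∣ (l - 1) / p := by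
    intro h
    exact hkum (orderOf_dvd_iff_pow_eq_one.mp h)
  have hpn : p ^ (padicValNat p (2 * k) + 1) ∣ l - 1 :=
    (Nat.modEq_iff_dvd' hl.one_le).mp hl1.symm
  have hd : p ^ (padicValNat p (2 * k) + 1) ∣ orderOf (q : ZMod l) :=
    pow_dvd_of_not_dvd_div hp hdn hnd hpn
  have h2k : 2 * k ≠ 0 := by omega
  have hn : ¬ p ^ (padicValNat p (2 * k) + 1) ∣ 2 * k :=
    pow_succ_padicValNat_not_dvd h2k
  rw [orderOf_pow' _ h2k]
  exact dvd_div_gcd_of_pow_dvd hp hd hn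

/-- The same with `l ≡ 1 mod p ^ (v_p(2k) + 1)` stated as a divisibility of `l - 1`. -/
theorem dvd_orderOf_pow_of_dvd {p l q k : ℕ} (hp : p.Prime) (hl : l.Prime) (hlq : ¬ l ∣ q)
    (hk : 1 ≤ k) (hl1 : p ^ (padicValNat p (2 * k) + 1) ∣ l - 1)
    (hkum : (q : ZMod l) ^ ((l - 1) / p) ≠ 1) :
    p ∣ orderOf ((q : ZMod l) ^ (2 * k)) :=
  dvd_orderOf_pow hp hl hlq hk ((Nat.modEq_iff_dvd' hl.one_le).mpr hl1).symm hkum

/-- Orbit form: multiplication by `q ^ (2k)` on `ZMod l` has no orbit of length prime to `p`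
among the units: `(q ^ (2k)) ^ i = 1` forces `p ∣ i`. -/
theorem dvd_of_pow_pow_eq_one {p l q k : ℕ} (hp : p.Prime) (hl : l.Prime) (hlq : ¬ l ∣ q)
    (hk : 1 ≤ k) (hl1 : l ≡ 1 [MOD p ^ (padicValNat p (2 * k) + 1)])
    (hkum : (q : ZMod l) ^ ((l - 1) / p) ≠ 1) {i : ℕ}
    (hi : ((q : ZMod l) ^ (2 * k)) ^ i = 1) : p ∣ i :=
  (dvd_orderOf_pow hp hl hlq hk hl1 hkum).trans (orderOf_dvd_of_pow_eq_one hi)

end Fermat.Agent.S41.EisArith
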