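import Mathlib
import Fermat.Agent.S22.GammaFG
import Fermat.Agent.S30.BettiHecke.Hom
import Fermat.Agent.S41.Ihara.Unip

/-!
# S41: the generator layer of the orbit lemma (replacement of (P3))

The orbit lemma (`EisOrbit.prod_orbit_T`) proves `∏_x Φ(γ'_x) = Φ(γ)^2` for ONE element
`γ ∈ Γ₀(N)` under conditions on the prime `l` that depend on the lower left entry of `γ`.
This file makes the conditions uniform and passes from generators to all of `Γ₀(N)`:

* `exists_finset_gen`: `Γ₀(N)` is generated by a finite set of elements whose lower left entry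
  is prime to `q` (`q ∤ N`);  `genSet N q` is such a set;
* `genC N q` (product of the `|c|`), `eisExp N q` (`= k`, with `q^(2k) ≡ 1` modulo every `c`),
  `eisModulus N q p = genC * p^(v_p(2k)+1)`;
* `tHom_eq_two_smul_of_gen`, `prod_eq_sq_of_gen`: if the orbit identity holds (with the canonical
  coset data `rPerm`, `coc` of `S30.BettiHecke`) on a generating set, then it holds for every
  `γ` and every decomposition `α_x γ = γ'_x α_{σ x}`.
-/

set_option autoImplicit false

open scoped MatrixGroups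
open CongruenceSubgroup Matrix.SpecialLinearGroup
open Fermat.Agent.S22.HeckePerm Fermat.Agent.S30.BettiHecke Fermat.Agent.S41.Ihara

namespace Fermat.Agent.S41.EisGen

/-- The lower unipotent matrix `[[1, 0], [N, 1]]`. -/
def lowMat (N : ℕ) : SL(2, ℤ) := ⟨!![1, 0; (N : ℤ), 1], by simp [Matrix.det_fin_two_of]⟩

theorem lowMat_mem (N : ℕ) : lowMat N ∈ Gamma0 N := by
  rw [Gamma0_mem]
  simp [lowMat]

/-- The lower unipotent `[[1, 0], [N, 1]] ∈ Γ₀(N)`. -/
def lowN (N : ℕ) : Gamma0 N := ⟨lowMat N, lowMat_mem N⟩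

theorem lowN_coe (N : ℕ) :
    (((lowN N : Gamma0 N) : SL(2, ℤ)) : Matrix (Fin 2) (Fin 2) ℤ) = !![1, 0; (N : ℤ), 1] := rfl

/-- The lower left entry of `g * lowN N`. -/
theorem mul_lowN_c (N : ℕ) (g : Gamma0 N) :
    (((g * lowN N : Gamma0 N) : SL(2, ℤ)) : Matrix (Fin 2) (Fin 2) ℤ) 1 0 =
      ((g : SL(2, ℤ)) : Matrix (Fin 2) (Fin 2) ℤ) 1 0 +
        ((g : SL(2, ℤ)) : Matrix (Fin 2) (Fin 2) ℤ) 1 1 * N := by
  rw [Subgroup.coe_mul, Matrix.SpecialLinearGroup.coe_mul, lowN_coe, Matrix.mul_apply,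
    Fin.sum_univ_two]
  simp

/-- **(G1)** `Γ₀(N)` is generated by a finite set of elements whose lower left entry is prime
to `q`. -/
theorem exists_finset_gen {N q : ℕ} [NeZero N] (hq : q.Prime) (hqN : ¬ q ∣ N) :
    ∃ S : Finset (Gamma0 N), Subgroup.closure (S : Set (Gamma0 N)) = ⊤ ∧
      ∀ g ∈ S, ¬ (q : ℤ) ∣ ((g : SL(2, ℤ)) : Matrix (Fin 2) (Fin 2) ℤ) 1 0 := by
  classical
  obtain ⟨S₀, hS₀⟩ := (Fermat.Agent.S22.GammaFG.gamma0_fg N).out
  have hqN' : ¬ (q : ℤ) ∣ (N : ℤ) := fun h => hqN (Int.natCast_dvd_natCast.mp h)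
  have hqp : Prime (q : ℤ) := Nat.prime_iff_prime_int.mp hq
  let f : Gamma0 N → Gamma0 N := fun g =>
    if (q : ℤ) ∣ ((g : SL(2, ℤ)) : Matrix (Fin 2) (Fin 2) ℤ) 1 0 then g * lowN N else g
  refine ⟨insert (lowN N) (S₀.image f), ?_, ?_⟩
  · rw [eq_top_iff, ← hS₀, Subgroup.closure_le]
    intro g hg
    have hh : lowN N ∈ Subgroup.closure (↑(insert (lowN N) (S₀.image f)) : Set (Gamma0 N)) :=
      Subgroup.subset_closure (by simp)
    have hf : f g ∈ Subgroup.closure (↑(insert (lowN N) (S₀.image f)) : Set (Gamma0 N)) :=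
      Subgroup.subset_closure (by
        simp only [Finset.coe_insert, Finset.coe_image, Set.mem_insert_iff, Set.mem_image,
          Finset.mem_coe]
        exact Or.inr ⟨g, hg, rfl⟩)
    by_cases hc : (q : ℤ) ∣ ((g : SL(2, ℤ)) : Matrix (Fin 2) (Fin 2) ℤ) 1 0
    · have e : f g * (lowN N)⁻¹ = g := by simp [f, hc]
      have := Subgroup.mul_mem _ hf (Subgroup.inv_mem _ hh)
      rw [e] at this
      exact this
    · have e : f g = g := by simp [f, hc]
      rw [e] at hf
      exact hf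
  · intro g hg
    rw [Finset.mem_insert, Finset.mem_image] at hg
    rcases hg with rfl | ⟨g₀, -, rfl⟩
    · rw [lowN_coe]
      simpa using hqN'
    · by_cases hc : (q : ℤ) ∣ ((g₀ : SL(2, ℤ)) : Matrix (Fin 2) (Fin 2) ℤ) 1 0
      · have e : f g₀ = g₀ * lowN N := by simp [f, hc]
        rw [e, mul_lowN_c]
        intro h
        have h2 : (q : ℤ) ∣ ((g₀ : SL(2, ℤ)) : Matrix (Fin 2) (Fin 2) ℤ) 1 1 * N :=
          (Int.dvd_add_right hc).mp h
        have h3 : (q : ℤ) ∣ ((g₀ : SL(2, ℤ)) : Matrix (Fin 2) (Fin 2) ℤ) 1 1 :=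
          (hqp.dvd_or_dvd h2).resolve_right hqN'
        have hdet := (g₀ : SL(2, ℤ)).det_coe
        rw [Matrix.det_fin_two] at hdet
        have h4 : (q : ℤ) ∣ 1 := by
          rw [← hdet]
          exact Dvd.dvd.sub (Dvd.dvd.mul_left h3 _) (Dvd.dvd.mul_left hc _)
        exact hqp.not_dvd_one h4
      · have e : f g₀ = g₀ := by simp [f, hc]
        rw [e]
        exact hc

/-! ### The generating set, the modulus -/

/-- The lower left entry of an element of `Γ₀(N)`. -/
def lowerLeft {N : ℕ} (g : Gamma0 N) : ℤ := ((g : SL(2, ℤ)) : Matrix (Fin 2) (Fin 2) ℤ) 1 0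

/-- A finite generating set of `Γ₀(N)` whose elements have lower left entry prime to `q`
(`∅` unless `q` is a prime not dividing `N`). -/
noncomputable def genSet (N q : ℕ) [NeZero N] : Finset (Gamma0 N) :=
  if h : q.Prime ∧ ¬ q ∣ N then Classical.choose (exists_finset_gen h.1 h.2) else ∅

theorem genSet_closure {N q : ℕ} [NeZero N] (hq : q.Prime) (hqN : ¬ q ∣ N) :
    Subgroup.closure (genSet N q : Set (Gamma0 N)) = ⊤ := by
  have h : q.Prime ∧ ¬ q ∣ N := ⟨hq, hqN⟩
  rw [genSet, dif_pos h]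
  exact (Classical.choose_spec (exists_finset_gen h.1 h.2)).1

theorem genSet_not_dvd {N q : ℕ} [NeZero N] {g : Gamma0 N} (hg : g ∈ genSet N q) :
    ¬ (q : ℤ) ∣ lowerLeft g := by
  by_cases h : q.Prime ∧ ¬ q ∣ N
  · rw [genSet, dif_pos h] at hg
    exact (Classical.choose_spec (exists_finset_gen h.1 h.2)).2 g hg
  · rw [genSet, dif_neg h] at hg
    simp at hg

/-- The product of the absolute values of the lower left entries of the generators. -/
noncomputable def genC (N q : ℕ) [NeZero N] : ℕ := ∏ g ∈ genSet N q, (lowerLeft g).natAbs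

theorem genC_pos (N q : ℕ) [NeZero N] : 0 < genC N q := by
  refine Finset.prod_pos fun g hg => ?_
  rw [Int.natAbs_pos]
  intro h0
  exact genSet_not_dvd hg (h0 ▸ dvd_zero _)

theorem lowerLeft_dvd_genC {N q : ℕ} [NeZero N] {g : Gamma0 N} (hg : g ∈ genSet N q) :
    lowerLeft g ∣ (genC N q : ℤ) := by
  rw [← Int.natAbs_dvd, Int.natCast_dvd_natCast]
  exact Finset.dvd_prod_of_mem _ hg

theorem coprime_genC {N q : ℕ} [NeZero N] (hq : q.Prime) : Nat.Coprime q (genC N q) := by
  refine Nat.Coprime.prod_right fun g hg => ?_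
  rw [Nat.Prime.coprime_iff_not_dvd hq]
  intro h
  exact genSet_not_dvd hg (Int.natCast_dvd.mpr h)

/-- The exponent `k` with `q ^ (2 k) ≡ 1` modulo every generator's lower left entry. -/
noncomputable def eisExp (N q : ℕ) [NeZero N] : ℕ := Nat.totient (genC N q)

theorem eisExp_pos (N q : ℕ) [NeZero N] : 0 < eisExp N q :=
  Nat.totient_pos.mpr (genC_pos N q)

theorem pow_eisExp_modEq {N q : ℕ} [NeZero N] (hq : q.Prime) {g : Gamma0 N}
    (hg : g ∈ genSet N q) : (q : ℤ) ^ (2 * eisExp N q) ≡ 1 [ZMOD lowerLeft g] := by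
  have h1 : q ^ eisExp N q ≡ 1 [MOD genC N q] := Nat.ModEq.pow_totient (coprime_genC hq)
  have h2 : (q : ℤ) ^ eisExp N q ≡ 1 [ZMOD (genC N q : ℤ)] := by
    have := (Int.natCast_modEq_iff).mpr h1
    simpa using this
  have h3 : (q : ℤ) ^ eisExp N q ≡ 1 [ZMOD lowerLeft g] :=
    Int.ModEq.of_dvd (lowerLeft_dvd_genC hg) h2
  have h4 := h3.pow 2
  rw [← pow_mul, one_pow, mul_comm] at h4
  exact h4

/-- **The modulus.** For primes `l ≡ 1` modulo `eisModulus N q p` (and `q` not a `p`-th power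
mod `l`) the orbit lemma applies to all generators of `Γ₀(N)`. -/
noncomputable def eisModulus (N q p : ℕ) [NeZero N] : ℕ :=
  genC N q * p ^ (padicValNat p (2 * eisExp N q) + 1)

theorem eisModulus_pos (N q : ℕ) [NeZero N] {p : ℕ} (hp : 0 < p) : 0 < eisModulus N q p :=
  Nat.mul_pos (genC_pos N q) (pow_pos hp _)

theorem dvd_eisModulus (N q p : ℕ) [NeZero N] : p ∣ eisModulus N q p :=
  Dvd.dvd.mul_left (dvd_pow_self p (Nat.succ_ne_zero _)) _

/-! ### From generators to all of `Γ₀(N)` -/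

/-- Two additive characters of a group that agree on a generating set are equal. -/
theorem addHom_eq_of_closure {G : Type*} [Group G] {B : Type*} [AddCommGroup B] (S : Set G)
    (hS : Subgroup.closure S = ⊤) (f g : Additive G →+ B)
    (h : ∀ s ∈ S, f (Additive.ofMul s) = g (Additive.ofMul s)) : f = g := by
  have key : ∀ x : G, f (Additive.ofMul x) = g (Additive.ofMul x) := by
    intro x
    have hx : x ∈ Subgroup.closure S := by rw [hS]; trivial
    induction hx using Subgroup.closure_induction with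
    | mem x hx => exact h x hx
    | one => simp
    | mul x y _ _ ihx ihy => rw [ofMul_mul, map_add, map_add, ihx, ihy]
    | inv x _ ihx => rw [ofMul_inv, map_neg, map_neg, ihx]
  exact AddMonoidHom.ext fun a => key (Additive.toMul a)

/-- The statement of the orbit lemma for one element `γ` (conclusion of
`EisOrbit.prod_orbit_T` with the canonical coset data `rPerm`, `coc`). -/
def OrbitAt {N q : ℕ} {K : Type*} [CommGroup K] (Φ : iharaGroup N q →* K) {l : ℕ}
    [NeZero l] (hl : l.Prime) (hlN : ¬ l ∣ N) (γ : Gamma0 N) : Prop :=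
  ∏ x : OnePoint (ZMod l), Φ (incl N q (coc hl hlN γ x)) = Φ (incl N q γ) ^ 2

/-- If the orbit identity holds on a generating set, then `T_l (Φ ∘ incl) = 2 • (Φ ∘ incl)`. -/
theorem tHom_eq_two_smul_of_gen {N q : ℕ} {K : Type*} [CommGroup K] (Φ : iharaGroup N q →* K)
    {l : ℕ} [NeZero l] (hl : l.Prime) (hlN : ¬ l ∣ N) (S : Set (Gamma0 N))
    (hS : Subgroup.closure S = ⊤) (h : ∀ γ ∈ S, OrbitAt Φ hl hlN γ) :
    tHom (Additive K) hl hlN (MonoidHom.toAdditive (Φ.comp (incl N q))) =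
      2 • MonoidHom.toAdditive (Φ.comp (incl N q)) := by
  refine addHom_eq_of_closure S hS _ _ fun γ hγ => ?_
  rw [tHom_apply]
  have h1 := h γ hγ
  unfold OrbitAt at h1
  have h2 := congrArg Additive.ofMul h1
  rw [ofMul_prod, ofMul_pow] at h2
  exact h2

/-- The orbit identity at every `γ`, in relational form. -/
theorem prod_eq_sq_of_gen {N q : ℕ} {K : Type*} [CommGroup K] (Φ : iharaGroup N q →* K)
    {l : ℕ} [NeZero l] (hl : l.Prime) (hlN : ¬ l ∣ N) (S : Set (Gamma0 N))
    (hS : Subgroup.closure S = ⊤) (h : ∀ γ ∈ S, OrbitAt Φ hl hlN γ)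
    (γ : Gamma0 N) (σ : Equiv.Perm (OnePoint (ZMod l))) (γ' : OnePoint (ZMod l) → Gamma0 N)
    (hrel : ∀ x, tRep l x * mapGL ℝ (γ : SL(2, ℤ))
      = mapGL ℝ ((γ' x : Gamma0 N) : SL(2, ℤ)) * tRep l (σ x)) :
    ∏ x, Φ (incl N q (γ' x)) = Φ (incl N q γ) ^ 2 := by
  have hγ' : ∀ x, γ' x = coc hl hlN γ x := fun x =>
    (Subtype.ext (coc_unique hl hlN γ x (σ x) (γ' x : SL(2, ℤ)) (hrel x)).2).symm
  have h1 := tHom_eq_two_smul_of_gen Φ hl hlN S hS h
  have h2 := DFunLike.congr_fun h1 (Additive.ofMul γ)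
  rw [tHom_apply] at h2
  have h3 := congrArg Additive.toMul h2
  rw [toMul_sum] at h3
  simp only [hγ']
  exact h3

end Fermat.Agent.S41.EisGen
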