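import Mathlib
import Fermat.Agent.S22.HeckePerm

/-!
# S41, consumer lemma between (P3) and (P7): congruence characters are Eisenstein

Let `φ` be a homomorphism from `Γ₀(N)` to a commutative group which is trivial on
`Γ₀(N) ∩ Γ(M)` (a "congruence character of level `M`").  Then for every prime `q ≡ 1 mod M`
and ANY decomposition `α_x γ = γ'_x α_{σ x}` of the `T_q` coset representatives
(`S22.HeckePerm.tRep`), one has `∏_x φ(γ'_x) = φ(γ)^(q+1)`, i.e. `T_q φ = (q+1) φ`.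

Proof: for `q ≡ 1 mod M` the representatives `[1,j;0,q]`, `[q,0;0,1]` are congruent modulo `M`
to the unipotent matrices `u_x = [1,b_x;0,1] ∈ Γ₀(N)`, hence `γ'_x u_{σ x} ≡ u_x γ mod M`,
so `φ(γ'_x) φ(u_{σ x}) = φ(u_x) φ(γ)`; the `φ(u_x)` cancel in the product over `x` because `σ`
is a permutation.
-/

set_option autoImplicit false

open scoped MatrixGroups
open CongruenceSubgroup Matrix.SpecialLinearGroup ModularForm
open Fermat.Agent.S22.HeckePerm

namespace Fermat.Agent.S41.CongEis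

/-- The integer matrix of the `T_q` coset representative `tRep q x`. -/
def repZ (q : ℕ) (x : OnePoint (ZMod q)) : Matrix (Fin 2) (Fin 2) ℤ :=
  x.elim !![(q : ℤ), 0; 0, 1] (fun j => !![1, (j.val : ℤ); 0, (q : ℤ)])

/-- The upper right entry of the unipotent matrix congruent to `tRep q x`. -/
def repB (q : ℕ) (x : OnePoint (ZMod q)) : ℤ := x.elim 0 (fun j => (j.val : ℤ))

theorem tRep_val_eq_map {q : ℕ} (hq : q ≠ 0) (x : OnePoint (ZMod q)) :
    ((tRep q x : GL (Fin 2) ℝ) : Matrix (Fin 2) (Fin 2) ℝ)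
      = (repZ q x).map (Int.castRingHom ℝ) := by
  induction x using OnePoint.rec with
  | infty =>
    rw [tRep_infty, val_heckeDiagMatrix hq]
    ext i j
    fin_cases i <;> fin_cases j <;> simp [repZ]
  | coe j =>
    rw [tRep_coe, val_heckeMatrix hq]
    ext i k
    fin_cases i <;> fin_cases k <;> simp [repZ]

theorem mapGL_val_eq_map (g : SL(2, ℤ)) :
    ((mapGL ℝ g : GL (Fin 2) ℝ) : Matrix (Fin 2) (Fin 2) ℝ)
      = (g : Matrix (Fin 2) (Fin 2) ℤ).map (Int.castRingHom ℝ) := by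
  ext i j
  simp [mapGL_coe_matrix]

/-- The coset relation as an identity of integer matrices. -/
theorem rel_int {q : ℕ} (hq : q ≠ 0) (x y : OnePoint (ZMod q)) (g g' : SL(2, ℤ))
    (h : tRep q x * mapGL ℝ g = mapGL ℝ g' * tRep q y) :
    repZ q x * (g : Matrix (Fin 2) (Fin 2) ℤ) = (g' : Matrix (Fin 2) (Fin 2) ℤ) * repZ q y := by
  have h1 := congrArg (fun A : GL (Fin 2) ℝ => (A : Matrix (Fin 2) (Fin 2) ℝ)) h
  simp only [Units.val_mul, tRep_val_eq_map hq, mapGL_val_eq_map] at h1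
  rw [← Matrix.map_mul, ← Matrix.map_mul] at h1
  exact Matrix.map_injective (RingHom.injective_int (Int.castRingHom ℝ)) h1

/-- The unipotent matrix `[1, b; 0, 1]`. -/
def uMat (b : ℤ) : SL(2, ℤ) := ⟨!![1, b; 0, 1], by simp [Matrix.det_fin_two_of]⟩

theorem uMat_mem_Gamma0 (N : ℕ) (b : ℤ) : uMat b ∈ Gamma0 N := by
  rw [Gamma0_mem]
  simp [uMat]

/-- `[1, b; 0, 1]` as an element of `Γ₀(N)`. -/
def uG (N : ℕ) (b : ℤ) : Gamma0 N := ⟨uMat b, uMat_mem_Gamma0 N b⟩

/-- For `q ≡ 1 mod M` the representative `tRep q x` is congruent to `[1, b_x; 0, 1]` mod `M`. -/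
theorem repZ_map_eq {q M : ℕ} (hqM : ((q : ℕ) : ZMod M) = 1) (x : OnePoint (ZMod q)) :
    (repZ q x).map (Int.castRingHom (ZMod M))
      = ((uMat (repB q x) : SL(2, ℤ)) : Matrix (Fin 2) (Fin 2) ℤ).map (Int.castRingHom (ZMod M)) := by
  induction x using OnePoint.rec with
  | infty =>
    ext i j
    fin_cases i <;> fin_cases j <;> simp [repZ, repB, uMat, hqM]
  | coe j =>
    ext i k
    fin_cases i <;> fin_cases k <;> simp [repZ, repB, uMat, hqM]

/-- Two elements of `SL(2, ℤ)` with the same reduction modulo `M` differ by an element of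
`Γ(M)`. -/
theorem inv_mul_mem_Gamma {M : ℕ} (a b : SL(2, ℤ))
    (h : (a : Matrix (Fin 2) (Fin 2) ℤ).map (Int.castRingHom (ZMod M))
      = (b : Matrix (Fin 2) (Fin 2) ℤ).map (Int.castRingHom (ZMod M))) :
    a⁻¹ * b ∈ Gamma M := by
  have hab : Matrix.SpecialLinearGroup.map (Int.castRingHom (ZMod M)) a
      = Matrix.SpecialLinearGroup.map (Int.castRingHom (ZMod M)) b := by
    apply Matrix.SpecialLinearGroup.ext
    intro i j
    have := congrFun (congrFun h i) j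
    simpa [Matrix.SpecialLinearGroup.map_apply_coe, RingHom.mapMatrix_apply] using this
  change a⁻¹ * b ∈ (Matrix.SpecialLinearGroup.map (Int.castRingHom (ZMod M))).ker
  rw [MonoidHom.mem_ker, map_mul, map_inv, hab, inv_mul_cancel]

/-- The pointwise relation: `γ'_x u_{σ x} = u_x γ δ_x` with `δ_x ∈ Γ(M)`. -/
theorem exists_mem_Gamma_rel {N M q : ℕ} (hq : q ≠ 0) (hqM : ((q : ℕ) : ZMod M) = 1)
    (γ : Gamma0 N) (x y : OnePoint (ZMod q)) (γ' : Gamma0 N)
    (hrel : tRep q x * mapGL ℝ (γ : SL(2, ℤ)) = mapGL ℝ (γ' : SL(2, ℤ)) * tRep q y) :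
    ∃ δ : Gamma0 N, (δ : SL(2, ℤ)) ∈ Gamma M ∧
      γ' * uG N (repB q y) = uG N (repB q x) * γ * δ := by
  refine ⟨(uG N (repB q x) * γ)⁻¹ * (γ' * uG N (repB q y)), ?_, by group⟩
  have hint := rel_int hq x y (γ : SL(2, ℤ)) (γ' : SL(2, ℤ)) hrel
  have hmod := congrArg (fun A : Matrix (Fin 2) (Fin 2) ℤ => A.map (Int.castRingHom (ZMod M))) hint
  simp only [Matrix.map_mul, repZ_map_eq hqM] at hmod
  have hmem := inv_mul_mem_Gamma (M := M) (uMat (repB q x) * (γ : SL(2, ℤ)))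
    ((γ' : SL(2, ℤ)) * uMat (repB q y)) (by
      rw [Matrix.SpecialLinearGroup.coe_mul, Matrix.SpecialLinearGroup.coe_mul,
        Matrix.map_mul, Matrix.map_mul]
      exact hmod)
  simpa [uG] using hmem

/-- **Congruence characters are Eisenstein** (multiplicative form).  If `φ : Γ₀(N) →* G` is
trivial on `Γ₀(N) ∩ Γ(M)` and `q ≡ 1 mod M`, then for any decomposition
`α_x γ = γ'_x α_{σ x}` of the `T_q` representatives, `∏_x φ(γ'_x) = φ(γ)^(q+1)`. -/
theorem prod_congChar_T {N M : ℕ} {G : Type*} [CommGroup G] (φ : Gamma0 N →* G)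
    (hφ : ∀ δ : Gamma0 N, (δ : SL(2, ℤ)) ∈ Gamma M → φ δ = 1)
    {q : ℕ} [NeZero q] (hqM : ((q : ℕ) : ZMod M) = 1) (γ : Gamma0 N)
    (σ : Equiv.Perm (OnePoint (ZMod q))) (γ' : OnePoint (ZMod q) → Gamma0 N)
    (hrel : ∀ x, tRep q x * mapGL ℝ (γ : SL(2, ℤ))
      = mapGL ℝ ((γ' x : Gamma0 N) : SL(2, ℤ)) * tRep q (σ x)) :
    ∏ x, φ (γ' x) = φ γ ^ (q + 1) := by
  have hq0 : q ≠ 0 := NeZero.ne q
  have key : ∀ x, φ (γ' x) * φ (uG N (repB q (σ x))) = φ (uG N (repB q x)) * φ γ := by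
    intro x
    obtain ⟨δ, hδ, h⟩ := exists_mem_Gamma_rel (M := M) hq0 hqM γ x (σ x) (γ' x) (hrel x)
    have h2 := congrArg φ h
    rw [map_mul, map_mul, map_mul, hφ δ hδ, mul_one] at h2
    exact h2
  have hprod : ∏ x, (φ (γ' x) * φ (uG N (repB q (σ x))))
      = ∏ x, (φ (uG N (repB q x)) * φ γ) :=
    Finset.prod_congr rfl (fun x _ => key x)
  rw [Finset.prod_mul_distrib, Finset.prod_mul_distrib, Finset.prod_const, Finset.card_univ,
    Equiv.prod_comp σ (fun x => φ (uG N (repB q x)))] at hprod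
  have hcard : Fintype.card (OnePoint (ZMod q)) = q + 1 := by
    have h : Fintype.card (Option (ZMod q)) = q + 1 := by
      rw [Fintype.card_option, ZMod.card]
    exact h
  rw [hcard, mul_comm] at hprod
  exact mul_left_cancel hprod

/-- **Congruence characters are Eisenstein** (additive form, for `Additive Γ₀(N) →+ A` as in
the prelude's `parabolicHoms`): `∑_x φ(γ'_x) = (q+1) • φ(γ)`. -/
theorem sum_congChar_T {N M : ℕ} {A : Type*} [AddCommGroup A] (φ : Additive (Gamma0 N) →+ A)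
    (hφ : ∀ δ : Gamma0 N, (δ : SL(2, ℤ)) ∈ Gamma M → φ (Additive.ofMul δ) = 0)
    {q : ℕ} [NeZero q] (hqM : ((q : ℕ) : ZMod M) = 1) (γ : Gamma0 N)
    (σ : Equiv.Perm (OnePoint (ZMod q))) (γ' : OnePoint (ZMod q) → Gamma0 N)
    (hrel : ∀ x, tRep q x * mapGL ℝ (γ : SL(2, ℤ))
      = mapGL ℝ ((γ' x : Gamma0 N) : SL(2, ℤ)) * tRep q (σ x)) :
    ∑ x, φ (Additive.ofMul (γ' x)) = (q + 1) • φ (Additive.ofMul γ) := by
  have h := prod_congChar_T (G := Multiplicative A) (AddMonoidHom.toMultiplicative φ)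
    (fun δ hδ => by
      change Multiplicative.ofAdd (φ (Additive.ofMul δ)) = 1
      rw [hφ δ hδ]; rfl) hqM γ σ γ' hrel
  have h2 := congrArg Multiplicative.toAdd h
  rw [toAdd_prod, toAdd_pow] at h2
  exact h2

end Fermat.Agent.S41.CongEis
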