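import Mathlib
import Fermat.Agent.S41.CongEis
import Fermat.Agent.S41.Ihara.Defs

/-!
# S41: the orbit lemma (replaces the congruence subgroup theorem, package P3)

Let `Φ` be a homomorphism from the Ihara group `Γ₀(N)[1/q]` to a commutative group of odd
exponent `p`, trivial on the upper unipotent elements.  Let `γ = [[a, b], [c, d]] ∈ Γ₀(N)`,
`l` a prime with `l ≡ 1 mod c`, `l ∤ q`, and `k` with `q ^ (2 k) ≡ 1 mod c` such that `p` divides
the order of `q ^ (2 k)` modulo `l`.  Then for ANY decomposition `α_x γ = γ'_x α_{σ x}` of the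
`T_l` coset representatives one has `∏_x Φ(γ'_x) = Φ(γ) ^ 2`.
-/

set_option autoImplicit false

open scoped MatrixGroups
open CongruenceSubgroup Matrix.SpecialLinearGroup ModularForm
open Fermat.Agent.S22.HeckePerm
open Fermat.Agent.S41.Ihara

namespace Fermat.Agent.S41.EisOrbit

/-- Along `i ↦ u ^ i * r` a function with `F (u * z) = D * F z` is a geometric progression; its
product over `n` steps is trivial in a group of odd exponent `p ∣ n`. -/
theorem prod_range_shift {G K : Type*} [Group G] [CommGroup K] {p : ℕ} (hp2 : Odd p)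
    (hK : ∀ x : K, x ^ p = 1) (u : G) (n : ℕ) (hn : p ∣ n) (D : K) (F : G → K)
    (hF : ∀ z, F (u * z) = D * F z) (r : G) :
    ∏ i ∈ Finset.range n, F (u ^ i * r) = 1 := by
  have h1 : ∀ i : ℕ, F (u ^ i * r) = D ^ i * F r := by
    intro i
    induction i with
    | zero => simp
    | succ i ih => rw [pow_succ', mul_assoc, hF, ih, pow_succ', mul_assoc]
  rw [Finset.prod_congr rfl (fun i _ => h1 i), Finset.prod_mul_distrib, Finset.prod_const,
    Finset.card_range, Finset.prod_pow_eq_pow_sum]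
  obtain ⟨m, rfl⟩ := hn
  have h2 : p ∣ ∑ i ∈ Finset.range (p * m), i := by
    have h3 : p ∣ (∑ i ∈ Finset.range (p * m), i) * 2 := by
      rw [Finset.sum_range_id_mul_two, mul_assoc]
      exact dvd_mul_right _ _
    exact (Nat.Coprime.dvd_of_dvd_mul_right (Nat.coprime_two_right.mpr hp2) h3)
  obtain ⟨s, hs⟩ := h2
  rw [hs, pow_mul, hK, one_pow, pow_mul, hK, one_pow, mul_one]

/-- If `F (u * z) = D * F z` on a finite commutative group, `p ∣ orderOf u` and the target has odd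
exponent `p`, then the product of `F` over the whole group is trivial. -/
theorem prod_eq_one_of_shift {G K : Type*} [CommGroup G] [Fintype G] [CommGroup K] {p : ℕ}
    (hp2 : Odd p) (hK : ∀ x : K, x ^ p = 1) (u : G) (hu : p ∣ orderOf u) (D : K) (F : G → K)
    (hF : ∀ z, F (u * z) = D * F z) : ∏ z, F z = 1 := by
  classical
  set H : Subgroup G := Subgroup.zpowers u with hH
  have hn : 0 < orderOf u := orderOf_pos u
  let e : (G ⧸ H) × Fin (orderOf u) → G := fun x => u ^ (x.2 : ℕ) * x.1.out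
  have hmk : ∀ (c : G ⧸ H) (i : ℕ), ((u ^ i * c.out : G) : G ⧸ H) = c := by
    intro c i
    rw [mul_comm]
    have h1 : ((c.out * u ^ i : G) : G ⧸ H) = ((c.out : G) : G ⧸ H) := by
      rw [QuotientGroup.eq]
      simp only [mul_inv_rev, inv_mul_cancel_right]
      exact Subgroup.inv_mem _ (Subgroup.pow_mem _ (Subgroup.mem_zpowers u) i)
    rw [h1]
    exact QuotientGroup.out_eq' c
  have he : Function.Bijective e := by
    constructor
    · rintro ⟨c, i⟩ ⟨c', j⟩ h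
      have hc : c = c' := by
        have := congrArg (fun z : G => (z : G ⧸ H)) h
        simpa only [e, hmk] using this
      subst hc
      have h2 : u ^ (i : ℕ) = u ^ (j : ℕ) := mul_right_cancel h
      have h3 : (i : ℕ) = j :=
        Nat.ModEq.eq_of_lt_of_lt (pow_eq_pow_iff_modEq.mp h2) i.2 j.2
      exact Prod.ext rfl (Fin.ext h3)
    · intro z
      have h1 : (((z : G ⧸ H).out : G) : G ⧸ H) = (z : G ⧸ H) := QuotientGroup.out_eq' _
      rw [QuotientGroup.eq] at h1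
      obtain ⟨i, hi, hiz⟩ := Finset.mem_image.mp
        ((mem_zpowers_iff_mem_range_orderOf).mp h1)
      refine ⟨((z : G ⧸ H), ⟨i, Finset.mem_range.mp hi⟩), ?_⟩
      show u ^ i * (z : G ⧸ H).out = z
      rw [hiz, mul_comm, mul_inv_cancel_left]
  rw [← Fintype.prod_bijective e he (fun x => F (e x)) F (fun _ => rfl), Fintype.prod_prod_type]
  refine Finset.prod_eq_one (fun c _ => ?_)
  have := prod_range_shift hp2 hK u (orderOf u) hu D F hF c.out
  rw [← Fin.prod_univ_eq_prod_range (fun i => F (u ^ i * c.out)) (orderOf u)] at this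
  exact this

/-- Two elements of `SL(2, ℚ)` with the same first column differ by an upper unipotent matrix on
the right. -/
theorem inv_mul_eq_upper (A B : SL(2, ℚ)) (h10 : B 1 0 = A 1 0) (h00 : B 0 0 = A 0 0) :
    ((A⁻¹ * B : SL(2, ℚ)) : Matrix (Fin 2) (Fin 2) ℚ) = !![1, (A⁻¹ * B : SL(2, ℚ)) 0 1; 0, 1] := by
  have hA := A.det_coe
  have hB := B.det_coe
  rw [Matrix.det_fin_two] at hA hB
  ext i j
  fin_cases i <;> fin_cases j
  · simp only [Matrix.SpecialLinearGroup.coe_mul, Matrix.SpecialLinearGroup.coe_inv,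
      Matrix.adjugate_fin_two, Matrix.mul_apply, Fin.sum_univ_two]
    simp
    rw [h00, h10]; linarith
  · rfl
  · simp only [Matrix.SpecialLinearGroup.coe_mul, Matrix.SpecialLinearGroup.coe_inv,
      Matrix.adjugate_fin_two, Matrix.mul_apply, Fin.sum_univ_two]
    simp
    rw [h00, h10]; ring
  · simp only [Matrix.SpecialLinearGroup.coe_mul, Matrix.SpecialLinearGroup.coe_inv,
      Matrix.adjugate_fin_two, Matrix.mul_apply, Fin.sum_univ_two]
    simp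
    rw [← h00, ← h10]; linarith

/-- The upper unipotent element `[[1, t], [0, 1]]`, `t ∈ ℤ`, of the Ihara group. -/
def upper (N q : ℕ) (t : ℤ) : iharaGroup N q := incl N q (CongEis.uG N t)

theorem upper_coe (N q : ℕ) (t : ℤ) :
    ((upper N q t : SL(2, ℚ)) : Matrix (Fin 2) (Fin 2) ℚ) = !![1, (t : ℚ); 0, 1] := by
  ext i j
  rw [upper, coe_incl, mapQ_apply]
  fin_cases i <;> fin_cases j <;> simp [CongEis.uG, CongEis.uMat]

/-- **Column lemma.**  A homomorphism on the Ihara group killing the upper unipotent elements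
takes the same value on two elements with the same lower left entry whose upper left entries
differ by an integer multiple of it. -/
theorem map_eq_of_col {N q : ℕ} {K : Type*} [Group K] (Φ : iharaGroup N q →* K)
    (hU : ∀ (g : iharaGroup N q) (x : ℚ),
      ((g : SL(2, ℚ)) : Matrix (Fin 2) (Fin 2) ℚ) = !![1, x; 0, 1] → Φ g = 1)
    (g₁ g₂ : iharaGroup N q) (t : ℤ)
    (h10 : (g₂ : SL(2, ℚ)) 1 0 = (g₁ : SL(2, ℚ)) 1 0)
    (h00 : (g₂ : SL(2, ℚ)) 0 0 = (g₁ : SL(2, ℚ)) 0 0 + t * (g₁ : SL(2, ℚ)) 1 0) :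
    Φ g₂ = Φ g₁ := by
  set X : iharaGroup N q := (upper N q t * g₁)⁻¹ * g₂ with hX
  have hXm : ((X : SL(2, ℚ)) : Matrix (Fin 2) (Fin 2) ℚ)
      = !![1, (((upper N q t * g₁ : iharaGroup N q) : SL(2, ℚ))⁻¹ * (g₂ : SL(2, ℚ)) : SL(2, ℚ)) 0 1;
          0, 1] := by
    have hcoe : (X : SL(2, ℚ)) = ((upper N q t * g₁ : iharaGroup N q) : SL(2, ℚ))⁻¹ * (g₂ : SL(2, ℚ)) := by
      rw [hX]; rfl
    rw [hcoe]
    apply inv_mul_eq_upper
    · rw [h10]
      simp [Subgroup.coe_mul, Matrix.SpecialLinearGroup.coe_mul, upper_coe, Matrix.mul_apply,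
        Fin.sum_univ_two]
    · rw [h00]
      simp [Subgroup.coe_mul, Matrix.SpecialLinearGroup.coe_mul, upper_coe, Matrix.mul_apply,
        Fin.sum_univ_two]
  have h1 : Φ X = 1 := hU X _ hXm
  have h2 : Φ (upper N q t) = 1 := hU _ _ (upper_coe N q t)
  have h3 : g₂ = upper N q t * g₁ * X := by rw [hX]; group
  rw [h3, map_mul, map_mul, h1, h2, one_mul, mul_one]

/-- Column lemma for elements of `Γ₀(N)`. -/
theorem map_incl_eq_of_col {N q : ℕ} {K : Type*} [Group K] (Φ : iharaGroup N q →* K)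
    (hU : ∀ (g : iharaGroup N q) (x : ℚ),
      ((g : SL(2, ℚ)) : Matrix (Fin 2) (Fin 2) ℚ) = !![1, x; 0, 1] → Φ g = 1)
    (γ₁ γ₂ : Gamma0 N) (t : ℤ)
    (h10 : ((γ₂ : SL(2, ℤ)) : Matrix (Fin 2) (Fin 2) ℤ) 1 0
      = ((γ₁ : SL(2, ℤ)) : Matrix (Fin 2) (Fin 2) ℤ) 1 0)
    (h00 : ((γ₂ : SL(2, ℤ)) : Matrix (Fin 2) (Fin 2) ℤ) 0 0
      = ((γ₁ : SL(2, ℤ)) : Matrix (Fin 2) (Fin 2) ℤ) 0 0
        + t * ((γ₁ : SL(2, ℤ)) : Matrix (Fin 2) (Fin 2) ℤ) 1 0) :
    Φ (incl N q γ₂) = Φ (incl N q γ₁) := by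
  refine map_eq_of_col Φ hU _ _ t ?_ ?_
  · rw [coe_incl, coe_incl, mapQ_apply, mapQ_apply, h10]
  · rw [coe_incl, coe_incl, mapQ_apply, mapQ_apply, mapQ_apply, h00]
    push_cast
    ring

/-- The diagonal element `diag(q ^ k, q ^ (-k))` of the Ihara group. -/
def hDiag (N : ℕ) {q : ℕ} (hq0 : q ≠ 0) (k : ℕ) : iharaGroup N q :=
  ⟨⟨!![(q : ℚ) ^ k, 0; 0, ((q : ℚ) ^ k)⁻¹], by
      have h : (q : ℚ) ^ k ≠ 0 := pow_ne_zero _ (by exact_mod_cast hq0)
      rw [Matrix.det_fin_two_of]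
      field_simp
      simp⟩, by
    refine ⟨fun i j => ?_, 0, Subring.zero_mem _, by simp⟩
    fin_cases i <;> fin_cases j
    · simpa using natCast_mem_awayRing q (q ^ k)
    · simp
    · simp
    · simpa [one_div] using div_pow_mem_awayRing hq0 1 k⟩

theorem hDiag_coe (N : ℕ) {q : ℕ} (hq0 : q ≠ 0) (k : ℕ) :
    ((hDiag N hq0 k : SL(2, ℚ)) : Matrix (Fin 2) (Fin 2) ℚ)
      = !![(q : ℚ) ^ k, 0; 0, ((q : ℚ) ^ k)⁻¹] := rfl

theorem hDiag_conj_coe (N : ℕ) {q : ℕ} (hq0 : q ≠ 0) (k : ℕ) (g : SL(2, ℚ)) :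
    (((hDiag N hq0 k : SL(2, ℚ)) * g * (hDiag N hq0 k : SL(2, ℚ)) : SL(2, ℚ)) :
        Matrix (Fin 2) (Fin 2) ℚ)
      = !![(q : ℚ) ^ (2 * k) * g 0 0, g 0 1; g 1 0, g 1 1 * ((q : ℚ) ^ (2 * k))⁻¹] := by
  have hqk : (q : ℚ) ^ k ≠ 0 := pow_ne_zero _ (by exact_mod_cast hq0)
  have hg : (g : Matrix (Fin 2) (Fin 2) ℚ) = !![g 0 0, g 0 1; g 1 0, g 1 1] :=
    Matrix.eta_fin_two _
  rw [Matrix.SpecialLinearGroup.coe_mul, Matrix.SpecialLinearGroup.coe_mul, hDiag_coe]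
  conv_lhs => rw [hg]
  rw [Matrix.mul_fin_two, Matrix.mul_fin_two]
  ext i j
  fin_cases i <;> fin_cases j <;> simp <;> field_simp <;> ring

/-- **Unit relation.**  Multiplying the upper left entry by `q ^ (2 k)` (modulo the lower left
entry) multiplies the value of `Φ` by the constant `Φ (diag(q ^ k, q ^ (-k))) ^ 2`. -/
theorem map_unit_rel {N q : ℕ} {K : Type*} [CommGroup K] (hq0 : q ≠ 0) (Φ : iharaGroup N q →* K)
    (hU : ∀ (g : iharaGroup N q) (x : ℚ),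
      ((g : SL(2, ℚ)) : Matrix (Fin 2) (Fin 2) ℚ) = !![1, x; 0, 1] → Φ g = 1)
    (k : ℕ) (γ γ₃ : Gamma0 N)
    (h10 : ((γ₃ : SL(2, ℤ)) : Matrix (Fin 2) (Fin 2) ℤ) 1 0
      = ((γ : SL(2, ℤ)) : Matrix (Fin 2) (Fin 2) ℤ) 1 0)
    (h00 : ((γ₃ : SL(2, ℤ)) : Matrix (Fin 2) (Fin 2) ℤ) 0 0
      ≡ (q : ℤ) ^ (2 * k) * ((γ : SL(2, ℤ)) : Matrix (Fin 2) (Fin 2) ℤ) 0 0
        [ZMOD ((γ : SL(2, ℤ)) : Matrix (Fin 2) (Fin 2) ℤ) 1 0]) :
    Φ (incl N q γ₃) = Φ (hDiag N hq0 k) ^ 2 * Φ (incl N q γ) := by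
  obtain ⟨e, he⟩ := Int.modEq_iff_dvd.mp h00
  have hm : (((hDiag N hq0 k * incl N q γ * hDiag N hq0 k : iharaGroup N q) : SL(2, ℚ)) :
        Matrix (Fin 2) (Fin 2) ℚ)
      = !![(q : ℚ) ^ (2 * k) * (mapQ (γ : SL(2, ℤ))) 0 0, (mapQ (γ : SL(2, ℤ))) 0 1;
          (mapQ (γ : SL(2, ℤ))) 1 0, (mapQ (γ : SL(2, ℤ))) 1 1 * ((q : ℚ) ^ (2 * k))⁻¹] :=
    hDiag_conj_coe N hq0 k (mapQ (γ : SL(2, ℤ)))
  have key := map_eq_of_col Φ hU (hDiag N hq0 k * incl N q γ * hDiag N hq0 k) (incl N q γ₃) (-e)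
    (by
      rw [hm, coe_incl, mapQ_apply, h10]
      simp [mapQ_apply])
    (by
      rw [hm, coe_incl, mapQ_apply]
      have he' : ((γ₃ : SL(2, ℤ)) : Matrix (Fin 2) (Fin 2) ℤ) 0 0
          = (q : ℤ) ^ (2 * k) * ((γ : SL(2, ℤ)) : Matrix (Fin 2) (Fin 2) ℤ) 0 0
            - ((γ : SL(2, ℤ)) : Matrix (Fin 2) (Fin 2) ℤ) 1 0 * e := by linarith
      rw [he']
      simp [mapQ_apply]
      ring)
  rw [key, map_mul, map_mul, pow_two]
  exact mul_right_comm _ _ _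

/-! ### First columns in the coset relation -/

theorem col_infty_infty {l : ℕ} (g g' : Matrix (Fin 2) (Fin 2) ℤ)
    (h : CongEis.repZ l OnePoint.infty * g = g' * CongEis.repZ l OnePoint.infty) :
    g 1 0 = g' 1 0 * l := by
  have h10 := congrFun (congrFun h 1) 0
  simpa [CongEis.repZ, Matrix.mul_apply, Fin.sum_univ_two] using h10

theorem col_infty_coe {l : ℕ} (g g' : Matrix (Fin 2) (Fin 2) ℤ) (j' : ZMod l)
    (h : CongEis.repZ l OnePoint.infty * g = g' * CongEis.repZ l (j' : OnePoint (ZMod l))) :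
    g' 0 0 = l * g 0 0 ∧ g' 1 0 = g 1 0 := by
  have h00 := congrFun (congrFun h 0) 0
  have h10 := congrFun (congrFun h 1) 0
  simp [CongEis.repZ, Matrix.mul_apply, Fin.sum_univ_two] at h00 h10
  exact ⟨h00.symm, h10.symm⟩

theorem col_coe_infty {l : ℕ} (g g' : Matrix (Fin 2) (Fin 2) ℤ) (j : ZMod l)
    (h : CongEis.repZ l (j : OnePoint (ZMod l)) * g = g' * CongEis.repZ l OnePoint.infty) :
    g 0 0 + (j.val : ℤ) * g 1 0 = g' 0 0 * l ∧ (l : ℤ) * g 1 0 = g' 1 0 * l := by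
  have h00 := congrFun (congrFun h 0) 0
  have h10 := congrFun (congrFun h 1) 0
  simp [CongEis.repZ, Matrix.mul_apply, Fin.sum_univ_two] at h00 h10
  exact ⟨h00, h10⟩

theorem col_coe_coe {l : ℕ} (g g' : Matrix (Fin 2) (Fin 2) ℤ) (j j' : ZMod l)
    (h : CongEis.repZ l (j : OnePoint (ZMod l)) * g
      = g' * CongEis.repZ l (j' : OnePoint (ZMod l))) :
    g' 0 0 = g 0 0 + (j.val : ℤ) * g 1 0 ∧ g' 1 0 = (l : ℤ) * g 1 0 := by
  have h00 := congrFun (congrFun h 0) 0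
  have h10 := congrFun (congrFun h 1) 0
  simp [CongEis.repZ, Matrix.mul_apply, Fin.sum_univ_two] at h00 h10
  exact ⟨h00.symm, h10.symm⟩

theorem prod_onePoint {l : ℕ} [NeZero l] {K : Type*} [CommMonoid K] (g : OnePoint (ZMod l) → K) :
    ∏ x, g x = g OnePoint.infty * ∏ j : ZMod l, g (j : OnePoint (ZMod l)) :=
  Fintype.prod_option g

/-- **Orbit lemma.**  Let `Φ` be a homomorphism from the Ihara group `Γ₀(N)[1/q]` to a
commutative group of odd exponent `p`, trivial on the upper unipotent elements, let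
`γ = [[a, b], [c, d]] ∈ Γ₀(N)`, `l ∤ q` a prime with `l ≡ 1 mod c` and `k` with
`q ^ (2 k) ≡ 1 mod c` such that `p` divides the order of `q ^ (2 k)` modulo `l`.  Then for any
decomposition `α_x γ = γ'_x α_{σ x}` of the `T_l` coset representatives,
`∏_x Φ(γ'_x) = Φ(γ) ^ 2`. -/
theorem prod_orbit_T {N q : ℕ} {K : Type*} [CommGroup K] (hq0 : q ≠ 0)
    (Φ : iharaGroup N q →* K)
    (hU : ∀ (g : iharaGroup N q) (x : ℚ),
      ((g : SL(2, ℚ)) : Matrix (Fin 2) (Fin 2) ℚ) = !![1, x; 0, 1] → Φ g = 1)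
    {p : ℕ} (hp2 : Odd p) (hK : ∀ x : K, x ^ p = 1)
    {l : ℕ} [NeZero l] (hl : l.Prime) (hlq : ¬ l ∣ q) (γ : Gamma0 N)
    (hlc : (l : ℤ) ≡ 1 [ZMOD ((γ : SL(2, ℤ)) : Matrix (Fin 2) (Fin 2) ℤ) 1 0])
    (k : ℕ) (hk : (q : ℤ) ^ (2 * k) ≡ 1 [ZMOD ((γ : SL(2, ℤ)) : Matrix (Fin 2) (Fin 2) ℤ) 1 0])
    (hord : p ∣ orderOf ((q : ZMod l) ^ (2 * k)))
    (σ : Equiv.Perm (OnePoint (ZMod l))) (γ' : OnePoint (ZMod l) → Gamma0 N)
    (hrel : ∀ x, tRep l x * mapGL ℝ (γ : SL(2, ℤ))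
      = mapGL ℝ ((γ' x : Gamma0 N) : SL(2, ℤ)) * tRep l (σ x)) :
    ∏ x, Φ (incl N q (γ' x)) = Φ (incl N q γ) ^ 2 := by
  classical
  have hfact : Fact l.Prime := ⟨hl⟩
  have hl0 : l ≠ 0 := hl.ne_zero
  have hlz : (l : ℤ) ≠ 0 := by exact_mod_cast hl0
  set a : ℤ := ((γ : SL(2, ℤ)) : Matrix (Fin 2) (Fin 2) ℤ) 0 0 with ha
  set c : ℤ := ((γ : SL(2, ℤ)) : Matrix (Fin 2) (Fin 2) ℤ) 1 0 with hc
  -- the coset relation over `ℤ`
  have hint : ∀ x, CongEis.repZ l x * ((γ : SL(2, ℤ)) : Matrix (Fin 2) (Fin 2) ℤ)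
      = (((γ' x : Gamma0 N) : SL(2, ℤ)) : Matrix (Fin 2) (Fin 2) ℤ) * CongEis.repZ l (σ x) :=
    fun x => CongEis.rel_int hl0 x (σ x) _ _ (hrel x)
  -- `l = 1 + c e`
  obtain ⟨e, he⟩ : ∃ e : ℤ, (l : ℤ) = 1 + c * e := by
    obtain ⟨e', he'⟩ := Int.modEq_iff_dvd.mp hlc
    exact ⟨-e', by linarith⟩
  -- `q ^ (2 k) = 1 + c f`
  obtain ⟨f, hf⟩ : ∃ f : ℤ, (q : ℤ) ^ (2 * k) = 1 + c * f := by
    obtain ⟨f', hf'⟩ := Int.modEq_iff_dvd.mp hk
    exact ⟨-f', by linarith⟩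
  have hlc' : ¬ (l : ℤ) ∣ c := by
    rintro ⟨m, hm⟩
    have h1 : (l : ℤ) ∣ 1 := ⟨1 - m * e, by rw [hm] at he; linear_combination -he⟩
    have h2 : (l : ℤ) = 1 := Int.eq_one_of_dvd_one (Int.natCast_nonneg l) h1
    have h3 : l = 1 := by exact_mod_cast h2
    exact hl.one_lt.ne' h3
  have hcop : IsCoprime (l : ℤ) c := ⟨1, -e, by linear_combination he⟩
  -- `σ ∞ ≠ ∞`
  have hσi : σ OnePoint.infty ≠ OnePoint.infty := by
    intro h
    have h1 := hint OnePoint.infty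
    rw [h] at h1
    exact hlc' ⟨_, (col_infty_infty _ _ h1).trans (mul_comm _ _)⟩
  obtain ⟨ji, hji⟩ := OnePoint.ne_infty_iff_exists.mp hσi
  have hxi : σ.symm OnePoint.infty ≠ OnePoint.infty := by
    intro h
    apply hσi
    have := congrArg σ h
    rw [Equiv.apply_symm_apply] at this
    exact this.symm
  obtain ⟨j₀, hj₀⟩ := OnePoint.ne_infty_iff_exists.mp hxi
  have hσj₀ : σ (j₀ : OnePoint (ZMod l)) = OnePoint.infty := by
    rw [hj₀, Equiv.apply_symm_apply]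
  have hσj : ∀ j : ZMod l, j ≠ j₀ → ∃ j' : ZMod l, (j' : OnePoint (ZMod l)) = σ j := by
    intro j hj
    apply OnePoint.ne_infty_iff_exists.mp
    intro h
    exact hj (OnePoint.coe_injective (σ.injective (h.trans hσj₀.symm)))
  -- the first columns
  have hAi : (((γ' OnePoint.infty : Gamma0 N) : SL(2, ℤ)) : Matrix (Fin 2) (Fin 2) ℤ) 0 0 = l * a ∧
      (((γ' OnePoint.infty : Gamma0 N) : SL(2, ℤ)) : Matrix (Fin 2) (Fin 2) ℤ) 1 0 = c := by
    have h1 := hint OnePoint.infty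
    rw [← hji] at h1
    exact col_infty_coe _ _ ji h1
  have hA₀ : a + (j₀.val : ℤ) * c
        = (((γ' (j₀ : OnePoint (ZMod l)) : Gamma0 N) : SL(2, ℤ)) : Matrix (Fin 2) (Fin 2) ℤ) 0 0 * l ∧
      (l : ℤ) * c
        = (((γ' (j₀ : OnePoint (ZMod l)) : Gamma0 N) : SL(2, ℤ)) : Matrix (Fin 2) (Fin 2) ℤ) 1 0 * l := by
    have h1 := hint (j₀ : OnePoint (ZMod l))
    rw [hσj₀] at h1
    exact col_coe_infty _ _ j₀ h1
  have hAj : ∀ j : ZMod l, j ≠ j₀ →
      (((γ' (j : OnePoint (ZMod l)) : Gamma0 N) : SL(2, ℤ)) : Matrix (Fin 2) (Fin 2) ℤ) 0 0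
        = a + (j.val : ℤ) * c ∧
      (((γ' (j : OnePoint (ZMod l)) : Gamma0 N) : SL(2, ℤ)) : Matrix (Fin 2) (Fin 2) ℤ) 1 0
        = (l : ℤ) * c := by
    intro j hj
    obtain ⟨j', hj'⟩ := hσj j hj
    have h1 := hint (j : OnePoint (ZMod l))
    rw [← hj'] at h1
    exact col_coe_coe _ _ j j' h1
  -- the two special terms
  have T1 : Φ (incl N q (γ' OnePoint.infty)) = Φ (incl N q γ) := by
    refine map_incl_eq_of_col Φ hU γ (γ' OnePoint.infty) (e * a) hAi.2 ?_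
    rw [hAi.1, he]
    ring
  have T2 : Φ (incl N q (γ' (j₀ : OnePoint (ZMod l)))) = Φ (incl N q γ) := by
    have hC : (((γ' (j₀ : OnePoint (ZMod l)) : Gamma0 N) : SL(2, ℤ)) :
        Matrix (Fin 2) (Fin 2) ℤ) 1 0 = c := by
      have := hA₀.2
      rw [mul_comm] at this
      exact (mul_right_cancel₀ hlz this).symm
    refine map_incl_eq_of_col Φ hU γ (γ' (j₀ : OnePoint (ZMod l)))
      ((j₀.val : ℤ) - (((γ' (j₀ : OnePoint (ZMod l)) : Gamma0 N) : SL(2, ℤ)) :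
        Matrix (Fin 2) (Fin 2) ℤ) 0 0 * e) hC ?_
    have h1 := hA₀.1
    rw [he] at h1
    linear_combination -h1
  -- reduction modulo `l`
  have hcl : (c : ZMod l) ≠ 0 := by
    rw [Ne, ZMod.intCast_zmod_eq_zero_iff_dvd]
    exact hlc'
  have hql : (q : ZMod l) ≠ 0 := by
    rw [Ne, ZMod.natCast_eq_zero_iff]
    exact hlq
  have hj₀l : (a : ZMod l) + j₀ * (c : ZMod l) = 0 := by
    have h1 := congrArg (Int.cast : ℤ → ZMod l) hA₀.1
    push_cast at h1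
    rw [ZMod.natCast_zmod_val, ZMod.natCast_self, mul_zero] at h1
    exact h1
  have hjl : ∀ j : ZMod l, j ≠ j₀ → (a : ZMod l) + j * (c : ZMod l) ≠ 0 := by
    intro j hj h
    apply hj
    have h1 : (j - j₀) * (c : ZMod l) = 0 := by linear_combination h - hj₀l
    rcases mul_eq_zero.mp h1 with h2 | h2
    · exact sub_eq_zero.mp h2
    · exact absurd h2 hcl
  -- the index attached to a unit
  let J : (ZMod l)ˣ → ZMod l := fun z => ((z : ZMod l) - (a : ZMod l)) * (c : ZMod l)⁻¹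
  have hJ : ∀ z : (ZMod l)ˣ, (a : ZMod l) + J z * (c : ZMod l) = z := by
    intro z
    show (a : ZMod l) + ((z : ZMod l) - (a : ZMod l)) * (c : ZMod l)⁻¹ * (c : ZMod l) = z
    rw [inv_mul_cancel_right₀ hcl]
    ring
  have hJne : ∀ z : (ZMod l)ˣ, J z ≠ j₀ := by
    intro z h
    have h1 := hJ z
    rw [h, hj₀l] at h1
    exact z.ne_zero h1.symm
  -- the unit `u = q ^ (2 k)` and the constant `D`
  let u : (ZMod l)ˣ := Units.mk0 ((q : ZMod l) ^ (2 * k)) (pow_ne_zero _ hql)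
  have hu : p ∣ orderOf u := by
    have h1 : orderOf ((u : (ZMod l)ˣ) : ZMod l) = orderOf u := orderOf_units
    rw [← h1]
    exact hord
  let F : (ZMod l)ˣ → K := fun z => Φ (incl N q (γ' ((J z : ZMod l) : OnePoint (ZMod l))))
  have hF : ∀ z, F (u * z) = Φ (hDiag N hq0 k) ^ 2 * F z := by
    intro z
    obtain ⟨h1a, h1c⟩ := hAj (J z) (hJne z)
    obtain ⟨h2a, h2c⟩ := hAj (J (u * z)) (hJne (u * z))
    refine map_unit_rel hq0 Φ hU k _ _ (h2c.trans h1c.symm) ?_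
    rw [h1c, Int.modEq_iff_dvd, h1a, h2a]
    refine hcop.mul_dvd ?_ ?_
    · rw [← ZMod.intCast_zmod_eq_zero_iff_dvd]
      push_cast
      rw [ZMod.natCast_zmod_val, ZMod.natCast_zmod_val, hJ z, hJ (u * z)]
      simp [u]
    · refine ⟨f * a + (q : ℤ) ^ (2 * k) * ((J z).val : ℤ) - ((J (u * z)).val : ℤ), ?_⟩
      rw [hf]
      ring
  have hprod : ∏ z, F z = 1 := prod_eq_one_of_shift hp2 hK u hu _ F hF
  have T3 : ∏ j ∈ (Finset.univ : Finset (ZMod l)).erase j₀,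
      Φ (incl N q (γ' (j : OnePoint (ZMod l)))) = 1 := by
    rw [← hprod]
    symm
    refine Finset.prod_bij (fun z _ => J z) ?_ ?_ ?_ (fun z _ => rfl)
    · intro z _
      exact Finset.mem_erase.mpr ⟨hJne z, Finset.mem_univ _⟩
    · intro z₁ _ z₂ _ h
      apply Units.ext
      rw [← hJ z₁, ← hJ z₂, h]
    · intro j hj
      have hj' : j ≠ j₀ := (Finset.mem_erase.mp hj).1
      refine ⟨Units.mk0 _ (hjl j hj'), Finset.mem_univ _, ?_⟩
      show ((a : ZMod l) + j * (c : ZMod l) - (a : ZMod l)) * (c : ZMod l)⁻¹ = j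
      rw [add_sub_cancel_left, mul_inv_cancel_right₀ hcl]
  rw [prod_onePoint, T1,
    ← Finset.mul_prod_erase Finset.univ (fun j : ZMod l => Φ (incl N q (γ' (j : OnePoint (ZMod l)))))
      (Finset.mem_univ j₀), T2, T3, mul_one, pow_two]

end Fermat.Agent.S41.EisOrbit
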