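import Mathlib
import Fermat.Agent.S41.EisGen
import Fermat.Agent.S41.EisOrbit
import Fermat.Agent.S41.EisArith

/-!
# S41: the orbit lemma for all of `Γ₀(N)` (replacement of (P3), consumer form)

Let `p` be an odd prime, `q ∤ N` a prime, and `Φ` a homomorphism from `Γ₀(N)[1/q]`
(`Ihara.iharaGroup N q`) to a commutative group of exponent `p` that kills the upper unipotent
elements.  For every prime `l ∤ N`, `l ≠ q`, with `l ≡ 1 mod eisModulus N q p` and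
`q ^ ((l - 1) / p) ≠ 1` in `ZMod l` (Kummer condition):

* `prod_T_eq_sq`: `∏_x Φ(γ'_x) = Φ(γ)^2` for every `γ ∈ Γ₀(N)` and every decomposition
  `α_x γ = γ'_x α_{σ x}` of the `T_l` coset representatives;
* `tHom_eq_two_smul`, `tHom_eq_succ_smul`: for an `𝔽_p`-valued additive character `φ` of `Γ₀(N)`
  that is the restriction of such a `Φ`, `T_l φ = 2 • φ = (l + 1) • φ`
  (`S30.BettiHecke.tHom`).

Inputs: `EisOrbit.prod_orbit_T` (one `γ`), `EisArith.dvd_orderOf_pow`, and the generator layer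
`EisGen`.
-/

set_option autoImplicit false

open scoped MatrixGroups
open CongruenceSubgroup Matrix.SpecialLinearGroup
open Fermat.Agent.S22.HeckePerm Fermat.Agent.S30.BettiHecke Fermat.Agent.S41.Ihara

namespace Fermat.Agent.S41.EisMain

open Fermat.Agent.S41.EisGen

/-- **Orbit lemma for all of `Γ₀(N)`** (multiplicative, relational form).  Let `Φ` be a
homomorphism from `Γ₀(N)[1/q]` to a commutative group of exponent `p` (`p` an odd prime) that
kills the upper unipotent elements.  For every prime `l ∤ N`, `l ≠ q`, with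
`l ≡ 1 mod eisModulus N q p` and `q` not a `p`-th power modulo `l`, and ANY decomposition
`α_x γ = γ'_x α_{σ x}` of the `T_l` coset representatives: `∏_x Φ(γ'_x) = Φ(γ)^2`. -/
theorem prod_T_eq_sq {N q p : ℕ} [NeZero N] (hp : p.Prime) (hp2 : p ≠ 2) (hq : q.Prime)
    (hqN : ¬ q ∣ N) {l : ℕ} [NeZero l] (hl : l.Prime) (hlN : ¬ l ∣ N) (hlq : l ≠ q)
    (hlM : l ≡ 1 [MOD eisModulus N q p]) (hkum : (q : ZMod l) ^ ((l - 1) / p) ≠ 1)
    {K : Type*} [CommGroup K] (hK : ∀ x : K, x ^ p = 1) (Φ : iharaGroup N q →* K)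
    (hU : ∀ (g : iharaGroup N q) (x : ℚ),
      ((g : SL(2, ℚ)) : Matrix (Fin 2) (Fin 2) ℚ) = !![1, x; 0, 1] → Φ g = 1)
    (γ : Gamma0 N) (σ : Equiv.Perm (OnePoint (ZMod l))) (γ' : OnePoint (ZMod l) → Gamma0 N)
    (hrel : ∀ x, tRep l x * mapGL ℝ (γ : SL(2, ℤ))
      = mapGL ℝ ((γ' x : Gamma0 N) : SL(2, ℤ)) * tRep l (σ x)) :
    ∏ x, Φ (incl N q (γ' x)) = Φ (incl N q γ) ^ 2 := by
  have hlq' : ¬ l ∣ q := fun h => hlq ((Nat.prime_dvd_prime_iff_eq hl hq).mp h)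
  have hl1 : l ≡ 1 [MOD p ^ (padicValNat p (2 * eisExp N q) + 1)] :=
    Nat.ModEq.of_mul_left _ hlM
  have hord : p ∣ orderOf ((q : ZMod l) ^ (2 * eisExp N q)) :=
    EisArith.dvd_orderOf_pow hp hl hlq' (eisExp_pos N q) hl1 hkum
  have hlC : (l : ℤ) ≡ 1 [ZMOD (genC N q : ℤ)] := by
    have h1 : l ≡ 1 [MOD genC N q] := Nat.ModEq.of_mul_right _ hlM
    have := (Int.natCast_modEq_iff).mpr h1
    simpa using this
  refine prod_eq_sq_of_gen Φ hl hlN (genSet N q) (genSet_closure hq hqN) (fun g hg => ?_)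
    γ σ γ' hrel
  exact EisOrbit.prod_orbit_T hq.ne_zero Φ hU (hp.odd_of_ne_two hp2) hK hl hlq' g
    (Int.ModEq.of_dvd (lowerLeft_dvd_genC hg) hlC) (eisExp N q) (pow_eisExp_modEq hq hg) hord
    (rPerm hl (g : SL(2, ℤ))) (coc hl hlN g) (coc_spec hl hlN g)

/-- **Orbit lemma, additive form**: if the `𝔽_p`-valued character `φ` of `Γ₀(N)` is the
restriction of a character `Φ` of `Γ₀(N)[1/q]` killing the upper unipotents, then
`T_l φ = 2 • φ` for the primes `l` of `prod_T_eq_sq`. -/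
theorem tHom_eq_two_smul {N q p : ℕ} [NeZero N] (hp : p.Prime) (hp2 : p ≠ 2) (hq : q.Prime)
    (hqN : ¬ q ∣ N) {l : ℕ} [NeZero l] (hl : l.Prime) (hlN : ¬ l ∣ N) (hlq : l ≠ q)
    (hlM : l ≡ 1 [MOD eisModulus N q p]) (hkum : (q : ZMod l) ^ ((l - 1) / p) ≠ 1)
    (Φ : iharaGroup N q →* Multiplicative (ZMod p))
    (hU : ∀ (g : iharaGroup N q) (x : ℚ),
      ((g : SL(2, ℚ)) : Matrix (Fin 2) (Fin 2) ℚ) = !![1, x; 0, 1] → Φ g = 1)
    (φ : Additive (Gamma0 N) →+ ZMod p)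
    (hφ : ∀ γ : Gamma0 N, Φ (incl N q γ) = Multiplicative.ofAdd (φ (Additive.ofMul γ))) :
    tHom (ZMod p) hl hlN φ = 2 • φ := by
  have hK : ∀ x : Multiplicative (ZMod p), x ^ p = 1 := by
    intro x
    have h : p • (Multiplicative.toAdd x) = 0 := by
      rw [nsmul_eq_mul, ZMod.natCast_self, zero_mul]
    exact congrArg Multiplicative.ofAdd h
  refine AddMonoidHom.ext fun a => ?_
  obtain ⟨γ, rfl⟩ : ∃ γ : Gamma0 N, Additive.ofMul γ = a := ⟨Additive.toMul a, rfl⟩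
  rw [tHom_apply]
  have h1 := prod_T_eq_sq hp hp2 hq hqN hl hlN hlq hlM hkum hK Φ hU γ
    (rPerm hl (γ : SL(2, ℤ))) (coc hl hlN γ) (coc_spec hl hlN γ)
  simp only [hφ] at h1
  have h2 := congrArg Multiplicative.toAdd h1
  rw [toAdd_prod, toAdd_pow] at h2
  exact h2

/-- The same with the Eisenstein eigenvalue `l + 1`. -/
theorem tHom_eq_succ_smul {N q p : ℕ} [NeZero N] (hp : p.Prime) (hp2 : p ≠ 2) (hq : q.Prime)
    (hqN : ¬ q ∣ N) {l : ℕ} [NeZero l] (hl : l.Prime) (hlN : ¬ l ∣ N) (hlq : l ≠ q)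
    (hlM : l ≡ 1 [MOD eisModulus N q p]) (hkum : (q : ZMod l) ^ ((l - 1) / p) ≠ 1)
    (Φ : iharaGroup N q →* Multiplicative (ZMod p))
    (hU : ∀ (g : iharaGroup N q) (x : ℚ),
      ((g : SL(2, ℚ)) : Matrix (Fin 2) (Fin 2) ℚ) = !![1, x; 0, 1] → Φ g = 1)
    (φ : Additive (Gamma0 N) →+ ZMod p)
    (hφ : ∀ γ : Gamma0 N, Φ (incl N q γ) = Multiplicative.ofAdd (φ (Additive.ofMul γ))) :
    tHom (ZMod p) hl hlN φ = (l + 1) • φ := by
  rw [tHom_eq_two_smul hp hp2 hq hqN hl hlN hlq hlM hkum Φ hU φ hφ]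
  have hlp : (l : ZMod p) = 1 := by
    have h1 : l ≡ 1 [MOD p] := Nat.ModEq.of_dvd (dvd_eisModulus N q p) hlM
    have := (ZMod.natCast_eq_natCast_iff l 1 p).mpr h1
    simpa using this
  refine AddMonoidHom.ext fun a => ?_
  rw [AddMonoidHom.smul_apply, AddMonoidHom.smul_apply, nsmul_eq_mul, nsmul_eq_mul]
  push_cast
  rw [hlp]
  norm_num

end Fermat.Agent.S41.EisMain
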