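import Fermat.Agent.S41.SatGlue
import Fermat.Agent.S41.EisMain
import Fermat.Agent.S41.Ihara.Symbol
import Fermat.Agent.S41.Ihara.Unip

/-!
# S41: the saturation property (Sat) at a Kummer prime

`sat`: let `p` be an odd prime, `q ∤ N` a prime and `ℓ ∤ N`, `ℓ ≠ q` a prime with
`ℓ ≡ 1 mod eisModulus N q p` and `q ^ ((ℓ - 1) / p) ≠ 1` in `ZMod ℓ`.  If
`x₁ x₂ ∈ Hom_par(Γ₀(N), ℤ)` satisfy `res₁ x₁ + res₂ x₂ ∈ p · Hom(Γ₀(N q), ℤ)`, then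
`(T_ℓ - (ℓ + 1)) x_i ∈ p · Hom_par(Γ₀(N), ℤ)`.

This is `SatGlue.sat_of_eis_mul` (Ihara's amalgam) combined with the orbit lemma
`EisMain.tHom_eq_succ_smul`, applied to the glued character `Φ` and to `Φ ∘ twistI`.
-/

set_option autoImplicit false

open scoped MatrixGroups
open CongruenceSubgroup ModularCurve ModularCurve.Period
open Fermat.Agent.S41.Ihara Fermat.Agent.S30.BettiHecke

namespace Fermat.Agent.S41.SatMain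

/-- **(Sat) at a Kummer prime.** -/
theorem sat {N q p ℓ : ℕ} [NeZero N] [NeZero q] [NeZero ℓ] (hp : p.Prime) (hp2 : p ≠ 2)
    (hq : q.Prime) (hqN : ¬ q ∣ N) (hℓ : ℓ.Prime) (hℓN : ¬ ℓ ∣ N) (hℓq : ℓ ≠ q)
    (hℓM : ℓ ≡ 1 [MOD EisGen.eisModulus N q p])
    (hkum : (q : ZMod ℓ) ^ ((ℓ - 1) / p) ≠ 1)
    (x₁ x₂ : Additive (Gamma0 N) →+ ℤ) (hx₁ : IsParabolicHom (Gamma0 N) x₁)
    (hx₂ : IsParabolicHom (Gamma0 N) x₂) (y : Additive (Gamma0 (N * q)) →+ ℤ)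
    (h : Frame.res₁ N q x₁ + Frame.res₂ N q x₂ = (p : ℤ) • y) :
    ∃ x₁' x₂' : Additive (Gamma0 N) →+ ℤ,
      IsParabolicHom (Gamma0 N) x₁' ∧ IsParabolicHom (Gamma0 N) x₂' ∧
      tHom ℤ hℓ hℓN x₁ - ((ℓ : ℤ) + 1) • x₁ = (p : ℤ) • x₁' ∧
      tHom ℤ hℓ hℓN x₂ - ((ℓ : ℤ) + 1) • x₂ = (p : ℤ) • x₂' := by
  refine SatGlue.sat_of_eis_mul hq hqN hp hℓ hℓN ?_ x₁ x₂ hx₁ hx₂ y h
  intro Φ hΦ
  have hcop : Nat.Coprime q N := (Nat.Prime.coprime_iff_not_dvd hq).mpr hqN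
  have hU : Symbol.KillsUpper Φ := fun g x hg =>
    Unip.map_eq_one_of_upper hq.ne_zero hcop Φ hΦ g x hg
  constructor
  · exact EisMain.tHom_eq_succ_smul hp hp2 hq hqN hℓ hℓN hℓq hℓM hkum Φ hU _ (fun γ => rfl)
  · refine EisMain.tHom_eq_succ_smul hp hp2 hq hqN hℓ hℓN hℓq hℓM hkum
      (Φ.comp (Symbol.twistI N q)) hU.comp_twistI _ (fun γ => ?_)
    show Φ (Symbol.twistI N q (incl N q γ)) = Φ (inclTw N q γ)
    rw [Symbol.twistI_incl]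

end Fermat.Agent.S41.SatMain
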