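import Fermat.Agent.S41.Wire
import Fermat.Agent.S41.SatMain
import Fermat.Agent.S41.HeckeBridge
import Fermat.Agent.S41.Pairing.Gamma0
import Fermat.Agent.S41.NonEis.KummerMain

/-!
# S41: the level-raising theorem from compatible Hecke actions on the Betti lattices

`result_of_occ` is the statement of S41 with one extra input: ring homomorphisms `ρ`, `ρ'` from
the full Hecke algebras of levels `N` and `N q'` to the endomorphisms of the Betti lattices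
`Lam N`, `Lam (N q')`, compatible with `periodHomPair` (`BettiHecke.Compat`), `ρ` injective.

All the other inputs of `Wire.result_of_frame` are discharged here:

* the auxiliary prime `ℓ₀`: `NonEis.Kummer.exists_prime_not_eisenstein_kummer` with modulus
  `EisGen.eisModulus N q' p` and excluded set `(N q').primeFactors`;
* the pairings: `Pairing.Main.pairAdd`, adjointness `Gamma0.pair_res₁`, `pair_res₂`,
  self-adjointness `Gamma0.pair_heckeT` (with `HeckeBridge.tHom_eq_heckeT`), nondegeneracy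
  `Lat.pair_nondeg`;
* (Sat): `SatMain.sat`.
-/

set_option autoImplicit false

open scoped MatrixGroups
open WeierstrassCurve WeierstrassCurve.Affine WeierstrassCurve.Affine.Point
open CongruenceSubgroup ModularCurve ModularCurve.Period
open Fermat.Agent.S30.BettiHecke (Lam castHom Compat tHom tLam)

namespace Fermat.Agent.S41.WireOcc

open Fermat.Agent.S41.FrameLat Fermat.Agent.S41.Pairing

/-- **S41 from compatible Hecke actions on the Betti lattices.** -/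
theorem result_of_occ
    (E : WeierstrassCurve ℚ) [E.IsElliptic] {W : WeierstrassCurve ℤ} (hW : W.IsIntegralModelOf E)
    {p N q' : ℕ} [NeZero N] [hq : Fact q'.Prime] (hp : p.Prime) (hp2 : p ≠ 2) (hq'N : ¬ q' ∣ N)
    (hirr : GaloisRepIsIrreducible (K := AlgebraicClosure ℚ) ℚ E p)
    (f : CuspForm (CongruenceSubgroup.Gamma0 N) 2) (𝔪 : Ideal (integralClosure ℤ ℂ))
    (hf : f.IsNormalizedEigenform) (hmax : 𝔪.IsMaximal) (hpm : (p : integralClosure ℤ ℂ) ∈ 𝔪)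
    (hcong : ∀ ℓ : ℕ, ℓ.Prime → W.IsGoodPrimeFor ℓ → ¬ ℓ ∣ N → ℓ ≠ p →
      ∃ a : integralClosure ℤ ℂ, (a : ℂ) = ModularFormClass.qCoeff f ℓ ∧
        a - ((W.apOfModel ℓ : ℤ) : integralClosure ℤ ℂ) ∈ 𝔪)
    (hLR : ∃ a : integralClosure ℤ ℂ, (a : ℂ) = ModularFormClass.qCoeff f q' ∧
      a ^ 2 - ((q' : integralClosure ℤ ℂ) + 1) ^ 2 ∈ 𝔪)
    (ρ : CuspForm.heckeAlgebra N 2 ∅ →+* Module.End ℤ (Lam N))
    (hρ : ∀ t : CuspForm.heckeAlgebra N 2 ∅, Compat N t.1 (ρ t))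
    (hρinj : Function.Injective ρ)
    (ρ' : CuspForm.heckeAlgebra (N * q') 2 ∅ →+* Module.End ℤ (Lam (N * q')))
    (hρ' : ∀ t : CuspForm.heckeAlgebra (N * q') 2 ∅, Compat (N * q') t.1 (ρ' t)) :
    ∃ (g : CuspForm (CongruenceSubgroup.Gamma0 (N * q')) 2) (𝔪' : Ideal (integralClosure ℤ ℂ)),
      g.IsNormalizedEigenform ∧ 𝔪'.IsMaximal ∧ (p : integralClosure ℤ ℂ) ∈ 𝔪' ∧
      (∀ ℓ : ℕ, ℓ.Prime → W.IsGoodPrimeFor ℓ → ¬ ℓ ∣ N * q' → ℓ ≠ p →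
        ∃ a : integralClosure ℤ ℂ, (a : ℂ) = ModularFormClass.qCoeff g ℓ ∧
          a - ((W.apOfModel ℓ : ℤ) : integralClosure ℤ ℂ) ∈ 𝔪') ∧
      g.IsNewAt q' := by
  have hq' : q'.Prime := hq.out
  have hpF : Fact p.Prime := ⟨hp⟩
  have hNq0 : N * q' ≠ 0 := Nat.mul_ne_zero (NeZero.ne N) hq'.ne_zero
  -- the auxiliary prime
  obtain ⟨ℓ₀, hℓ₀, hℓ₀S, hgood₀, hℓ₀p, hmod, hℓ₀c, hkum⟩ :=
    NonEis.Kummer.exists_prime_not_eisenstein_kummer E hW hp hp2 hirr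
      (EisGen.eisModulus N q' p) (EisGen.eisModulus_pos N q' hp.pos) (N * q').primeFactors hq'
  have hℓ₀M : ¬ ℓ₀ ∣ N * q' := fun h => hℓ₀S (Nat.mem_primeFactors.mpr ⟨hℓ₀, h, hNq0⟩)
  have hℓ₀N : ¬ ℓ₀ ∣ N := fun h => hℓ₀M (Dvd.dvd.mul_right h q')
  have hℓ₀q : ℓ₀ ≠ q' := fun h => hℓ₀M (h ▸ dvd_mul_left q' N)
  have hℓ₀0 : NeZero ℓ₀ := ⟨hℓ₀.ne_zero⟩
  have hℓ₀mod : ℓ₀ ≡ 1 [MOD EisGen.eisModulus N q' p] := Nat.ModEq.of_mul_right p hmod
  have hcop : Nat.Coprime N ℓ₀ :=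
    Nat.Coprime.symm ((Nat.Prime.coprime_iff_not_dvd hℓ₀).mpr hℓ₀N)
  refine Wire.result_of_frame hq'N hp f 𝔪 hf hmax hpm hcong hLR ρ hρ hρinj ρ' hρ'
    ℓ₀ hℓ₀ hgood₀ hℓ₀p hℓ₀N hℓ₀M hℓ₀c (Main.pairAdd N) (Main.pairAdd (N * q'))
    ?_ ?_ ?_ ?_ ?_ ?_
  · intro x y
    exact Gamma0.pair_res₁ N q' x y
  · intro x y
    exact Gamma0.pair_res₂ N q' x y
  · intro x z
    have e : ∀ v : Lam N, tLam hℓ₀ hℓ₀N v =
        ⟨Frame.heckeT N ℓ₀ v.1, Gamma0.isParabolicHom_heckeT N ℓ₀ v.2⟩ := fun v =>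
      Subtype.ext (HeckeBridge.tHom_eq_heckeT hℓ₀ hℓ₀N v.1)
    rw [e x, e z]
    exact Gamma0.pair_heckeT N ℓ₀ hcop x z
  · intro x h
    exact Lat.pair_nondeg N hp2 x h
  · intro y h
    exact Lat.pair_nondeg (N * q') hp2 y h
  · intro x₁ x₂ hx₁ hx₂ y h
    exact SatMain.sat hp hp2 hq' hq'N hℓ₀ hℓ₀N hℓ₀q hℓ₀mod hkum x₁ x₂ hx₁ hx₂ y h

end Fermat.Agent.S41.WireOcc
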