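import Mathlib

/-!
# Gluing homomorphisms along a ping-pong pair of subgroups

Let `G` be a group generated by two subgroups `A` and `B`, acting on a set `Ω` with a
"ping-pong table": disjoint nonempty sets `U₀`, `U₁` with `(A ∖ B) • U₁ ⊆ U₀` and
`(B ∖ A) • U₀ ⊆ U₁`, and such that `A ∩ B` has index at least three in `A` and in `B`
(in the form: for `x ∈ A ∖ B` there is `a ∈ A ∖ B` with `x a⁻¹ ∉ B`, and symmetrically).
Then `G` is the amalgamated product of `A` and `B` along `A ∩ B`; we prove this in the form
of the universal property: two homomorphisms `A →* M`, `B →* M` which agree on `A ∩ B`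
glue to a homomorphism `G →* M` (`exists_hom_of_pingPong`).

The proof is the classical one: every word in the letters of `A` and `B` is normalised to
`c · w` with `c ∈ A ∩ B` and `w` an alternating word whose letters lie outside `A ∩ B`
(keeping track of the value of the two homomorphisms), and the ping-pong table shows that a
nonempty alternating word is not the identity.

This is the group-theoretic core of Ihara's lemma (package (P2) of the level-raising build):
it is applied to `G = {g ∈ SL₂(ℤ[1/q]) : N ∣ c}`, `A = Γ₀(N)`, `B = δ⁻¹ Γ₀(N) δ`,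
`Ω = ℚ² ∖ {0}` and the sets `U₁ = {(x, y) : v_q(y) > v_q(x)}`, `U₀ = Ω ∖ U₁`.
-/

namespace Fermat.Agent.S41.Amalgam

section Words

variable {G : Type*} [Group G] (H : Bool → Subgroup G)

/-- The product in `G` of a word (letters = elements of `G` tagged by a boolean). -/
def wprod (l : List (G × Bool)) : G := (l.map Prod.fst).prod

omit [Group G] in
@[simp] theorem wprod_nil [Group G] : wprod ([] : List (G × Bool)) = 1 := rfl

@[simp] theorem wprod_cons (x : G × Bool) (l : List (G × Bool)) :
    wprod (x :: l) = x.1 * wprod l := by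
  simp [wprod]

@[simp] theorem wprod_append (l l' : List (G × Bool)) :
    wprod (l ++ l') = wprod l * wprod l' := by
  simp [wprod]

/-- A word is *good* if every letter lies in its own subgroup and not in the other one, and
the tags alternate. -/
def Good (l : List (G × Bool)) : Prop :=
  (∀ x ∈ l, x.1 ∈ H x.2 ∧ x.1 ∉ H (!x.2)) ∧ (l.map Prod.snd).IsChain (· ≠ ·)

theorem good_nil : Good H [] := ⟨by simp, by simp⟩

variable {H}

theorem Good.tail {x : G × Bool} {l : List (G × Bool)} (h : Good H (x :: l)) : Good H l := by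
  refine ⟨fun y hy => h.1 y (List.mem_cons_of_mem _ hy), ?_⟩
  have := h.2
  rw [List.map_cons] at this
  exact this.tail

theorem good_cons_cons {x y : G × Bool} {l : List (G × Bool)} :
    Good H (x :: y :: l) ↔ (x.1 ∈ H x.2 ∧ x.1 ∉ H (!x.2)) ∧ x.2 ≠ y.2 ∧ Good H (y :: l) := by
  unfold Good
  simp only [List.mem_cons, forall_eq_or_imp, List.map_cons, List.isChain_cons_cons]
  tauto

theorem good_singleton {x : G × Bool} :
    Good H [x] ↔ (x.1 ∈ H x.2 ∧ x.1 ∉ H (!x.2)) := by
  unfold Good
  simp

end Words

section PingPong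

variable {G : Type*} [Group G] {H : Bool → Subgroup G}
variable {Ω : Type*} [MulAction G Ω] {U : Bool → Set Ω}

/-- The ping-pong induction: a good word maps `U (!last tag)` into `U (first tag)`. -/
theorem smul_mem_of_good
    (hU : ∀ i, ∀ a ∈ H i, a ∉ H (!i) → ∀ ω ∈ U (!i), a • ω ∈ U i) :
    ∀ l : List (G × Bool), Good H l → ∀ x z, l.head? = some x → l.getLast? = some z →
      ∀ ω ∈ U (!z.2), wprod l • ω ∈ U x.2 := by
  intro l
  induction l with
  | nil => intro _ x z hx; simp at hx
  | cons y l ih =>
    intro hg x z hx hz ω hω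
    simp only [List.head?_cons, Option.some.injEq] at hx
    subst hx
    cases l with
    | nil =>
      simp only [List.getLast?_singleton, Option.some.injEq] at hz
      subst hz
      rw [good_singleton] at hg
      simpa using hU _ _ hg.1 hg.2 ω hω
    | cons y' l' =>
      rw [good_cons_cons] at hg
      rw [List.getLast?_cons_cons] at hz
      have h1 := ih hg.2.2 y' z rfl hz ω hω
      have hy' : y'.2 = !y.2 := by
        have := hg.2.1
        cases hy : y.2 <;> cases hy' : y'.2 <;> simp_all
      rw [hy'] at h1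
      rw [wprod_cons, mul_smul]
      exact hU _ _ hg.1.1 hg.1.2 _ h1

/-- A good word whose first and last letters have the same tag is not the identity. -/
theorem wprod_ne_one_of_tags_eq
    (hU : ∀ i, ∀ a ∈ H i, a ∉ H (!i) → ∀ ω ∈ U (!i), a • ω ∈ U i)
    (hdisj : Disjoint (U false) (U true)) (hne : ∀ i, (U i).Nonempty)
    (l : List (G × Bool)) (hg : Good H l) (x z : G × Bool) (hx : l.head? = some x)
    (hz : l.getLast? = some z) (hxz : z.2 = x.2) : wprod l ≠ 1 := by
  intro h1
  obtain ⟨ω, hω⟩ := hne (!z.2)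
  have h2 := smul_mem_of_good hU l hg x z hx hz ω hω
  rw [h1, one_smul, ← hxz] at h2
  rw [Set.disjoint_left] at hdisj
  cases hz2 : z.2 <;> simp only [hz2, Bool.not_false, Bool.not_true] at hω h2
  · exact hdisj h2 hω
  · exact hdisj hω h2

/-- A nonempty good word is not the identity. -/
theorem wprod_ne_one
    (hU : ∀ i, ∀ a ∈ H i, a ∉ H (!i) → ∀ ω ∈ U (!i), a • ω ∈ U i)
    (hdisj : Disjoint (U false) (U true)) (hne : ∀ i, (U i).Nonempty)
    (h3 : ∀ i, ∀ x ∈ H i, x ∉ H (!i) → ∃ a ∈ H i, a ∉ H (!i) ∧ x * a⁻¹ ∉ H (!i))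
    (l : List (G × Bool)) (hg : Good H l) (hl : l ≠ []) : wprod l ≠ 1 := by
  obtain ⟨x, hx⟩ : ∃ x, l.head? = some x := by
    cases l with
    | nil => exact absurd rfl hl
    | cons x l => exact ⟨x, rfl⟩
  obtain ⟨z, hz⟩ : ∃ z, l.getLast? = some z := by
    rcases List.eq_nil_or_concat l with h | ⟨l₀, z, rfl⟩
    · exact absurd h hl
    · exact ⟨z, by simp⟩
  by_cases hxz : z.2 = x.2
  · exact wprod_ne_one_of_tags_eq hU hdisj hne l hg x z hx hz hxz
  · -- conjugate by a suitable letter of the type of the last letter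
    obtain ⟨l₀, rfl⟩ : ∃ l₀, l = l₀ ++ [z] := by
      rcases List.eq_nil_or_concat l with h | ⟨l₀, z', rfl⟩
      · exact absurd h hl
      · simp only [List.concat_eq_append, List.getLast?_append, List.getLast?_singleton,
          Option.some_or, Option.some.injEq] at hz
        exact ⟨l₀, by rw [hz]; simp⟩
    have hl₀ : l₀.head? = some x := by
      cases l₀ with
      | nil =>
        simp only [List.nil_append, List.head?_cons, Option.some.injEq] at hx
        exact absurd (by rw [hx]) hxz
      | cons y l₁ => simpa using hx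
    have hzg : z.1 ∈ H z.2 ∧ z.1 ∉ H (!z.2) := hg.1 z (by simp)
    obtain ⟨a, haH, haN, hza⟩ := h3 z.2 z.1 hzg.1 hzg.2
    intro h1
    have hgood : Good H ((a, z.2) :: (l₀ ++ [(z.1 * a⁻¹, z.2)])) := by
      refine ⟨?_, ?_⟩
      · intro y hy
        simp only [List.mem_cons, List.mem_append, List.not_mem_nil, or_false] at hy
        rcases hy with rfl | hy | rfl
        · exact ⟨haH, haN⟩
        · exact hg.1 y (by simp [hy])
        · exact ⟨(H z.2).mul_mem hzg.1 ((H z.2).inv_mem haH), hza⟩
      · have hch := hg.2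
        simp only [List.map_cons, List.map_append, List.map_nil] at hch ⊢
        cases l₀ with
        | nil => simp at hl₀
        | cons y l₁ =>
          simp only [List.head?_cons, Option.some.injEq] at hl₀
          subst hl₀
          simp only [List.map_cons, List.cons_append, List.isChain_cons_cons]
          exact ⟨hxz, by simpa using hch⟩
    have hlast : ((a, z.2) :: (l₀ ++ [(z.1 * a⁻¹, z.2)])).getLast? =
        some (z.1 * a⁻¹, z.2) := by
      rw [← List.cons_append, List.getLast?_append]
      rfl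
    refine wprod_ne_one_of_tags_eq hU hdisj hne _ hgood (a, z.2) (z.1 * a⁻¹, z.2) rfl
      hlast rfl ?_
    have h1' : wprod l₀ * z.1 = 1 := by simpa using h1
    simp only [wprod_cons, wprod_append, wprod_nil, mul_one]
    calc a * (wprod l₀ * (z.1 * a⁻¹)) = a * (wprod l₀ * z.1) * a⁻¹ := by group
      _ = 1 := by rw [h1']; group

/-- A nonempty good word does not lie in `A ∩ B`; in the form: `c * w ≠ 1` for `c ∈ A ∩ B`. -/
theorem mul_wprod_ne_one
    (hU : ∀ i, ∀ a ∈ H i, a ∉ H (!i) → ∀ ω ∈ U (!i), a • ω ∈ U i)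
    (hdisj : Disjoint (U false) (U true)) (hne : ∀ i, (U i).Nonempty)
    (h3 : ∀ i, ∀ x ∈ H i, x ∉ H (!i) → ∃ a ∈ H i, a ∉ H (!i) ∧ x * a⁻¹ ∉ H (!i))
    (l : List (G × Bool)) (hg : Good H l) (hl : l ≠ []) (c : G) (hc : ∀ i, c ∈ H i) :
    c * wprod l ≠ 1 := by
  cases l with
  | nil => exact absurd rfl hl
  | cons x l =>
    have hx := hg.1 x (by simp)
    have hgood : Good H ((c * x.1, x.2) :: l) := by
      refine ⟨?_, ?_⟩
      · intro y hy
        rcases List.mem_cons.mp hy with rfl | hy
        · refine ⟨(H x.2).mul_mem (hc _) hx.1, fun h => hx.2 ?_⟩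
          have := (H (!x.2)).mul_mem ((H (!x.2)).inv_mem (hc _)) h
          simpa using this
        · exact hg.1 y (List.mem_cons_of_mem _ hy)
      · simpa using hg.2
    have := wprod_ne_one hU hdisj hne h3 _ hgood (by simp)
    simpa [mul_assoc] using this

end PingPong

section Normalise

variable {G : Type*} [Group G] {H : Bool → Subgroup G}
variable {M : Type*} [Group M] (φ : (i : Bool) → H i →* M)

/-- Evaluation of a letter under the family of homomorphisms (`1` on invalid letters). -/
noncomputable def ev (x : G × Bool) : M :=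
  open Classical in if h : x.1 ∈ H x.2 then φ x.2 ⟨x.1, h⟩ else 1

/-- Evaluation of a word. -/
noncomputable def wev (l : List (G × Bool)) : M := (l.map (ev φ)).prod

@[simp] theorem wev_nil : wev φ ([] : List (G × Bool)) = 1 := rfl

@[simp] theorem wev_cons (x : G × Bool) (l : List (G × Bool)) :
    wev φ (x :: l) = ev φ x * wev φ l := by
  simp [wev]

variable {φ}

theorem ev_of_mem {g : G} {i : Bool} (h : g ∈ H i) : ev φ (g, i) = φ i ⟨g, h⟩ := by
  simp [ev, h]

theorem ev_mul {g g' : G} {i : Bool} (h : g ∈ H i) (h' : g' ∈ H i) :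
    ev φ (g * g', i) = ev φ (g, i) * ev φ (g', i) := by
  rw [ev_of_mem h, ev_of_mem h', ev_of_mem ((H i).mul_mem h h'), ← map_mul]
  rfl

theorem ev_one (i : Bool) : ev φ ((1 : G), i) = 1 := by
  rw [ev_of_mem (H i).one_mem]
  exact map_one _

theorem ev_compat
    (hcompat : ∀ c (h0 : c ∈ H false) (h1 : c ∈ H true), φ false ⟨c, h0⟩ = φ true ⟨c, h1⟩)
    {c : G} (hc : ∀ i, c ∈ H i) (i j : Bool) : ev φ (c, i) = ev φ (c, j) := by
  rw [ev_of_mem (hc i), ev_of_mem (hc j)]
  cases i <;> cases j
  · rfl
  · exact hcompat c _ _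
  · exact (hcompat c _ _).symm
  · rfl

/-- Pushing one letter into a good word. -/
theorem exists_good_of_mul
    (hcompat : ∀ c (h0 : c ∈ H false) (h1 : c ∈ H true), φ false ⟨c, h0⟩ = φ true ⟨c, h1⟩)
    (i : Bool) (y : G) (hy : y ∈ H i) (l : List (G × Bool)) (hl : Good H l) :
    ∃ c : G, (∀ j, c ∈ H j) ∧ ∃ l' : List (G × Bool), Good H l' ∧
      y * wprod l = c * wprod l' ∧ ev φ (y, i) * wev φ l = ev φ (c, false) * wev φ l' := by
  by_cases hyN : y ∈ H (!i)
  · have hc : ∀ j, y ∈ H j := fun j => by
      cases i <;> cases j <;> simp_all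
    exact ⟨y, hc, l, hl, rfl, by rw [ev_compat hcompat hc i false]⟩
  · cases l with
    | nil =>
      exact ⟨1, fun j => (H j).one_mem, [(y, i)], good_singleton.mpr ⟨hy, hyN⟩, by simp,
        by simp [ev_one]⟩
    | cons z l₁ =>
      by_cases hzi : z.2 = i
      · -- merge the two letters
        obtain ⟨z1, z2⟩ := z
        simp only at hzi
        subst hzi
        have hz := hl.1 (z1, z2) (by simp)
        simp only at hz
        by_cases hu : y * z1 ∈ H (!z2)
        · cases l₁ with
          | nil =>
            have hc : ∀ j, y * z1 ∈ H j := fun j => by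
              have := (H z2).mul_mem hy hz.1
              cases z2 <;> cases j <;> simp_all
            refine ⟨y * z1, hc, [], good_nil H, by simp, ?_⟩
            simp only [wev_cons, wev_nil, mul_one]
            rw [← ev_mul hy hz.1, ev_compat hcompat hc z2 false]
          | cons w l₂ =>
            have hl' := hl
            rw [good_cons_cons] at hl'
            obtain ⟨w1, w2⟩ := w
            have hw2 : w2 = !z2 := by
              have := hl'.2.1
              simp only at this
              cases z2 <;> cases w2 <;> simp_all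
            subst hw2
            have hw := hl'.2.2.1 (w1, !z2) (by simp)
            simp only [Bool.not_not] at hw
            have hc : ∀ j, y * z1 ∈ H j := fun j => by
              have := (H z2).mul_mem hy hz.1
              cases z2 <;> cases j <;> simp_all
            refine ⟨1, fun j => (H j).one_mem, (y * z1 * w1, !z2) :: l₂, ?_, ?_, ?_⟩
            · refine ⟨?_, ?_⟩
              · intro v hv
                rcases List.mem_cons.mp hv with rfl | hv
                · refine ⟨(H (!z2)).mul_mem hu hw.1, fun h => hw.2 ?_⟩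
                  simp only [Bool.not_not] at h
                  have := (H z2).mul_mem ((H z2).inv_mem (hc z2)) h
                  rwa [inv_mul_cancel_left] at this
                · exact hl'.2.2.1 v (List.mem_cons_of_mem _ hv)
              · simpa using hl'.2.2.2
            · simp [mul_assoc]
            · simp only [wev_cons, ev_one, one_mul]
              rw [ev_mul hu hw.1, ← ev_compat hcompat hc z2 (!z2), ev_mul hy hz.1]
              simp only [mul_assoc]
        · refine ⟨1, fun j => (H j).one_mem, (y * z1, z2) :: l₁, ?_, by simp [mul_assoc], ?_⟩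
          · refine ⟨?_, ?_⟩
            · intro v hv
              rcases List.mem_cons.mp hv with rfl | hv
              · exact ⟨(H z2).mul_mem hy hz.1, hu⟩
              · exact hl.1 v (List.mem_cons_of_mem _ hv)
            · simpa using hl.2
          · simp only [wev_cons, ev_one, one_mul]
            rw [ev_mul hy hz.1, mul_assoc]
      · refine ⟨1, fun j => (H j).one_mem, (y, i) :: z :: l₁, ?_, by simp, by simp [ev_one]⟩
        rw [good_cons_cons]
        exact ⟨⟨hy, hyN⟩, fun h => hzi h.symm, hl⟩

/-- Normal form of a valid word: `c` times a good word, compatibly with evaluation. -/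
theorem exists_good
    (hcompat : ∀ c (h0 : c ∈ H false) (h1 : c ∈ H true), φ false ⟨c, h0⟩ = φ true ⟨c, h1⟩)
    (l : List (G × Bool)) (hl : ∀ x ∈ l, x.1 ∈ H x.2) :
    ∃ c : G, (∀ j, c ∈ H j) ∧ ∃ l' : List (G × Bool), Good H l' ∧
      wprod l = c * wprod l' ∧ wev φ l = ev φ (c, false) * wev φ l' := by
  induction l with
  | nil => exact ⟨1, fun j => (H j).one_mem, [], good_nil H, by simp, by simp [ev_one]⟩
  | cons x l ih =>
    obtain ⟨c₀, hc₀, l₀, hl₀, h1, h2⟩ := ih (fun y hy => hl y (List.mem_cons_of_mem _ hy))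
    have hx : x.1 ∈ H x.2 := hl x (by simp)
    obtain ⟨c, hc, l', hl', h3, h4⟩ :=
      exists_good_of_mul hcompat x.2 (x.1 * c₀) ((H x.2).mul_mem hx (hc₀ _)) l₀ hl₀
    refine ⟨c, hc, l', hl', ?_, ?_⟩
    · rw [wprod_cons, h1, ← mul_assoc, h3]
    · rw [wev_cons, h2, ← h4, ev_mul hx (hc₀ _), ev_compat hcompat hc₀ false x.2, mul_assoc]

end Normalise

section Main

open Monoid.Coprod

variable {G : Type*} [Group G] {Ω : Type*} [MulAction G Ω] {M : Type*} [Group M]

/-- The pair of subgroups `A`, `B` as a family indexed by `Bool`. -/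
def pairSub (A B : Subgroup G) : Bool → Subgroup G
  | false => A
  | true => B

/-- The pair of homomorphisms as a family indexed by `Bool`. -/
def pairHom {A B : Subgroup G} (φA : A →* M) (φB : B →* M) : (i : Bool) → pairSub A B i →* M
  | false => φA
  | true => φB

/-- **Gluing along a ping-pong pair** (universal property of the amalgamated product
`A *_{A ∩ B} B`, for a group `G` generated by `A` and `B` with a ping-pong table). -/
theorem exists_hom_of_pingPong (A B : Subgroup G) (hgen : A ⊔ B = ⊤)
    (U₀ U₁ : Set Ω) (hdisj : Disjoint U₀ U₁) (h₀ : U₀.Nonempty) (h₁ : U₁.Nonempty)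
    (hA : ∀ a ∈ A, a ∉ B → ∀ ω ∈ U₁, a • ω ∈ U₀)
    (hB : ∀ b ∈ B, b ∉ A → ∀ ω ∈ U₀, b • ω ∈ U₁)
    (hA3 : ∀ x ∈ A, x ∉ B → ∃ a ∈ A, a ∉ B ∧ x * a⁻¹ ∉ B)
    (hB3 : ∀ x ∈ B, x ∉ A → ∃ b ∈ B, b ∉ A ∧ x * b⁻¹ ∉ A)
    (φA : A →* M) (φB : B →* M)
    (hcompat : ∀ c (hcA : c ∈ A) (hcB : c ∈ B), φA ⟨c, hcA⟩ = φB ⟨c, hcB⟩) :
    ∃ φ : G →* M, (∀ a : A, φ a = φA a) ∧ (∀ b : B, φ b = φB b) := by
  classical
  let H : Bool → Subgroup G := pairSub A B
  let U : Bool → Set Ω := fun i => Bool.rec U₀ U₁ i
  let φ : (i : Bool) → H i →* M := pairHom φA φB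
  have hU : ∀ i, ∀ a ∈ H i, a ∉ H (!i) → ∀ ω ∈ U (!i), a • ω ∈ U i := by
    intro i
    cases i
    · exact hA
    · exact hB
  have hne : ∀ i, (U i).Nonempty := by
    intro i
    cases i
    · exact h₀
    · exact h₁
  have h3 : ∀ i, ∀ x ∈ H i, x ∉ H (!i) → ∃ a ∈ H i, a ∉ H (!i) ∧ x * a⁻¹ ∉ H (!i) := by
    intro i
    cases i
    · exact hA3
    · exact hB3
  have hcompat' : ∀ c (h0 : c ∈ H false) (h1 : c ∈ H true), φ false ⟨c, h0⟩ = φ true ⟨c, h1⟩ :=
    hcompat
  -- the two maps out of the free product
  let π : A ∗ B →* G := lift A.subtype B.subtype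
  let ψ : A ∗ B →* M := lift φA φB
  have hπ : Function.Surjective π := by
    rw [← MonoidHom.range_eq_top, range_lift, Subgroup.range_subtype, Subgroup.range_subtype,
      hgen]
  -- words
  let t : A ⊕ B → G × Bool := Sum.elim (fun a => ((a : G), false)) (fun b => ((b : G), true))
  have hvalid : ∀ l : List (A ⊕ B), ∀ x ∈ l.map t, x.1 ∈ H x.2 := by
    intro l x hx
    obtain ⟨s, -, rfl⟩ := List.mem_map.mp hx
    rcases s with a | b
    · exact a.2
    · exact b.2
  have hπl : ∀ l : List (A ⊕ B), π (mk (FreeMonoid.ofList l)) = wprod (l.map t) := by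
    intro l
    induction l with
    | nil => exact map_one _
    | cons s l ih =>
      have : FreeMonoid.ofList (s :: l) = FreeMonoid.of s * FreeMonoid.ofList l := rfl
      rw [this, map_mul, map_mul, ih, List.map_cons, wprod_cons]
      congr 1
      rcases s with a | b
      · exact lift_apply_inl _ _ a
      · exact lift_apply_inr _ _ b
  have hψl : ∀ l : List (A ⊕ B), ψ (mk (FreeMonoid.ofList l)) = wev φ (l.map t) := by
    intro l
    induction l with
    | nil => exact map_one _
    | cons s l ih =>
      have : FreeMonoid.ofList (s :: l) = FreeMonoid.of s * FreeMonoid.ofList l := rfl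
      rw [this, map_mul, map_mul, ih, List.map_cons, wev_cons]
      congr 1
      rcases s with a | b
      · exact (lift_apply_inl _ _ a).trans (ev_of_mem (φ := φ) (i := false) a.2).symm
      · exact (lift_apply_inr _ _ b).trans (ev_of_mem (φ := φ) (i := true) b.2).symm
  have hker : π.ker ≤ ψ.ker := by
    intro x hx
    obtain ⟨w, rfl⟩ := mk_surjective x
    obtain ⟨l, rfl⟩ : ∃ l, FreeMonoid.ofList l = w := ⟨FreeMonoid.toList w, rfl⟩
    rw [MonoidHom.mem_ker] at hx ⊢
    rw [hπl] at hx
    rw [hψl]
    obtain ⟨c, hc, l', hl', h1, h2⟩ := exists_good (φ := φ) hcompat' (l.map t) (hvalid l)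
    rw [h1] at hx
    have hnil : l' = [] := by
      by_contra hne'
      exact mul_wprod_ne_one hU hdisj hne h3 l' hl' hne' c hc hx
    subst hnil
    have hc1 : c = 1 := by simpa using hx
    rw [h2, hc1, ev_one, wev_nil, mul_one]
  refine ⟨π.liftOfSurjective hπ ⟨ψ, hker⟩, fun a => ?_, fun b => ?_⟩
  · have h := MonoidHom.liftOfRightInverse_comp_apply π (Function.surjInv hπ)
      (Function.rightInverse_surjInv hπ) ⟨ψ, hker⟩ (inl a)
    have h1 : π (inl a) = (a : G) := lift_apply_inl _ _ a
    have h2 : ψ (inl a) = φA a := lift_apply_inl _ _ a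
    rw [h1] at h
    exact h.trans h2
  · have h := MonoidHom.liftOfRightInverse_comp_apply π (Function.surjInv hπ)
      (Function.rightInverse_surjInv hπ) ⟨ψ, hker⟩ (inr b)
    have h1 : π (inr b) = (b : G) := lift_apply_inr _ _ b
    have h2 : ψ (inr b) = φB b := lift_apply_inr _ _ b
    rw [h1] at h
    exact h.trans h2

end Main

end Fermat.Agent.S41.Amalgam
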