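import Mathlib
import Fermat.Prelude.Def_ModularForm_HeckeOperatorForms

set_option autoImplicit false

open UpperHalfPlane Filter Topology ModularForm
open scoped MatrixGroups ModularForm Modular

namespace Fermat.Agent.S41.HeckeBound

/-- The invariant height function `Im τ * ‖f τ‖` attached to a weight-2 form. -/
noncomputable def phi (f : ℍ → ℂ) (τ : ℍ) : ℝ := τ.im * ‖f τ‖

lemma phi_nonneg (f : ℍ → ℂ) (τ : ℍ) : 0 ≤ phi f τ :=
  mul_nonneg τ.im_pos.le (norm_nonneg _)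

lemma phi_sq (f : ℍ → ℂ) (τ : ℍ) : phi f τ ^ 2 = ‖petersson 2 f f τ‖ := by
  simp only [phi, petersson, norm_mul, RCLike.norm_conj, norm_zpow, Complex.norm_real,
    Real.norm_of_nonneg τ.im_pos.le]
  rw [zpow_ofNat]
  ring

lemma phi_smul_of_mem {N : ℕ} (f : CuspForm (CongruenceSubgroup.Gamma0 N) 2) {γ : SL(2, ℤ)}
    (hγ : γ ∈ CongruenceSubgroup.Gamma0 N) (τ : ℍ) : phi f (γ • τ) = phi f τ := by
  have h1 : phi f (γ • τ) ^ 2 = phi f τ ^ 2 := by
    rw [phi_sq, phi_sq]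
    exact SlashInvariantFormClass.norm_petersson_smul (Γ := (CongruenceSubgroup.Gamma0 N).map
      (Matrix.SpecialLinearGroup.mapGL ℝ)) (f := f) (f' := f) (Subgroup.mem_map_of_mem _ hγ)
  exact (sq_eq_sq₀ (phi_nonneg _ _) (phi_nonneg _ _)).mp h1

open ConjAct Pointwise Matrix.SpecialLinearGroup in
lemma tendsto_phi_smul {N : ℕ} [NeZero N] (f : CuspForm (CongruenceSubgroup.Gamma0 N) 2)
    (g : SL(2, ℤ)) : Tendsto (fun τ ↦ phi f (g • τ)) atImInfty (𝓝 0) := by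
  have h : Tendsto (fun τ ↦ petersson 2 f f (g • τ)) atImInfty (𝓝 0) := by
    simp_rw [← UpperHalfPlane.petersson_slash_SL]
    have : ((toConjAct (g : GL (Fin 2) ℝ)⁻¹) •
        ((CongruenceSubgroup.Gamma0 N).map (mapGL ℝ))).IsArithmetic := by
      simpa [(show Rat.castHom ℝ = algebraMap ℚ ℝ by rfl), map_inv, map_mapGL]
        using! Subgroup.IsArithmetic.conj ((CongruenceSubgroup.Gamma0 N).map (mapGL ℝ))
          (mapGL ℚ g)⁻¹
    exact (CuspFormClass.zero_at_infty <| CuspForm.translate f g).petersson_isZeroAtImInfty_left 2 _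
      (ModularForm.translate f g)
  have h2 : Tendsto (fun τ ↦ Real.sqrt ‖petersson 2 f f (g • τ)‖) atImInfty (𝓝 0) := by
    have h3 : Tendsto (fun τ ↦ ‖petersson 2 f f (g • τ)‖) atImInfty (𝓝 0) := by
      simpa using h.norm
    have h4 := (Real.continuous_sqrt.tendsto 0).comp h3
    rw [Real.sqrt_zero] at h4
    exact h4
  refine h2.congr (fun τ ↦ ?_)
  rw [← phi_sq, Real.sqrt_sq (phi_nonneg _ _)]

lemma im_heckeMatrix_smul {p : ℕ} (hp : p ≠ 0) (j : ℕ) (τ : ℍ) :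
    (heckeMatrix p j • τ).im = τ.im / p := by
  have := congrArg Complex.im (coe_heckeMatrix_smul hp j τ)
  simpa [Complex.div_natCast_im] using this

lemma im_heckeDiagMatrix_smul {p : ℕ} (hp : p ≠ 0) (τ : ℍ) :
    (heckeDiagMatrix p • τ).im = p * τ.im := by
  have := congrArg Complex.im (coe_heckeDiagMatrix_smul hp τ)
  simpa using this

lemma hecke_ineq {q : ℕ} (hq : q ≠ 0) (f : ℍ → ℂ) (a : ℂ) (hf : heckeT 2 q f = a • f) (τ : ℍ) :
    ‖a‖ * phi f τ ≤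
      ∑ j ∈ Finset.range q, phi f (heckeMatrix q j • τ) + phi f (heckeDiagMatrix q • τ) := by
  have h := congrFun hf τ
  rw [heckeT_apply 2 hq] at h
  simp only [Pi.smul_apply, smul_eq_mul] at h
  have hq' : (0:ℝ) < q := by positivity
  calc ‖a‖ * phi f τ = τ.im * ‖a * f τ‖ := by simp only [phi, norm_mul]; ring
    _ = τ.im * ‖(q:ℂ)⁻¹ * ∑ j ∈ Finset.range q, f (heckeMatrix q j • τ)
          + (q:ℂ) ^ (2 - 1 : ℤ) * f (heckeDiagMatrix q • τ)‖ := by rw [h]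
    _ ≤ τ.im * ((q:ℝ)⁻¹ * ∑ j ∈ Finset.range q, ‖f (heckeMatrix q j • τ)‖
          + q * ‖f (heckeDiagMatrix q • τ)‖) := by
        have him := τ.im_pos.le
        gcongr
        refine (norm_add_le _ _).trans (add_le_add ?_ ?_)
        · rw [norm_mul, norm_inv, Complex.norm_natCast]
          gcongr
          exact norm_sum_le _ _
        · rw [norm_mul]
          simp
    _ = ∑ j ∈ Finset.range q, phi f (heckeMatrix q j • τ) + phi f (heckeDiagMatrix q • τ) := by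
        simp only [phi, im_heckeMatrix_smul hq, im_heckeDiagMatrix_smul hq]
        rw [mul_add, Finset.mul_sum, Finset.mul_sum]
        congr 1
        · apply Finset.sum_congr rfl
          intros
          field_simp
        · ring

lemma iterate_ineq {q : ℕ} (φ : ℍ → ℝ) (M : ℝ) (hM : ∀ z, φ z ≤ M)
    (hineq : ∀ z, ((q:ℝ) + 1) * φ z ≤
      ∑ j ∈ Finset.range q, φ (heckeMatrix q j • z) + φ (heckeDiagMatrix q • z))
    (n : ℕ) (z : ℍ) :
    M - φ ((heckeDiagMatrix q ^ n) • z) ≤ ((q:ℝ) + 1) ^ n * (M - φ z) := by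
  induction n with
  | zero => simp
  | succ n ih =>
    rw [pow_succ', mul_smul]
    set w := (heckeDiagMatrix q ^ n) • z
    have h1 := hineq w
    have h2 : ∑ j ∈ Finset.range q, φ (heckeMatrix q j • w) ≤ q * M := by
      calc ∑ j ∈ Finset.range q, φ (heckeMatrix q j • w)
          ≤ ∑ _j ∈ Finset.range q, M := Finset.sum_le_sum (fun j _ => hM _)
        _ = q * M := by simp
    have h3 : M - φ (heckeDiagMatrix q • w) ≤ ((q:ℝ) + 1) * (M - φ w) := by linarith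
    have hq1 : (0:ℝ) ≤ (q:ℝ) + 1 := by positivity
    calc M - φ (heckeDiagMatrix q • w) ≤ ((q:ℝ) + 1) * (M - φ w) := h3
      _ ≤ ((q:ℝ) + 1) * (((q:ℝ) + 1) ^ n * (M - φ z)) := mul_le_mul_of_nonneg_left ih hq1
      _ = ((q:ℝ) + 1) ^ (n + 1) * (M - φ z) := by ring

lemma im_heckeDiag_pow_smul {q : ℕ} (hq : q ≠ 0) (n : ℕ) (z : ℍ) :
    ((heckeDiagMatrix q ^ n) • z).im = (q:ℝ) ^ n * z.im := by
  induction n with
  | zero => simp
  | succ n ih => rw [pow_succ', mul_smul, im_heckeDiagMatrix_smul hq, ih]; ring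

lemma exists_height {N : ℕ} [NeZero N] (f : CuspForm (CongruenceSubgroup.Gamma0 N) 2) {ε : ℝ}
    (hε : 0 < ε) :
    ∃ c₀ : ℝ, 0 < c₀ ∧ ∀ z : ℍ, ε ≤ phi f z →
      ∃ γ : SL(2, ℤ), γ ∈ CongruenceSubgroup.Gamma0 N ∧ c₀ ≤ (γ • z).im := by
  classical
  have : Finite (SL(2, ℤ) ⧸ CongruenceSubgroup.Gamma0 N) := Subgroup.finite_quotient_of_finiteIndex
  let r : SL(2, ℤ) ⧸ CongruenceSubgroup.Gamma0 N → SL(2, ℤ) := fun x => (Quotient.out x)⁻¹
  have hdecay : ∀ x, ∃ Y : ℝ, ∀ w : ℍ, Y ≤ w.im → phi f (r x • w) < ε := by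
    intro x
    have h := tendsto_phi_smul f (r x)
    have h2 : ∀ᶠ w in atImInfty, phi f (r x • w) < ε := h.eventually (gt_mem_nhds hε)
    exact (atImInfty_mem _).mp h2
  choose Y hY using hdecay
  obtain ⟨Y₁, hY₁⟩ : ∃ Y₁, ∀ x, Y x ≤ Y₁ := by
    obtain ⟨B, hB⟩ := (Set.finite_range Y).bddAbove
    exact ⟨B, fun x => hB (Set.mem_range_self x)⟩
  let B : SL(2, ℤ) ⧸ CongruenceSubgroup.Gamma0 N → ℝ := fun x =>
    (|((r x) 1 0 : ℝ)| + |((r x) 1 1 : ℝ)|) ^ 2 + ((r x) 1 0 : ℝ) ^ 2 * Y₁ ^ 2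
  obtain ⟨B₁, hB₁⟩ : ∃ B₁, ∀ x, B x ≤ B₁ := by
    obtain ⟨b, hb⟩ := (Set.finite_range B).bddAbove
    exact ⟨b, fun x => hb (Set.mem_range_self x)⟩
  refine ⟨(1/2) / (|B₁| + 1), by positivity, fun z hz => ?_⟩
  obtain ⟨g, hg⟩ := ModularGroup.exists_smul_mem_fd z
  set x : SL(2, ℤ) ⧸ CongruenceSubgroup.Gamma0 N := QuotientGroup.mk g with hx
  have hγ : r x * g ∈ CongruenceSubgroup.Gamma0 N := by
    have h1 : (QuotientGroup.mk (Quotient.out x) : SL(2, ℤ) ⧸ CongruenceSubgroup.Gamma0 N)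
        = QuotientGroup.mk g := QuotientGroup.out_eq' x
    exact QuotientGroup.eq.mp h1
  refine ⟨r x * g, hγ, ?_⟩
  have hphi : ε ≤ phi f (r x • (g • z)) := by
    have h1 := phi_smul_of_mem f hγ z
    rw [mul_smul] at h1
    rw [h1]
    exact hz
  rw [mul_smul]
  generalize g • z = w at hg hphi ⊢
  have him_lt : w.im < Y₁ := by
    by_contra hcon
    push Not at hcon
    exact absurd (hY x w ((hY₁ x).trans hcon)) (not_lt.mpr hphi)
  have him_pos := w.im_pos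
  have him_ge : 1/2 ≤ w.im := by
    have h3 := ModularGroup.three_le_four_mul_im_sq_of_mem_fd hg
    nlinarith
  have hre : |w.re| ≤ 1/2 := hg.2
  rw [ModularGroup.im_smul_eq_div_normSq, ModularGroup.denom_apply]
  have hnseq : Complex.normSq (((r x) 1 0 : ℂ) * w + (r x) 1 1) =
      (((r x) 1 0 : ℝ) * w.re + (r x) 1 1) ^ 2 + ((r x) 1 0 : ℝ) ^ 2 * w.im ^ 2 := by
    simp [Complex.normSq_apply]
    ring
  have hns : Complex.normSq (((r x) 1 0 : ℂ) * w + (r x) 1 1) ≤ B x := by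
    rw [hnseq]
    have e1 : |((r x) 1 0 : ℝ) * w.re + (r x) 1 1| ≤ |((r x) 1 0 : ℝ)| + |((r x) 1 1 : ℝ)| := by
      calc |((r x) 1 0 : ℝ) * w.re + (r x) 1 1| ≤ |((r x) 1 0 : ℝ) * w.re| + |((r x) 1 1 : ℝ)| :=
            abs_add_le _ _
        _ = |((r x) 1 0 : ℝ)| * |w.re| + |((r x) 1 1 : ℝ)| := by rw [abs_mul]
        _ ≤ |((r x) 1 0 : ℝ)| * 1 + |((r x) 1 1 : ℝ)| := by
            gcongr
            linarith
        _ = _ := by ring
    have e2 : (((r x) 1 0 : ℝ) * w.re + (r x) 1 1) ^ 2 ≤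
        (|((r x) 1 0 : ℝ)| + |((r x) 1 1 : ℝ)|) ^ 2 := by
      rw [← sq_abs (((r x) 1 0 : ℝ) * w.re + (r x) 1 1)]
      exact pow_le_pow_left₀ (abs_nonneg _) e1 2
    have e3 : ((r x) 1 0 : ℝ) ^ 2 * w.im ^ 2 ≤ ((r x) 1 0 : ℝ) ^ 2 * Y₁ ^ 2 := by
      have : w.im ^ 2 ≤ Y₁ ^ 2 := pow_le_pow_left₀ him_pos.le him_lt.le 2
      exact mul_le_mul_of_nonneg_left this (sq_nonneg _)
    exact add_le_add e2 e3
  have hnspos : 0 < Complex.normSq (((r x) 1 0 : ℂ) * w + (r x) 1 1) := by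
    have := ModularGroup.denom_apply (r x) w
    rw [← this]
    exact Complex.normSq_pos.mpr (UpperHalfPlane.denom_ne_zero _ w)
  have hle : Complex.normSq (((r x) 1 0 : ℂ) * w + (r x) 1 1) ≤ |B₁| + 1 :=
    hns.trans ((hB₁ x).trans ((le_abs_self _).trans (by linarith)))
  calc (1/2) / (|B₁| + 1) ≤ w.im / (|B₁| + 1) := by gcongr
    _ ≤ w.im / Complex.normSq (((r x) 1 0 : ℂ) * w + (r x) 1 1) := by gcongr

/-- **Trivial bound for Hecke eigenvalues on weight-2 cusp forms**: if `T_q f = a • f` with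
`‖a‖ ≥ q + 1` then `f = 0`. -/
theorem eq_zero_of_heckeT_eq_smul {N : ℕ} {q : ℕ} (hq : q.Prime) (hqN : ¬ q ∣ N)
    (f : CuspForm (CongruenceSubgroup.Gamma0 N) 2) (a : ℂ) (ha : (q:ℝ) + 1 ≤ ‖a‖)
    (hf : CuspForm.heckeTLin 2 hq hqN f = a • f) : f = 0 := by
  have : NeZero N := ⟨fun h => hqN (h ▸ dvd_zero q)⟩
  have hq0 : q ≠ 0 := hq.ne_zero
  by_contra hne
  obtain ⟨z₀, hz₀⟩ : ∃ z, f z ≠ 0 := by
    by_contra h
    push Not at h
    exact hne (DFunLike.ext _ _ (by simpa using h))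
  -- boundedness
  obtain ⟨C, hC⟩ := CuspFormClass.petersson_bounded_left 2
    ((CongruenceSubgroup.Gamma0 N).map (Matrix.SpecialLinearGroup.mapGL ℝ)) f f
  have hbdd : BddAbove (Set.range (phi f)) := by
    refine ⟨C + 1, ?_⟩
    rintro _ ⟨z, rfl⟩
    have h1 := hC z
    rw [← phi_sq] at h1
    nlinarith [phi_nonneg f z]
  set M : ℝ := ⨆ z, phi f z with hMdef
  have hM : ∀ z, phi f z ≤ M := fun z => le_ciSup hbdd z
  have hMpos : 0 < M := by
    refine lt_of_lt_of_le ?_ (hM z₀)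
    exact mul_pos z₀.im_pos (norm_pos_iff.mpr hz₀)
  -- function-level Hecke equation
  have hf' : heckeT 2 q ⇑f = a • ⇑f := by
    have h1 := congrArg (fun g : CuspForm (CongruenceSubgroup.Gamma0 N) 2 => (⇑g : ℍ → ℂ)) hf
    simpa using h1
  have hineq : ∀ z, ((q:ℝ) + 1) * phi f z ≤
      ∑ j ∈ Finset.range q, phi f (heckeMatrix q j • z) + phi f (heckeDiagMatrix q • z) :=
    fun z => (mul_le_mul_of_nonneg_right ha (phi_nonneg f z)).trans (hecke_ineq hq0 f a hf' z)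
  -- decay at infinity
  obtain ⟨Y₀, hY₀⟩ : ∃ Y₀ : ℝ, ∀ w : ℍ, Y₀ ≤ w.im → phi f w < M / 2 := by
    have h := tendsto_phi_smul f 1
    have h2 : ∀ᶠ w in atImInfty, phi f ((1 : SL(2, ℤ)) • w) < M / 2 :=
      h.eventually (gt_mem_nhds (by positivity))
    obtain ⟨A, hA⟩ := (atImInfty_mem _).mp h2
    exact ⟨A, fun w hw => by simpa using hA w hw⟩
  obtain ⟨c₀, hc₀, hheight⟩ := exists_height f (half_pos hMpos)
  -- choose n with q ^ n * c₀ ≥ Y₀
  obtain ⟨n, hn⟩ : ∃ n : ℕ, Y₀ / c₀ < (q:ℝ) ^ n :=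
    pow_unbounded_of_one_lt _ (by exact_mod_cast hq.one_lt)
  have hqn : (0:ℝ) < ((q:ℝ) + 1) ^ n := by positivity
  have hqn1 : (1:ℝ) ≤ ((q:ℝ) + 1) ^ n := one_le_pow₀ (by linarith [(Nat.cast_nonneg q : (0:ℝ) ≤ q)])
  -- choose z with phi z > M - M / (2 (q+1)^n)
  obtain ⟨z, hz⟩ : ∃ z, M - M / (2 * ((q:ℝ) + 1) ^ n) < phi f z := by
    have hlt : M - M / (2 * ((q:ℝ) + 1) ^ n) < M := by
      have : 0 < M / (2 * ((q:ℝ) + 1) ^ n) := by positivity
      linarith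
    exact exists_lt_of_lt_ciSup hlt
  have hz2 : M / 2 ≤ phi f z := by
    have : M / (2 * ((q:ℝ) + 1) ^ n) ≤ M / 2 := by
      apply div_le_div_of_nonneg_left hMpos.le (by norm_num)
      linarith
    linarith
  obtain ⟨γ, hγ, hγim⟩ := hheight z hz2
  have hz' : M - M / (2 * ((q:ℝ) + 1) ^ n) < phi f (γ • z) := by
    rw [phi_smul_of_mem f hγ]; exact hz
  have h5 := iterate_ineq (phi f) M hM hineq n (γ • z)
  have h6 : ((q:ℝ) + 1) ^ n * (M - phi f (γ • z)) < M / 2 := by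
    have : M - phi f (γ • z) < M / (2 * ((q:ℝ) + 1) ^ n) := by linarith
    calc ((q:ℝ) + 1) ^ n * (M - phi f (γ • z)) < ((q:ℝ) + 1) ^ n * (M / (2 * ((q:ℝ) + 1) ^ n)) :=
          mul_lt_mul_of_pos_left this hqn
      _ = M / 2 := by field_simp
  have h7 : Y₀ ≤ ((heckeDiagMatrix q ^ n) • (γ • z)).im := by
    rw [im_heckeDiag_pow_smul hq0]
    have h8 : Y₀ < (q:ℝ) ^ n * c₀ := by
      rwa [div_lt_iff₀ hc₀] at hn
    have h9 : (q:ℝ) ^ n * c₀ ≤ (q:ℝ) ^ n * (γ • z).im :=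
      mul_le_mul_of_nonneg_left hγim (by positivity)
    linarith
  have h10 := hY₀ _ h7
  linarith

/-- A nonzero weight-2 cusp form on `Γ₀(N)` which is a `T_q`-eigenvector has eigenvalue of
absolute value `< q + 1`. -/
theorem norm_lt_of_heckeT_eq_smul {N : ℕ} {q : ℕ} (hq : q.Prime) (hqN : ¬ q ∣ N)
    (f : CuspForm (CongruenceSubgroup.Gamma0 N) 2) (hf0 : f ≠ 0) (a : ℂ)
    (hf : CuspForm.heckeTLin 2 hq hqN f = a • f) : ‖a‖ < (q:ℝ) + 1 := by
  by_contra h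
  exact hf0 (eq_zero_of_heckeT_eq_smul hq hqN f a (not_lt.mp h) hf)

/-- `T_q - a` is injective on `S_2(Γ₀(N))` whenever `‖a‖ ≥ q + 1`. -/
theorem heckeTLin_sub_smul_injective {N : ℕ} {q : ℕ} (hq : q.Prime) (hqN : ¬ q ∣ N) (a : ℂ)
    (ha : (q:ℝ) + 1 ≤ ‖a‖) :
    Function.Injective (CuspForm.heckeTLin 2 hq hqN -
      a • (LinearMap.id : CuspForm (CongruenceSubgroup.Gamma0 N) 2 →ₗ[ℂ] _)) := by
  rw [injective_iff_map_eq_zero]
  intro f hf
  apply eq_zero_of_heckeT_eq_smul hq hqN f a ha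
  simpa [sub_eq_zero] using hf

lemma linearMap_add_eq_sub_neg {V : Type*} [AddCommGroup V] [Module ℂ V] (T : V →ₗ[ℂ] V)
    (c : ℂ) : T + c • LinearMap.id = T - (-c) • LinearMap.id := by
  rw [_root_.neg_smul, sub_neg_eq_add]

lemma linearMap_sq_sub_eq_comp {V : Type*} [AddCommGroup V] [Module ℂ V] (T : V →ₗ[ℂ] V)
    (c : ℂ) : T.comp T - (c ^ 2) • LinearMap.id =
      (T - c • LinearMap.id).comp (T + c • LinearMap.id) := by
  apply LinearMap.ext
  intro f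
  simp only [LinearMap.sub_apply, LinearMap.comp_apply, LinearMap.add_apply,
    LinearMap.smul_apply, LinearMap.id_apply, map_add, map_smul]
  module

lemma norm_natCast_add_one (q : ℕ) : ‖(q:ℂ) + 1‖ = (q:ℝ) + 1 := by
  rw [show ((q:ℂ) + 1) = ((q + 1 : ℕ) : ℂ) by push_cast; ring, Complex.norm_natCast]
  push_cast
  ring

/-- `T_q - (q + 1)` is injective on `S_2(Γ₀(N))`. -/
theorem heckeTLin_sub_injective {N : ℕ} {q : ℕ} (hq : q.Prime) (hqN : ¬ q ∣ N) :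
    Function.Injective (CuspForm.heckeTLin 2 hq hqN -
      ((q:ℂ) + 1) • (LinearMap.id : CuspForm (CongruenceSubgroup.Gamma0 N) 2 →ₗ[ℂ] _)) :=
  heckeTLin_sub_smul_injective hq hqN _ (norm_natCast_add_one q).ge

/-- `T_q + (q + 1)` is injective on `S_2(Γ₀(N))`. -/
theorem heckeTLin_add_injective {N : ℕ} {q : ℕ} (hq : q.Prime) (hqN : ¬ q ∣ N) :
    Function.Injective (CuspForm.heckeTLin 2 hq hqN +
      ((q:ℂ) + 1) • (LinearMap.id : CuspForm (CongruenceSubgroup.Gamma0 N) 2 →ₗ[ℂ] _)) := by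
  have h := heckeTLin_sub_smul_injective (N := N) hq hqN (-((q:ℂ) + 1))
    (by rw [norm_neg, norm_natCast_add_one])
  have e : CuspForm.heckeTLin 2 hq hqN +
      ((q:ℂ) + 1) • (LinearMap.id : CuspForm (CongruenceSubgroup.Gamma0 N) 2 →ₗ[ℂ] _) =
      CuspForm.heckeTLin 2 hq hqN -
      (-((q:ℂ) + 1)) • (LinearMap.id : CuspForm (CongruenceSubgroup.Gamma0 N) 2 →ₗ[ℂ] _) := by
    exact linearMap_add_eq_sub_neg _ _
  rw [e]
  exact h

/-- `T_q ^ 2 - (q + 1) ^ 2` is injective on `S_2(Γ₀(N))`: the determinant of the matrix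
`[[q + 1, T_q], [T_q, q + 1]]` (up to sign) is injective. -/
theorem heckeTLin_sq_sub_injective {N : ℕ} {q : ℕ} (hq : q.Prime) (hqN : ¬ q ∣ N) :
    Function.Injective ⇑(((CuspForm.heckeTLin 2 hq hqN).comp (CuspForm.heckeTLin 2 hq hqN) -
      (((q:ℂ) + 1) ^ 2) • LinearMap.id :
        CuspForm (CongruenceSubgroup.Gamma0 N) 2 →ₗ[ℂ] CuspForm (CongruenceSubgroup.Gamma0 N) 2)) := by
  have h1 := heckeTLin_sub_injective (N := N) hq hqN
  have h2 := heckeTLin_add_injective (N := N) hq hqN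
  have e : ((CuspForm.heckeTLin 2 hq hqN).comp (CuspForm.heckeTLin 2 hq hqN) -
      (((q:ℂ) + 1) ^ 2) • LinearMap.id :
        CuspForm (CongruenceSubgroup.Gamma0 N) 2 →ₗ[ℂ] CuspForm (CongruenceSubgroup.Gamma0 N) 2) =
      (CuspForm.heckeTLin 2 hq hqN - ((q:ℂ) + 1) • LinearMap.id).comp
      (CuspForm.heckeTLin 2 hq hqN + ((q:ℂ) + 1) • LinearMap.id) := by
    exact linearMap_sq_sub_eq_comp _ _
  rw [e]
  exact h1.comp h2

/-- Kernel form: `(T_q ^ 2 - (q + 1) ^ 2) f = 0` forces `f = 0`. -/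
theorem eq_zero_of_heckeT_sq_eq {N : ℕ} {q : ℕ} (hq : q.Prime) (hqN : ¬ q ∣ N)
    (f : CuspForm (CongruenceSubgroup.Gamma0 N) 2)
    (hf : CuspForm.heckeTLin 2 hq hqN (CuspForm.heckeTLin 2 hq hqN f) = (((q:ℂ) + 1) ^ 2) • f) :
    f = 0 := by
  apply heckeTLin_sq_sub_injective hq hqN
  simp only [LinearMap.sub_apply, LinearMap.comp_apply, LinearMap.smul_apply, LinearMap.id_apply,
    map_zero]
  rw [hf, sub_self]

end Fermat.Agent.S41.HeckeBound
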