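import Mathlib
import Fermat.Prelude.Def_FLTPrelim_Modularity
import Fermat.Prelude.Def_ModularForm_HeckeOperatorForms
import Fermat.Prelude.Thm_ModularFormClass_qCoeff_heckeT
import Fermat.Prelude.Thm_CongruenceSubgroup_one_mem_strictPeriods_Gamma0
import Fermat.Agent.S41.HeckeBound

set_option autoImplicit false

open CongruenceSubgroup UpperHalfPlane ModularFormClass

namespace Fermat.Agent.S41.HeckeBoundEigen

/-! ### q-coefficients on `CuspForm (Gamma0 N) 2` -/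

theorem qCoeff_add' {N : ℕ} (f g : CuspForm (Gamma0 N) 2) (n : ℕ) :
    qCoeff (⇑(f + g)) n = qCoeff f n + qCoeff g n := by
  unfold qCoeff
  rw [FunLike.coe_add, ModularForm.qExpansion_add one_pos (one_mem_strictPeriods_Gamma0 N) f g]
  simp

theorem qCoeff_smul' {N : ℕ} (c : ℂ) (f : CuspForm (Gamma0 N) 2) (n : ℕ) :
    qCoeff (⇑(c • f)) n = c * qCoeff f n := by
  unfold qCoeff
  rw [FunLike.coe_smul, ModularForm.qExpansion_smul one_pos (one_mem_strictPeriods_Gamma0 N) c f]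
  simp

theorem qCoeff_sub' {N : ℕ} (f g : CuspForm (Gamma0 N) 2) (n : ℕ) :
    qCoeff (⇑(f - g)) n = qCoeff f n - qCoeff g n := by
  have h := qCoeff_smul' (-1 : ℂ) g n
  rw [sub_eq_add_neg, qCoeff_add', sub_eq_add_neg]
  congr 1
  simpa using h

theorem qCoeff_zero' {N : ℕ} (f : CuspForm (Gamma0 N) 2) : qCoeff (⇑f) 0 = 0 := by
  unfold qCoeff
  exact CuspFormClass.qExpansion_coeff_zero f one_pos (one_mem_strictPeriods_Gamma0 N)

theorem eq_zero_of_qCoeff' {N : ℕ} (f : CuspForm (Gamma0 N) 2)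
    (h : ∀ n, qCoeff f n = 0) : f = 0 := by
  have hΓ := one_mem_strictPeriods_Gamma0 N
  have hcusp : Fact (IsCusp OnePoint.infty
      (Subgroup.map (Matrix.SpecialLinearGroup.mapGL ℝ) (Gamma0 N))) :=
    ⟨Subgroup.isCusp_of_mem_strictPeriods one_pos hΓ⟩
  have h0 : qExpansion 1 f = 0 := by
    ext n
    simpa [qCoeff] using h n
  have h1 : (⇑f : ℍ → ℂ) = 0 :=
    (UpperHalfPlane.qExpansion_eq_zero_iff one_pos
      (SlashInvariantFormClass.periodic_comp_ofComplex f hΓ) (CuspFormClass.holo f)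
      (ModularFormClass.bdd_at_infty f)).mp h0
  exact DFunLike.coe_injective (by simpa using h1)

theorem qCoeff_heckeTLin' {N : ℕ} {p : ℕ} (hp : p.Prime) (hpN : ¬ p ∣ N)
    (f : CuspForm (Gamma0 N) 2) (n : ℕ) :
    qCoeff (⇑(CuspForm.heckeTLin 2 hp hpN f)) n
      = qCoeff f (n * p) + if p ∣ n then (p : ℂ) * qCoeff f (n / p) else 0 := by
  rw [CuspForm.coe_heckeTLin_apply,
    ModularFormClass.qCoeff_heckeT f (one_mem_strictPeriods_Gamma0 N) hp.ne_zero n]
  simp [ModularForm.coeffHeckeT]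

/-! ### A normalized eigenform is a `T_q`-eigenvector with eigenvalue `a_q` -/

/-- The Hecke relation `a_{nq} + [q ∣ n] q a_{n/q} = a_q a_n` for a normalized eigenform,
`q ∤ N`. -/
theorem qCoeff_relation {N : ℕ} {f : CuspForm (Gamma0 N) 2} (hf : f.IsNormalizedEigenform)
    {q : ℕ} (hq : q.Prime) (hqN : ¬ q ∣ N) (n : ℕ) :
    qCoeff f (n * q) + (if q ∣ n then (q : ℂ) * qCoeff f (n / q) else 0) =
      qCoeff f q * qCoeff f n := by
  rcases Nat.eq_zero_or_pos n with rfl | hn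
  · simp [qCoeff_zero']
  obtain ⟨r, m, hm, rfl⟩ := Nat.exists_eq_pow_mul_and_not_dvd hn.ne' q hq.ne_one
  have hcop : ∀ k, (q ^ k).Coprime m := fun k =>
    Nat.Coprime.pow_left k ((Nat.Prime.coprime_iff_not_dvd hq).mpr hm)
  cases r with
  | zero =>
    simp only [pow_zero, one_mul]
    have h1 : m.Coprime q := ((Nat.Prime.coprime_iff_not_dvd hq).mpr hm).symm
    rw [if_neg hm, add_zero, hf.qCoeff_mul_of_coprime m q h1, mul_comm]
  | succ r =>
    have hdvd : q ∣ q ^ (r + 1) * m := Dvd.dvd.mul_right (dvd_pow_self q (Nat.succ_ne_zero r)) m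
    rw [if_pos hdvd]
    have e1 : q ^ (r + 1) * m * q = q ^ (r + 2) * m := by ring
    have e2 : q ^ (r + 1) * m / q = q ^ r * m := by
      rw [show q ^ (r + 1) * m = q ^ r * m * q by ring]
      exact Nat.mul_div_cancel _ hq.pos
    rw [e1, e2, hf.qCoeff_mul_of_coprime _ _ (hcop (r + 2)), hf.qCoeff_mul_of_coprime _ _ (hcop r),
      hf.qCoeff_mul_of_coprime _ _ (hcop (r + 1)), hf.qCoeff_prime_pow_of_not_dvd q r hq hqN]
    ring

/-- A normalized eigenform of level `N` is an eigenvector of `T_q` (`q ∤ N`) with eigenvalue its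
`q`-th coefficient. -/
theorem heckeTLin_eq_smul {N : ℕ} {f : CuspForm (Gamma0 N) 2} (hf : f.IsNormalizedEigenform)
    {q : ℕ} (hq : q.Prime) (hqN : ¬ q ∣ N) :
    CuspForm.heckeTLin 2 hq hqN f = qCoeff f q • f := by
  rw [← sub_eq_zero]
  apply eq_zero_of_qCoeff'
  intro n
  rw [qCoeff_sub', qCoeff_heckeTLin', qCoeff_smul', qCoeff_relation hf hq hqN, sub_self]

theorem ne_zero_of_isNormalizedEigenform {N : ℕ} {f : CuspForm (Gamma0 N) 2}
    (hf : f.IsNormalizedEigenform) : f ≠ 0 := by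
  rintro rfl
  have h := hf.qCoeff_one
  have h0 : qCoeff (⇑(0 : CuspForm (Gamma0 N) 2)) 1 = 0 := by
    have := qCoeff_smul' (0 : ℂ) (0 : CuspForm (Gamma0 N) 2) 1
    simpa using this
  rw [h0] at h
  exact zero_ne_one h

/-- **Trivial bound** `|a_q(f)| < q + 1` for a weight-2 normalized eigenform, `q ∤ N`. -/
theorem norm_qCoeff_lt {N : ℕ} {f : CuspForm (Gamma0 N) 2} (hf : f.IsNormalizedEigenform)
    {q : ℕ} (hq : q.Prime) (hqN : ¬ q ∣ N) : ‖qCoeff f q‖ < (q : ℝ) + 1 :=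
  Fermat.Agent.S41.HeckeBound.norm_lt_of_heckeT_eq_smul hq hqN f
    (ne_zero_of_isNormalizedEigenform hf) _ (heckeTLin_eq_smul hf hq hqN)

/-- `a_q(f) ^ 2 ≠ (q + 1) ^ 2` in `ℂ` for a weight-2 normalized eigenform, `q ∤ N`. -/
theorem qCoeff_sq_ne {N : ℕ} {f : CuspForm (Gamma0 N) 2} (hf : f.IsNormalizedEigenform)
    {q : ℕ} (hq : q.Prime) (hqN : ¬ q ∣ N) : qCoeff f q ^ 2 ≠ ((q : ℂ) + 1) ^ 2 := by
  intro h
  have h1 := norm_qCoeff_lt hf hq hqN
  have h2 : ‖qCoeff f q‖ ^ 2 = ((q : ℝ) + 1) ^ 2 := by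
    rw [← norm_pow, h, norm_pow, Fermat.Agent.S41.HeckeBound.norm_natCast_add_one]
  have h3 : ‖qCoeff f q‖ = (q : ℝ) + 1 :=
    (sq_eq_sq₀ (norm_nonneg _) (by positivity)).mp h2
  linarith

end Fermat.Agent.S41.HeckeBoundEigen
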