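import Mathlib
import Fermat.Prelude.Def_FLTPrelim_Modularity
import Fermat.Prelude.Def_CuspForm_HeckeAlgebra
import Fermat.Agent.S22
import Fermat.Agent.S49.Eigenvector
import Fermat.Agent.S41.HeckeBoundEigen

/-!
# S41: the eigensystem of a normalized eigenform occurs in every faithful Hecke lattice

`f` a normalized eigenform of level `N`, `𝕋 = CuspForm.heckeAlgebra N 2 ∅` (full Hecke algebra).

* `heckeULin_eq_smul`: `U_ℓ f = a_ℓ(f) • f` for `ℓ ∣ N`.
* `eigenChar hf : 𝕋 →+* integralClosure ℤ ℂ`, the eigencharacter of `f`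
  (`t f = eigenChar hf t • f`, `eigenChar hf T_ℓ = a_ℓ(f)`).
* `exists_subgroup`: if `L` is a finitely generated abelian group with a faithful action
  `ρ : 𝕋 →+* Module.End ℤ L` and `𝔪` is a proper ideal of `ℤ̄`, there is a subgroup `A ≠ ⊤` of `L`
  containing `ρ(t) L` for every `t` with `eigenChar hf t ∈ 𝔪` (Nakayama).
-/

set_option autoImplicit false

open CongruenceSubgroup ModularFormClass

namespace Fermat.Agent.S41.Occurs

open Fermat.Agent.S41.HeckeBoundEigen

variable {N : ℕ} [NeZero N]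

omit [NeZero N] in
/-- `a_{nℓ} = a_ℓ a_n` for a normalized eigenform and `ℓ ∣ N`. -/
theorem qCoeff_mul_of_dvd {f : CuspForm (Gamma0 N) 2} (hf : f.IsNormalizedEigenform)
    {q : ℕ} (hq : q.Prime) (hqN : q ∣ N) (n : ℕ) :
    qCoeff f (n * q) = qCoeff f q * qCoeff f n := by
  rcases Nat.eq_zero_or_pos n with rfl | hn
  · simp [qCoeff_zero']
  obtain ⟨r, m, hm, rfl⟩ := Nat.exists_eq_pow_mul_and_not_dvd hn.ne' q hq.ne_one
  have hcop : ∀ k, (q ^ k).Coprime m := fun k =>
    Nat.Coprime.pow_left k ((Nat.Prime.coprime_iff_not_dvd hq).mpr hm)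
  have e1 : q ^ r * m * q = q ^ (r + 1) * m := by ring
  rw [e1, hf.qCoeff_mul_of_coprime _ _ (hcop (r + 1)), hf.qCoeff_mul_of_coprime _ _ (hcop r)]
  cases r with
  | zero => simp [hf.qCoeff_one]
  | succ r =>
    rw [hf.qCoeff_prime_pow_of_dvd q r hq hqN]
    ring

/-- A normalized eigenform of level `N` is an eigenvector of `U_q` (`q ∣ N`) with eigenvalue its
`q`-th coefficient. -/
theorem heckeULin_eq_smul {f : CuspForm (Gamma0 N) 2} (hf : f.IsNormalizedEigenform)
    {q : ℕ} (hq : q.Prime) (hqN : q ∣ N) :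
    CuspForm.heckeULin 2 hqN f = qCoeff f q • f := by
  rw [← sub_eq_zero]
  apply eq_zero_of_qCoeff'
  intro n
  rw [qCoeff_sub', Fermat.Agent.S49.Eigenvector.qCoeff_heckeULin 2 hq.ne_zero hqN, qCoeff_smul',
    qCoeff_mul_of_dvd hf hq hqN, sub_self]

/-- Every Hecke operator acts on a normalized eigenform by a scalar. -/
theorem exists_smul {f : CuspForm (Gamma0 N) 2} (hf : f.IsNormalizedEigenform)
    (t : CuspForm.heckeAlgebra N 2 ∅) :
    ∃ c : ℂ, (t : Module.End ℂ (CuspForm (Gamma0 N) 2)) f = c • f := by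
  obtain ⟨t, ht⟩ := t
  show ∃ c : ℂ, t f = c • f
  refine Algebra.adjoin_induction (p := fun t _ => ∃ c : ℂ, t f = c • f) ?_ ?_ ?_ ?_ ht
  · rintro t (⟨ℓ, hℓ, hℓN, -, rfl⟩ | ⟨q, hqN, hq, -, rfl⟩)
    · exact ⟨_, heckeTLin_eq_smul hf hℓ hℓN⟩
    · exact ⟨_, heckeULin_eq_smul hf hq hqN⟩
  · intro r
    refine ⟨(r : ℂ), ?_⟩
    rw [Algebra.algebraMap_eq_smul_one, LinearMap.smul_apply, Module.End.one_apply,
      Int.cast_smul_eq_zsmul]
  · rintro s t - - ⟨c, hc⟩ ⟨d, hd⟩
    exact ⟨c + d, by rw [LinearMap.add_apply, hc, hd, add_smul]⟩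
  · rintro s t - - ⟨c, hc⟩ ⟨d, hd⟩
    exact ⟨d * c, by rw [Module.End.mul_apply, hd, map_smul, hc, smul_smul]⟩

/-- The eigenvalue of a Hecke operator on a normalized eigenform. -/
noncomputable def eigenVal (f : CuspForm (Gamma0 N) 2) (t : CuspForm.heckeAlgebra N 2 ∅) : ℂ :=
  qCoeff ((t : Module.End ℂ (CuspForm (Gamma0 N) 2)) f) 1

theorem apply_eq_eigenVal_smul {f : CuspForm (Gamma0 N) 2} (hf : f.IsNormalizedEigenform)
    (t : CuspForm.heckeAlgebra N 2 ∅) :
    (t : Module.End ℂ (CuspForm (Gamma0 N) 2)) f = eigenVal f t • f := by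
  obtain ⟨c, hc⟩ := exists_smul hf t
  rw [eigenVal, hc, qCoeff_smul', hf.qCoeff_one, mul_one]

theorem eigenVal_unique {f : CuspForm (Gamma0 N) 2} (hf : f.IsNormalizedEigenform)
    (t : CuspForm.heckeAlgebra N 2 ∅) (c : ℂ)
    (hc : (t : Module.End ℂ (CuspForm (Gamma0 N) 2)) f = c • f) : eigenVal f t = c := by
  rw [eigenVal, hc, qCoeff_smul', hf.qCoeff_one, mul_one]

/-- The eigencharacter of a normalized eigenform, with values in `ℂ`. -/
noncomputable def eigenCharC {f : CuspForm (Gamma0 N) 2} (hf : f.IsNormalizedEigenform) :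
    CuspForm.heckeAlgebra N 2 ∅ →+* ℂ where
  toFun := eigenVal f
  map_one' := by
    apply eigenVal_unique hf
    rw [one_smul]
    rfl
  map_mul' s t := by
    apply eigenVal_unique hf
    show (s : Module.End ℂ (CuspForm (Gamma0 N) 2)) ((t : Module.End ℂ (CuspForm (Gamma0 N) 2)) f) = _
    rw [apply_eq_eigenVal_smul hf t, map_smul, apply_eq_eigenVal_smul hf s, smul_smul, mul_comm]
  map_zero' := by
    apply eigenVal_unique hf
    rw [zero_smul]
    rfl
  map_add' s t := by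
    apply eigenVal_unique hf
    show (s : Module.End ℂ (CuspForm (Gamma0 N) 2)) f + (t : Module.End ℂ (CuspForm (Gamma0 N) 2)) f = _
    rw [apply_eq_eigenVal_smul hf t, apply_eq_eigenVal_smul hf s, add_smul]

theorem eigenCharC_T {f : CuspForm (Gamma0 N) 2} (hf : f.IsNormalizedEigenform)
    {ℓ : ℕ} (hℓ : ℓ.Prime) (hℓN : ¬ ℓ ∣ N) :
    eigenCharC hf (CuspForm.heckeAlgebra.T hℓ hℓN (Set.notMem_empty ℓ)) = qCoeff f ℓ := by
  apply eigenVal_unique hf
  rw [CuspForm.heckeAlgebra.coe_T]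
  exact heckeTLin_eq_smul hf hℓ hℓN

theorem eigenCharC_isIntegral {f : CuspForm (Gamma0 N) 2} (hf : f.IsNormalizedEigenform)
    (t : CuspForm.heckeAlgebra N 2 ∅) : IsIntegral ℤ (eigenCharC hf t) := by
  have hfin : Module.Finite ℤ (CuspForm.heckeAlgebra N 2 ∅) := Fermat.Agent.S22.result N 2 ∅
  exact map_isIntegral_int (eigenCharC hf)
    ((Algebra.IsIntegral.of_finite ℤ (CuspForm.heckeAlgebra N 2 ∅)).isIntegral t)

/-- The eigencharacter of a normalized eigenform, with values in the ring of algebraic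
integers. -/
noncomputable def eigenChar {f : CuspForm (Gamma0 N) 2} (hf : f.IsNormalizedEigenform) :
    CuspForm.heckeAlgebra N 2 ∅ →+* integralClosure ℤ ℂ :=
  (eigenCharC hf).codRestrict (integralClosure ℤ ℂ) (eigenCharC_isIntegral hf)

theorem coe_eigenChar {f : CuspForm (Gamma0 N) 2} (hf : f.IsNormalizedEigenform)
    (t : CuspForm.heckeAlgebra N 2 ∅) : (eigenChar hf t : ℂ) = eigenCharC hf t := rfl

theorem coe_eigenChar_T {f : CuspForm (Gamma0 N) 2} (hf : f.IsNormalizedEigenform)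
    {ℓ : ℕ} (hℓ : ℓ.Prime) (hℓN : ¬ ℓ ∣ N) :
    (eigenChar hf (CuspForm.heckeAlgebra.T hℓ hℓN (Set.notMem_empty ℓ)) : ℂ) = qCoeff f ℓ :=
  eigenCharC_T hf hℓ hℓN

/-- **The eigensystem of `f` occurs in every faithful finitely generated Hecke module.** -/
theorem exists_subgroup {f : CuspForm (Gamma0 N) 2} (hf : f.IsNormalizedEigenform)
    {L : Type*} [AddCommGroup L] [Module.Finite ℤ L]
    (ρ : CuspForm.heckeAlgebra N 2 ∅ →+* Module.End ℤ L) (hρ : Function.Injective ρ)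
    (𝔪 : Ideal (integralClosure ℤ ℂ)) (h𝔪 : 𝔪 ≠ ⊤) :
    ∃ A : AddSubgroup L, A ≠ ⊤ ∧
      ∀ t : CuspForm.heckeAlgebra N 2 ∅, eigenChar hf t ∈ 𝔪 → ∀ x : L, ρ t x ∈ A := by
  classical
  let _ : Module (CuspForm.heckeAlgebra N 2 ∅) L := Module.compHom L ρ
  have hsmul : ∀ (t : CuspForm.heckeAlgebra N 2 ∅) (x : L), t • x = ρ t x := fun _ _ => rfl
  have : IsScalarTower ℤ (CuspForm.heckeAlgebra N 2 ∅) L := by
    refine ⟨fun n t x => ?_⟩
    rw [hsmul, hsmul, map_zsmul, LinearMap.smul_apply]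
  have hfin : Module.Finite (CuspForm.heckeAlgebra N 2 ∅) L :=
    Module.Finite.of_restrictScalars_finite ℤ _ L
  let I : Ideal (CuspForm.heckeAlgebra N 2 ∅) := 𝔪.comap (eigenChar hf)
  have hI : I ≠ ⊤ := by
    intro h
    apply h𝔪
    rw [Ideal.eq_top_iff_one]
    have h1 : (1 : CuspForm.heckeAlgebra N 2 ∅) ∈ I := by rw [h]; trivial
    have h2 := Ideal.mem_comap.mp h1
    rwa [map_one] at h2
  refine ⟨(I • (⊤ : Submodule (CuspForm.heckeAlgebra N 2 ∅) L)).toAddSubgroup, ?_, ?_⟩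
  · intro htop
    have hle : (⊤ : Submodule (CuspForm.heckeAlgebra N 2 ∅) L) ≤ I • ⊤ := by
      intro x _
      have : x ∈ (I • (⊤ : Submodule (CuspForm.heckeAlgebra N 2 ∅) L)).toAddSubgroup := by
        rw [htop]; trivial
      exact this
    obtain ⟨r, hr, hr0⟩ := Submodule.exists_sub_one_mem_and_smul_eq_zero_of_fg_of_le_smul I ⊤
      (Module.finite_def.mp hfin) hle
    have hr' : r = 0 := by
      apply hρ
      rw [map_zero]
      ext x
      have := hr0 x trivial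
      rw [hsmul] at this
      rw [this, LinearMap.zero_apply]
    rw [hr', zero_sub] at hr
    apply hI
    rw [Ideal.eq_top_iff_one]
    have := I.neg_mem hr
    rwa [neg_neg] at this
  · intro t ht x
    show ρ t x ∈ I • (⊤ : Submodule (CuspForm.heckeAlgebra N 2 ∅) L)
    rw [← hsmul]
    exact Submodule.smul_mem_smul (Ideal.mem_comap.mpr ht) trivial

end Fermat.Agent.S41.Occurs
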