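import Mathlib

/-!
# S41: Ribet's level-raising algebra, abstract form

`L`, `L'` abelian groups (`L'` torsion-free): the homology lattices of level `N` and `N q'`.
`α₁ α₂ : L →+ L'` (transfers), `β₁ β₂ : L' →+ L` (pushforwards) with
`β ∘ α = [[d, T], [T, d]]` (`d = q' + 1`, `T = T_{q'}`), commuting operators `t i` on `L`,
`t' i` on `L'` intertwined by `α`, `β`, integers `a i` (the eigenvalues mod `p`).

* `sat_of_pairing`: saturation of `α` up to the operator `s` from Ihara's lemma for `β`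
  (`s L² ⊆ β L' + p L²`), adjointness and `p`-nondegeneracy of a pairing on `L`.
* `exists_hom`: if `A ≠ ⊤` is a subgroup of `L` containing `p L`, `(t i - a i) L` and
  `(T - ε d) L` (`ε = ± 1`), and `s = t i₀ - e₀` with `p ∤ a i₀ - e₀` satisfies Ihara's lemma and
  the saturation property, then `Φ y = [β₁ y - ε β₂ y] : L' →+ L ⧸ A` is nonzero, is killed by
  `p`, satisfies `Φ ∘ t' i = a i • Φ`, and kills the saturation of `α₁ L + α₂ L`.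
-/

set_option autoImplicit false

namespace Fermat.Agent.S41.RibetAlgebra

variable {L L' : Type*} [AddCommGroup L] [AddCommGroup L']

/-- Saturation of `α` up to `s`, from Ihara's lemma for `β` and a pairing. -/
theorem sat_of_pairing {R : Type*} [AddCommGroup R] {p : ℕ}
    (s : L →+ L) (α₁ α₂ : L →+ L') (β₁ β₂ : L' →+ L)
    (B : L →+ L →+ R) (B' : L' →+ L' →+ R)
    (hadj₁ : ∀ x y, B' (α₁ x) y = B x (β₁ y)) (hadj₂ : ∀ x y, B' (α₂ x) y = B x (β₂ y))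
    (hsa : ∀ x z, B (s x) z = B x (s z))
    (hnd : ∀ x, (∀ z, ∃ r : R, B x z = (p : ℤ) • r) → ∃ x', x = (p : ℤ) • x')
    (hIh : ∀ z₁ z₂ : L, ∃ (y : L') (w₁ w₂ : L),
      s z₁ = β₁ y + (p : ℤ) • w₁ ∧ s z₂ = β₂ y + (p : ℤ) • w₂)
    (x₁ x₂ : L) (y : L') (h : α₁ x₁ + α₂ x₂ = (p : ℤ) • y) :
    ∃ x₁' x₂' : L, s x₁ = (p : ℤ) • x₁' ∧ s x₂ = (p : ℤ) • x₂' := by
  have key : ∀ y' : L', B x₁ (β₁ y') + B x₂ (β₂ y') = (p : ℤ) • B' y y' := by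
    intro y'
    rw [← hadj₁, ← hadj₂, ← AddMonoidHom.add_apply, ← map_add, h, map_zsmul,
      AddMonoidHom.smul_apply]
  obtain ⟨x₁', hx₁'⟩ := hnd (s x₁) (by
    intro z
    obtain ⟨y', w₁, w₂, h1, h2⟩ := hIh z 0
    rw [map_zero] at h2
    have e2 : β₂ y' = -((p : ℤ) • w₂) := by
      have := h2.symm
      exact eq_neg_of_add_eq_zero_left this
    have k := key y'
    rw [e2, map_neg, map_zsmul] at k
    refine ⟨B' y y' + B x₂ w₂ + B x₁ w₁, ?_⟩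
    rw [hsa, h1, map_add, map_zsmul, smul_add, smul_add, ← k]
    abel)
  obtain ⟨x₂', hx₂'⟩ := hnd (s x₂) (by
    intro z
    obtain ⟨y', w₁, w₂, h1, h2⟩ := hIh 0 z
    rw [map_zero] at h1
    have e1 : β₁ y' = -((p : ℤ) • w₁) := by
      have := h1.symm
      exact eq_neg_of_add_eq_zero_left this
    have k := key y'
    rw [e1, map_neg, map_zsmul] at k
    refine ⟨B' y y' + B x₁ w₁ + B x₂ w₂, ?_⟩
    rw [hsa, h2, map_add, map_zsmul, smul_add, smul_add, ← k]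
    abel)
  exact ⟨x₁', x₂', hx₁', hx₂'⟩

/-- In a group killed by `p`, multiplication by an integer prime to `p` is injective. -/
theorem eq_zero_of_zsmul_eq_zero {G : Type*} [AddCommGroup G] {p : ℕ} (hp : p.Prime) {c : ℤ}
    (hc : ¬ (p : ℤ) ∣ c) {v : G} (hpv : (p : ℤ) • v = 0) (hcv : c • v = 0) : v = 0 := by
  have hcop : IsCoprime c (p : ℤ) := by
    rw [Int.isCoprime_iff_gcd_eq_one]
    have hpp : Prime (p : ℤ) := Nat.prime_iff_prime_int.mp hp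
    rw [Int.gcd_comm]
    exact Int.isCoprime_iff_gcd_eq_one.mp ((Prime.coprime_iff_not_dvd hpp).mpr hc)
  obtain ⟨m, k, hmk⟩ := hcop
  have : v = (m * c + k * (p : ℤ)) • v := by rw [hmk, one_smul]
  rw [this, add_smul, mul_smul, mul_smul, hcv, hpv, smul_zero, smul_zero, add_zero]

variable [IsAddTorsionFree L']

/-- **Abstract Ribet lemma.** -/
theorem exists_hom
    {ι : Type*} {p : ℕ} (hp : p.Prime) (d ε : ℤ) (hε : ε * ε = 1)
    (t : ι → L →+ L) (t' : ι → L' →+ L') (a : ι → ℤ) (T : L →+ L)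
    (α₁ α₂ : L →+ L') (β₁ β₂ : L' →+ L)
    (h11 : ∀ x, β₁ (α₁ x) = d • x) (h22 : ∀ x, β₂ (α₂ x) = d • x)
    (h12 : ∀ x, β₁ (α₂ x) = T x) (h21 : ∀ x, β₂ (α₁ x) = T x)
    (hβ₁ : ∀ i y, β₁ (t' i y) = t i (β₁ y)) (hβ₂ : ∀ i y, β₂ (t' i y) = t i (β₂ y))
    (i₀ : ι) (e₀ : ℤ) (hc : ¬ (p : ℤ) ∣ a i₀ - e₀)
    (hα₁ : ∀ x, α₁ (t i₀ x) = t' i₀ (α₁ x)) (hα₂ : ∀ x, α₂ (t i₀ x) = t' i₀ (α₂ x))
    (hIh : ∀ z : L, ∃ (y : L') (w₁ w₂ : L),
      t i₀ z - e₀ • z = β₁ y + (p : ℤ) • w₁ ∧ 0 = β₂ y + (p : ℤ) • w₂)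
    (hSat : ∀ (x₁ x₂ : L) (y : L'), α₁ x₁ + α₂ x₂ = (p : ℤ) • y →
      ∃ x₁' x₂' : L, t i₀ x₁ - e₀ • x₁ = (p : ℤ) • x₁' ∧ t i₀ x₂ - e₀ • x₂ = (p : ℤ) • x₂')
    (A : AddSubgroup L) (hA : A ≠ ⊤)
    (hAp : ∀ x, (p : ℤ) • x ∈ A) (hAt : ∀ i x, t i x - a i • x ∈ A)
    (hAT : ∀ x, T x - (ε * d) • x ∈ A) :
    ∃ Φ : L' →+ L ⧸ A, Φ ≠ 0 ∧ (∀ y, Φ ((p : ℤ) • y) = 0) ∧ (∀ i y, Φ (t' i y) = a i • Φ y) ∧
      ∀ (n : ℤ) (y : L') (x₁ x₂ : L), n ≠ 0 → n • y = α₁ x₁ + α₂ x₂ → Φ y = 0 := by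
  classical
  let u : L' →+ L := β₁ - ε • β₂
  have hu : ∀ y, u y = β₁ y - ε • β₂ y := fun y => rfl
  let Φ : L' →+ L ⧸ A := (QuotientAddGroup.mk' A).comp u
  have hΦ : ∀ y, Φ y = QuotientAddGroup.mk (u y) := fun y => rfl
  have hmk0 : ∀ x : L, x ∈ A → (QuotientAddGroup.mk x : L ⧸ A) = 0 := fun x hx =>
    (QuotientAddGroup.eq_zero_iff x).mpr hx
  -- (F1)
  have F1 : ∀ i y, Φ (t' i y) = a i • Φ y := by
    intro i y
    have e : u (t' i y) = a i • u y + (t i (u y) - a i • u y) := by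
      rw [hu, hβ₁, hβ₂, hu, map_sub, map_zsmul]
      abel
    rw [hΦ, e, QuotientAddGroup.mk_add, hmk0 _ (hAt i _), add_zero, hΦ]
    rfl
  -- (F2)
  have F2 : ∀ y, Φ ((p : ℤ) • y) = 0 := by
    intro y
    rw [hΦ, map_zsmul]
    exact hmk0 _ (hAp _)
  have F2' : ∀ y, (p : ℤ) • Φ y = 0 := by
    intro y
    rw [← map_zsmul]
    exact F2 y
  -- (F3)
  have F3 : ∀ x₁ x₂, Φ (α₁ x₁ + α₂ x₂) = 0 := by
    intro x₁ x₂
    rw [hΦ]
    apply hmk0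
    have e : u (α₁ x₁ + α₂ x₂) = (T x₂ - (ε * d) • x₂) - ε • (T x₁ - (ε * d) • x₁) := by
      rw [hu, map_add, map_add, h11, h12, h21, h22, smul_sub, smul_add, mul_smul, mul_smul,
        ← mul_smul ε ε, hε, one_smul]
      abel
    rw [e]
    exact A.sub_mem (hAT x₂) (A.zsmul_mem (hAT x₁) ε)
  -- the operators `s`, `s'`
  let s : L →+ L := t i₀ - e₀ • AddMonoidHom.id L
  let s' : L' →+ L' := t' i₀ - e₀ • AddMonoidHom.id L'
  have hs : ∀ x, s x = t i₀ x - e₀ • x := fun x => rfl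
  have hs' : ∀ y, s' y = t' i₀ y - e₀ • y := fun y => rfl
  have F4 : ∀ y, Φ (s' y) = (a i₀ - e₀) • Φ y := by
    intro y
    rw [hs', map_sub, F1, map_zsmul, sub_smul]
  have F5 : ∀ y, Φ (s' y) = 0 → Φ y = 0 := by
    intro y h
    rw [F4] at h
    exact eq_zero_of_zsmul_eq_zero hp hc (F2' y) h
  have hαs : ∀ x₁ x₂, s' (α₁ x₁ + α₂ x₂) = α₁ (s x₁) + α₂ (s x₂) := by
    intro x₁ x₂
    rw [hs', hs, hs, map_add, map_sub, map_sub, hα₁, hα₂, map_zsmul, map_zsmul, smul_add]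
    abel
  -- (F7) by induction on `|n|`
  have F7 : ∀ (k : ℕ) (n : ℤ) (y : L') (x₁ x₂ : L), n.natAbs = k → n ≠ 0 →
      n • y = α₁ x₁ + α₂ x₂ → Φ y = 0 := by
    intro k
    induction k using Nat.strong_induction_on with
    | _ k ih =>
      intro n y x₁ x₂ hk hn h
      by_cases hpn : (p : ℤ) ∣ n
      · obtain ⟨n', rfl⟩ := hpn
        have hn' : n' ≠ 0 := by
          rintro rfl
          exact hn (mul_zero _)
        have h' : α₁ x₁ + α₂ x₂ = (p : ℤ) • (n' • y) := by rw [← h, mul_smul]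
        obtain ⟨x₁', x₂', e1, e2⟩ := hSat x₁ x₂ _ h'
        have h2 : (p : ℤ) • (n' • s' y) = (p : ℤ) • (α₁ x₁' + α₂ x₂') := by
          rw [← mul_smul, ← map_zsmul, h, hαs, hs, hs, e1, e2, map_zsmul, map_zsmul, smul_add]
        have hp0 : (p : ℤ) ≠ 0 := by exact_mod_cast hp.ne_zero
        have h3 : n' • s' y = α₁ x₁' + α₂ x₂' := zsmul_right_injective hp0 h2
        have hlt : n'.natAbs < k := by
          rw [← hk, Int.natAbs_mul, Int.natAbs_natCast]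
          have h1 : 0 < n'.natAbs := Int.natAbs_pos.mpr hn'
          have h2 : 2 ≤ p := hp.two_le
          nlinarith
        exact F5 y (ih _ hlt n' (s' y) x₁' x₂' rfl hn' h3)
      · have h0 : n • Φ y = 0 := by
          rw [← map_zsmul, h]
          exact F3 x₁ x₂
        exact eq_zero_of_zsmul_eq_zero hp hpn (F2' y) h0
  refine ⟨Φ, ?_, F2, F1, fun n y x₁ x₂ hn h => F7 _ n y x₁ x₂ rfl hn h⟩
  -- `Φ ≠ 0`
  intro hΦ0
  apply hA
  rw [eq_top_iff]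
  intro x₀ _
  obtain ⟨y, w₁, w₂, h1, h2⟩ := hIh x₀
  have e : u y = (a i₀ - e₀) • x₀ + ((t i₀ x₀ - a i₀ • x₀) - (p : ℤ) • w₁ + ε • ((p : ℤ) • w₂)) := by
    have e1 : β₁ y = t i₀ x₀ - e₀ • x₀ - (p : ℤ) • w₁ := by rw [h1]; abel
    have e2 : β₂ y = -((p : ℤ) • w₂) := eq_neg_of_add_eq_zero_left h2.symm
    rw [hu, e1, e2, sub_smul, smul_neg]
    abel
  have hmem : (t i₀ x₀ - a i₀ • x₀) - (p : ℤ) • w₁ + ε • ((p : ℤ) • w₂) ∈ A :=
    A.add_mem (A.sub_mem (hAt i₀ x₀) (hAp w₁)) (A.zsmul_mem (hAp w₂) ε)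
  have h3 : (a i₀ - e₀) • (QuotientAddGroup.mk x₀ : L ⧸ A) = 0 := by
    have h4 : Φ y = 0 := by rw [hΦ0]; rfl
    rw [hΦ, e, QuotientAddGroup.mk_add, hmk0 _ hmem, add_zero] at h4
    exact h4
  have h5 : (p : ℤ) • (QuotientAddGroup.mk x₀ : L ⧸ A) = 0 := hmk0 _ (hAp x₀)
  exact (QuotientAddGroup.eq_zero_iff x₀).mp (eq_zero_of_zsmul_eq_zero hp hc h5 h3)

end Fermat.Agent.S41.RibetAlgebra
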