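import Mathlib

/-!
# S41: Ihara's lemma for `β` from saturation of `α` and a pairing (dual form)

This is the companion of `RibetAlgebra.sat_of_pairing` for the cohomological frame
(`L = Hom_par(Γ₀(N), ℤ)`, `α = res₁ + res₂`, `β = (cores₁, cores₂)`), where Ihara's lemma gives the
saturation statement for `α` directly and the statement for `β` is its dual.

* `exists_hom_zmod`: separation of a point from a subgroup containing `p G` by an additive
  map to `ZMod p`.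
* `ih_of_pairing`: if `α₁ x₁ + α₂ x₂ ∈ p L'` implies `s x_i ∈ p L`, and `B̄`, `B̄'` are
  `ZMod p`-valued biadditive pairings on `L`, `L'` with `B̄'(α_i x, y) = B̄(x, β_i y)`, `s`
  self-adjoint for `B̄`, `B̄` perfect (every additive `L → ZMod p` is `B̄(x, ·)`) and `B̄'`
  nondegenerate mod `p`, then `s L² ⊆ β L' + p L²`.
* `perfect_of_nondegenerate`: a nondegenerate-mod-`p` pairing on a finitely generated group is
  perfect.
-/

set_option autoImplicit false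

namespace Fermat.Agent.S41.RibetDual

/-- A nonzero vector of a `ZMod p`-vector space is detected by a linear functional. -/
theorem exists_dual_zmod {p : ℕ} [Fact p.Prime] {Q : Type*} [AddCommGroup Q] [Module (ZMod p) Q]
    {x : Q} (hx : x ≠ 0) : ∃ f : Q →ₗ[ZMod p] ZMod p, f x ≠ 0 :=
  Module.Projective.exists_dual_ne_zero (ZMod p) hx

/-- Separation by an additive map to `ZMod p`. -/
theorem exists_hom_zmod {G : Type*} [AddCommGroup G] {p : ℕ} [Fact p.Prime] (H : AddSubgroup G)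
    (hH : ∀ x : G, p • x ∈ H) {v : G} (hv : v ∉ H) :
    ∃ lam : G →+ ZMod p, (∀ h ∈ H, lam h = 0) ∧ lam v ≠ 0 := by
  have hv' : (QuotientAddGroup.mk v : G ⧸ H) ≠ 0 :=
    fun h => hv ((QuotientAddGroup.eq_zero_iff v).mp h)
  obtain ⟨f, hf⟩ := @exists_dual_zmod p _ (G ⧸ H) _ (QuotientAddGroup.zmodModule hH) _ hv'
  refine ⟨AddMonoidHom.comp (@LinearMap.toAddMonoidHom _ _ _ _ _ _ _ _
    (QuotientAddGroup.zmodModule hH) _ _ f) (QuotientAddGroup.mk' H), fun h hh => ?_, hf⟩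
  have : (QuotientAddGroup.mk h : G ⧸ H) = 0 := (QuotientAddGroup.eq_zero_iff h).mpr hh
  simp [this]

variable {L L' : Type*} [AddCommGroup L] [AddCommGroup L']

/-- **Ihara's lemma for `β` from saturation of `α` and a pairing.** -/
theorem ih_of_pairing {p : ℕ} [Fact p.Prime]
    (s : L →+ L) (α₁ α₂ : L →+ L') (β₁ β₂ : L' →+ L)
    (B : L →+ L →+ ZMod p) (B' : L' →+ L' →+ ZMod p)
    (hadj₁ : ∀ x y, B' (α₁ x) y = B x (β₁ y)) (hadj₂ : ∀ x y, B' (α₂ x) y = B x (β₂ y))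
    (hsa : ∀ x z, B (s x) z = B x (s z))
    (hperf : ∀ lam : L →+ ZMod p, ∃ x : L, ∀ z, lam z = B x z)
    (hnd' : ∀ y₀ : L', (∀ y, B' y₀ y = 0) → ∃ y₁ : L', y₀ = (p : ℤ) • y₁)
    (hSat : ∀ (x₁ x₂ : L) (y : L'), α₁ x₁ + α₂ x₂ = (p : ℤ) • y →
      ∃ x₁' x₂' : L, s x₁ = (p : ℤ) • x₁' ∧ s x₂ = (p : ℤ) • x₂')
    (z₁ z₂ : L) :
    ∃ (y : L') (w₁ w₂ : L), s z₁ = β₁ y + (p : ℤ) • w₁ ∧ s z₂ = β₂ y + (p : ℤ) • w₂ := by
  classical
  -- the subgroup `β L' + p L²` of `L × L`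
  let H : AddSubgroup (L × L) :=
    { carrier := {u | ∃ (y : L') (w₁ w₂ : L), u.1 = β₁ y + (p : ℤ) • w₁ ∧ u.2 = β₂ y + (p : ℤ) • w₂}
      add_mem' := by
        rintro u u' ⟨y, w₁, w₂, h1, h2⟩ ⟨y', w₁', w₂', h1', h2'⟩
        refine ⟨y + y', w₁ + w₁', w₂ + w₂', ?_, ?_⟩
        · rw [Prod.fst_add, h1, h1', map_add, smul_add]; abel
        · rw [Prod.snd_add, h2, h2', map_add, smul_add]; abel
      zero_mem' := ⟨0, 0, 0, by simp, by simp⟩
      neg_mem' := by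
        rintro u ⟨y, w₁, w₂, h1, h2⟩
        refine ⟨-y, -w₁, -w₂, ?_, ?_⟩
        · rw [Prod.fst_neg, h1, map_neg, smul_neg]; abel
        · rw [Prod.snd_neg, h2, map_neg, smul_neg]; abel }
  have hH : ∀ u : L × L, p • u ∈ H := by
    intro u
    refine ⟨0, u.1, u.2, ?_, ?_⟩
    · rw [map_zero, zero_add, natCast_zsmul]; rfl
    · rw [map_zero, zero_add, natCast_zsmul]; rfl
  by_contra hcon
  have hv : ((s z₁, s z₂) : L × L) ∉ H := by
    rintro ⟨y, w₁, w₂, h1, h2⟩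
    exact hcon ⟨y, w₁, w₂, h1, h2⟩
  obtain ⟨lam, hlamH, hlamv⟩ := exists_hom_zmod H hH hv
  obtain ⟨x₁, hx₁⟩ := hperf (lam.comp (AddMonoidHom.inl L L))
  obtain ⟨x₂, hx₂⟩ := hperf (lam.comp (AddMonoidHom.inr L L))
  have hlam : ∀ u₁ u₂ : L, lam (u₁, u₂) = B x₁ u₁ + B x₂ u₂ := by
    intro u₁ u₂
    have e : ((u₁, u₂) : L × L) = AddMonoidHom.inl L L u₁ + AddMonoidHom.inr L L u₂ := by
      simp
    rw [e, map_add, ← hx₁, ← hx₂]
    rfl
  have hker : ∀ y : L', B' (α₁ x₁ + α₂ x₂) y = 0 := by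
    intro y
    rw [map_add, AddMonoidHom.add_apply, hadj₁, hadj₂, ← hlam]
    exact hlamH _ ⟨y, 0, 0, by simp, by simp⟩
  obtain ⟨y₁, hy₁⟩ := hnd' _ hker
  obtain ⟨x₁', x₂', e1, e2⟩ := hSat x₁ x₂ y₁ hy₁
  apply hlamv
  have hp0 : ∀ c : ZMod p, (p : ℤ) • c = 0 := by
    intro c
    rw [zsmul_eq_mul]
    simp
  rw [hlam, ← hsa, ← hsa, e1, e2, map_zsmul, map_zsmul, AddMonoidHom.smul_apply,
    AddMonoidHom.smul_apply, hp0, hp0, add_zero]

/-- A nondegenerate biadditive form on a finite-dimensional `ZMod p`-vector space is perfect. -/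
theorem perfect_aux {p : ℕ} [Fact p.Prime] {V : Type*} [AddCommGroup V] [Module (ZMod p) V]
    [Module.Finite (ZMod p) V] (b : V →+ V →+ ZMod p)
    (hb : ∀ v, (∀ w, b v w = 0) → v = 0) (lam : V →+ ZMod p) : ∃ v, ∀ w, lam w = b v w := by
  let Θ : V →ₗ[ZMod p] Module.Dual (ZMod p) V :=
    AddMonoidHom.toZModLinearMap p
      (((AddMonoidHom.toZModLinearMapEquiv p :
        (V →+ ZMod p) ≃+ (V →ₗ[ZMod p] ZMod p)).toAddMonoidHom).comp b)
  have hΘ : ∀ v w, Θ v w = b v w := fun v w => rfl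
  have hinj : Function.Injective Θ := by
    rw [injective_iff_map_eq_zero]
    intro v hv
    apply hb
    intro w
    rw [← hΘ, hv]
    rfl
  have hsurj : Function.Surjective Θ :=
    (LinearMap.injective_iff_surjective_of_finrank_eq_finrank
      (Subspace.dual_finrank_eq (K := ZMod p) (V := V)).symm).mp hinj
  obtain ⟨v, hv⟩ := hsurj (lam.toZModLinearMap p)
  refine ⟨v, fun w => ?_⟩
  rw [← hΘ, hv]
  rfl

/-- The subgroup `p L`. -/
def pSub (p : ℕ) (L : Type*) [AddCommGroup L] : AddSubgroup L where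
  carrier := {x | ∃ x' : L, x = (p : ℤ) • x'}
  add_mem' := by
    rintro x y ⟨x', rfl⟩ ⟨y', rfl⟩
    exact ⟨x' + y', by rw [smul_add]⟩
  zero_mem' := ⟨0, by simp⟩
  neg_mem' := by
    rintro x ⟨x', rfl⟩
    exact ⟨-x', by rw [smul_neg]⟩

theorem nsmul_mem_pSub (p : ℕ) (x : L) : p • x ∈ pSub p L := ⟨x, by rw [natCast_zsmul]⟩

/-- A nondegenerate-mod-`p` biadditive form on a finitely generated abelian group is perfect:
every additive map to `ZMod p` is of the form `B x`. -/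
theorem perfect_of_nondegenerate {p : ℕ} [Fact p.Prime] [Module.Finite ℤ L]
    (B : L →+ L →+ ZMod p)
    (hnd : ∀ x : L, (∀ z, B x z = 0) → ∃ x' : L, x = (p : ℤ) • x')
    (lam : L →+ ZMod p) : ∃ x : L, ∀ z, lam z = B x z := by
  classical
  have hp0 : ∀ c : ZMod p, (p : ℤ) • c = 0 := by
    intro c
    rw [zsmul_eq_mul]
    simp
  let P : AddSubgroup L := pSub p L
  let instV : Module (ZMod p) (L ⧸ P) := QuotientAddGroup.zmodModule (nsmul_mem_pSub p)
  have hfinZ : Module.Finite ℤ (L ⧸ P) :=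
    Module.Finite.of_surjective (QuotientAddGroup.mk' P).toIntLinearMap
      (QuotientAddGroup.mk'_surjective P)
  have hfin : Module.Finite (ZMod p) (L ⧸ P) := Module.Finite.of_restrictScalars_finite ℤ _ _
  -- the induced form on the quotient
  have hB1 : ∀ x : L, P ≤ (B x).ker := by
    rintro x z ⟨z', rfl⟩
    rw [AddMonoidHom.mem_ker, map_zsmul, hp0]
  let b0 : L →+ (L ⧸ P) →+ ZMod p :=
    { toFun := fun x => QuotientAddGroup.lift P (B x) (hB1 x)
      map_zero' := by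
        ext z
        simp
      map_add' := by
        intro x y
        ext z
        simp }
  have hb0 : ∀ x z, b0 x (QuotientAddGroup.mk z) = B x z := fun x z => rfl
  have hB2 : P ≤ b0.ker := by
    rintro x ⟨x', rfl⟩
    rw [AddMonoidHom.mem_ker]
    ext z
    show b0 ((p : ℤ) • x') (QuotientAddGroup.mk z) = 0
    rw [hb0, map_zsmul, AddMonoidHom.smul_apply, hp0]
  let b : (L ⧸ P) →+ (L ⧸ P) →+ ZMod p := QuotientAddGroup.lift P b0 hB2
  have hb : ∀ x z : L, b (QuotientAddGroup.mk x) (QuotientAddGroup.mk z) = B x z := fun x z => rfl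
  have hbnd : ∀ v, (∀ w, b v w = 0) → v = 0 := by
    intro v hv
    induction v using QuotientAddGroup.induction_on with
    | H x =>
      obtain ⟨x', hx'⟩ := hnd x (fun z => by rw [← hb]; exact hv _)
      exact (QuotientAddGroup.eq_zero_iff x).mpr ⟨x', hx'⟩
  have hlam : P ≤ lam.ker := by
    rintro z ⟨z', rfl⟩
    rw [AddMonoidHom.mem_ker, map_zsmul, hp0]
  obtain ⟨v, hv⟩ := @perfect_aux p _ (L ⧸ P) _ instV hfin b hbnd (QuotientAddGroup.lift P lam hlam)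
  induction v using QuotientAddGroup.induction_on with
  | H x =>
    refine ⟨x, fun z => ?_⟩
    have := hv (QuotientAddGroup.mk z)
    rw [hb] at this
    rw [← this]
    rfl

/-- Reduction mod `p` of a `ℤ`-valued biadditive form. -/
def redForm (p : ℕ) {M : Type*} [AddCommGroup M] (B : M →+ M →+ ℤ) : M →+ M →+ ZMod p :=
  (AddMonoidHom.compHom (Int.castAddHom (ZMod p))).comp B

theorem redForm_apply (p : ℕ) {M : Type*} [AddCommGroup M] (B : M →+ M →+ ℤ) (x z : M) :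
    redForm p B x z = ((B x z : ℤ) : ZMod p) := rfl

theorem redForm_eq_zero_iff (p : ℕ) {M : Type*} [AddCommGroup M] (B : M →+ M →+ ℤ) (x z : M) :
    redForm p B x z = 0 ↔ (p : ℤ) ∣ B x z := by
  rw [redForm_apply, ZMod.intCast_zmod_eq_zero_iff_dvd]

/-- **Ihara's lemma for `β` from saturation of `α` and `ℤ`-valued pairings**, nondegenerate
mod `p` on both `L` (finitely generated) and `L'`. -/
theorem ih_of_pairing_int {p : ℕ} [Fact p.Prime] [Module.Finite ℤ L]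
    (s : L →+ L) (α₁ α₂ : L →+ L') (β₁ β₂ : L' →+ L)
    (B : L →+ L →+ ℤ) (B' : L' →+ L' →+ ℤ)
    (hadj₁ : ∀ x y, B' (α₁ x) y = B x (β₁ y)) (hadj₂ : ∀ x y, B' (α₂ x) y = B x (β₂ y))
    (hsa : ∀ x z, B (s x) z = B x (s z))
    (hnd : ∀ x : L, (∀ z, (p : ℤ) ∣ B x z) → ∃ x' : L, x = (p : ℤ) • x')
    (hnd' : ∀ y₀ : L', (∀ y, (p : ℤ) ∣ B' y₀ y) → ∃ y₁ : L', y₀ = (p : ℤ) • y₁)
    (hSat : ∀ (x₁ x₂ : L) (y : L'), α₁ x₁ + α₂ x₂ = (p : ℤ) • y →
      ∃ x₁' x₂' : L, s x₁ = (p : ℤ) • x₁' ∧ s x₂ = (p : ℤ) • x₂')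
    (z₁ z₂ : L) :
    ∃ (y : L') (w₁ w₂ : L), s z₁ = β₁ y + (p : ℤ) • w₁ ∧ s z₂ = β₂ y + (p : ℤ) • w₂ := by
  refine ih_of_pairing s α₁ α₂ β₁ β₂ (redForm p B) (redForm p B') ?_ ?_ ?_ ?_ ?_ hSat z₁ z₂
  · intro x y
    rw [redForm_apply, redForm_apply, hadj₁]
  · intro x y
    rw [redForm_apply, redForm_apply, hadj₂]
  · intro x z
    rw [redForm_apply, redForm_apply, hsa]
  · exact perfect_of_nondegenerate (redForm p B)
      (fun x hx => hnd x (fun z => (redForm_eq_zero_iff p B x z).mp (hx z)))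
  · intro y₀ hy₀
    exact hnd' y₀ (fun y => (redForm_eq_zero_iff p B' y₀ y).mp (hy₀ y))

end Fermat.Agent.S41.RibetDual
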