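import Fermat.Agent.S41.Final
import Fermat.Agent.S41.RibetAlgebra
import Fermat.Agent.S41.Occurs
import Fermat.Agent.S41.RibetDual

/-!
# S41: assembly of level raising from lattice data

`result_of_data` is the conclusion of S41 from the hypotheses of S41 on `f`, the non-Eisenstein
input (P6) and the following lattice data (all abstract):

* abelian groups `L` (finitely generated), `L'` (torsion-free) with actions `ρ`, `ρ'` of the full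
  Hecke algebras of levels `N` and `N * q'` (`ρ` faithful);
* `α₁ α₂ : L →+ L'`, `β₁ β₂ : L' →+ L` with `β ∘ α = [[q'+1, T_{q'}], [T_{q'}, q'+1]]`,
  intertwining the `T_ℓ`, `ℓ ∤ N q'`;
* every Hecke generator of level `N q'` maps `α₁ L + α₂ L` into itself, and
  `(U_{q'} ^ 2 - 1) L' ⊆ α₁ L + α₂ L`;
* a modulus `M₀` such that for all primes `ℓ ≡ 1 mod M₀`, `ℓ ∤ N q'`:
  (Ih) `(T_ℓ - (ℓ+1)) (z, 0) ∈ β L' + p L²` and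
  (Sat) `α₁ x₁ + α₂ x₂ ∈ p L'` implies `(T_ℓ - (ℓ+1)) x_i ∈ p L`.
-/

set_option autoImplicit false

open CongruenceSubgroup

namespace Fermat.Agent.S41.Assemble

open Fermat.Agent.S41

variable {N q' : ℕ} [NeZero (N * q')]

/-- The image `α₁ L + α₂ L` is stable under the whole Hecke algebra if it is stable under the
Hecke generators. -/
theorem stable_of_generators {L L' : Type*} [AddCommGroup L] [AddCommGroup L']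
    (ρ' : CuspForm.heckeAlgebra (N * q') 2 ∅ →+* Module.End ℤ L')
    (α₁ α₂ : L →+ L')
    (hgen : ∀ g : CuspForm.heckeAlgebra (N * q') 2 ∅,
      (g : Module.End ℂ (CuspForm (Gamma0 (N * q')) 2)) ∈ CuspForm.heckeGenerators (N * q') 2 ∅ →
      ∀ x₁ x₂ : L, ∃ x₁' x₂' : L, ρ' g (α₁ x₁ + α₂ x₂) = α₁ x₁' + α₂ x₂')
    (t : CuspForm.heckeAlgebra (N * q') 2 ∅) (x₁ x₂ : L) :
    ∃ x₁' x₂' : L, ρ' t (α₁ x₁ + α₂ x₂) = α₁ x₁' + α₂ x₂' := by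
  obtain ⟨t, ht⟩ := t
  revert x₁ x₂
  refine Algebra.adjoin_induction
    (p := fun t ht => ∀ x₁ x₂ : L, ∃ x₁' x₂' : L,
      ρ' ⟨t, ht⟩ (α₁ x₁ + α₂ x₂) = α₁ x₁' + α₂ x₂') ?_ ?_ ?_ ?_ ht
  · intro g hg x₁ x₂
    exact hgen ⟨g, Algebra.subset_adjoin hg⟩ hg x₁ x₂
  · intro r x₁ x₂
    refine ⟨r • x₁, r • x₂, ?_⟩
    have e : (⟨algebraMap ℤ (Module.End ℂ (CuspForm (Gamma0 (N * q')) 2)) r,
        Subalgebra.algebraMap_mem _ r⟩ : CuspForm.heckeAlgebra (N * q') 2 ∅) =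
        ((r : ℤ) : CuspForm.heckeAlgebra (N * q') 2 ∅) := by
      apply Subtype.ext
      simp
    have e2 := LinearMap.congr_fun (congrArg ρ' e) (α₁ x₁ + α₂ x₂)
    refine e2.trans ?_
    rw [Final.rho_intCast_apply, map_zsmul, map_zsmul, smul_add]
  · intro s t hs ht ihs iht x₁ x₂
    obtain ⟨a₁, a₂, ha⟩ := ihs x₁ x₂
    obtain ⟨b₁, b₂, hb⟩ := iht x₁ x₂
    refine ⟨a₁ + b₁, a₂ + b₂, ?_⟩
    have e : ρ' ⟨s + t, add_mem hs ht⟩ = ρ' ⟨s, hs⟩ + ρ' ⟨t, ht⟩ := map_add ρ' ⟨s, hs⟩ ⟨t, ht⟩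
    refine (LinearMap.congr_fun e (α₁ x₁ + α₂ x₂)).trans ?_
    refine (LinearMap.add_apply _ _ _).trans ?_
    refine (congrArg₂ (· + ·) ha hb).trans ?_
    rw [map_add, map_add]
    abel
  · intro s t hs ht ihs iht x₁ x₂
    obtain ⟨b₁, b₂, hb⟩ := iht x₁ x₂
    obtain ⟨a₁, a₂, ha⟩ := ihs b₁ b₂
    refine ⟨a₁, a₂, ?_⟩
    have e : ρ' ⟨s * t, mul_mem hs ht⟩ = ρ' ⟨s, hs⟩ * ρ' ⟨t, ht⟩ := map_mul ρ' ⟨s, hs⟩ ⟨t, ht⟩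
    refine (LinearMap.congr_fun e (α₁ x₁ + α₂ x₂)).trans ?_
    refine (Module.End.mul_apply _ _ _).trans ?_
    exact (congrArg _ hb).trans ha

/-- The saturation of `α₁ L + α₂ L` in `L'`. -/
def satImage {L L' : Type*} [AddCommGroup L] [AddCommGroup L'] (α₁ α₂ : L →+ L') :
    AddSubgroup L' where
  carrier := {y | ∃ (n : ℤ) (x₁ x₂ : L), n ≠ 0 ∧ n • y = α₁ x₁ + α₂ x₂}
  add_mem' := by
    rintro y y' ⟨n, x₁, x₂, hn, h⟩ ⟨m, x₁', x₂', hm, h'⟩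
    refine ⟨n * m, m • x₁ + n • x₁', m • x₂ + n • x₂', mul_ne_zero hn hm, ?_⟩
    rw [smul_add, mul_comm n m, mul_smul, h, mul_comm m n, mul_smul, h', map_add, map_add,
      map_zsmul, map_zsmul, map_zsmul, map_zsmul, smul_add, smul_add]
    abel
  zero_mem' := ⟨1, 0, 0, one_ne_zero, by simp⟩
  neg_mem' := by
    rintro y ⟨n, x₁, x₂, hn, h⟩
    refine ⟨n, -x₁, -x₂, hn, ?_⟩
    rw [smul_neg, h, map_neg, map_neg]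
    abel

theorem mem_satImage {L L' : Type*} [AddCommGroup L] [AddCommGroup L'] (α₁ α₂ : L →+ L')
    (y : L') : y ∈ satImage α₁ α₂ ↔
      ∃ (n : ℤ) (x₁ x₂ : L), n ≠ 0 ∧ n • y = α₁ x₁ + α₂ x₂ := Iff.rfl

/-- **Assembly of S41, one auxiliary prime.**  The conclusion of S41 from the lattice data and a
single non-Eisenstein prime `ℓ₀` for which (Ih) and (Sat) hold. -/
theorem result_of_prime [NeZero N]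
    {W : WeierstrassCurve ℤ} {p : ℕ} (hp : p.Prime) (hq' : q'.Prime) (hq'N : ¬ q' ∣ N)
    (f : CuspForm (Gamma0 N) 2) (𝔪 : Ideal (integralClosure ℤ ℂ))
    (hf : f.IsNormalizedEigenform) (hmax : 𝔪.IsMaximal) (hpm : (p : integralClosure ℤ ℂ) ∈ 𝔪)
    (hcong : ∀ ℓ : ℕ, ℓ.Prime → W.IsGoodPrimeFor ℓ → ¬ ℓ ∣ N → ℓ ≠ p →
      ∃ a : integralClosure ℤ ℂ, (a : ℂ) = ModularFormClass.qCoeff f ℓ ∧
        a - ((W.apOfModel ℓ : ℤ) : integralClosure ℤ ℂ) ∈ 𝔪)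
    (hLR : ∃ a : integralClosure ℤ ℂ, (a : ℂ) = ModularFormClass.qCoeff f q' ∧
      a ^ 2 - ((q' : integralClosure ℤ ℂ) + 1) ^ 2 ∈ 𝔪)
    -- lattice data
    {L L' : Type*} [AddCommGroup L] [AddCommGroup L'] [Module.Finite ℤ L] [IsAddTorsionFree L']
    (ρ : CuspForm.heckeAlgebra N 2 ∅ →+* Module.End ℤ L) (hρ : Function.Injective ρ)
    (ρ' : CuspForm.heckeAlgebra (N * q') 2 ∅ →+* Module.End ℤ L')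
    (α₁ α₂ : L →+ L') (β₁ β₂ : L' →+ L)
    (h11 : ∀ x, β₁ (α₁ x) = ((q' : ℤ) + 1) • x) (h22 : ∀ x, β₂ (α₂ x) = ((q' : ℤ) + 1) • x)
    (h12 : ∀ x, β₁ (α₂ x) = ρ (CuspForm.heckeAlgebra.T hq' hq'N (Set.notMem_empty q')) x)
    (h21 : ∀ x, β₂ (α₁ x) = ρ (CuspForm.heckeAlgebra.T hq' hq'N (Set.notMem_empty q')) x)
    (hβ₁ : ∀ (ℓ : ℕ) (hℓ : ℓ.Prime) (hℓN : ¬ ℓ ∣ N) (hℓM : ¬ ℓ ∣ N * q') (y : L'),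
      β₁ (ρ' (CuspForm.heckeAlgebra.T hℓ hℓM (Set.notMem_empty ℓ)) y) =
        ρ (CuspForm.heckeAlgebra.T hℓ hℓN (Set.notMem_empty ℓ)) (β₁ y))
    (hβ₂ : ∀ (ℓ : ℕ) (hℓ : ℓ.Prime) (hℓN : ¬ ℓ ∣ N) (hℓM : ¬ ℓ ∣ N * q') (y : L'),
      β₂ (ρ' (CuspForm.heckeAlgebra.T hℓ hℓM (Set.notMem_empty ℓ)) y) =
        ρ (CuspForm.heckeAlgebra.T hℓ hℓN (Set.notMem_empty ℓ)) (β₂ y))
    (hα₁ : ∀ (ℓ : ℕ) (hℓ : ℓ.Prime) (hℓN : ¬ ℓ ∣ N) (hℓM : ¬ ℓ ∣ N * q') (x : L),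
      α₁ (ρ (CuspForm.heckeAlgebra.T hℓ hℓN (Set.notMem_empty ℓ)) x) =
        ρ' (CuspForm.heckeAlgebra.T hℓ hℓM (Set.notMem_empty ℓ)) (α₁ x))
    (hα₂ : ∀ (ℓ : ℕ) (hℓ : ℓ.Prime) (hℓN : ¬ ℓ ∣ N) (hℓM : ¬ ℓ ∣ N * q') (x : L),
      α₂ (ρ (CuspForm.heckeAlgebra.T hℓ hℓN (Set.notMem_empty ℓ)) x) =
        ρ' (CuspForm.heckeAlgebra.T hℓ hℓM (Set.notMem_empty ℓ)) (α₂ x))
    (hgen : ∀ g : CuspForm.heckeAlgebra (N * q') 2 ∅,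
      (g : Module.End ℂ (CuspForm (Gamma0 (N * q')) 2)) ∈ CuspForm.heckeGenerators (N * q') 2 ∅ →
      ∀ x₁ x₂ : L, ∃ x₁' x₂' : L, ρ' g (α₁ x₁ + α₂ x₂) = α₁ x₁' + α₂ x₂')
    (hU : ∀ y : L', ∃ x₁ x₂ : L,
      ρ' (CuspForm.heckeAlgebra.U hq' (dvd_mul_left q' N) (Set.notMem_empty q'))
        (ρ' (CuspForm.heckeAlgebra.U hq' (dvd_mul_left q' N) (Set.notMem_empty q')) y) - y =
        α₁ x₁ + α₂ x₂)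
    (ℓ₀ : ℕ) (hℓ₀ : ℓ₀.Prime) (hgood₀ : W.IsGoodPrimeFor ℓ₀) (hℓ₀p : ℓ₀ ≠ p)
    (hℓ₀N : ¬ ℓ₀ ∣ N) (hℓ₀M : ¬ ℓ₀ ∣ N * q')
    (hℓ₀c : ¬ (p : ℤ) ∣ W.apOfModel ℓ₀ - ((ℓ₀ : ℤ) + 1))
    (hIh : ∀ z : L, ∃ (y : L') (w₁ w₂ : L),
        ρ (CuspForm.heckeAlgebra.T hℓ₀ hℓ₀N (Set.notMem_empty ℓ₀)) z - ((ℓ₀ : ℤ) + 1) • z =
          β₁ y + (p : ℤ) • w₁ ∧ 0 = β₂ y + (p : ℤ) • w₂)
    (hSat : ∀ (x₁ x₂ : L) (y : L'), α₁ x₁ + α₂ x₂ = (p : ℤ) • y →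
        ∃ x₁' x₂' : L,
          ρ (CuspForm.heckeAlgebra.T hℓ₀ hℓ₀N (Set.notMem_empty ℓ₀)) x₁ - ((ℓ₀ : ℤ) + 1) • x₁ =
            (p : ℤ) • x₁' ∧
          ρ (CuspForm.heckeAlgebra.T hℓ₀ hℓ₀N (Set.notMem_empty ℓ₀)) x₂ - ((ℓ₀ : ℤ) + 1) • x₂ =
            (p : ℤ) • x₂') :
    ∃ (g : CuspForm (CongruenceSubgroup.Gamma0 (N * q')) 2) (𝔪' : Ideal (integralClosure ℤ ℂ)),
      g.IsNormalizedEigenform ∧ 𝔪'.IsMaximal ∧ (p : integralClosure ℤ ℂ) ∈ 𝔪' ∧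
      (∀ ℓ : ℕ, ℓ.Prime → W.IsGoodPrimeFor ℓ → ¬ ℓ ∣ N * q' → ℓ ≠ p →
        ∃ a : integralClosure ℤ ℂ, (a : ℂ) = ModularFormClass.qCoeff g ℓ ∧
          a - ((W.apOfModel ℓ : ℤ) : integralClosure ℤ ℂ) ∈ 𝔪') ∧
      g.IsNewAt q' := by
  classical
  have hnotN : ∀ {ℓ : ℕ}, ¬ ℓ ∣ N * q' → ¬ ℓ ∣ N := fun h h' => h (Dvd.dvd.mul_right h' q')
  -- the sign `ε`
  obtain ⟨aq, haq, haq2⟩ := hLR
  have hprime : 𝔪.IsPrime := hmax.isPrime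
  obtain ⟨ε, hε, hεm⟩ : ∃ ε : ℤ, ε * ε = 1 ∧
      aq - ((ε * ((q' : ℤ) + 1) : ℤ) : integralClosure ℤ ℂ) ∈ 𝔪 := by
    have hfac : aq ^ 2 - ((q' : integralClosure ℤ ℂ) + 1) ^ 2 =
        (aq - ((q' : integralClosure ℤ ℂ) + 1)) * (aq + ((q' : integralClosure ℤ ℂ) + 1)) := by
      ring
    rw [hfac] at haq2
    rcases hprime.mem_or_mem haq2 with h | h
    · refine ⟨1, by norm_num, ?_⟩
      have e : (((1 * ((q' : ℤ) + 1) : ℤ)) : integralClosure ℤ ℂ) =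
          (q' : integralClosure ℤ ℂ) + 1 := by push_cast; ring
      rwa [e]
    · refine ⟨-1, by norm_num, ?_⟩
      have e : aq - (((-1 * ((q' : ℤ) + 1) : ℤ)) : integralClosure ℤ ℂ) =
          aq + ((q' : integralClosure ℤ ℂ) + 1) := by push_cast; ring
      rwa [e]
  -- the subgroup `A`
  obtain ⟨A, hAtop, hA⟩ := Occurs.exists_subgroup hf ρ hρ 𝔪 hmax.ne_top
  -- index type
  let ι : Type := {ℓ : ℕ // ℓ.Prime ∧ W.IsGoodPrimeFor ℓ ∧ ¬ ℓ ∣ N * q' ∧ ℓ ≠ p}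
  let t : ι → L →+ L := fun i =>
    (ρ (CuspForm.heckeAlgebra.T i.2.1 (hnotN i.2.2.2.1) (Set.notMem_empty i.1))).toAddMonoidHom
  let t' : ι → L' →+ L' := fun i =>
    (ρ' (CuspForm.heckeAlgebra.T i.2.1 i.2.2.2.1 (Set.notMem_empty i.1))).toAddMonoidHom
  let a : ι → ℤ := fun i => W.apOfModel i.1
  let T : L →+ L := (ρ (CuspForm.heckeAlgebra.T hq' hq'N (Set.notMem_empty q'))).toAddMonoidHom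
  let i₀ : ι := ⟨ℓ₀, hℓ₀, hgood₀, hℓ₀M, hℓ₀p⟩
  -- membership facts for `A`
  have hAp : ∀ x : L, (p : ℤ) • x ∈ A := by
    intro x
    rw [← Final.rho_intCast_apply ρ]
    apply hA
    rw [map_intCast]
    exact_mod_cast hpm
  have hAt : ∀ (i : ι) (x : L), t i x - a i • x ∈ A := by
    intro i x
    obtain ⟨b, hb, hbm⟩ := hcong i.1 i.2.1 i.2.2.1 (hnotN i.2.2.2.1) i.2.2.2.2
    have e : t i x - a i • x =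
        ρ (CuspForm.heckeAlgebra.T i.2.1 (hnotN i.2.2.2.1) (Set.notMem_empty i.1) -
          ((W.apOfModel i.1 : ℤ) : CuspForm.heckeAlgebra N 2 ∅)) x := by
      rw [map_sub, LinearMap.sub_apply, Final.rho_intCast_apply]
      rfl
    rw [e]
    apply hA
    rw [map_sub, map_intCast]
    have e2 : Occurs.eigenChar hf
        (CuspForm.heckeAlgebra.T i.2.1 (hnotN i.2.2.2.1) (Set.notMem_empty i.1)) = b := by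
      apply Subtype.ext
      rw [Occurs.coe_eigenChar_T, hb]
    rw [e2]
    exact hbm
  have hAT : ∀ x : L, T x - (ε * ((q' : ℤ) + 1)) • x ∈ A := by
    intro x
    have e : T x - (ε * ((q' : ℤ) + 1)) • x =
        ρ (CuspForm.heckeAlgebra.T hq' hq'N (Set.notMem_empty q') -
          ((ε * ((q' : ℤ) + 1) : ℤ) : CuspForm.heckeAlgebra N 2 ∅)) x := by
      rw [map_sub, LinearMap.sub_apply, Final.rho_intCast_apply]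
      rfl
    rw [e]
    apply hA
    rw [map_sub, map_intCast]
    have e2 : Occurs.eigenChar hf
        (CuspForm.heckeAlgebra.T hq' hq'N (Set.notMem_empty q')) = aq := by
      apply Subtype.ext
      rw [Occurs.coe_eigenChar_T, haq]
    rw [e2]
    exact hεm
  -- Ribet's lemma
  obtain ⟨Φ, hΦ0, hΦp, hΦt, hΦsat⟩ := RibetAlgebra.exists_hom hp ((q' : ℤ) + 1) ε hε t t' a T
    α₁ α₂ β₁ β₂ h11 h22 h12 h21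
    (fun i y => hβ₁ i.1 i.2.1 (hnotN i.2.2.2.1) i.2.2.2.1 y)
    (fun i y => hβ₂ i.1 i.2.1 (hnotN i.2.2.2.1) i.2.2.2.1 y)
    i₀ ((ℓ₀ : ℤ) + 1) hℓ₀c
    (fun x => hα₁ ℓ₀ hℓ₀ (hnotN hℓ₀M) hℓ₀M x)
    (fun x => hα₂ ℓ₀ hℓ₀ (hnotN hℓ₀M) hℓ₀M x)
    (fun z => hIh z)
    (fun x₁ x₂ y h => hSat x₁ x₂ y h)
    A hAtop hAp hAt hAT
  -- the final step
  have hstab := stable_of_generators ρ' α₁ α₂ hgen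
  refine Final.exists_newform_of_subgroup (M := N * q') hq' (dvd_mul_left q' N) ρ'
    (satImage α₁ α₂) ?_ ?_ ?_ Φ hΦ0 ?_ hΦp ?_
  · rintro s y ⟨n, x₁, x₂, hn, h⟩
    obtain ⟨x₁', x₂', h'⟩ := hstab s x₁ x₂
    exact ⟨n, x₁', x₂', hn, by rw [← map_zsmul, h, h']⟩
  · rintro n y hn ⟨m, x₁, x₂, hm, h⟩
    exact ⟨m * n, x₁, x₂, mul_ne_zero hm hn, by rw [mul_smul, h]⟩
  · intro y
    obtain ⟨x₁, x₂, h⟩ := hU y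
    exact ⟨1, x₁, x₂, one_ne_zero, by rw [one_smul, h]⟩
  · rintro y ⟨n, x₁, x₂, hn, h⟩
    exact hΦsat n y x₁ x₂ hn h
  · intro ℓ hℓ hℓM hgood hℓp y
    exact hΦt ⟨ℓ, hℓ, hgood, hℓM, hℓp⟩ y

/-- **Assembly of S41, one auxiliary prime, pairing form.**  As `result_of_prime`, with (Ih)
replaced by `ℤ`-valued pairings on `L` and `L'`, nondegenerate mod `p`, for which `β_i` is
adjoint to `α_i` and `T_{ℓ₀}` is self-adjoint. -/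
theorem result_of_pairing [NeZero N]
    {W : WeierstrassCurve ℤ} {p : ℕ} (hp : p.Prime) (hq' : q'.Prime) (hq'N : ¬ q' ∣ N)
    (f : CuspForm (Gamma0 N) 2) (𝔪 : Ideal (integralClosure ℤ ℂ))
    (hf : f.IsNormalizedEigenform) (hmax : 𝔪.IsMaximal) (hpm : (p : integralClosure ℤ ℂ) ∈ 𝔪)
    (hcong : ∀ ℓ : ℕ, ℓ.Prime → W.IsGoodPrimeFor ℓ → ¬ ℓ ∣ N → ℓ ≠ p →
      ∃ a : integralClosure ℤ ℂ, (a : ℂ) = ModularFormClass.qCoeff f ℓ ∧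
        a - ((W.apOfModel ℓ : ℤ) : integralClosure ℤ ℂ) ∈ 𝔪)
    (hLR : ∃ a : integralClosure ℤ ℂ, (a : ℂ) = ModularFormClass.qCoeff f q' ∧
      a ^ 2 - ((q' : integralClosure ℤ ℂ) + 1) ^ 2 ∈ 𝔪)
    -- lattice data
    {L L' : Type*} [AddCommGroup L] [AddCommGroup L'] [Module.Finite ℤ L] [IsAddTorsionFree L']
    (ρ : CuspForm.heckeAlgebra N 2 ∅ →+* Module.End ℤ L) (hρ : Function.Injective ρ)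
    (ρ' : CuspForm.heckeAlgebra (N * q') 2 ∅ →+* Module.End ℤ L')
    (α₁ α₂ : L →+ L') (β₁ β₂ : L' →+ L)
    (h11 : ∀ x, β₁ (α₁ x) = ((q' : ℤ) + 1) • x) (h22 : ∀ x, β₂ (α₂ x) = ((q' : ℤ) + 1) • x)
    (h12 : ∀ x, β₁ (α₂ x) = ρ (CuspForm.heckeAlgebra.T hq' hq'N (Set.notMem_empty q')) x)
    (h21 : ∀ x, β₂ (α₁ x) = ρ (CuspForm.heckeAlgebra.T hq' hq'N (Set.notMem_empty q')) x)
    (hβ₁ : ∀ (ℓ : ℕ) (hℓ : ℓ.Prime) (hℓN : ¬ ℓ ∣ N) (hℓM : ¬ ℓ ∣ N * q') (y : L'),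
      β₁ (ρ' (CuspForm.heckeAlgebra.T hℓ hℓM (Set.notMem_empty ℓ)) y) =
        ρ (CuspForm.heckeAlgebra.T hℓ hℓN (Set.notMem_empty ℓ)) (β₁ y))
    (hβ₂ : ∀ (ℓ : ℕ) (hℓ : ℓ.Prime) (hℓN : ¬ ℓ ∣ N) (hℓM : ¬ ℓ ∣ N * q') (y : L'),
      β₂ (ρ' (CuspForm.heckeAlgebra.T hℓ hℓM (Set.notMem_empty ℓ)) y) =
        ρ (CuspForm.heckeAlgebra.T hℓ hℓN (Set.notMem_empty ℓ)) (β₂ y))
    (hα₁ : ∀ (ℓ : ℕ) (hℓ : ℓ.Prime) (hℓN : ¬ ℓ ∣ N) (hℓM : ¬ ℓ ∣ N * q') (x : L),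
      α₁ (ρ (CuspForm.heckeAlgebra.T hℓ hℓN (Set.notMem_empty ℓ)) x) =
        ρ' (CuspForm.heckeAlgebra.T hℓ hℓM (Set.notMem_empty ℓ)) (α₁ x))
    (hα₂ : ∀ (ℓ : ℕ) (hℓ : ℓ.Prime) (hℓN : ¬ ℓ ∣ N) (hℓM : ¬ ℓ ∣ N * q') (x : L),
      α₂ (ρ (CuspForm.heckeAlgebra.T hℓ hℓN (Set.notMem_empty ℓ)) x) =
        ρ' (CuspForm.heckeAlgebra.T hℓ hℓM (Set.notMem_empty ℓ)) (α₂ x))
    (hgen : ∀ g : CuspForm.heckeAlgebra (N * q') 2 ∅,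
      (g : Module.End ℂ (CuspForm (Gamma0 (N * q')) 2)) ∈ CuspForm.heckeGenerators (N * q') 2 ∅ →
      ∀ x₁ x₂ : L, ∃ x₁' x₂' : L, ρ' g (α₁ x₁ + α₂ x₂) = α₁ x₁' + α₂ x₂')
    (hU : ∀ y : L', ∃ x₁ x₂ : L,
      ρ' (CuspForm.heckeAlgebra.U hq' (dvd_mul_left q' N) (Set.notMem_empty q'))
        (ρ' (CuspForm.heckeAlgebra.U hq' (dvd_mul_left q' N) (Set.notMem_empty q')) y) - y =
        α₁ x₁ + α₂ x₂)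
    (ℓ₀ : ℕ) (hℓ₀ : ℓ₀.Prime) (hgood₀ : W.IsGoodPrimeFor ℓ₀) (hℓ₀p : ℓ₀ ≠ p)
    (hℓ₀N : ¬ ℓ₀ ∣ N) (hℓ₀M : ¬ ℓ₀ ∣ N * q')
    (hℓ₀c : ¬ (p : ℤ) ∣ W.apOfModel ℓ₀ - ((ℓ₀ : ℤ) + 1))
    (B : L →+ L →+ ℤ) (B' : L' →+ L' →+ ℤ)
    (hadj₁ : ∀ x y, B' (α₁ x) y = B x (β₁ y)) (hadj₂ : ∀ x y, B' (α₂ x) y = B x (β₂ y))
    (hsa : ∀ x z, B (ρ (CuspForm.heckeAlgebra.T hℓ₀ hℓ₀N (Set.notMem_empty ℓ₀)) x) z =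
      B x (ρ (CuspForm.heckeAlgebra.T hℓ₀ hℓ₀N (Set.notMem_empty ℓ₀)) z))
    (hnd : ∀ x : L, (∀ z, (p : ℤ) ∣ B x z) → ∃ x' : L, x = (p : ℤ) • x')
    (hnd' : ∀ y₀ : L', (∀ y, (p : ℤ) ∣ B' y₀ y) → ∃ y₁ : L', y₀ = (p : ℤ) • y₁)
    (hSat : ∀ (x₁ x₂ : L) (y : L'), α₁ x₁ + α₂ x₂ = (p : ℤ) • y →
        ∃ x₁' x₂' : L,
          ρ (CuspForm.heckeAlgebra.T hℓ₀ hℓ₀N (Set.notMem_empty ℓ₀)) x₁ - ((ℓ₀ : ℤ) + 1) • x₁ =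
            (p : ℤ) • x₁' ∧
          ρ (CuspForm.heckeAlgebra.T hℓ₀ hℓ₀N (Set.notMem_empty ℓ₀)) x₂ - ((ℓ₀ : ℤ) + 1) • x₂ =
            (p : ℤ) • x₂') :
    ∃ (g : CuspForm (CongruenceSubgroup.Gamma0 (N * q')) 2) (𝔪' : Ideal (integralClosure ℤ ℂ)),
      g.IsNormalizedEigenform ∧ 𝔪'.IsMaximal ∧ (p : integralClosure ℤ ℂ) ∈ 𝔪' ∧
      (∀ ℓ : ℕ, ℓ.Prime → W.IsGoodPrimeFor ℓ → ¬ ℓ ∣ N * q' → ℓ ≠ p →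
        ∃ a : integralClosure ℤ ℂ, (a : ℂ) = ModularFormClass.qCoeff g ℓ ∧
          a - ((W.apOfModel ℓ : ℤ) : integralClosure ℤ ℂ) ∈ 𝔪') ∧
      g.IsNewAt q' := by
  have : Fact p.Prime := ⟨hp⟩
  let s : L →+ L :=
    (ρ (CuspForm.heckeAlgebra.T hℓ₀ hℓ₀N (Set.notMem_empty ℓ₀))).toAddMonoidHom -
      ((ℓ₀ : ℤ) + 1) • AddMonoidHom.id L
  have hs : ∀ x : L, s x =
      ρ (CuspForm.heckeAlgebra.T hℓ₀ hℓ₀N (Set.notMem_empty ℓ₀)) x - ((ℓ₀ : ℤ) + 1) • x :=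
    fun x => rfl
  have hsa' : ∀ x z, B (s x) z = B x (s z) := by
    intro x z
    rw [hs, hs, map_sub, map_sub, AddMonoidHom.sub_apply, hsa, map_zsmul, map_zsmul,
      AddMonoidHom.smul_apply]
  have hSat' : ∀ (x₁ x₂ : L) (y : L'), α₁ x₁ + α₂ x₂ = (p : ℤ) • y →
      ∃ x₁' x₂' : L, s x₁ = (p : ℤ) • x₁' ∧ s x₂ = (p : ℤ) • x₂' := by
    intro x₁ x₂ y h
    obtain ⟨x₁', x₂', h₁, h₂⟩ := hSat x₁ x₂ y h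
    exact ⟨x₁', x₂', (hs x₁).trans h₁, (hs x₂).trans h₂⟩
  refine result_of_prime hp hq' hq'N f 𝔪 hf hmax hpm hcong hLR ρ hρ ρ' α₁ α₂ β₁ β₂
    h11 h22 h12 h21 hβ₁ hβ₂ hα₁ hα₂ hgen hU ℓ₀ hℓ₀ hgood₀ hℓ₀p hℓ₀N hℓ₀M hℓ₀c ?_ hSat
  intro z
  obtain ⟨y, w₁, w₂, h₁, h₂⟩ := RibetDual.ih_of_pairing_int (p := p) s α₁ α₂ β₁ β₂ B B'
    hadj₁ hadj₂ hsa' hnd hnd' hSat' z 0
  refine ⟨y, w₁, w₂, ?_, ?_⟩
  · rw [← hs]; exact h₁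
  · rw [← h₂, map_zero]

/-- **Assembly of S41**, modulus form: (Ih) and (Sat) for all primes `ℓ ≡ 1 mod M₀`. -/
theorem result_of_data [NeZero N]
    {W : WeierstrassCurve ℤ} {p : ℕ} (hp : p.Prime) (hq' : q'.Prime) (hq'N : ¬ q' ∣ N)
    (f : CuspForm (Gamma0 N) 2) (𝔪 : Ideal (integralClosure ℤ ℂ))
    (hf : f.IsNormalizedEigenform) (hmax : 𝔪.IsMaximal) (hpm : (p : integralClosure ℤ ℂ) ∈ 𝔪)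
    (hcong : ∀ ℓ : ℕ, ℓ.Prime → W.IsGoodPrimeFor ℓ → ¬ ℓ ∣ N → ℓ ≠ p →
      ∃ a : integralClosure ℤ ℂ, (a : ℂ) = ModularFormClass.qCoeff f ℓ ∧
        a - ((W.apOfModel ℓ : ℤ) : integralClosure ℤ ℂ) ∈ 𝔪)
    (hLR : ∃ a : integralClosure ℤ ℂ, (a : ℂ) = ModularFormClass.qCoeff f q' ∧
      a ^ 2 - ((q' : integralClosure ℤ ℂ) + 1) ^ 2 ∈ 𝔪)
    -- non-Eisenstein input (P6)
    (hNE : ∀ M : ℕ, 0 < M → ∃ ℓ : ℕ, ℓ.Prime ∧ W.IsGoodPrimeFor ℓ ∧ ℓ ≠ p ∧ ¬ ℓ ∣ N * q' ∧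
      ℓ % M = 1 % M ∧ ¬ (p : ℤ) ∣ W.apOfModel ℓ - ((ℓ : ℤ) + 1))
    -- lattice data
    {L L' : Type*} [AddCommGroup L] [AddCommGroup L'] [Module.Finite ℤ L] [IsAddTorsionFree L']
    (ρ : CuspForm.heckeAlgebra N 2 ∅ →+* Module.End ℤ L) (hρ : Function.Injective ρ)
    (ρ' : CuspForm.heckeAlgebra (N * q') 2 ∅ →+* Module.End ℤ L')
    (α₁ α₂ : L →+ L') (β₁ β₂ : L' →+ L)
    (h11 : ∀ x, β₁ (α₁ x) = ((q' : ℤ) + 1) • x) (h22 : ∀ x, β₂ (α₂ x) = ((q' : ℤ) + 1) • x)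
    (h12 : ∀ x, β₁ (α₂ x) = ρ (CuspForm.heckeAlgebra.T hq' hq'N (Set.notMem_empty q')) x)
    (h21 : ∀ x, β₂ (α₁ x) = ρ (CuspForm.heckeAlgebra.T hq' hq'N (Set.notMem_empty q')) x)
    (hβ₁ : ∀ (ℓ : ℕ) (hℓ : ℓ.Prime) (hℓN : ¬ ℓ ∣ N) (hℓM : ¬ ℓ ∣ N * q') (y : L'),
      β₁ (ρ' (CuspForm.heckeAlgebra.T hℓ hℓM (Set.notMem_empty ℓ)) y) =
        ρ (CuspForm.heckeAlgebra.T hℓ hℓN (Set.notMem_empty ℓ)) (β₁ y))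
    (hβ₂ : ∀ (ℓ : ℕ) (hℓ : ℓ.Prime) (hℓN : ¬ ℓ ∣ N) (hℓM : ¬ ℓ ∣ N * q') (y : L'),
      β₂ (ρ' (CuspForm.heckeAlgebra.T hℓ hℓM (Set.notMem_empty ℓ)) y) =
        ρ (CuspForm.heckeAlgebra.T hℓ hℓN (Set.notMem_empty ℓ)) (β₂ y))
    (hα₁ : ∀ (ℓ : ℕ) (hℓ : ℓ.Prime) (hℓN : ¬ ℓ ∣ N) (hℓM : ¬ ℓ ∣ N * q') (x : L),
      α₁ (ρ (CuspForm.heckeAlgebra.T hℓ hℓN (Set.notMem_empty ℓ)) x) =
        ρ' (CuspForm.heckeAlgebra.T hℓ hℓM (Set.notMem_empty ℓ)) (α₁ x))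
    (hα₂ : ∀ (ℓ : ℕ) (hℓ : ℓ.Prime) (hℓN : ¬ ℓ ∣ N) (hℓM : ¬ ℓ ∣ N * q') (x : L),
      α₂ (ρ (CuspForm.heckeAlgebra.T hℓ hℓN (Set.notMem_empty ℓ)) x) =
        ρ' (CuspForm.heckeAlgebra.T hℓ hℓM (Set.notMem_empty ℓ)) (α₂ x))
    (hgen : ∀ g : CuspForm.heckeAlgebra (N * q') 2 ∅,
      (g : Module.End ℂ (CuspForm (Gamma0 (N * q')) 2)) ∈ CuspForm.heckeGenerators (N * q') 2 ∅ →
      ∀ x₁ x₂ : L, ∃ x₁' x₂' : L, ρ' g (α₁ x₁ + α₂ x₂) = α₁ x₁' + α₂ x₂')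
    (hU : ∀ y : L', ∃ x₁ x₂ : L,
      ρ' (CuspForm.heckeAlgebra.U hq' (dvd_mul_left q' N) (Set.notMem_empty q'))
        (ρ' (CuspForm.heckeAlgebra.U hq' (dvd_mul_left q' N) (Set.notMem_empty q')) y) - y =
        α₁ x₁ + α₂ x₂)
    (M₀ : ℕ) (hM₀ : 0 < M₀)
    (hIh : ∀ (ℓ : ℕ) (hℓ : ℓ.Prime) (hℓN : ¬ ℓ ∣ N), ¬ ℓ ∣ N * q' → ℓ % M₀ = 1 % M₀ →
      ∀ z : L, ∃ (y : L') (w₁ w₂ : L),
        ρ (CuspForm.heckeAlgebra.T hℓ hℓN (Set.notMem_empty ℓ)) z - ((ℓ : ℤ) + 1) • z =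
          β₁ y + (p : ℤ) • w₁ ∧ 0 = β₂ y + (p : ℤ) • w₂)
    (hSat : ∀ (ℓ : ℕ) (hℓ : ℓ.Prime) (hℓN : ¬ ℓ ∣ N), ¬ ℓ ∣ N * q' → ℓ % M₀ = 1 % M₀ →
      ∀ (x₁ x₂ : L) (y : L'), α₁ x₁ + α₂ x₂ = (p : ℤ) • y →
        ∃ x₁' x₂' : L,
          ρ (CuspForm.heckeAlgebra.T hℓ hℓN (Set.notMem_empty ℓ)) x₁ - ((ℓ : ℤ) + 1) • x₁ =
            (p : ℤ) • x₁' ∧
          ρ (CuspForm.heckeAlgebra.T hℓ hℓN (Set.notMem_empty ℓ)) x₂ - ((ℓ : ℤ) + 1) • x₂ =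
            (p : ℤ) • x₂') :
    ∃ (g : CuspForm (CongruenceSubgroup.Gamma0 (N * q')) 2) (𝔪' : Ideal (integralClosure ℤ ℂ)),
      g.IsNormalizedEigenform ∧ 𝔪'.IsMaximal ∧ (p : integralClosure ℤ ℂ) ∈ 𝔪' ∧
      (∀ ℓ : ℕ, ℓ.Prime → W.IsGoodPrimeFor ℓ → ¬ ℓ ∣ N * q' → ℓ ≠ p →
        ∃ a : integralClosure ℤ ℂ, (a : ℂ) = ModularFormClass.qCoeff g ℓ ∧
          a - ((W.apOfModel ℓ : ℤ) : integralClosure ℤ ℂ) ∈ 𝔪') ∧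
      g.IsNewAt q' := by
  obtain ⟨ℓ₀, hℓ₀, hgood₀, hℓ₀p, hℓ₀M, hℓ₀mod, hℓ₀c⟩ := hNE M₀ hM₀
  have hℓ₀N : ¬ ℓ₀ ∣ N := fun h' => hℓ₀M (Dvd.dvd.mul_right h' q')
  exact result_of_prime hp hq' hq'N f 𝔪 hf hmax hpm hcong hLR ρ hρ ρ' α₁ α₂ β₁ β₂
    h11 h22 h12 h21 hβ₁ hβ₂ hα₁ hα₂ hgen hU ℓ₀ hℓ₀ hgood₀ hℓ₀p hℓ₀N hℓ₀M hℓ₀c
    (hIh ℓ₀ hℓ₀ hℓ₀N hℓ₀M hℓ₀mod) (hSat ℓ₀ hℓ₀ hℓ₀N hℓ₀M hℓ₀mod)

end Fermat.Agent.S41.Assemble
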