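import Mathlib
import Fermat.Prelude.Def_ModularForm_HeckeOperatorForms
import Fermat.Prelude.Thm_CuspForm_heckeTLin_comm
import Fermat.Prelude.Thm_CuspForm_heckeTLin_heckeULin_comm
import Fermat.Prelude.Thm_CuspForm_heckeULin_comm
import Fermat.Prelude.Sol.S_ModularForm_heckeT_slash_eq_self_of_mem_Gamma0
import Fermat.Agent.S41.DegenHeckeReps

/-!
# S41 frame: the degeneracy maps between `S₂(Γ₀(N))` and `S₂(Γ₀(Nq))` (`q ∤ N` prime)

For a Bezout datum `B : Bez N q` (`q x - N y = 1`):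

* `incl N q`, `vmap hqN : S₂(N) →ₗ S₂(Nq)`: `f ↦ f` and `f ↦ f ∣[2] [q,0;0,1]`;
* `wop B : S₂(Nq) →ₗ S₂(Nq)`: the Atkin–Lehner operator `g ↦ g ∣[2] [q x, y; N q, q]`;
* `tr1 B`, `tr2 B : S₂(Nq) →ₗ S₂(N)`: the two traces,
  `tr1 g = g + ∑_j g ∣ rho_j`, `tr2 g = U_q g + g ∣ W`.

Relations (all as identities of linear maps / cusp forms):
`incl ∘ tr1 = 1 + U_q ∘ wop`, `incl ∘ tr2 = U_q + wop`, `wop ∘ incl = vmap`, `wop ∘ vmap = incl`,
`wop ∘ wop = 1`, `U_q ∘ incl = incl ∘ T_q - vmap`, `U_q ∘ vmap = q • incl`,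
`tr1 ∘ incl = q + 1 = tr2 ∘ vmap`, `tr1 ∘ vmap = T_q = tr2 ∘ incl`,
`U_q (U_q g) = g + incl (T_q (tr2 g) - tr1 g) - vmap (tr2 g)`,
and all five maps commute with `T_l` (`l ∤ N q`) and `U_l` (`l ∣ N`).
-/

set_option autoImplicit false

namespace Fermat.Agent.S41.Degen

open Fermat.Agent.S41.IntMat CongruenceSubgroup ModularForm UpperHalfPlane
open scoped MatrixGroups ModularForm

section Defs

variable (N q : ℕ) [NeZero N] [hq : Fact q.Prime]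

/-- The inclusion `S₂(Γ₀(N)) → S₂(Γ₀(Nq))`. -/
noncomputable def incl : CuspForm (Gamma0 N) 2 →ₗ[ℂ] CuspForm (Gamma0 (N * q)) 2 :=
  sumSlash (fun _ : Unit => (1 : MPos)) permHyp_one

variable {N q}

theorem coe_incl (f : CuspForm (Gamma0 N) 2) : (incl N q f : ℍ → ℂ) = f := by
  rw [incl, coe_sumSlash]
  simp

theorem incl_injective : Function.Injective (incl N q) := by
  intro f g h
  apply DFunLike.coe_injective
  rw [← coe_incl (q := q) f, ← coe_incl (q := q) g, h]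

omit [NeZero N] in
theorem permHyp_hD' (hqN : ¬ q ∣ N) : PermHyp N (N * q) (fun _ : Unit => hD q q_ne_zero) :=
  permHyp_hD (bez hq.out hqN)

/-- The second degeneracy map `f ↦ f ∣[2] [q,0;0,1]`, `S₂(Γ₀(N)) → S₂(Γ₀(Nq))`. -/
noncomputable def vmap (hqN : ¬ q ∣ N) : CuspForm (Gamma0 N) 2 →ₗ[ℂ] CuspForm (Gamma0 (N * q)) 2 :=
  sumSlash (fun _ : Unit => hD q q_ne_zero) (permHyp_hD' hqN)

theorem coe_vmap' (hqN : ¬ q ∣ N) (f : CuspForm (Gamma0 N) 2) :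
    (vmap hqN f : ℍ → ℂ) = (f : ℍ → ℂ) ∣[(2 : ℤ)] toGL (hD q q_ne_zero) := by
  rw [vmap, coe_sumSlash]
  simp

theorem coe_vmap (hqN : ¬ q ∣ N) (f : CuspForm (Gamma0 N) 2) :
    (vmap hqN f : ℍ → ℂ) = (f : ℍ → ℂ) ∣[(2 : ℤ)] heckeDiagMatrix q := by
  rw [coe_vmap', toGL_hD]

variable (B : Bez N q)

/-- The Atkin–Lehner operator `g ↦ g ∣[2] [q x, y; N q, q]` on `S₂(Γ₀(Nq))`. -/
noncomputable def wop : CuspForm (Gamma0 (N * q)) 2 →ₗ[ℂ] CuspForm (Gamma0 (N * q)) 2 :=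
  sumSlash (fun _ : Unit => wq B) (permHyp_wq B)

theorem coe_wop (g : CuspForm (Gamma0 (N * q)) 2) :
    (wop B g : ℍ → ℂ) = (g : ℍ → ℂ) ∣[(2 : ℤ)] toGL (wq B) := by
  rw [wop, coe_sumSlash]
  simp

/-- The trace `S₂(Γ₀(Nq)) → S₂(Γ₀(N))`, `g ↦ ∑ g ∣ r` over `Γ₀(Nq) \ Γ₀(N)`. -/
noncomputable def tr1 : CuspForm (Gamma0 (N * q)) 2 →ₗ[ℂ] CuspForm (Gamma0 N) 2 :=
  sumSlash (R B) (permHyp_R B)

/-- The twisted trace `S₂(Γ₀(Nq)) → S₂(Γ₀(N))`, `g ↦ U_q g + g ∣ W`. -/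
noncomputable def tr2 : CuspForm (Gamma0 (N * q)) 2 →ₗ[ℂ] CuspForm (Gamma0 N) 2 :=
  sumSlash (S B) (permHyp_S B)

theorem coe_tr1' (g : CuspForm (Gamma0 (N * q)) 2) :
    (tr1 B g : ℍ → ℂ) = ∑ i, (g : ℍ → ℂ) ∣[(2 : ℤ)] toGL (R B i) := rfl

theorem coe_tr2' (g : CuspForm (Gamma0 (N * q)) 2) :
    (tr2 B g : ℍ → ℂ) = ∑ i, (g : ℍ → ℂ) ∣[(2 : ℤ)] toGL (S B i) := rfl

end Defs


theorem q_dvd {N q : ℕ} : q ∣ N * q := Dvd.intro_left N rfl

section Relations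

variable {N q : ℕ} [NeZero N] [hq : Fact q.Prime] (B : Bez N q)

/-- `heckeU` as a sum over `ZMod p` of slashes by integer matrices. -/
theorem heckeU_eq_sum_hM {p : ℕ} [hp : Fact p.Prime] (φ : ℍ → ℂ) :
    heckeU 2 p φ = ∑ j : ZMod p, φ ∣[(2 : ℤ)] toGL (hM p j.val l_ne_zero) := by
  rw [P2MW.S_ModularForm_heckeT_slash_eq_self_of_mem_Gamma0.ModularForm.HeckeSlashInvariance.heckeU_eq_sum_zmod]
  refine Finset.sum_congr rfl fun j _ => ?_
  rw [toGL_hM]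

/-- `heckeT` as a sum over `Option (ZMod p)` of slashes by integer matrices. -/
theorem heckeT_eq_sum_Tfam {p : ℕ} [hp : Fact p.Prime] (φ : ℍ → ℂ) :
    heckeT 2 p φ = ∑ i : Option (ZMod p), φ ∣[(2 : ℤ)] toGL (Tfam p i) := by
  rw [Fintype.sum_option, heckeT_eq_heckeU_add, heckeU_eq_sum_hM, add_comm]
  congr 1
  show _ = φ ∣[(2 : ℤ)] toGL (hD p l_ne_zero)
  rw [toGL_hD]

/-- (R1) `incl ∘ tr1 = 1 + U_q ∘ wop`. -/
theorem incl_tr1 (g : CuspForm (Gamma0 (N * q)) 2) :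
    incl N q (tr1 B g) = g + CuspForm.heckeULin 2 (q_dvd (N := N) (q := q)) (wop B g) := by
  apply DFunLike.coe_injective
  rw [coe_incl, coe_tr1', FunLike.coe_add, CuspForm.coe_heckeULin_apply, coe_wop,
    heckeU_eq_sum_hM, Fintype.sum_option]
  congr 1
  · show (g : ℍ → ℂ) ∣[(2 : ℤ)] toGL (1 : MPos) = g
    rw [map_one, SlashAction.slash_one]
  · refine Finset.sum_congr rfl fun j _ => ?_
    show (g : ℍ → ℂ) ∣[(2 : ℤ)] toGL (ofSL (rho B (j.val : ℤ))) = _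
    rw [← SlashAction.slash_mul, ← map_mul, wq_mul_hM, map_mul, SlashAction.slash_mul, slash_scal]

/-- (R2) `incl ∘ tr2 = U_q + wop`. -/
theorem incl_tr2 (g : CuspForm (Gamma0 (N * q)) 2) :
    incl N q (tr2 B g) = CuspForm.heckeULin 2 (q_dvd (N := N) (q := q)) g + wop B g := by
  apply DFunLike.coe_injective
  rw [coe_incl, coe_tr2', FunLike.coe_add, CuspForm.coe_heckeULin_apply, coe_wop,
    heckeU_eq_sum_hM, Fintype.sum_option, add_comm]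
  rfl

/-- (R3a) `wop ∘ incl = vmap`. -/
theorem wop_incl (hqN : ¬ q ∣ N) (f : CuspForm (Gamma0 N) 2) :
    wop B (incl N q f) = vmap hqN f := by
  apply DFunLike.coe_injective
  rw [coe_wop, coe_incl, coe_vmap']
  exact (inv_coe f).slash_eq (gam2_mem B) (wq_eq B)

/-- (R3b) `wop ∘ vmap = incl`. -/
theorem wop_vmap (hqN : ¬ q ∣ N) (f : CuspForm (Gamma0 N) 2) :
    wop B (vmap hqN f) = incl N q f := by
  apply DFunLike.coe_injective
  rw [coe_wop, coe_incl, coe_vmap', ← SlashAction.slash_mul, ← map_mul, hD_mul_wq, map_mul,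
    SlashAction.slash_mul, slash_scal]
  exact inv_coe f _ (gam1_mem B)

/-- (R3c) `wop ∘ wop = 1`. -/
theorem wop_wop (g : CuspForm (Gamma0 (N * q)) 2) : wop B (wop B g) = g := by
  apply DFunLike.coe_injective
  rw [coe_wop, coe_wop, ← SlashAction.slash_mul, ← map_mul, wq_mul_wq, map_mul,
    SlashAction.slash_mul, slash_scal]
  exact inv_coe g _ (gam0_mem B)

/-- (R4a) `U_q ∘ incl = incl ∘ T_q - vmap`. -/
theorem heckeU_incl (hqN : ¬ q ∣ N) (f : CuspForm (Gamma0 N) 2) :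
    CuspForm.heckeULin 2 (q_dvd (N := N) (q := q)) (incl N q f)
      = incl N q (CuspForm.heckeTLin 2 hq.out hqN f) - vmap hqN f := by
  apply DFunLike.coe_injective
  rw [FunLike.coe_sub, CuspForm.coe_heckeULin_apply, coe_incl, coe_incl, coe_vmap,
    CuspForm.coe_heckeTLin_apply, heckeT_eq_heckeU_add, add_sub_cancel_right]

/-- (R4b) `U_q ∘ vmap = q • incl`. -/
theorem heckeU_vmap (hqN : ¬ q ∣ N) (f : CuspForm (Gamma0 N) 2) :
    CuspForm.heckeULin 2 (q_dvd (N := N) (q := q)) (vmap hqN f) = (q : ℂ) • incl N q f := by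
  apply DFunLike.coe_injective
  rw [CuspForm.coe_heckeULin_apply, coe_vmap', FunLike.coe_smul, coe_incl, heckeU_eq_sum_hM]
  have h : ∀ j : ZMod q, ((f : ℍ → ℂ) ∣[(2 : ℤ)] toGL (hD q q_ne_zero)) ∣[(2 : ℤ)]
      toGL (hM q j.val l_ne_zero) = f := by
    intro j
    rw [← SlashAction.slash_mul, ← map_mul, hD_mul_hM, map_mul, SlashAction.slash_mul, slash_scal]
    exact inv_coe f _ (sl4_mem_Gamma0.mpr (dvd_zero _))
  rw [Finset.sum_congr rfl fun j _ => h j, Finset.sum_const, Finset.card_univ, ZMod.card,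
    Nat.cast_smul_eq_nsmul]

end Relations


section Hecke

variable {N q : ℕ} [NeZero N] [hq : Fact q.Prime] (B : Bez N q)

theorem commute_apply {M : Type*} [AddCommGroup M] [Module ℂ M] {a b : M →ₗ[ℂ] M}
    (h : Commute a b) (x : M) : a (b x) = b (a x) :=
  LinearMap.congr_fun h.eq x

/-- `incl` commutes with `T_l`. -/
theorem incl_heckeT {l : ℕ} (hl : l.Prime) (hlN : ¬ l ∣ N) (hlNq : ¬ l ∣ N * q)
    (f : CuspForm (Gamma0 N) 2) :
    incl N q (CuspForm.heckeTLin 2 hl hlN f) = CuspForm.heckeTLin 2 hl hlNq (incl N q f) := by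
  apply DFunLike.coe_injective
  rw [coe_incl, CuspForm.coe_heckeTLin_apply, CuspForm.coe_heckeTLin_apply, coe_incl]

/-- `incl` commutes with `U_l`. -/
theorem incl_heckeU {l : ℕ} (hlN : l ∣ N) (hlNq : l ∣ N * q) (f : CuspForm (Gamma0 N) 2) :
    incl N q (CuspForm.heckeULin 2 hlN f) = CuspForm.heckeULin 2 hlNq (incl N q f) := by
  apply DFunLike.coe_injective
  rw [coe_incl, CuspForm.coe_heckeULin_apply, CuspForm.coe_heckeULin_apply, coe_incl]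

/-- `wop` commutes with `T_l`, `l ∤ N q`. -/
theorem wop_heckeT {l : ℕ} (hl : l.Prime) (hlNq : ¬ l ∣ N * q)
    (g : CuspForm (Gamma0 (N * q)) 2) :
    wop B (CuspForm.heckeTLin 2 hl hlNq g) = CuspForm.heckeTLin 2 hl hlNq (wop B g) := by
  have : Fact l.Prime := ⟨hl⟩
  apply DFunLike.coe_injective
  rw [coe_wop, CuspForm.coe_heckeTLin_apply, CuspForm.coe_heckeTLin_apply, coe_wop,
    heckeT_eq_sum_Tfam, heckeT_eq_sum_Tfam, SlashAction.sum_slash]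
  obtain ⟨σ, hσ⟩ := exists_perm_wq_T B hlNq
  rw [← Equiv.sum_comp σ
    (fun i => ((g : ℍ → ℂ) ∣[(2 : ℤ)] toGL (Tfam l i)) ∣[(2 : ℤ)] toGL (wq B))]
  refine Finset.sum_congr rfl fun i _ => ?_
  obtain ⟨h, hh, e⟩ := hσ i
  have e' : ((g : ℍ → ℂ) ∣[(2 : ℤ)] toGL (wq B)) ∣[(2 : ℤ)] toGL (Tfam l i)
      = ((g : ℍ → ℂ) ∣[(2 : ℤ)] toGL (Tfam l (σ i))) ∣[(2 : ℤ)] toGL (wq B) := by
    rw [← SlashAction.slash_mul, ← map_mul, e, map_mul, map_mul, SlashAction.slash_mul,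
      SlashAction.slash_mul, inv_coe g h hh]
  exact e'.symm

/-- `wop` commutes with `U_l`, `l ∣ N`. -/
theorem wop_heckeU {l : ℕ} (hl : l.Prime) (hlN : l ∣ N) (hlNq : l ∣ N * q)
    (g : CuspForm (Gamma0 (N * q)) 2) :
    wop B (CuspForm.heckeULin 2 hlNq g) = CuspForm.heckeULin 2 hlNq (wop B g) := by
  have : Fact l.Prime := ⟨hl⟩
  apply DFunLike.coe_injective
  rw [coe_wop, CuspForm.coe_heckeULin_apply, CuspForm.coe_heckeULin_apply, coe_wop,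
    heckeU_eq_sum_hM, heckeU_eq_sum_hM, SlashAction.sum_slash]
  obtain ⟨σ, hσ⟩ := exists_perm_wq_U B hlN
  rw [← Equiv.sum_comp σ
    (fun j => ((g : ℍ → ℂ) ∣[(2 : ℤ)] toGL (hM l j.val l_ne_zero)) ∣[(2 : ℤ)] toGL (wq B))]
  refine Finset.sum_congr rfl fun j _ => ?_
  obtain ⟨h, hh, e⟩ := hσ j
  have e' : ((g : ℍ → ℂ) ∣[(2 : ℤ)] toGL (wq B)) ∣[(2 : ℤ)] toGL (hM l j.val l_ne_zero)
      = ((g : ℍ → ℂ) ∣[(2 : ℤ)] toGL (hM l (σ j).val l_ne_zero)) ∣[(2 : ℤ)] toGL (wq B) := by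
    rw [← SlashAction.slash_mul, ← map_mul, e, map_mul, map_mul, SlashAction.slash_mul,
      SlashAction.slash_mul, inv_coe g h hh]
  exact e'.symm

/-! ### Derived identities -/

/-- `tr1 ∘ incl = q + 1`. -/
theorem tr1_incl (hqN : ¬ q ∣ N) (f : CuspForm (Gamma0 N) 2) :
    tr1 B (incl N q f) = ((q : ℂ) + 1) • f := by
  apply incl_injective (q := q)
  rw [incl_tr1, wop_incl B hqN, heckeU_vmap hqN, map_smul, add_smul, one_smul, add_comm]

/-- `tr1 ∘ vmap = T_q`. -/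
theorem tr1_vmap (hqN : ¬ q ∣ N) (f : CuspForm (Gamma0 N) 2) :
    tr1 B (vmap hqN f) = CuspForm.heckeTLin 2 hq.out hqN f := by
  apply incl_injective (q := q)
  rw [incl_tr1, wop_vmap B hqN, heckeU_incl hqN]
  abel

/-- `tr2 ∘ incl = T_q`. -/
theorem tr2_incl (hqN : ¬ q ∣ N) (f : CuspForm (Gamma0 N) 2) :
    tr2 B (incl N q f) = CuspForm.heckeTLin 2 hq.out hqN f := by
  apply incl_injective (q := q)
  rw [incl_tr2, heckeU_incl hqN, wop_incl B hqN]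
  abel

/-- `tr2 ∘ vmap = q + 1`. -/
theorem tr2_vmap (hqN : ¬ q ∣ N) (f : CuspForm (Gamma0 N) 2) :
    tr2 B (vmap hqN f) = ((q : ℂ) + 1) • f := by
  apply incl_injective (q := q)
  rw [incl_tr2, heckeU_vmap hqN, wop_vmap B hqN, map_smul, add_smul, one_smul]

/-- `U_q = incl ∘ tr2 - wop`: modulo old forms, `U_q = -W`. -/
theorem heckeU_eq (g : CuspForm (Gamma0 (N * q)) 2) :
    CuspForm.heckeULin 2 (q_dvd (N := N) (q := q)) g = incl N q (tr2 B g) - wop B g := by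
  rw [incl_tr2]
  abel

/-- `U_q ∘ wop = incl ∘ tr1 - 1`. -/
theorem heckeU_wop (g : CuspForm (Gamma0 (N * q)) 2) :
    CuspForm.heckeULin 2 (q_dvd (N := N) (q := q)) (wop B g) = incl N q (tr1 B g) - g := by
  rw [incl_tr1]
  abel

/-- The key identity: `U_q² g = g + incl (T_q (tr2 g) - tr1 g) - vmap (tr2 g)`; in particular
`U_q² = 1` modulo old forms. -/
theorem heckeU_heckeU (hqN : ¬ q ∣ N) (g : CuspForm (Gamma0 (N * q)) 2) :
    CuspForm.heckeULin 2 (q_dvd (N := N) (q := q))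
        (CuspForm.heckeULin 2 (q_dvd (N := N) (q := q)) g)
      = g + incl N q (CuspForm.heckeTLin 2 hq.out hqN (tr2 B g) - tr1 B g)
        - vmap hqN (tr2 B g) := by
  rw [heckeU_eq B g, map_sub, heckeU_incl hqN, heckeU_wop, map_sub]
  abel

/-- `vmap` commutes with `T_l`, `l ∤ N q`. -/
theorem vmap_heckeT (hqN : ¬ q ∣ N) {l : ℕ} (hl : l.Prime) (hlN : ¬ l ∣ N) (hlNq : ¬ l ∣ N * q)
    (f : CuspForm (Gamma0 N) 2) :
    vmap hqN (CuspForm.heckeTLin 2 hl hlN f) = CuspForm.heckeTLin 2 hl hlNq (vmap hqN f) := by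
  rw [← wop_incl (bez hq.out hqN) hqN, ← wop_incl (bez hq.out hqN) hqN,
    incl_heckeT hl hlN hlNq, wop_heckeT]

/-- `vmap` commutes with `U_l`, `l ∣ N`. -/
theorem vmap_heckeU (hqN : ¬ q ∣ N) {l : ℕ} (hl : l.Prime) (hlN : l ∣ N) (hlNq : l ∣ N * q)
    (f : CuspForm (Gamma0 N) 2) :
    vmap hqN (CuspForm.heckeULin 2 hlN f) = CuspForm.heckeULin 2 hlNq (vmap hqN f) := by
  rw [← wop_incl (bez hq.out hqN) hqN, ← wop_incl (bez hq.out hqN) hqN,
    incl_heckeU hlN hlNq, wop_heckeU _ hl hlN]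

/-- `tr1` commutes with `T_l`, `l ∤ N q`. -/
theorem tr1_heckeT {l : ℕ} (hl : l.Prime) (hlN : ¬ l ∣ N) (hlNq : ¬ l ∣ N * q)
    (g : CuspForm (Gamma0 (N * q)) 2) :
    tr1 B (CuspForm.heckeTLin 2 hl hlNq g) = CuspForm.heckeTLin 2 hl hlN (tr1 B g) := by
  apply incl_injective (q := q)
  rw [incl_tr1, incl_heckeT hl hlN hlNq, incl_tr1, map_add, wop_heckeT]
  congr 1
  exact (commute_apply (CuspForm.heckeTLin_heckeULin_comm 2 hl hlNq q_dvd) (wop B g)).symm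

/-- `tr2` commutes with `T_l`, `l ∤ N q`. -/
theorem tr2_heckeT {l : ℕ} (hl : l.Prime) (hlN : ¬ l ∣ N) (hlNq : ¬ l ∣ N * q)
    (g : CuspForm (Gamma0 (N * q)) 2) :
    tr2 B (CuspForm.heckeTLin 2 hl hlNq g) = CuspForm.heckeTLin 2 hl hlN (tr2 B g) := by
  apply incl_injective (q := q)
  rw [incl_tr2, incl_heckeT hl hlN hlNq, incl_tr2, map_add, wop_heckeT]
  congr 1
  exact (commute_apply (CuspForm.heckeTLin_heckeULin_comm 2 hl hlNq q_dvd) g).symm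

/-- `tr1` commutes with `U_l`, `l ∣ N`. -/
theorem tr1_heckeU {l : ℕ} (hl : l.Prime) (hlN : l ∣ N) (hlNq : l ∣ N * q)
    (g : CuspForm (Gamma0 (N * q)) 2) :
    tr1 B (CuspForm.heckeULin 2 hlNq g) = CuspForm.heckeULin 2 hlN (tr1 B g) := by
  apply incl_injective (q := q)
  rw [incl_tr1, incl_heckeU hlN hlNq, incl_tr1, map_add, wop_heckeU B hl hlN]
  congr 1
  exact (commute_apply (CuspForm.heckeULin_comm 2 hlNq q_dvd) (wop B g)).symm

/-- `tr2` commutes with `U_l`, `l ∣ N`. -/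
theorem tr2_heckeU {l : ℕ} (hl : l.Prime) (hlN : l ∣ N) (hlNq : l ∣ N * q)
    (g : CuspForm (Gamma0 (N * q)) 2) :
    tr2 B (CuspForm.heckeULin 2 hlNq g) = CuspForm.heckeULin 2 hlN (tr2 B g) := by
  apply incl_injective (q := q)
  rw [incl_tr2, incl_heckeU hlN hlNq, incl_tr2, map_add, wop_heckeU B hl hlN]
  congr 1
  exact (commute_apply (CuspForm.heckeULin_comm 2 hlNq q_dvd) g).symm

end Hecke

end Fermat.Agent.S41.Degen
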