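import Mathlib
import Fermat.Prelude.Def_ModularCurve_PeriodHomPair
import Fermat.Agent.S21.PeriodMap
import Fermat.Agent.S41.IntMat

/-!
# S41 frame: periods of sums of slashes, between two levels

If `g = ∑ x, f ∣[2] α x` (`f` of level `N`, `g` of level `N'`, `α x` integer matrices of positive
determinant) and `α x * γ = γ' x * α (σ x)` with `σ` a permutation and `γ' x ∈ Γ₀(N)`, then the
period of `g` along `γ ∈ Γ₀(N')` is the sum of the periods of `f` along the `γ' x`.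
(Two-level version of `Fermat.Agent.S16.LB.periodMap_of_sum_slash`.)
-/

set_option autoImplicit false

open scoped MatrixGroups ModularForm
open CongruenceSubgroup Matrix.SpecialLinearGroup ModularForm ModularCurve ModularCurve.Period
open UpperHalfPlane hiding I
open Fermat.Agent.S41.IntMat

namespace Fermat.Agent.S41.PeriodSum

/-- Chain rule for precomposition with a Möbius transformation of positive determinant
(weight-two slash action). -/
theorem hasDerivAt_comp_glPos_smul {F f : ℍ → ℂ}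
    (hF : ∀ τ : ℍ, HasDerivAt (F ∘ ofComplex) (f τ) ↑τ) (α : GL (Fin 2) ℝ)
    (hα : 0 < α.val.det) (τ : ℍ) :
    HasDerivAt ((fun w : ℍ => F (α • w)) ∘ ofComplex) ((f ∣[(2 : ℤ)] α) τ) ↑τ := by
  have h1 : HasDerivAt (fun z : ℂ => ((α • ofComplex z : ℍ) : ℂ))
      ((α.val.det : ℂ) / denom α τ ^ 2) τ :=
    (hasStrictDerivAt_smul hα τ).hasDerivAt
  have h2 : HasDerivAt (F ∘ ofComplex) (f (α • τ)) (((α • ofComplex (τ : ℂ) : ℍ) : ℂ)) := by
    rw [ofComplex_apply]
    exact hF (α • τ)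
  have h3 := h2.comp (τ : ℂ) h1
  have heq : ((fun w : ℍ => F (α • w)) ∘ ofComplex)
      = (F ∘ ofComplex) ∘ (fun z : ℂ => ((α • ofComplex z : ℍ) : ℂ)) := by
    funext z
    simp only [Function.comp_apply, ofComplex_apply]
  rw [heq]
  refine h3.congr_deriv ?_
  have hdet : α.det.val = α.val.det := Matrix.GeneralLinearGroup.val_det_apply α
  have hσ : UpperHalfPlane.σ α = .refl ℝ ℂ := by
    rw [UpperHalfPlane.σ, if_pos (by rw [hdet]; exact hα)]
  rw [ModularForm.slash_apply, hσ, hdet, abs_of_pos hα]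
  simp only [ContinuousAlgEquiv.refl_apply]
  rw [show (2 : ℤ) - 1 = 1 by norm_num, zpow_one, zpow_neg, div_eq_mul_inv, mul_assoc]
  norm_cast

variable {N N' : ℕ} [NeZero N] [NeZero N']

/-- The abstract relation for weight-two periods of a sum of slashes, between two levels. -/
theorem periodMap_sumSlash {ι : Type*} [Fintype ι] (α : ι → MPos)
    (f : CuspForm (Gamma0 N) 2) (g : CuspForm (Gamma0 N') 2)
    (hg : (g : ℍ → ℂ) = ∑ x, (f : ℍ → ℂ) ∣[(2 : ℤ)] toGL (α x))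
    (γ : Gamma0 N') (σ : Equiv.Perm ι) (γ' : ι → Gamma0 N)
    (hrel : ∀ x, α x * ofSL (γ : SL(2, ℤ)) = ofSL ((γ' x : Gamma0 N) : SL(2, ℤ)) * α (σ x)) :
    periodMap N' g (Additive.ofMul γ) = ∑ x, periodMap N f (Additive.ofMul (γ' x)) := by
  obtain ⟨F, hF⟩ := Fermat.Agent.S21.exists_primitive N f
  obtain ⟨F', hF'⟩ := Fermat.Agent.S21.exists_primitive N' g
  have hd : ∀ τ : ℍ,
      HasDerivAt ((fun w : ℍ => (∑ x, F (toGL (α x) • w)) - F' w) ∘ ofComplex) 0 ↑τ := by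
    intro τ
    have h1 : HasDerivAt (fun z : ℂ => ∑ x, ((fun w : ℍ => F (toGL (α x) • w)) ∘ ofComplex) z)
        (∑ x, ((f : ℍ → ℂ) ∣[(2 : ℤ)] toGL (α x)) τ) ↑τ :=
      HasDerivAt.fun_sum fun x _ =>
        hasDerivAt_comp_glPos_smul hF.1 (toGL (α x)) (toGL_val_det_pos (α x)) τ
    have h2 := hF'.1 τ
    rw [hg, Finset.sum_apply] at h2
    have h3 := h1.sub h2
    rw [sub_self] at h3
    exact h3
  obtain ⟨c, hc⟩ := Fermat.Agent.S21.exists_const_of_hasDerivAt_zero hd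
  have hF'eq : ∀ w : ℍ, F' w = (∑ x, F (toGL (α x) • w)) - c := by
    intro w
    rw [← hc w]
    ring
  set z : ℍ := UpperHalfPlane.I with hz
  rw [Fermat.Agent.S21.periodMap_apply N' hF' γ z, hF'eq, hF'eq]
  have hsmul : ∀ x, toGL (α x) • ((γ : SL(2, ℤ)) • z)
      = ((γ' x : Gamma0 N) : SL(2, ℤ)) • (toGL (α (σ x)) • z) := by
    intro x
    have e1 : toGL (α x) • ((γ : SL(2, ℤ)) • z) = (toGL (α x) * mapGL ℝ (γ : SL(2, ℤ))) • z := by
      rw [mul_smul]
      rfl
    have e2 : ((γ' x : Gamma0 N) : SL(2, ℤ)) • (toGL (α (σ x)) • z)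
        = (mapGL ℝ ((γ' x : Gamma0 N) : SL(2, ℤ)) * toGL (α (σ x))) • z := by
      rw [mul_smul]
      rfl
    rw [e1, e2, ← toGL_ofSL, ← toGL_ofSL, ← map_mul, ← map_mul, hrel x]
  have hre : ∑ x, F (toGL (α x) • z) = ∑ x, F (toGL (α (σ x)) • z) :=
    (Equiv.sum_comp σ fun x => F (toGL (α x) • z)).symm
  have hfin : (∑ x, F (toGL (α x) • ((γ : SL(2, ℤ)) • z)) - c) - ((∑ x, F (toGL (α x) • z)) - c)
      = ∑ x, (F (((γ' x : Gamma0 N) : SL(2, ℤ)) • (toGL (α (σ x)) • z))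
          - F (toGL (α (σ x)) • z)) := by
    rw [Finset.sum_sub_distrib, ← hre]
    simp only [hsmul]
    ring
  rw [hfin]
  refine Finset.sum_congr rfl fun x _ => ?_
  rw [Fermat.Agent.S21.periodMap_apply N hF (γ' x) (toGL (α (σ x)) • z)]

end Fermat.Agent.S41.PeriodSum
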