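import Mathlib
import Fermat.Agent.S41.Degen
import Fermat.Agent.S41.PeriodSum
import Fermat.Agent.S41.Frame

/-!
# S41 frame: comparison of the forms-level degeneracy maps with the frame maps on characters

`r1 B`, `r2 B : Option (ZMod q) → Γ₀(N)` are right transversals of the ranges of
`Ihara.inclLevel N q` resp. `Ihara.conjDelta N q`, and the period map intertwines

* `Frame.res₁` with `Degen.incl`, `Frame.res₂` with `Degen.vmap`,
* `Frame.tr₁` with `Degen.tr1`, `Frame.tr₂` with `Degen.tr2`,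
* hence `Frame.heckeT N q` and `Frame.heckeU N q` with `T_q` (`q ∤ N`).
-/

set_option autoImplicit false
set_option linter.unusedTactic false
set_option linter.unreachableTactic false

open scoped MatrixGroups ModularForm
open CongruenceSubgroup ModularCurve ModularCurve.Period
open Fermat.Agent.S41.IntMat Fermat.Agent.S41.Degen Fermat.Agent.S41.Ihara
  Fermat.Agent.S41.Cores Fermat.Agent.S41.PeriodSum

namespace Fermat.Agent.S41.DegenFrame

theorem ofSL_injective : Function.Injective ofSL := by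
  intro a b h
  have h' : (ofSL a).1 = (ofSL b).1 := congrArg Subtype.val h
  exact Subtype.ext h'

variable {N q : ℕ} [NeZero N] [hq : Fact q.Prime] (B : Bez N q)

/-- The right transversal `{1, rho_j}` of `Γ₀(Nq)` in `Γ₀(N)`. -/
def r1 : Option (ZMod q) → Gamma0 N
  | none => 1
  | some j => ⟨rho B (j.val : ℤ), rho_mem B _⟩

omit [NeZero N] hq in
theorem ofSL_r1 (i : Option (ZMod q)) : ofSL ((r1 B i : Gamma0 N) : SL(2, ℤ)) = R B i := by
  rcases i with _ | j <;> rfl

/-- The right transversal `{[q x, y; N, 1], [1, j; 0, 1]}` of `δ Γ₀(Nq) δ⁻¹` in `Γ₀(N)`. -/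
def r2 : Option (ZMod q) → Gamma0 N
  | none => ⟨gam1 B, gam1_mem B⟩
  | some j => ⟨sl4 1 (j.val : ℤ) 0 1 (by ring), sl4_mem_Gamma0.mpr (dvd_zero _)⟩

omit [NeZero N] in
/-- `S B i = [1,0;0,q] * r2 B i`. -/
theorem S_eq (i : Option (ZMod q)) :
    S B i = hM q 0 q_ne_zero * ofSL ((r2 B i : Gamma0 N) : SL(2, ℤ)) := by
  rcases i with _ | j
  · apply Subtype.ext
    show (wq B).1 = (hM q 0 q_ne_zero).1 * (!![(q : ℤ) * B.x, B.y; (N : ℤ), 1] : Matrix _ _ ℤ)
    rw [wq_val, hM_val, Matrix.mul_fin_two]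
    exact mat_eq (by first | (push_cast; ring) | push_cast | ring) (by first | (push_cast; ring) | push_cast | ring) (by first | (push_cast; ring) | push_cast | ring)
      (by first | (push_cast; ring) | push_cast | ring)
  · apply Subtype.ext
    show (hM q j.val q_ne_zero).1
      = (hM q 0 q_ne_zero).1 * (!![(1 : ℤ), (j.val : ℤ); 0, 1] : Matrix _ _ ℤ)
    rw [hM_val, hM_val, Matrix.mul_fin_two]
    exact mat_eq (by first | (push_cast; ring) | push_cast | ring) (by first | (push_cast; ring) | push_cast | ring) (by first | (push_cast; ring) | push_cast | ring)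
      (by first | (push_cast; ring) | push_cast | ring)

omit [NeZero N] in
/-- `[1,0;0,q] * (δ γ δ⁻¹) = γ * [1,0;0,q]`. -/
theorem delta_conj (γ : Gamma0 (N * q)) :
    hM q 0 q_ne_zero * ofSL ((conjDelta N q γ : Gamma0 N) : SL(2, ℤ))
      = ofSL (γ : SL(2, ℤ)) * hM q 0 q_ne_zero := by
  obtain ⟨m, hm⟩ := dvd_of_mem_Gamma0_mul γ
  have hq0 : (q : ℤ) ≠ 0 := ne_of_gt qZ_pos
  apply Subtype.ext
  show (hM q 0 q_ne_zero).1 * ((conjDelta N q γ : Gamma0 N) : SL(2, ℤ)).1
    = (γ : SL(2, ℤ)).1 * (hM q 0 q_ne_zero).1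
  rw [conjDelta_apply_coe, hM_val, Matrix.mul_fin_two]
  conv_rhs => rw [Matrix.eta_fin_two (γ : SL(2, ℤ)).1, Matrix.mul_fin_two]
  refine mat_eq (by first | (push_cast; ring) | push_cast | ring) (by first | (push_cast; ring) | push_cast | ring) ?_ (by first | (push_cast; ring) | push_cast | ring)
  rw [hm, Int.mul_ediv_cancel_left _ hq0]
  first | (push_cast; ring) | push_cast | ring

omit [NeZero N] in
/-- `hD q * γ = (δ γ δ⁻¹) * hD q`. -/
theorem hD_conj (γ : Gamma0 (N * q)) :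
    hD q q_ne_zero * ofSL (γ : SL(2, ℤ))
      = ofSL ((conjDelta N q γ : Gamma0 N) : SL(2, ℤ)) * hD q q_ne_zero := by
  obtain ⟨m, hm⟩ := dvd_of_mem_Gamma0_mul γ
  have hq0 : (q : ℤ) ≠ 0 := ne_of_gt qZ_pos
  apply Subtype.ext
  show (hD q q_ne_zero).1 * (γ : SL(2, ℤ)).1
    = ((conjDelta N q γ : Gamma0 N) : SL(2, ℤ)).1 * (hD q q_ne_zero).1
  rw [conjDelta_apply_coe, hD_val, Matrix.mul_fin_two]
  conv_lhs => rw [Matrix.eta_fin_two (γ : SL(2, ℤ)).1, Matrix.mul_fin_two]
  refine mat_eq (by first | (push_cast; ring) | push_cast | ring) (by first | (push_cast; ring) | push_cast | ring) ?_ (by first | (push_cast; ring) | push_cast | ring)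
  rw [hm, Int.mul_ediv_cancel_left _ hq0]
  first | (push_cast; ring) | push_cast | ring

omit [NeZero N] in
theorem isRightTransversal_r1 : IsRightTransversal (inclLevel N q) (r1 B) := by
  constructor
  · intro g
    obtain ⟨i, h, hh, e⟩ := R_decomp B (g : SL(2, ℤ)) g.2
    refine ⟨i, ⟨h, hh⟩, ?_⟩
    apply Subtype.ext
    apply ofSL_injective
    show ofSL (g : SL(2, ℤ)) = ofSL (h * ((r1 B i : Gamma0 N) : SL(2, ℤ)))
    rw [map_mul, ofSL_r1]
    exact e
  · intro x y h e
    refine R_inj B x y ⟨(h : SL(2, ℤ)), h.2, ?_⟩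
    have e1 : ofSL ((r1 B x : Gamma0 N) : SL(2, ℤ))
        = ofSL ((h : SL(2, ℤ)) * ((r1 B y : Gamma0 N) : SL(2, ℤ))) :=
      congrArg (fun g : Gamma0 N => ofSL (g : SL(2, ℤ))) e
    rw [map_mul, ofSL_r1, ofSL_r1] at e1
    exact e1

omit [NeZero N] in
theorem isRightTransversal_r2 : IsRightTransversal (conjDelta N q) (r2 B) := by
  constructor
  · intro g
    have hc : (N : ℤ) ∣ (g : SL(2, ℤ)).1 1 0 := mem_Gamma0_iff_dvd.mp g.2
    have hval : (hM q 0 q_ne_zero * ofSL (g : SL(2, ℤ))).1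
        = (hM q 0 q_ne_zero).1 * (g : SL(2, ℤ)).1 := rfl
    obtain ⟨i, h, hh, e⟩ := S_decomp B (hM q 0 q_ne_zero * ofSL (g : SL(2, ℤ)))
      (by rw [hval, Matrix.det_mul, hM_det, (g : SL(2, ℤ)).2, mul_one])
      (by
        rw [hval, hM_val, Matrix.mul_apply, Fin.sum_univ_two]
        simp)
      (by
        rw [hval, hM_val, Matrix.mul_apply, Fin.sum_univ_two]
        simp)
      (by
        rw [hval, hM_val, Matrix.mul_apply, Fin.sum_univ_two]
        simpa using hc.mul_left _)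
    refine ⟨i, ⟨h, hh⟩, ?_⟩
    apply Subtype.ext
    apply ofSL_injective
    apply MPos.mul_left_cancel' (hM q 0 q_ne_zero)
    show hM q 0 q_ne_zero * ofSL (g : SL(2, ℤ))
      = hM q 0 q_ne_zero * ofSL (((conjDelta N q ⟨h, hh⟩ : Gamma0 N) : SL(2, ℤ))
        * ((r2 B i : Gamma0 N) : SL(2, ℤ)))
    rw [e, S_eq, map_mul, ← mul_assoc, ← mul_assoc, delta_conj]
  · intro x y h e
    refine S_inj B x y ⟨(h : SL(2, ℤ)), h.2, ?_⟩
    have e1 : ofSL ((r2 B x : Gamma0 N) : SL(2, ℤ))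
        = ofSL (((conjDelta N q h : Gamma0 N) : SL(2, ℤ)) * ((r2 B y : Gamma0 N) : SL(2, ℤ))) :=
      congrArg (fun g : Gamma0 N => ofSL (g : SL(2, ℤ))) e
    rw [S_eq, S_eq, e1, map_mul, ← mul_assoc, ← mul_assoc, delta_conj]


/-! ### The period map intertwines the frame maps with the forms-level maps -/

/-- `res₁ ∘ periodMap = periodMap ∘ incl`. -/
theorem res₁_periodMap (f : CuspForm (Gamma0 N) 2) :
    Frame.res₁ N q (periodMap N f) = periodMap (N * q) (incl N q f) := by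
  refine AddMonoidHom.ext fun a => ?_
  have key := periodMap_sumSlash (N := N) (N' := N * q) (fun _ : Unit => (1 : MPos)) f
    (incl N q f) rfl (Additive.toMul a) 1 (fun _ => inclLevel N q (Additive.toMul a))
    (fun _ => by rw [coe_inclLevel, one_mul, mul_one])
  rw [Fintype.sum_unique] at key
  exact key.symm

/-- `res₂ ∘ periodMap = periodMap ∘ vmap`. -/
theorem res₂_periodMap (hqN : ¬ q ∣ N) (f : CuspForm (Gamma0 N) 2) :
    Frame.res₂ N q (periodMap N f) = periodMap (N * q) (vmap hqN f) := by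
  refine AddMonoidHom.ext fun a => ?_
  have key := periodMap_sumSlash (N := N) (N' := N * q) (fun _ : Unit => hD q q_ne_zero) f
    (vmap hqN f) rfl (Additive.toMul a) 1 (fun _ => conjDelta N q (Additive.toMul a))
    (fun _ => hD_conj (Additive.toMul a))
  rw [Fintype.sum_unique] at key
  exact key.symm

/-- `tr₁ ∘ periodMap = periodMap ∘ tr1`. -/
theorem tr₁_periodMap (g : CuspForm (Gamma0 (N * q)) 2) :
    Frame.tr₁ N q (periodMap (N * q) g) = periodMap N (tr1 B g) := by
  refine AddMonoidHom.ext fun a => ?_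
  obtain ⟨σ, hσ⟩ := permHyp_R B ((Additive.toMul a : Gamma0 N) : SL(2, ℤ)) (Additive.toMul a).2
  choose γ' hγ' hrel using hσ
  have h1 := Frame.tr₁_apply_of_rel N q (r1 B) (isRightTransversal_r1 B) (periodMap (N * q) g)
    (Additive.toMul a) σ (fun x => ⟨γ' x, hγ' x⟩) (fun x => by
      apply Subtype.ext
      apply ofSL_injective
      show ofSL (((r1 B x : Gamma0 N) : SL(2, ℤ)) * ((Additive.toMul a : Gamma0 N) : SL(2, ℤ)))
        = ofSL (γ' x * ((r1 B (σ x) : Gamma0 N) : SL(2, ℤ)))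
      rw [map_mul, map_mul, ofSL_r1, ofSL_r1]
      exact hrel x)
  have h2 := periodMap_sumSlash (R B) g (tr1 B g) rfl (Additive.toMul a) σ
    (fun x => ⟨γ' x, hγ' x⟩) hrel
  exact h1.trans h2.symm

/-- `tr₂ ∘ periodMap = periodMap ∘ tr2`. -/
theorem tr₂_periodMap (g : CuspForm (Gamma0 (N * q)) 2) :
    Frame.tr₂ N q (periodMap (N * q) g) = periodMap N (tr2 B g) := by
  refine AddMonoidHom.ext fun a => ?_
  obtain ⟨σ, hσ⟩ := permHyp_S B ((Additive.toMul a : Gamma0 N) : SL(2, ℤ)) (Additive.toMul a).2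
  choose γ' hγ' hrel using hσ
  have h1 := Frame.tr₂_apply_of_rel N q (r2 B) (isRightTransversal_r2 B) (periodMap (N * q) g)
    (Additive.toMul a) σ (fun x => ⟨γ' x, hγ' x⟩) (fun x => by
      apply Subtype.ext
      apply ofSL_injective
      apply MPos.mul_left_cancel' (hM q 0 q_ne_zero)
      show hM q 0 q_ne_zero * ofSL (((r2 B x : Gamma0 N) : SL(2, ℤ))
          * ((Additive.toMul a : Gamma0 N) : SL(2, ℤ)))
        = hM q 0 q_ne_zero * ofSL (((conjDelta N q ⟨γ' x, hγ' x⟩ : Gamma0 N) : SL(2, ℤ))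
          * ((r2 B (σ x) : Gamma0 N) : SL(2, ℤ)))
      rw [map_mul, map_mul, ← mul_assoc, ← mul_assoc, ← S_eq, delta_conj, mul_assoc, ← S_eq]
      exact hrel x)
  have h2 := periodMap_sumSlash (S B) g (tr2 B g) rfl (Additive.toMul a) σ
    (fun x => ⟨γ' x, hγ' x⟩) hrel
  exact h1.trans h2.symm

/-- `Frame.heckeT N q = tr₁ ∘ res₂` is `T_q` on periods (`q ∤ N`). -/
theorem heckeT_periodMap (hqN : ¬ q ∣ N) (f : CuspForm (Gamma0 N) 2) :
    Frame.heckeT N q (periodMap N f) = periodMap N (CuspForm.heckeTLin 2 hq.out hqN f) := by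
  show Frame.tr₁ N q (Frame.res₂ N q (periodMap N f)) = _
  rw [res₂_periodMap hqN, tr₁_periodMap (bez hq.out hqN), tr1_vmap]

/-- `Frame.heckeU N q = tr₂ ∘ res₁` is again `T_q` on periods (`q ∤ N`). -/
theorem heckeU_periodMap (hqN : ¬ q ∣ N) (f : CuspForm (Gamma0 N) 2) :
    Frame.heckeU N q (periodMap N f) = periodMap N (CuspForm.heckeTLin 2 hq.out hqN f) := by
  show Frame.tr₂ N q (Frame.res₁ N q (periodMap N f)) = _
  rw [res₁_periodMap, tr₂_periodMap (bez hq.out hqN), tr2_incl _ hqN]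

omit [NeZero N] in
theorem card_index : Fintype.card (Option (ZMod q)) = q + 1 := by
  rw [Fintype.card_option, ZMod.card]

end Fermat.Agent.S41.DegenFrame
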