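import Mathlib
import Fermat.Agent.S41.DegenFrame

/-!
# S41 frame: `periodHomPair` intertwines the frame maps with the forms-level degeneracy maps

`periodHomPair (N q) (incl f, incl g) = res₁ (periodHomPair N (f, g))`, the same for `vmap`/`res₂`,
`periodHomPair N (tr1 g, tr1 h) = tr₁ (periodHomPair (N q) (g, h))`, the same for `tr2`/`tr₂`.
The only new input is that `res_i`, `tr_i` commute with the character involution
(conjugation by `diag(1, -1)`).
-/

set_option autoImplicit false

open scoped MatrixGroups ModularForm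
open CongruenceSubgroup ModularCurve ModularCurve.Period
open Fermat.Agent.S41.IntMat Fermat.Agent.S41.Degen Fermat.Agent.S41.Ihara
  Fermat.Agent.S41.Cores Fermat.Agent.S41.DegenFrame

namespace Fermat.Agent.S41.DegenFramePair

section Abstract

variable {G H A : Type*} [Group G] [Group H] [AddCommGroup A]

/-- Corestriction commutes with a compatible pair of involutive endomorphisms. -/
theorem cores_comp_invol (j : H →* G) (hj : Function.Injective j) [j.range.FiniteIndex]
    (θG : G →* G) (θH : H →* H) (hinv : ∀ g, θG (θG g) = g) (hθ : ∀ h, j (θH h) = θG (j h))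
    (ψ : Additive H →+ A) (g : G) :
    cores j hj (ψ.comp (MonoidHom.toAdditive θH)) (Additive.ofMul g)
      = cores j hj ψ (Additive.ofMul (θG g)) := by
  classical
  have : Fintype (RQ j) := Fintype.ofFinite _
  have hr := isRightTransversal_out j
  obtain ⟨σ, γ', hrel⟩ := exists_rel j (fun q : RQ j => q.out) hr g
  have hr' : IsRightTransversal j (fun q : RQ j => θG q.out) := by
    constructor
    · intro g'
      obtain ⟨x, h, e⟩ := hr.1 (θG g')
      refine ⟨x, θH h, ?_⟩
      rw [hθ, ← map_mul, ← e, hinv]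
    · intro x y h e
      refine hr.2 x y (θH h) ?_
      have e' := congrArg θG e
      rw [hinv, map_mul, hinv, ← hθ] at e'
      exact e'
  have h1 := cores_apply_of_rel j hj (fun q : RQ j => q.out) hr
    (ψ.comp (MonoidHom.toAdditive θH)) g σ γ' hrel
  have h2 := cores_apply_of_rel j hj (fun q : RQ j => θG q.out) hr' ψ (θG g) σ
    (fun x => θH (γ' x)) (fun x => by
      show θG (Quotient.out x) * θG g = j (θH (γ' x)) * θG (Quotient.out (σ x))
      rw [← map_mul, hrel x, map_mul, hθ])
  rw [h1, h2]
  rfl

end Abstract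

variable {N q : ℕ}

/-- `inclLevel` commutes with the involution. -/
theorem inclLevel_jConj (γ : Gamma0 (N * q)) :
    inclLevel N q (jConjGamma0 (N * q) γ) = jConjGamma0 N (inclLevel N q γ) := rfl

/-- `conjDelta` commutes with the involution. -/
theorem conjDelta_jConj [NeZero q] (γ : Gamma0 (N * q)) :
    conjDelta N q (jConjGamma0 (N * q) γ) = jConjGamma0 N (conjDelta N q γ) := by
  obtain ⟨m, hm⟩ := dvd_of_mem_Gamma0_mul γ
  have hq0 : (q : ℤ) ≠ 0 := by exact_mod_cast NeZero.ne q
  apply Subtype.ext
  apply Subtype.ext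
  show (((conjDelta N q (jConjGamma0 (N * q) γ) : Gamma0 N) : SL(2, ℤ)) :
      Matrix (Fin 2) (Fin 2) ℤ)
    = jConjMat (((conjDelta N q γ : Gamma0 N) : SL(2, ℤ)) : Matrix (Fin 2) (Fin 2) ℤ)
  rw [conjDelta_apply_coe, conjDelta_apply_coe]
  ext i j
  fin_cases i <;> fin_cases j
  · simp only [jConjMat, jConjGamma0_coe, jConjSL_coe]
    simp
  · simp only [jConjMat, jConjGamma0_coe, jConjSL_coe]
    simp
  · simp only [jConjMat, jConjGamma0_coe, jConjSL_coe]
    simp
    rw [hm, Int.mul_ediv_cancel_left _ hq0, show -((q : ℤ) * m) = q * (-m) by ring,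
      Int.mul_ediv_cancel_left _ hq0]
  · simp only [jConjMat, jConjGamma0_coe, jConjSL_coe]
    simp

section Comm

variable {A : Type*} [AddCommGroup A] (R : Type*) [Semiring R] [Module R A]

theorem charInvolution_res₁ (ψ : Additive (Gamma0 N) →+ A) :
    charInvolution (N * q) R A (Frame.res₁ N q ψ) = Frame.res₁ N q (charInvolution N R A ψ) := rfl

theorem charInvolution_res₂ [NeZero q] (ψ : Additive (Gamma0 N) →+ A) :
    charInvolution (N * q) R A (Frame.res₂ N q ψ) = Frame.res₂ N q (charInvolution N R A ψ) := by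
  refine AddMonoidHom.ext fun a => ?_
  show ψ (Additive.ofMul (conjDelta N q (jConjGamma0 (N * q) (Additive.toMul a))))
    = ψ (Additive.ofMul (jConjGamma0 N (conjDelta N q (Additive.toMul a))))
  rw [conjDelta_jConj]

theorem charInvolution_tr₁ [NeZero N] [NeZero q] (ψ : Additive (Gamma0 (N * q)) →+ A) :
    charInvolution N R A (Frame.tr₁ N q ψ) = Frame.tr₁ N q (charInvolution (N * q) R A ψ) := by
  refine AddMonoidHom.ext fun a => ?_
  exact (cores_comp_invol (inclLevel N q) (inclLevel_injective N q) (jConjGamma0 N)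
    (jConjGamma0 (N * q)) (jConjGamma0_jConjGamma0 N) inclLevel_jConj ψ (Additive.toMul a)).symm

theorem charInvolution_tr₂ [NeZero N] [NeZero q] (ψ : Additive (Gamma0 (N * q)) →+ A) :
    charInvolution N R A (Frame.tr₂ N q ψ) = Frame.tr₂ N q (charInvolution (N * q) R A ψ) := by
  refine AddMonoidHom.ext fun a => ?_
  exact (cores_comp_invol (conjDelta N q) (conjDelta_injective N q) (jConjGamma0 N)
    (jConjGamma0 (N * q)) (jConjGamma0_jConjGamma0 N) conjDelta_jConj ψ (Additive.toMul a)).symm

end Comm

section Pair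

variable [NeZero N] [hq : Fact q.Prime] (B : Bez N q)

/-- `periodHomPair` intertwines `incl` with `res₁`. -/
theorem periodHomPair_incl (f g : CuspForm (Gamma0 N) 2) :
    periodHomPair (N * q) (incl N q f, incl N q g) = Frame.res₁ N q (periodHomPair N (f, g)) := by
  rw [Fermat.Agent.S21.periodHomPair_apply, Fermat.Agent.S21.periodHomPair_apply, map_add,
    map_add, map_sub, ← charInvolution_res₁, ← charInvolution_res₁, res₁_periodMap,
    res₁_periodMap]

/-- `periodHomPair` intertwines `vmap` with `res₂`. -/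
theorem periodHomPair_vmap (hqN : ¬ q ∣ N) (f g : CuspForm (Gamma0 N) 2) :
    periodHomPair (N * q) (vmap hqN f, vmap hqN g)
      = Frame.res₂ N q (periodHomPair N (f, g)) := by
  rw [Fermat.Agent.S21.periodHomPair_apply, Fermat.Agent.S21.periodHomPair_apply, map_add,
    map_add, map_sub, ← charInvolution_res₂, ← charInvolution_res₂, res₂_periodMap hqN,
    res₂_periodMap hqN]

/-- `periodHomPair` intertwines `tr1` with `tr₁`. -/
theorem periodHomPair_tr1 (g h : CuspForm (Gamma0 (N * q)) 2) :
    periodHomPair N (tr1 B g, tr1 B h) = Frame.tr₁ N q (periodHomPair (N * q) (g, h)) := by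
  rw [Fermat.Agent.S21.periodHomPair_apply, Fermat.Agent.S21.periodHomPair_apply, map_add,
    map_add, map_sub, ← charInvolution_tr₁, ← charInvolution_tr₁, tr₁_periodMap B,
    tr₁_periodMap B]

/-- `periodHomPair` intertwines `tr2` with `tr₂`. -/
theorem periodHomPair_tr2 (g h : CuspForm (Gamma0 (N * q)) 2) :
    periodHomPair N (tr2 B g, tr2 B h) = Frame.tr₂ N q (periodHomPair (N * q) (g, h)) := by
  rw [Fermat.Agent.S21.periodHomPair_apply, Fermat.Agent.S21.periodHomPair_apply, map_add,
    map_add, map_sub, ← charInvolution_tr₂, ← charInvolution_tr₂, tr₂_periodMap B,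
    tr₂_periodMap B]

end Pair

end Fermat.Agent.S41.DegenFramePair
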