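import Mathlib
import Fermat.Agent.S41.DegenFrame

/-!
# S41 frame: `Frame.heckeU M l` is `U_l` on periods, for `l ∣ M`

The right transversal `{[1, j; 0, 1]}` of `δ Γ₀(M l) δ⁻¹` in `Γ₀(M)` (`l ∣ M`) and the comparison
`Frame.heckeU M l (periodMap M f) = periodMap M (U_l f)`.
-/

set_option autoImplicit false
set_option linter.unusedTactic false
set_option linter.unreachableTactic false

open scoped MatrixGroups ModularForm
open CongruenceSubgroup ModularCurve ModularCurve.Period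
open Fermat.Agent.S41.IntMat Fermat.Agent.S41.Degen Fermat.Agent.S41.Ihara
  Fermat.Agent.S41.Cores Fermat.Agent.S41.PeriodSum Fermat.Agent.S41.DegenFrame

namespace Fermat.Agent.S41.DegenFrameU

variable {M l : ℕ} [hl : Fact l.Prime]

/-- The translations `[1, j; 0, 1]`, as elements of `Γ₀(M)`. -/
def rU (M : ℕ) (j : ZMod l) : Gamma0 M :=
  ⟨sl4 1 (j.val : ℤ) 0 1 (by ring), sl4_mem_Gamma0.mpr (dvd_zero _)⟩

/-- `[1, j; 0, l] = [1,0;0,l] * [1, j; 0, 1]`. -/
theorem hM_eq (j : ZMod l) :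
    hM l j.val l_ne_zero = hM l 0 l_ne_zero * ofSL ((rU M j : Gamma0 M) : SL(2, ℤ)) := by
  apply Subtype.ext
  show (hM l j.val l_ne_zero).1
    = (hM l 0 l_ne_zero).1 * (!![(1 : ℤ), (j.val : ℤ); 0, 1] : Matrix _ _ ℤ)
  rw [hM_val, hM_val, Matrix.mul_fin_two]
  exact mat_eq (by first | (push_cast; ring) | push_cast | ring)
    (by first | (push_cast; ring) | push_cast | ring)
    (by first | (push_cast; ring) | push_cast | ring)
    (by first | (push_cast; ring) | push_cast | ring)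

/-- For `l ∣ M` and `γ ∈ Γ₀(M)`: `[1,j;0,l] γ ∈ Γ₀(M l) [1,j';0,l]`. -/
theorem hM_decomp (hlM : l ∣ M) (γ : SL(2, ℤ)) (hγ : γ ∈ Gamma0 M) (j : ZMod l) :
    ∃ j' : ZMod l, ∃ h ∈ Gamma0 (M * l), hM l j.val l_ne_zero * ofSL γ
      = ofSL h * hM l j'.val l_ne_zero := by
  have hc : (M : ℤ) ∣ γ.1 1 0 := mem_Gamma0_iff_dvd.mp hγ
  have hlc : (l : ℤ) ∣ γ.1 1 0 := (Int.natCast_dvd_natCast.mpr hlM).trans hc
  have hval : (hM l j.val l_ne_zero * ofSL γ).1 = (hM l j.val l_ne_zero).1 * γ.1 := rfl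
  refine U_decomp (M * l) (hM l j.val l_ne_zero * ofSL γ) ?_ ?_ ?_
  · rw [hval, Matrix.det_mul, hM_det, γ.2, mul_one]
  · rw [hval, hM_val, Matrix.mul_apply, Fin.sum_univ_two]
    obtain ⟨c', hc'⟩ := hc
    refine ⟨c', ?_⟩
    simp only [Matrix.of_apply, Matrix.cons_val_one, Matrix.cons_val_zero,
      Matrix.cons_val', Matrix.empty_val', Matrix.cons_val_fin_one]
    rw [hc']
    push_cast
    ring
  · rw [hval, hM_val, Matrix.mul_apply, Fin.sum_univ_two]
    intro hdv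
    obtain ⟨c', hc'⟩ := hlc
    have h1 : (l : ℤ) ∣ γ.1 0 0 := by
      have h2 : (!![(1 : ℤ), (j.val : ℤ); 0, (l : ℤ)] : Matrix (Fin 2) (Fin 2) ℤ) 0 0 * γ.1 0 0
          + (!![(1 : ℤ), (j.val : ℤ); 0, (l : ℤ)] : Matrix (Fin 2) (Fin 2) ℤ) 0 1 * γ.1 1 0
          = γ.1 0 0 + (l : ℤ) * ((j.val : ℤ) * c') := by
        simp only [Matrix.of_apply, Matrix.cons_val_one, Matrix.cons_val_zero,
          Matrix.cons_val', Matrix.empty_val', Matrix.cons_val_fin_one]
        rw [hc']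
        ring
      rw [h2] at hdv
      exact (dvd_add_left (dvd_mul_right _ _)).mp hdv
    have hdet := SL.det_eq γ
    have h3 : (l : ℤ) ∣ 1 := by
      rw [← hdet]
      exact dvd_sub (h1.mul_right _) (Dvd.dvd.mul_left ⟨c', hc'⟩ _)
    have h4 := Int.le_of_dvd one_pos h3
    have h5 : (1 : ℤ) < l := by exact_mod_cast hl.out.one_lt
    linarith

theorem isRightTransversal_rU (hlM : l ∣ M) :
    IsRightTransversal (conjDelta M l) (rU (l := l) M) := by
  constructor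
  · intro g
    obtain ⟨j', h, hh, e⟩ := hM_decomp hlM (g : SL(2, ℤ)) g.2 (0 : ZMod l)
    refine ⟨j', ⟨h, hh⟩, ?_⟩
    apply Subtype.ext
    apply ofSL_injective
    apply MPos.mul_left_cancel' (hM l 0 l_ne_zero)
    show hM l 0 l_ne_zero * ofSL (g : SL(2, ℤ))
      = hM l 0 l_ne_zero * ofSL (((conjDelta M l ⟨h, hh⟩ : Gamma0 M) : SL(2, ℤ))
        * ((rU M j' : Gamma0 M) : SL(2, ℤ)))
    have e0 : hM l (0 : ZMod l).val l_ne_zero = hM l 0 l_ne_zero := by
      rw [ZMod.val_zero]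
    rw [e0] at e
    rw [e, hM_eq (M := M), map_mul, ← mul_assoc, ← mul_assoc, delta_conj]
  · intro x y h e
    refine U_inj x y ⟨(h : SL(2, ℤ)), ?_⟩
    have e1 : ofSL ((rU M x : Gamma0 M) : SL(2, ℤ))
        = ofSL (((conjDelta M l h : Gamma0 M) : SL(2, ℤ)) * ((rU M y : Gamma0 M) : SL(2, ℤ))) :=
      congrArg (fun g : Gamma0 M => ofSL (g : SL(2, ℤ))) e
    rw [hM_eq (M := M), hM_eq (M := M), e1, map_mul, ← mul_assoc, ← mul_assoc, delta_conj]

variable [NeZero M]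

/-- `Frame.heckeU M l = tr₂ ∘ res₁` is `U_l` on periods, for `l ∣ M`. -/
theorem heckeU_periodMap_of_dvd (hlM : l ∣ M) (f : CuspForm (Gamma0 M) 2) :
    Frame.heckeU M l (periodMap M f) = periodMap M (CuspForm.heckeULin 2 hlM f) := by
  refine AddMonoidHom.ext fun a => ?_
  obtain ⟨σ, hσ⟩ := exists_perm_mul_right ofSL (Gamma0 (M * l))
    (fun j : ZMod l => hM l j.val l_ne_zero) (ofSL ((Additive.toMul a : Gamma0 M) : SL(2, ℤ)))
    (ofSL_mul_right_cancel _)
    (fun j => hM_decomp hlM _ (Additive.toMul a).2 j)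
    (fun i i' ⟨h, _, e⟩ => U_inj i i' ⟨h, e⟩)
  choose γ' hγ' hrel using hσ
  have h1 := Frame.tr₂_apply_of_rel M l (rU (l := l) M) (isRightTransversal_rU hlM)
    (Frame.res₁ M l (periodMap M f)) (Additive.toMul a) σ (fun x => ⟨γ' x, hγ' x⟩) (fun x => by
      apply Subtype.ext
      apply ofSL_injective
      apply MPos.mul_left_cancel' (hM l 0 l_ne_zero)
      show hM l 0 l_ne_zero * ofSL (((rU M x : Gamma0 M) : SL(2, ℤ))
          * ((Additive.toMul a : Gamma0 M) : SL(2, ℤ)))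
        = hM l 0 l_ne_zero * ofSL (((conjDelta M l ⟨γ' x, hγ' x⟩ : Gamma0 M) : SL(2, ℤ))
          * ((rU M (σ x) : Gamma0 M) : SL(2, ℤ)))
      rw [map_mul, map_mul, ← mul_assoc, ← mul_assoc, ← hM_eq, delta_conj, mul_assoc, ← hM_eq]
      exact hrel x)
  have h2 := periodMap_sumSlash (N := M) (N' := M) (fun j : ZMod l => hM l j.val l_ne_zero) f
    (CuspForm.heckeULin 2 hlM f)
    (by rw [CuspForm.coe_heckeULin_apply, heckeU_eq_sum_hM])
    (Additive.toMul a) σ (fun x => inclLevel M l ⟨γ' x, hγ' x⟩) hrel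
  exact h1.trans h2.symm

end Fermat.Agent.S41.DegenFrameU
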