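import Fermat.Agent.S41.Frame
import Fermat.Agent.S41.Ihara.Amalgam
import Fermat.Agent.S30.BettiHecke.Occ

/-!
# S41: the saturation property (Sat) from Ihara's amalgam

Let `q` be a prime, `q ∤ N`, and `x₁ x₂ ∈ Hom_par(Γ₀(N), ℤ)` with
`res₁ x₁ + res₂ x₂ ∈ p · Hom(Γ₀(N q), ℤ)`.  Then the reductions of `x₁` and `-x₂` modulo `p` glue
(Ihara's amalgam, `Ihara.exists_unique_hom`) to an additive character `Ψ` of `Γ₀(N)[1/q]` with
values in `ZMod p`, with `Ψ ∘ incl = x̄₁` and `Ψ ∘ inclTw = -x̄₂`.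

`sat_of_eis`: if `ℓ ∤ N` is a prime such that every such `Ψ` (parabolic on `Γ₀(N)`) has both
restrictions `Ψ ∘ incl`, `Ψ ∘ inclTw` killed by `T_ℓ - (ℓ + 1)` (the "Eisenstein" property), then
`(T_ℓ - (ℓ + 1)) x_i ∈ p · Hom_par(Γ₀(N), ℤ)`.  Here `T_ℓ` is `S30.BettiHecke.tHom`.
-/

set_option autoImplicit false

open scoped MatrixGroups
open CongruenceSubgroup ModularCurve ModularCurve.Period
open Fermat.Agent.S41.Ihara Fermat.Agent.S30.BettiHecke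

namespace Fermat.Agent.S41.SatGlue

/-- An integer-valued additive map all of whose values are divisible by `p` is `p` times an
additive map. -/
theorem exists_eq_zsmul {G : Type*} [AddZeroClass G] {p : ℤ} (ψ : G →+ ℤ)
    (h : ∀ g, p ∣ ψ g) : ∃ ψ' : G →+ ℤ, ψ = p • ψ' := by
  refine ⟨{ toFun := fun g => ψ g / p, map_zero' := by simp, map_add' := fun a b => ?_ }, ?_⟩
  · show ψ (a + b) / p = ψ a / p + ψ b / p
    rw [map_add]
    exact Int.add_ediv_of_dvd_left (h a)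
  · refine AddMonoidHom.ext fun g => ?_
    show ψ g = p • (ψ g / p)
    rw [smul_eq_mul, Int.mul_ediv_cancel' (h g)]

/-- A character with values in `ZMod p` which is the reduction of an integral character `ψ`
vanishes iff all values of `ψ` are divisible by `p`. -/
theorem dvd_of_castHom_eq_zero {N p : ℕ} (ψ : Additive (Gamma0 N) →+ ℤ)
    (h : castHom N (ZMod p) ψ = 0) (γ : Additive (Gamma0 N)) : (p : ℤ) ∣ ψ γ := by
  have h1 : castHom N (ZMod p) ψ γ = 0 := by rw [h]; rfl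
  rw [castHom_apply] at h1
  exact (ZMod.intCast_zmod_eq_zero_iff_dvd _ _).mp h1

variable {N q p ℓ : ℕ}

/-- The key step: `T_ℓ - (ℓ + 1)` kills the reduction of `x` modulo `p`, hence
`(T_ℓ - (ℓ + 1)) x ∈ p · Hom_par`. -/
theorem exists_of_tHom_castHom [NeZero N] [NeZero ℓ] (hp : p.Prime) (hℓ : ℓ.Prime)
    (hℓN : ¬ ℓ ∣ N) (x : Additive (Gamma0 N) →+ ℤ) (hx : IsParabolicHom (Gamma0 N) x)
    (h : tHom (ZMod p) hℓ hℓN (castHom N (ZMod p) x) = (ℓ + 1) • castHom N (ZMod p) x) :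
    ∃ x' : Additive (Gamma0 N) →+ ℤ, IsParabolicHom (Gamma0 N) x' ∧
      tHom ℤ hℓ hℓN x - ((ℓ : ℤ) + 1) • x = (p : ℤ) • x' := by
  have hp0 : (p : ℤ) ≠ 0 := by exact_mod_cast hp.ne_zero
  have h0 : castHom N (ZMod p) (tHom ℤ hℓ hℓN x - ((ℓ : ℤ) + 1) • x) = 0 := by
    refine AddMonoidHom.ext fun γ => ?_
    have h1 := congrArg (fun χ : Additive (Gamma0 N) →+ ZMod p => χ γ) h
    simp only [tHom_castHom, castHom_apply, AddMonoidHom.smul_apply] at h1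
    simp only [castHom_apply, AddMonoidHom.sub_apply, AddMonoidHom.smul_apply,
      AddMonoidHom.zero_apply, Int.cast_sub, smul_eq_mul, Int.cast_mul, Int.cast_add,
      Int.cast_natCast, Int.cast_one]
    rw [h1]
    simp [add_mul]
  obtain ⟨x', hx'⟩ := exists_eq_zsmul (tHom ℤ hℓ hℓN x - ((ℓ : ℤ) + 1) • x)
    (dvd_of_castHom_eq_zero _ h0)
  refine ⟨x', ?_, hx'⟩
  intro γ hγ
  have h1 : (tHom ℤ hℓ hℓN x - ((ℓ : ℤ) + 1) • x) (Additive.ofMul γ) = 0 := by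
    have h2 : tHom ℤ hℓ hℓN x ∈ Lam N := tHom_mem_Lam hℓ hℓN hx
    rw [AddMonoidHom.sub_apply, AddMonoidHom.smul_apply, h2 γ hγ, hx γ hγ]
    simp
  rw [hx', AddMonoidHom.smul_apply, smul_eq_mul] at h1
  rcases mul_eq_zero.mp h1 with h3 | h3
  · exact absurd h3 hp0
  · exact h3

/-- **(Sat) from Ihara's amalgam and the Eisenstein property.** -/
theorem sat_of_eis [NeZero N] [NeZero q] [NeZero ℓ] (hq : q.Prime) (hqN : ¬ q ∣ N)
    (hp : p.Prime) (hℓ : ℓ.Prime) (hℓN : ¬ ℓ ∣ N)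
    (hEis : ∀ Ψ : Additive (iharaGroup N q) →+ ZMod p,
      IsParabolicHom (Gamma0 N) (Ψ.comp (MonoidHom.toAdditive (incl N q))) →
      tHom (ZMod p) hℓ hℓN (Ψ.comp (MonoidHom.toAdditive (incl N q))) =
          (ℓ + 1) • Ψ.comp (MonoidHom.toAdditive (incl N q)) ∧
        tHom (ZMod p) hℓ hℓN (Ψ.comp (MonoidHom.toAdditive (inclTw N q))) =
          (ℓ + 1) • Ψ.comp (MonoidHom.toAdditive (inclTw N q)))
    (x₁ x₂ : Additive (Gamma0 N) →+ ℤ) (hx₁ : IsParabolicHom (Gamma0 N) x₁)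
    (hx₂ : IsParabolicHom (Gamma0 N) x₂) (y : Additive (Gamma0 (N * q)) →+ ℤ)
    (h : Frame.res₁ N q x₁ + Frame.res₂ N q x₂ = (p : ℤ) • y) :
    ∃ x₁' x₂' : Additive (Gamma0 N) →+ ℤ,
      IsParabolicHom (Gamma0 N) x₁' ∧ IsParabolicHom (Gamma0 N) x₂' ∧
      tHom ℤ hℓ hℓN x₁ - ((ℓ : ℤ) + 1) • x₁ = (p : ℤ) • x₁' ∧
      tHom ℤ hℓ hℓN x₂ - ((ℓ : ℤ) + 1) • x₂ = (p : ℤ) • x₂' := by
  -- the two reductions
  set φ₁ : Additive (Gamma0 N) →+ ZMod p := castHom N (ZMod p) x₁ with hφ₁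
  set φ₂ : Additive (Gamma0 N) →+ ZMod p := castHom N (ZMod p) x₂ with hφ₂
  -- compatibility on `Γ₀(N q)`
  have hcompat : ∀ γ : Gamma0 (N * q),
      AddMonoidHom.toMultiplicativeRight φ₁ (inclLevel N q γ) =
        AddMonoidHom.toMultiplicativeRight (-φ₂) (conjDelta N q γ) := by
    intro γ
    have h1 := congrArg (fun χ : Additive (Gamma0 (N * q)) →+ ℤ => χ (Additive.ofMul γ)) h
    simp only [AddMonoidHom.add_apply, Frame.res₁_apply, Frame.res₂_apply,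
      AddMonoidHom.smul_apply, smul_eq_mul] at h1
    have h2 : φ₁ (Additive.ofMul (inclLevel N q γ)) = -φ₂ (Additive.ofMul (conjDelta N q γ)) := by
      rw [hφ₁, hφ₂, castHom_apply, castHom_apply, eq_neg_iff_add_eq_zero, ← Int.cast_add, h1]
      simp
    show Multiplicative.ofAdd (φ₁ (Additive.ofMul (inclLevel N q γ))) =
      Multiplicative.ofAdd ((-φ₂) (Additive.ofMul (conjDelta N q γ)))
    rw [h2]
    rfl
  obtain ⟨Φ, ⟨hΦ₁, hΦ₂⟩, -⟩ := exists_unique_hom hq hqN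
    (AddMonoidHom.toMultiplicativeRight φ₁) (AddMonoidHom.toMultiplicativeRight (-φ₂)) hcompat
  set Ψ : Additive (iharaGroup N q) →+ ZMod p := MonoidHom.toAdditiveLeft Φ with hΨ
  have hΨ₁ : Ψ.comp (MonoidHom.toAdditive (incl N q)) = φ₁ := by
    refine AddMonoidHom.ext fun γ => ?_
    have h1 := congrArg (fun χ : Gamma0 N →* Multiplicative (ZMod p) => χ (Additive.toMul γ)) hΦ₁
    exact congrArg Multiplicative.toAdd h1
  have hΨ₂ : Ψ.comp (MonoidHom.toAdditive (inclTw N q)) = -φ₂ := by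
    refine AddMonoidHom.ext fun γ => ?_
    have h1 := congrArg (fun χ : Gamma0 N →* Multiplicative (ZMod p) => χ (Additive.toMul γ)) hΦ₂
    exact congrArg Multiplicative.toAdd h1
  have hpar : IsParabolicHom (Gamma0 N) (Ψ.comp (MonoidHom.toAdditive (incl N q))) := by
    rw [hΨ₁]
    exact castHom_isParabolic (ZMod p) hx₁
  obtain ⟨hE₁, hE₂⟩ := hEis Ψ hpar
  rw [hΨ₁] at hE₁
  rw [hΨ₂] at hE₂
  have hE₂' : tHom (ZMod p) hℓ hℓN φ₂ = (ℓ + 1) • φ₂ := by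
    rw [map_neg, smul_neg, neg_inj] at hE₂
    exact hE₂
  obtain ⟨x₁', hx₁', e₁⟩ := exists_of_tHom_castHom hp hℓ hℓN x₁ hx₁ hE₁
  obtain ⟨x₂', hx₂', e₂⟩ := exists_of_tHom_castHom hp hℓ hℓN x₂ hx₂ hE₂'
  exact ⟨x₁', x₂', hx₁', hx₂', e₁, e₂⟩

/-- **(Sat) from Ihara's amalgam and the Eisenstein property**, with the Eisenstein property
stated for multiplicative characters `Φ : Γ₀(N)[1/q] →* Multiplicative (ZMod p)`. -/
theorem sat_of_eis_mul [NeZero N] [NeZero q] [NeZero ℓ] (hq : q.Prime) (hqN : ¬ q ∣ N)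
    (hp : p.Prime) (hℓ : ℓ.Prime) (hℓN : ¬ ℓ ∣ N)
    (hEis : ∀ Φ : iharaGroup N q →* Multiplicative (ZMod p),
      (∀ γ : Gamma0 N, ((γ : SL(2, ℤ)) : Matrix (Fin 2) (Fin 2) ℤ).trace ^ 2 = 4 →
        Φ (incl N q γ) = 1) →
      tHom (ZMod p) hℓ hℓN (MonoidHom.toAdditiveLeft (Φ.comp (incl N q))) =
          (ℓ + 1) • MonoidHom.toAdditiveLeft (Φ.comp (incl N q)) ∧
        tHom (ZMod p) hℓ hℓN (MonoidHom.toAdditiveLeft (Φ.comp (inclTw N q))) =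
          (ℓ + 1) • MonoidHom.toAdditiveLeft (Φ.comp (inclTw N q)))
    (x₁ x₂ : Additive (Gamma0 N) →+ ℤ) (hx₁ : IsParabolicHom (Gamma0 N) x₁)
    (hx₂ : IsParabolicHom (Gamma0 N) x₂) (y : Additive (Gamma0 (N * q)) →+ ℤ)
    (h : Frame.res₁ N q x₁ + Frame.res₂ N q x₂ = (p : ℤ) • y) :
    ∃ x₁' x₂' : Additive (Gamma0 N) →+ ℤ,
      IsParabolicHom (Gamma0 N) x₁' ∧ IsParabolicHom (Gamma0 N) x₂' ∧
      tHom ℤ hℓ hℓN x₁ - ((ℓ : ℤ) + 1) • x₁ = (p : ℤ) • x₁' ∧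
      tHom ℤ hℓ hℓN x₂ - ((ℓ : ℤ) + 1) • x₂ = (p : ℤ) • x₂' := by
  refine sat_of_eis hq hqN hp hℓ hℓN ?_ x₁ x₂ hx₁ hx₂ y h
  intro Ψ hΨ
  exact hEis (AddMonoidHom.toMultiplicativeRight Ψ)
    (fun γ hγ => congrArg Multiplicative.ofAdd (hΨ γ hγ))

end Fermat.Agent.S41.SatGlue
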