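import Fermat.Agent.S41.EisMain
import Fermat.Agent.S41.Ihara.Symbol
import Fermat.Agent.S41.SatGlue

/-!
# S41: (Sat) at one Kummer prime — junction of the orbit lemma with `SatGlue`

* `hEis`: the hypothesis `hEis` of `SatGlue.sat_of_eis_mul`, literally, for every prime `l ∤ N`,
  `l ≠ q`, `l ≡ 1 mod eisModulus N q p`, `q ^ ((l - 1) / p) ≠ 1` in `ZMod l`
  (`EisMain.tHom_eq_succ_smul` for `Φ` and for `Φ ∘ twistI`, `Unip.map_eq_one_of_upper`);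
* `sat`: the resulting saturation statement: if `res₁ x₁ + res₂ x₂ = p • y` for parabolic
  `x₁, x₂ : Γ₀(N) → ℤ`, then `T_l x_i - (l + 1) x_i ∈ p • H¹_par(Γ₀(N), ℤ)`.
-/

set_option autoImplicit false

open scoped MatrixGroups
open CongruenceSubgroup Matrix.SpecialLinearGroup ModularCurve ModularCurve.Period
open Fermat.Agent.S30.BettiHecke Fermat.Agent.S41.Ihara Fermat.Agent.S41.EisGen

namespace Fermat.Agent.S41.EisSat

/-- The Eisenstein property of the characters of `Γ₀(N)[1/q]` at a Kummer prime `l`, in the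
literal shape of the hypothesis `hEis` of `SatGlue.sat_of_eis_mul`. -/
theorem hEis {N q p l : ℕ} [NeZero N] [NeZero q] [NeZero l] (hp : p.Prime) (hp2 : p ≠ 2)
    (hq : q.Prime) (hqN : ¬ q ∣ N) (hl : l.Prime) (hlN : ¬ l ∣ N) (hlq : l ≠ q)
    (hlM : l ≡ 1 [MOD eisModulus N q p]) (hkum : (q : ZMod l) ^ ((l - 1) / p) ≠ 1)
    (Φ : iharaGroup N q →* Multiplicative (ZMod p))
    (hΦ : ∀ γ : Gamma0 N, ((γ : SL(2, ℤ)) : Matrix (Fin 2) (Fin 2) ℤ).trace ^ 2 = 4 →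
      Φ (incl N q γ) = 1) :
    tHom (ZMod p) hl hlN (MonoidHom.toAdditiveLeft (Φ.comp (incl N q))) =
        (l + 1) • MonoidHom.toAdditiveLeft (Φ.comp (incl N q)) ∧
      tHom (ZMod p) hl hlN (MonoidHom.toAdditiveLeft (Φ.comp (inclTw N q))) =
        (l + 1) • MonoidHom.toAdditiveLeft (Φ.comp (inclTw N q)) := by
  have hcop : Nat.Coprime q N := (Nat.Prime.coprime_iff_not_dvd hq).mpr hqN
  have hU : Symbol.KillsUpper Φ := fun g x hg =>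
    Unip.map_eq_one_of_upper hq.ne_zero hcop Φ hΦ g x hg
  refine ⟨?_, ?_⟩
  · exact EisMain.tHom_eq_succ_smul hp hp2 hq hqN hl hlN hlq hlM hkum Φ hU _ (fun γ => rfl)
  · exact EisMain.tHom_eq_succ_smul hp hp2 hq hqN hl hlN hlq hlM hkum (Φ.comp (Symbol.twistI N q))
      (Symbol.KillsUpper.comp_twistI hU) _
      (fun γ => by
        rw [MonoidHom.comp_apply, Symbol.twistI_incl]
        rfl)

/-- **(Sat) at one Kummer prime.**  Let `p` be an odd prime, `q ∤ N` a prime, and `l ∤ N`,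
`l ≠ q` a prime with `l ≡ 1 mod eisModulus N q p` and `q ^ ((l - 1) / p) ≠ 1` in `ZMod l`.
If `x₁, x₂` are parabolic characters `Γ₀(N) → ℤ` with `res₁ x₁ + res₂ x₂ ∈ p • Hom(Γ₀(N q), ℤ)`,
then `T_l x_i - (l + 1) x_i ∈ p • H¹_par(Γ₀(N), ℤ)`. -/
theorem sat {N q p l : ℕ} [NeZero N] [NeZero q] [NeZero l] (hp : p.Prime) (hp2 : p ≠ 2)
    (hq : q.Prime) (hqN : ¬ q ∣ N) (hl : l.Prime) (hlN : ¬ l ∣ N) (hlq : l ≠ q)
    (hlM : l ≡ 1 [MOD eisModulus N q p]) (hkum : (q : ZMod l) ^ ((l - 1) / p) ≠ 1)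
    (x₁ x₂ : Additive (Gamma0 N) →+ ℤ) (hx₁ : IsParabolicHom (Gamma0 N) x₁)
    (hx₂ : IsParabolicHom (Gamma0 N) x₂) (y : Additive (Gamma0 (N * q)) →+ ℤ)
    (h : Frame.res₁ N q x₁ + Frame.res₂ N q x₂ = (p : ℤ) • y) :
    ∃ x₁' x₂' : Additive (Gamma0 N) →+ ℤ,
      IsParabolicHom (Gamma0 N) x₁' ∧ IsParabolicHom (Gamma0 N) x₂' ∧
      tHom ℤ hl hlN x₁ - ((l : ℤ) + 1) • x₁ = (p : ℤ) • x₁' ∧
      tHom ℤ hl hlN x₂ - ((l : ℤ) + 1) • x₂ = (p : ℤ) • x₂' :=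
  SatGlue.sat_of_eis_mul hq hqN hp hl hlN
    (fun Φ hΦ => hEis hp hp2 hq hqN hl hlN hlq hlM hkum Φ hΦ) x₁ x₂ hx₁ hx₂ y h

end Fermat.Agent.S41.EisSat
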