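import Mathlib

/-!
# S41, orbit lemma brick: the orbit sum

* `prod_eq_one_of_shift` : if `f (u * z) = f z * D` on a finite commutative group `G`, the values
  lie in a commutative group of odd exponent `p` and `p ∣ orderOf u`, then `∏ z, f z = 1`.
-/

set_option autoImplicit false

namespace Fermat.Agent.S41.EisSym

section OrbitSum

variable {K : Type*} [CommGroup K] {G : Type*} [CommGroup G]

theorem shift_pow (u : G) (f : G → K) (D : K) (hf : ∀ z, f (u * z) = f z * D) (z : G) (i : ℕ) :
    f (z * u ^ i) = f z * D ^ i := by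
  induction i with
  | zero => simp
  | succ i ih =>
    have e : z * u ^ (i + 1) = u * (z * u ^ i) := by rw [pow_succ]; ac_rfl
    rw [e, hf, ih, pow_succ, mul_assoc]

theorem dvd_sum_range_id {p m : ℕ} (hp : Odd p) (hm : p ∣ m) : p ∣ ∑ i ∈ Finset.range m, i := by
  rw [Finset.sum_range_id]
  have h2 : 2 ∣ m * (m - 1) := (Nat.even_mul_pred_self m).two_dvd
  have hpm : p ∣ m * (m - 1) := Dvd.dvd.mul_right hm _
  have hcop : Nat.Coprime 2 p := (Nat.coprime_two_left).mpr hp
  have h2p : 2 * p ∣ m * (m - 1) := hcop.mul_dvd_of_dvd_of_dvd h2 hpm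
  exact Nat.dvd_div_of_mul_dvd h2p

theorem pow_eq_one_of_dvd {p : ℕ} (hK : ∀ x : K, x ^ p = 1) (x : K) {n : ℕ} (hn : p ∣ n) :
    x ^ n = 1 := by
  obtain ⟨t, rfl⟩ := hn
  rw [pow_mul, hK, one_pow]

/-- The product of `f` along one `⟨u⟩`-orbit is trivial. -/
theorem prod_zpowers_eq_one {p : ℕ} (hp : Odd p) (hK : ∀ x : K, x ^ p = 1)
    (u : G) (hfin : IsOfFinOrder u) (hu : p ∣ orderOf u) (f : G → K) (D : K)
    (hf : ∀ z, f (u * z) = f z * D) (z : G) [Fintype (Subgroup.zpowers u)] :
    ∏ h : Subgroup.zpowers u, f (z * (h : G)) = 1 := by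
  rw [← Equiv.prod_comp (finEquivZPowers hfin) (fun h : Subgroup.zpowers u => f (z * (h : G)))]
  have e : ∀ i : Fin (orderOf u), f (z * ((finEquivZPowers hfin i : Subgroup.zpowers u) : G))
      = f z * D ^ (i : ℕ) := by
    intro i
    rw [finEquivZPowers_apply]
    exact shift_pow u f D hf z i
  rw [Finset.prod_congr rfl (fun i _ => e i),
    Fin.prod_univ_eq_prod_range (fun i => f z * D ^ i) (orderOf u),
    Finset.prod_mul_distrib, Finset.prod_const, Finset.card_range,
    Finset.prod_pow_eq_pow_sum, pow_eq_one_of_dvd hK _ hu,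
    pow_eq_one_of_dvd hK _ (dvd_sum_range_id hp hu), mul_one]

/-- **Orbit sum.**  If `f (u * z) = f z * D` for all `z` in a finite commutative group, the values
of `f` lie in a commutative group of odd exponent `p`, and `p ∣ orderOf u`, then the product of
all values of `f` is trivial. -/
theorem prod_eq_one_of_shift [Fintype G] {p : ℕ} (hp : Odd p) (hK : ∀ x : K, x ^ p = 1)
    (u : G) (hu : p ∣ orderOf u) (f : G → K) (D : K) (hf : ∀ z, f (u * z) = f z * D) :
    ∏ z, f z = 1 := by
  classical
  have hfin : IsOfFinOrder u := isOfFinOrder_of_finite u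
  let H : Subgroup G := Subgroup.zpowers u
  let e : (G ⧸ H) × H ≃ G :=
    { toFun := fun x => Quotient.out x.1 * (x.2 : G)
      invFun := fun z => ((z : G ⧸ H), ⟨(Quotient.out (z : G ⧸ H))⁻¹ * z,
        QuotientGroup.eq.mp (QuotientGroup.out_eq' (z : G ⧸ H))⟩)
      left_inv := by
        rintro ⟨c, h⟩
        have hc : ((Quotient.out c * (h : G) : G) : G ⧸ H) = c := by
          rw [QuotientGroup.mk_mul_of_mem _ h.2]
          exact QuotientGroup.out_eq' c
        refine Prod.ext hc (Subtype.ext ?_)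
        change (Quotient.out ((Quotient.out c * (h : G) : G) : G ⧸ H))⁻¹ *
          (Quotient.out c * (h : G)) = (h : G)
        rw [hc, inv_mul_cancel_left]
      right_inv := by
        intro z
        change Quotient.out (z : G ⧸ H) * ((Quotient.out (z : G ⧸ H))⁻¹ * z) = z
        rw [mul_inv_cancel_left] }
  have h1 : ∏ z, f z = ∏ x : (G ⧸ H) × H, f (e x) := (Equiv.prod_comp e f).symm
  rw [h1, Fintype.prod_prod_type]
  refine Finset.prod_eq_one fun c _ => ?_
  exact prod_zpowers_eq_one hp hK u hfin hu f D hf (Quotient.out c)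

end OrbitSum

end Fermat.Agent.S41.EisSym
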