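import Mathlib
import Fermat.Prelude.Def_FLTPrelim_Modularity
import Fermat.Prelude.Def_FreyPackage_LevelRaising
import Fermat.Prelude.Def_CuspForm_HeckeAlgebra
import Fermat.Agent.S22
import Fermat.Agent.S23.FinDim
import Fermat.Agent.S49.Eigenvector
import Fermat.Agent.S49.PartCHecke
import Fermat.Agent.S49.LyingOver

/-!
# S41, final step (route independent): from a Hecke module to a `q'`-new eigenform

`M` is the raised level (`M = N * q'` in S41), `𝕋 = CuspForm.heckeAlgebra M 2 ∅` the full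
weight-2 Hecke algebra of level `M` (generated over `ℤ` by all `T_ℓ`, `ℓ ∤ M`, and `U_ℓ`, `ℓ ∣ M`).

* `exists_newform_of_ideal` (core): if `J` is a `ℤ`-saturated ideal of `𝕋` containing
  `U_{q'} ^ 2 - 1`, and `𝔐 ⊇ J` is a maximal ideal containing `p` and `T_ℓ - a_ℓ(W)` for the
  primes `ℓ ∤ M`, `ℓ ≠ p`, good for `W`, then there are a normalized eigenform `g` of level `M`
  with `a_{q'}(g) ^ 2 = 1` and a maximal ideal `𝔪' ∋ p` of `ℤ̄` with `a_ℓ(g) ≡ a_ℓ(W) mod 𝔪'`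
  for all those `ℓ`: the conclusion of S41.
* `exists_newform_of_subgroup`: the same from a `𝕋`-action `ρ` on an abelian group `L'`, a
  `ρ`-stable saturated subgroup `K` with `(ρ(U_{q'}) ^ 2 - 1) L' ⊆ K`, and a nonzero additive map
  `Φ : L' →+ V` killing `K` with `Φ ∘ ρ(T_ℓ) = a_ℓ(W) • Φ`, `Φ ∘ p = 0`.
* `exists_newform_of_module`: the case `K = 0`.

Proof of the core: take a minimal prime `𝔭 ≤ 𝔐` of `J`; nonzero integers are not in `𝔭`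
(saturation).  An eigencharacter `ψ : 𝕋 → ℂ` with `ker ψ ≤ 𝔭` (S49) has `U ^ 2 - 1 ∈ ker ψ` by
incomparability, so `ψ(U_{q'}) ^ 2 = 1`; its eigenvector gives the eigenform and `𝔪'` is a
maximal ideal of `ℤ̄` over `𝔐` (S49).
-/

set_option autoImplicit false

open CongruenceSubgroup

namespace Fermat.Agent.S41.Final

variable {M : ℕ} [NeZero M]

/-- **Core of the final step of S41** (ideal form). -/
theorem exists_newform_of_ideal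
    {W : WeierstrassCurve ℤ} {p q' : ℕ} (hq' : q'.Prime) (hq'M : q' ∣ M)
    (J : Ideal (CuspForm.heckeAlgebra M 2 ∅))
    (hJsat : ∀ (n : ℤ) (t : CuspForm.heckeAlgebra M 2 ∅), n ≠ 0 →
      ((n : ℤ) : CuspForm.heckeAlgebra M 2 ∅) * t ∈ J → t ∈ J)
    (hUJ : (CuspForm.heckeAlgebra.U hq' hq'M (Set.notMem_empty q')) ^ 2 - 1 ∈ J)
    (𝔐 : Ideal (CuspForm.heckeAlgebra M 2 ∅)) (h𝔐 : 𝔐.IsMaximal) (hJ𝔐 : J ≤ 𝔐)
    (hp𝔐 : ((p : ℤ) : CuspForm.heckeAlgebra M 2 ∅) ∈ 𝔐)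
    (hT𝔐 : ∀ (ℓ : ℕ) (hℓ : ℓ.Prime) (hℓM : ¬ ℓ ∣ M), W.IsGoodPrimeFor ℓ → ℓ ≠ p →
      CuspForm.heckeAlgebra.T hℓ hℓM (Set.notMem_empty ℓ) -
        ((W.apOfModel ℓ : ℤ) : CuspForm.heckeAlgebra M 2 ∅) ∈ 𝔐) :
    ∃ (g : CuspForm (CongruenceSubgroup.Gamma0 M) 2) (𝔪' : Ideal (integralClosure ℤ ℂ)),
      g.IsNormalizedEigenform ∧ 𝔪'.IsMaximal ∧ (p : integralClosure ℤ ℂ) ∈ 𝔪' ∧
      (∀ ℓ : ℕ, ℓ.Prime → W.IsGoodPrimeFor ℓ → ¬ ℓ ∣ M → ℓ ≠ p →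
        ∃ a : integralClosure ℤ ℂ, (a : ℂ) = ModularFormClass.qCoeff g ℓ ∧
          a - ((W.apOfModel ℓ : ℤ) : integralClosure ℤ ℂ) ∈ 𝔪') ∧
      g.IsNewAt q' := by
  classical
  have := h𝔐
  obtain ⟨𝔭, h𝔭min, h𝔭𝔐⟩ := Ideal.exists_minimalPrimes_le hJ𝔐
  have h𝔭prime : 𝔭.IsPrime := h𝔭min.1.1
  -- nonzero integers are not in `𝔭`
  have hint𝔭 : ∀ n : ℤ, ((n : ℤ) : CuspForm.heckeAlgebra M 2 ∅) ∈ 𝔭 → n = 0 := by
    intro n hn
    by_contra hn0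
    obtain ⟨y, hy, hxy⟩ := Ideal.exists_mul_mem_of_mem_minimalPrimes h𝔭min hn
    exact hy (hJsat n y hn0 hxy)
  have hU𝔭 : (CuspForm.heckeAlgebra.U hq' hq'M (Set.notMem_empty q')) ^ 2 - 1 ∈ 𝔭 :=
    h𝔭min.1.2 hUJ
  -- nontriviality and finite-dimensionality of the space of cusp forms
  have : FiniteDimensional ℂ (CuspForm (Gamma0 M) 2) :=
    Fermat.Agent.S23.FinDim.finiteDimensional_cuspForm M 2
  have : Nontrivial (CuspForm (Gamma0 M) 2) := by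
    by_contra hnt
    rw [not_nontrivial_iff_subsingleton] at hnt
    apply h𝔭prime.ne_top
    rw [Ideal.eq_top_iff_one]
    have : (1 : CuspForm.heckeAlgebra M 2 ∅) = 0 := by
      apply Subtype.ext
      exact LinearMap.ext fun f => Subsingleton.elim _ _
    rw [this]
    exact 𝔭.zero_mem
  obtain ⟨ψ, v, hv, hψ, hker⟩ :=
    Fermat.Agent.S49.PartCHecke.exists_eigen_character_hecke (N := M) 2 ∅ 𝔭
  -- integrality
  have hfin : Module.Finite ℤ (CuspForm.heckeAlgebra M 2 ∅) := Fermat.Agent.S22.result M 2 ∅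
  have hintegral : ∀ t : CuspForm.heckeAlgebra M 2 ∅, IsIntegral ℤ t :=
    fun t => (Algebra.IsIntegral.of_finite ℤ (CuspForm.heckeAlgebra M 2 ∅)).isIntegral t
  -- `U ^ 2 - 1 ∈ ker ψ` by incomparability
  have hUψ : ψ (CuspForm.heckeAlgebra.U hq' hq'M (Set.notMem_empty q')) ^ 2 = 1 := by
    by_contra hne
    have hx : (CuspForm.heckeAlgebra.U hq' hq'M (Set.notMem_empty q')) ^ 2 - 1 ∉ RingHom.ker ψ := by
      intro h
      rw [RingHom.mem_ker, map_sub, map_pow, map_one, sub_eq_zero] at h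
      exact hne h
    have : (RingHom.ker ψ).IsPrime := RingHom.ker_isPrime ψ
    have hlt := Ideal.comap_lt_comap_of_integral_mem_sdiff (R := ℤ) hker
      (show _ ∈ ((𝔭 : Set (CuspForm.heckeAlgebra M 2 ∅)) \ (RingHom.ker ψ : Set _)) from ⟨hU𝔭, hx⟩)
      (hintegral _)
    have hbot : 𝔭.comap (algebraMap ℤ (CuspForm.heckeAlgebra M 2 ∅)) = ⊥ := by
      rw [eq_bot_iff]
      intro n hn
      rw [Ideal.mem_comap, eq_intCast] at hn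
      exact hint𝔭 n hn
    rw [hbot] at hlt
    exact not_lt_bot hlt
  -- the eigenvalue function
  let c : ℕ → ℂ := fun ℓ =>
    if hℓ : ℓ.Prime then
      (if hℓM : ℓ ∣ M then ψ (CuspForm.heckeAlgebra.U hℓ hℓM (Set.notMem_empty ℓ))
        else ψ (CuspForm.heckeAlgebra.T hℓ hℓM (Set.notMem_empty ℓ)))
    else 0
  have hcT : ∀ (ℓ : ℕ) (hℓ : ℓ.Prime) (hℓM : ¬ ℓ ∣ M),
      c ℓ = ψ (CuspForm.heckeAlgebra.T hℓ hℓM (Set.notMem_empty ℓ)) := by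
    intro ℓ hℓ hℓM
    simp only [c, dif_pos hℓ, dif_neg hℓM]
  have hcU : ∀ (ℓ : ℕ) (hℓ : ℓ.Prime) (hℓM : ℓ ∣ M),
      c ℓ = ψ (CuspForm.heckeAlgebra.U hℓ hℓM (Set.notMem_empty ℓ)) := by
    intro ℓ hℓ hℓM
    simp only [c, dif_pos hℓ, dif_pos hℓM]
  obtain ⟨g, hg, hgc⟩ := Fermat.Agent.S49.Eigenvector.exists_normalized_eigenform v hv c
    (fun ℓ hℓ hℓM => by
      rw [hcT ℓ hℓ hℓM, ← hψ, CuspForm.heckeAlgebra.coe_T])
    (fun ℓ hℓ hℓM => by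
      rw [hcU ℓ hℓ hℓM, ← hψ, CuspForm.heckeAlgebra.coe_U])
  obtain ⟨ψ', 𝔪', h𝔪', hψ', hψ'𝔐⟩ := Fermat.Agent.S49.exists_maximal_over ψ
    (fun t => map_isIntegral_int ψ (hintegral t)) 𝔐 (hker.trans h𝔭𝔐)
  refine ⟨g, 𝔪', hg, h𝔪', ?_, ?_, ?_⟩
  · have := hψ'𝔐 _ hp𝔐
    rw [map_intCast] at this
    exact_mod_cast this
  · intro ℓ hℓ hgood hℓM hℓp
    refine ⟨ψ' (CuspForm.heckeAlgebra.T hℓ hℓM (Set.notMem_empty ℓ)), ?_, ?_⟩
    · rw [hψ', hgc ℓ hℓ, hcT ℓ hℓ hℓM]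
    · have := hψ'𝔐 _ (hT𝔐 ℓ hℓ hℓM hgood hℓp)
      rwa [map_sub, map_intCast] at this
  · show ModularFormClass.qCoeff g q' ^ 2 = 1
    rw [hgc q' hq', hcU q' hq' hq'M, hUψ]

/-- The ideal of Hecke operators `t` with `Φ ∘ ρ(t) = 0`. -/
def killIdeal {Y V : Type*} [AddCommGroup Y] [AddCommGroup V]
    (ρ : CuspForm.heckeAlgebra M 2 ∅ →+* Module.End ℤ Y) (Φ : Y →+ V) :
    Ideal (CuspForm.heckeAlgebra M 2 ∅) where
  carrier := {t | ∀ y, Φ (ρ t y) = 0}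
  add_mem' := by
    intro s t hs ht y
    rw [map_add, LinearMap.add_apply, map_add, hs y, ht y, add_zero]
  zero_mem' := by
    intro y
    rw [map_zero, LinearMap.zero_apply, map_zero]
  smul_mem' := by
    intro s t ht y
    have e : s • t = t * s := by rw [smul_eq_mul, mul_comm]
    rw [e, map_mul, Module.End.mul_apply]
    exact ht _

theorem mem_killIdeal {Y V : Type*} [AddCommGroup Y] [AddCommGroup V]
    (ρ : CuspForm.heckeAlgebra M 2 ∅ →+* Module.End ℤ Y) (Φ : Y →+ V)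
    (t : CuspForm.heckeAlgebra M 2 ∅) : t ∈ killIdeal ρ Φ ↔ ∀ y, Φ (ρ t y) = 0 := Iff.rfl

theorem killIdeal_ne_top {Y V : Type*} [AddCommGroup Y] [AddCommGroup V]
    (ρ : CuspForm.heckeAlgebra M 2 ∅ →+* Module.End ℤ Y) (Φ : Y →+ V) (hΦ : Φ ≠ 0) :
    killIdeal ρ Φ ≠ ⊤ := by
  intro h
  apply hΦ
  have h1 : (1 : CuspForm.heckeAlgebra M 2 ∅) ∈ killIdeal ρ Φ := by rw [h]; trivial
  ext y
  have := h1 y
  rwa [map_one, Module.End.one_apply] at this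

/-- The ideal of Hecke operators `t` with `ρ(t) L' ⊆ K`, for a `ρ`-stable subgroup `K`. -/
def mapsIntoIdeal {Y : Type*} [AddCommGroup Y]
    (ρ : CuspForm.heckeAlgebra M 2 ∅ →+* Module.End ℤ Y) (K : AddSubgroup Y)
    (hK : ∀ (t : CuspForm.heckeAlgebra M 2 ∅), ∀ y ∈ K, ρ t y ∈ K) :
    Ideal (CuspForm.heckeAlgebra M 2 ∅) where
  carrier := {t | ∀ y, ρ t y ∈ K}
  add_mem' := by
    intro s t hs ht y
    rw [map_add, LinearMap.add_apply]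
    exact K.add_mem (hs y) (ht y)
  zero_mem' := by
    intro y
    rw [map_zero, LinearMap.zero_apply]
    exact K.zero_mem
  smul_mem' := by
    intro s t ht y
    rw [smul_eq_mul, map_mul, Module.End.mul_apply]
    exact hK s _ (ht y)

theorem mem_mapsIntoIdeal {Y : Type*} [AddCommGroup Y]
    (ρ : CuspForm.heckeAlgebra M 2 ∅ →+* Module.End ℤ Y) (K : AddSubgroup Y)
    (hK : ∀ (t : CuspForm.heckeAlgebra M 2 ∅), ∀ y ∈ K, ρ t y ∈ K)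
    (t : CuspForm.heckeAlgebra M 2 ∅) : t ∈ mapsIntoIdeal ρ K hK ↔ ∀ y, ρ t y ∈ K := Iff.rfl

theorem rho_intCast_apply {Y : Type*} [AddCommGroup Y]
    (ρ : CuspForm.heckeAlgebra M 2 ∅ →+* Module.End ℤ Y) (n : ℤ) (y : Y) :
    ρ ((n : ℤ) : CuspForm.heckeAlgebra M 2 ∅) y = n • y := by
  have e1 : ((n : ℤ) : Module.End ℤ Y) = n • (1 : Module.End ℤ Y) := by simp
  rw [map_intCast, e1, LinearMap.smul_apply, Module.End.one_apply]

/-- **Final step of S41** (subgroup form): `L'` an abelian group with an action `ρ` of the Hecke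
algebra of level `M`, `K` a `ρ`-stable saturated subgroup with `(ρ(U_{q'}) ^ 2 - 1) L' ⊆ K`,
`Φ : L' →+ V` a nonzero additive map killing `K` with `Φ ∘ ρ(T_ℓ) = a_ℓ(W) • Φ` and `Φ ∘ p = 0`. -/
theorem exists_newform_of_subgroup
    {W : WeierstrassCurve ℤ} {p q' : ℕ} (hq' : q'.Prime) (hq'M : q' ∣ M)
    {Y : Type*} [AddCommGroup Y]
    (ρ : CuspForm.heckeAlgebra M 2 ∅ →+* Module.End ℤ Y)
    (K : AddSubgroup Y)
    (hK : ∀ (t : CuspForm.heckeAlgebra M 2 ∅), ∀ y ∈ K, ρ t y ∈ K)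
    (hKsat : ∀ (n : ℤ) (y : Y), n ≠ 0 → n • y ∈ K → y ∈ K)
    (hU : ∀ y, ρ (CuspForm.heckeAlgebra.U hq' hq'M (Set.notMem_empty q'))
      (ρ (CuspForm.heckeAlgebra.U hq' hq'M (Set.notMem_empty q')) y) - y ∈ K)
    {V : Type*} [AddCommGroup V] (Φ : Y →+ V) (hΦ : Φ ≠ 0)
    (hΦK : ∀ y ∈ K, Φ y = 0)
    (hp : ∀ y, Φ ((p : ℤ) • y) = 0)
    (hT : ∀ (ℓ : ℕ) (hℓ : ℓ.Prime) (hℓM : ¬ ℓ ∣ M), W.IsGoodPrimeFor ℓ → ℓ ≠ p →
      ∀ y, Φ (ρ (CuspForm.heckeAlgebra.T hℓ hℓM (Set.notMem_empty ℓ)) y) =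
        (W.apOfModel ℓ) • Φ y) :
    ∃ (g : CuspForm (CongruenceSubgroup.Gamma0 M) 2) (𝔪' : Ideal (integralClosure ℤ ℂ)),
      g.IsNormalizedEigenform ∧ 𝔪'.IsMaximal ∧ (p : integralClosure ℤ ℂ) ∈ 𝔪' ∧
      (∀ ℓ : ℕ, ℓ.Prime → W.IsGoodPrimeFor ℓ → ¬ ℓ ∣ M → ℓ ≠ p →
        ∃ a : integralClosure ℤ ℂ, (a : ℂ) = ModularFormClass.qCoeff g ℓ ∧
          a - ((W.apOfModel ℓ : ℤ) : integralClosure ℤ ℂ) ∈ 𝔪') ∧
      g.IsNewAt q' := by
  obtain ⟨𝔐, h𝔐, hI𝔐⟩ := Ideal.exists_le_maximal _ (killIdeal_ne_top ρ Φ hΦ)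
  refine exists_newform_of_ideal hq' hq'M (mapsIntoIdeal ρ K hK) ?_ ?_ 𝔐 h𝔐 ?_ ?_ ?_
  · intro n t hn hnt y
    have h1 := hnt y
    rw [map_mul, Module.End.mul_apply, rho_intCast_apply] at h1
    exact hKsat n _ hn h1
  · intro y
    rw [map_sub, map_pow, map_one, LinearMap.sub_apply, Module.End.one_apply, pow_two,
      Module.End.mul_apply]
    exact hU y
  · intro t ht
    apply hI𝔐
    intro y
    exact hΦK _ (ht y)
  · apply hI𝔐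
    intro y
    rw [rho_intCast_apply]
    exact hp y
  · intro ℓ hℓ hℓM hgood hℓp
    apply hI𝔐
    intro y
    rw [map_sub, LinearMap.sub_apply, map_sub, hT ℓ hℓ hℓM hgood hℓp y, rho_intCast_apply,
      map_zsmul, sub_self]

/-- **Final step of S41** (module form): `Y` a torsion-free abelian group with an action `ρ` of
the Hecke algebra of level `M` on which `U_{q'} ^ 2 = 1`, and `Φ : Y →+ V` a nonzero additive map
with `Φ ∘ ρ(T_ℓ) = a_ℓ(W) • Φ` and `Φ ∘ p = 0`. -/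
theorem exists_newform_of_module
    {W : WeierstrassCurve ℤ} {p q' : ℕ} (hq' : q'.Prime) (hq'M : q' ∣ M)
    {Y : Type*} [AddCommGroup Y] [IsAddTorsionFree Y]
    (ρ : CuspForm.heckeAlgebra M 2 ∅ →+* Module.End ℤ Y)
    (hU : ρ (CuspForm.heckeAlgebra.U hq' hq'M (Set.notMem_empty q')) ^ 2 = 1)
    {V : Type*} [AddCommGroup V] (Φ : Y →+ V) (hΦ : Φ ≠ 0)
    (hp : ∀ y, Φ ((p : ℤ) • y) = 0)
    (hT : ∀ (ℓ : ℕ) (hℓ : ℓ.Prime) (hℓM : ¬ ℓ ∣ M), W.IsGoodPrimeFor ℓ → ℓ ≠ p →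
      ∀ y, Φ (ρ (CuspForm.heckeAlgebra.T hℓ hℓM (Set.notMem_empty ℓ)) y) =
        (W.apOfModel ℓ) • Φ y) :
    ∃ (g : CuspForm (CongruenceSubgroup.Gamma0 M) 2) (𝔪' : Ideal (integralClosure ℤ ℂ)),
      g.IsNormalizedEigenform ∧ 𝔪'.IsMaximal ∧ (p : integralClosure ℤ ℂ) ∈ 𝔪' ∧
      (∀ ℓ : ℕ, ℓ.Prime → W.IsGoodPrimeFor ℓ → ¬ ℓ ∣ M → ℓ ≠ p →
        ∃ a : integralClosure ℤ ℂ, (a : ℂ) = ModularFormClass.qCoeff g ℓ ∧
          a - ((W.apOfModel ℓ : ℤ) : integralClosure ℤ ℂ) ∈ 𝔪') ∧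
      g.IsNewAt q' := by
  refine exists_newform_of_subgroup hq' hq'M ρ ⊥ ?_ ?_ ?_ Φ hΦ ?_ hp hT
  · intro t y hy
    rw [AddSubgroup.mem_bot] at hy ⊢
    rw [hy, map_zero]
  · intro n y hn hy
    rw [AddSubgroup.mem_bot] at hy ⊢
    exact (IsAddTorsionFree.zsmul_eq_zero_iff_right hn).mp hy
  · intro y
    rw [AddSubgroup.mem_bot, ← Module.End.mul_apply, ← pow_two, hU, Module.End.one_apply, sub_self]
  · intro y hy
    rw [AddSubgroup.mem_bot] at hy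
    rw [hy, map_zero]

end Fermat.Agent.S41.Final
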