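import Mathlib
import Fermat.Agent.S21
import Fermat.Agent.S41.DegenFrame

/-!
# S41 frame: the dictionary between the frame maps on characters and the forms-level maps,
at the level of `periodHomPair`

* `cores_comp_invol`: corestriction commutes with compatible involutions;
* `res₁/res₂/tr₁/tr₂_charInvolution`: the four frame maps commute with `charInvolution`;
* `res₁/res₂/tr₁/tr₂_periodHomPair`: `periodHomPair` intertwines `(res₁, res₂, tr₁, tr₂)` with
  `(Degen.incl, Degen.vmap, Degen.tr1, Degen.tr2)` applied to both components.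
-/

set_option autoImplicit false

open scoped MatrixGroups
open CongruenceSubgroup ModularCurve ModularCurve.Period
open Fermat.Agent.S41.Ihara Fermat.Agent.S41.Cores Fermat.Agent.S41.Degen
  Fermat.Agent.S41.DegenFrame

namespace Fermat.Agent.S41.FrameDict

section abstract

variable {G H : Type*} [Group G] [Group H] {A : Type*} [AddCommGroup A]

/-- An involution `θ` of `G` compatible with an involution `θ'` of `H` maps right transversals
of `j(H)` to right transversals. -/
theorem isRightTransversal_invol (j : H →* G) (θ : G →* G) (θ' : H →* H)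
    (hθ : ∀ g, θ (θ g) = g) (hc : ∀ h, θ (j h) = j (θ' h))
    {ι : Type*} (r : ι → G) (hr : IsRightTransversal j r) :
    IsRightTransversal j (fun x => θ (r x)) := by
  refine ⟨fun g => ?_, fun x y h e => ?_⟩
  · obtain ⟨x, h, e⟩ := hr.1 (θ g)
    refine ⟨x, θ' h, ?_⟩
    have e2 := congrArg θ e
    rw [hθ, map_mul, hc] at e2
    exact e2
  · refine hr.2 x y (θ' h) ?_
    have e2 := congrArg θ e
    simp only [map_mul, hθ, hc] at e2
    exact e2

/-- Corestriction commutes with compatible involutions. -/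
theorem cores_comp_invol (j : H →* G) (hj : Function.Injective j) [j.range.FiniteIndex]
    (θ : G →* G) (θ' : H →* H)
    (hθ : ∀ g, θ (θ g) = g) (hθ' : ∀ h, θ' (θ' h) = h) (hc : ∀ h, θ (j h) = j (θ' h))
    (ψ : Additive H →+ A) :
    cores j hj (ψ.comp (MonoidHom.toAdditive θ')) =
      (cores j hj ψ).comp (MonoidHom.toAdditive θ) := by
  classical
  refine AddMonoidHom.ext fun a => ?_
  have : Fintype (RQ j) := Fintype.ofFinite _
  set g : G := Additive.toMul a with hg
  obtain ⟨σ, γ', hrel⟩ := exists_rel j (fun q : RQ j => q.out) (isRightTransversal_out j) (θ g)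
  have h1 : cores j hj ψ (Additive.ofMul (θ g)) = ∑ x, ψ (Additive.ofMul (γ' x)) :=
    cores_apply_of_rel j hj (fun q : RQ j => q.out) (isRightTransversal_out j) ψ (θ g) σ γ' hrel
  have h2 : cores j hj (ψ.comp (MonoidHom.toAdditive θ')) (Additive.ofMul g) =
      ∑ x, (ψ.comp (MonoidHom.toAdditive θ')) (Additive.ofMul (θ' (γ' x))) := by
    refine cores_apply_of_rel j hj (fun q : RQ j => θ q.out)
      (isRightTransversal_invol j θ θ' hθ hc _ (isRightTransversal_out j))
      (ψ.comp (MonoidHom.toAdditive θ')) g σ (fun x => θ' (γ' x)) (fun x => ?_)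
    have e := congrArg θ (hrel x)
    simp only [map_mul, hθ, hc] at e
    exact e
  show cores j hj (ψ.comp (MonoidHom.toAdditive θ')) (Additive.ofMul g) =
    cores j hj ψ (Additive.ofMul (θ g))
  rw [h1, h2]
  refine Finset.sum_congr rfl fun x _ => ?_
  show ψ (Additive.ofMul (θ' (θ' (γ' x)))) = _
  rw [hθ']

end abstract

/-! ### The two injections commute with `jConjGamma0` -/

theorem inclLevel_jConj (M l : ℕ) (h : Gamma0 (M * l)) :
    inclLevel M l (jConjGamma0 (M * l) h) = jConjGamma0 M (inclLevel M l h) := rfl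

theorem conjDelta_jConj (M l : ℕ) [NeZero l] (h : Gamma0 (M * l)) :
    conjDelta M l (jConjGamma0 (M * l) h) = jConjGamma0 M (conjDelta M l h) := by
  obtain ⟨m, hm⟩ := dvd_of_mem_Gamma0_mul (N := M) (q := l) h
  have hl : (l : ℤ) ≠ 0 := by exact_mod_cast NeZero.ne l
  apply Subtype.ext
  apply Subtype.ext
  show (((conjDelta M l (jConjGamma0 (M * l) h) : Gamma0 M) : SL(2, ℤ)) :
      Matrix (Fin 2) (Fin 2) ℤ) =
    jConjMat (((conjDelta M l h : Gamma0 M) : SL(2, ℤ)) : Matrix (Fin 2) (Fin 2) ℤ)
  rw [conjDelta_apply_coe, conjDelta_apply_coe]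
  have e : ∀ i k, ((jConjGamma0 (M * l) h : Gamma0 (M * l)) : SL(2, ℤ)) i k =
      jConjMat ((h : SL(2, ℤ)) : Matrix (Fin 2) (Fin 2) ℤ) i k := fun _ _ => rfl
  have e10 : -((h : SL(2, ℤ)) 1 0) / (l : ℤ) = -((h : SL(2, ℤ)) 1 0 / (l : ℤ)) := by
    rw [hm, ← mul_neg, Int.mul_ediv_cancel_left _ hl, Int.mul_ediv_cancel_left _ hl]
  ext i k
  fin_cases i <;> fin_cases k
  · simp [jConjMat]
  · simp [jConjMat]
  · simpa [e, jConjMat] using e10
  · simp [jConjMat]

/-! ### The four frame maps commute with `charInvolution` -/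

section invol

variable (R : Type*) [Semiring R] (A : Type*) [AddCommGroup A] [Module R A]

theorem res₁_charInvolution (M l : ℕ) (ψ : Additive (Gamma0 M) →+ A) :
    Frame.res₁ M l (charInvolution M R A ψ) = charInvolution (M * l) R A (Frame.res₁ M l ψ) :=
  rfl

theorem res₂_charInvolution (M l : ℕ) [NeZero l] (ψ : Additive (Gamma0 M) →+ A) :
    Frame.res₂ M l (charInvolution M R A ψ) = charInvolution (M * l) R A (Frame.res₂ M l ψ) := by
  refine AddMonoidHom.ext fun a => ?_
  show ψ (Additive.ofMul (jConjGamma0 M (conjDelta M l (Additive.toMul a)))) =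
    ψ (Additive.ofMul (conjDelta M l (jConjGamma0 (M * l) (Additive.toMul a))))
  rw [conjDelta_jConj]

theorem tr₁_charInvolution (M l : ℕ) [NeZero M] [NeZero l]
    (ψ : Additive (Gamma0 (M * l)) →+ A) :
    Frame.tr₁ M l (charInvolution (M * l) R A ψ) = charInvolution M R A (Frame.tr₁ M l ψ) :=
  cores_comp_invol (inclLevel M l) (inclLevel_injective M l) (jConjGamma0 M)
    (jConjGamma0 (M * l)) (jConjGamma0_jConjGamma0 M) (jConjGamma0_jConjGamma0 (M * l))
    (fun h => (inclLevel_jConj M l h).symm) ψ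

theorem tr₂_charInvolution (M l : ℕ) [NeZero M] [NeZero l]
    (ψ : Additive (Gamma0 (M * l)) →+ A) :
    Frame.tr₂ M l (charInvolution (M * l) R A ψ) = charInvolution M R A (Frame.tr₂ M l ψ) :=
  cores_comp_invol (conjDelta M l) (conjDelta_injective M l) (jConjGamma0 M)
    (jConjGamma0 (M * l)) (jConjGamma0_jConjGamma0 M) (jConjGamma0_jConjGamma0 (M * l))
    (fun h => (conjDelta_jConj M l h).symm) ψ

end invol

/-! ### The dictionary for `periodHomPair` -/

section dict

variable {N q : ℕ} [NeZero N] [hq : Fact q.Prime]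

theorem res₁_periodHomPair (f g : CuspForm (Gamma0 N) 2) :
    Frame.res₁ N q (periodHomPair N (f, g)) =
      periodHomPair (N * q) (incl N q f, incl N q g) := by
  rw [Fermat.Agent.S21.periodHomPair_apply, Fermat.Agent.S21.periodHomPair_apply, map_add,
    map_add, map_sub, res₁_charInvolution ℂ ℂ, res₁_charInvolution ℂ ℂ, res₁_periodMap,
    res₁_periodMap]

theorem res₂_periodHomPair (hqN : ¬ q ∣ N) (f g : CuspForm (Gamma0 N) 2) :
    Frame.res₂ N q (periodHomPair N (f, g)) =
      periodHomPair (N * q) (vmap hqN f, vmap hqN g) := by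
  rw [Fermat.Agent.S21.periodHomPair_apply, Fermat.Agent.S21.periodHomPair_apply, map_add,
    map_add, map_sub, res₂_charInvolution ℂ ℂ, res₂_charInvolution ℂ ℂ, res₂_periodMap hqN,
    res₂_periodMap hqN]

theorem tr₁_periodHomPair (B : Bez N q) (f g : CuspForm (Gamma0 (N * q)) 2) :
    Frame.tr₁ N q (periodHomPair (N * q) (f, g)) = periodHomPair N (tr1 B f, tr1 B g) := by
  rw [Fermat.Agent.S21.periodHomPair_apply, Fermat.Agent.S21.periodHomPair_apply, map_add,
    map_add, map_sub, tr₁_charInvolution ℂ ℂ, tr₁_charInvolution ℂ ℂ, tr₁_periodMap B,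
    tr₁_periodMap B]

theorem tr₂_periodHomPair (B : Bez N q) (f g : CuspForm (Gamma0 (N * q)) 2) :
    Frame.tr₂ N q (periodHomPair (N * q) (f, g)) = periodHomPair N (tr2 B f, tr2 B g) := by
  rw [Fermat.Agent.S21.periodHomPair_apply, Fermat.Agent.S21.periodHomPair_apply, map_add,
    map_add, map_sub, tr₂_charInvolution ℂ ℂ, tr₂_charInvolution ℂ ℂ, tr₂_periodMap B,
    tr₂_periodMap B]

end dict

end Fermat.Agent.S41.FrameDict
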