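import Mathlib
import Fermat.Agent.S30.BettiHecke.Basis
import Fermat.Agent.S41.FrameDict

/-!
# S41 frame: the lattice-level degeneracy and transfer maps and the identities of the
Ribet algebra

`L = Lam N = Hom_par(Γ₀(N), ℤ)`, `L' = Lam (N q)`; `α₁, α₂ : L →+ L'` are `res₁, res₂` and
`β₁, β₂ : L' →+ L` are the transfers `tr₁, tr₂`.  Every identity is proved by extension of
scalars to `ℂ`: `Rep M x f g` says that `x ⊗ ℂ = periodHomPair M (f, g)`; all maps transport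
representations (the dictionary of `FrameDict`), representations exist and determine `x`
(`S21`), so the identities follow from the forms-level identities of `Degen`.

The Hecke actions `ρ`, `ρ'` are arbitrary ring homomorphisms compatible with `periodHomPair`
(`BettiHecke.Compat`).
-/

set_option autoImplicit false

open scoped MatrixGroups
open CongruenceSubgroup ModularCurve ModularCurve.Period
open Fermat.Agent.S41.Ihara Fermat.Agent.S41.Degen Fermat.Agent.S41.DegenFrame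
  Fermat.Agent.S41.FrameDict
open Fermat.Agent.S30.BettiHecke (Lam castHom Compat)

namespace Fermat.Agent.S41.FrameLat

/-! ### Representations by pairs of cusp forms -/

/-- `x ∈ Lam M` is represented by the pair `(f, g)`: `x ⊗ ℂ = periodHomPair M (f, g)`. -/
def Rep (M : ℕ) (x : Lam M) (f g : CuspForm (Gamma0 M) 2) : Prop :=
  castHom M ℂ (x : Additive (Gamma0 M) →+ ℤ) = periodHomPair M (f, g)

section rep

variable {M : ℕ}

theorem castHom_eq_compHom (φ : Additive (Gamma0 M) →+ ℤ) :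
    castHom M ℂ φ = AddMonoidHom.compHom (Int.castAddHom ℂ) φ := rfl

theorem exists_rep [NeZero M] (x : Lam M) : ∃ f g : CuspForm (Gamma0 M) 2, Rep M x f g :=
  Fermat.Agent.S30.BettiHecke.exists_periodHomPair_eq x

theorem Rep.ext {x y : Lam M} {f g : CuspForm (Gamma0 M) 2} (hx : Rep M x f g)
    (hy : Rep M y f g) : x = y :=
  Subtype.ext (Fermat.Agent.S30.BettiHecke.castHom_injective ℂ (hx.trans hy.symm))

theorem Rep.congr {x : Lam M} {f g f' g' : CuspForm (Gamma0 M) 2} (hx : Rep M x f g)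
    (hf : f = f') (hg : g = g') : Rep M x f' g' := by
  subst hf hg
  exact hx

theorem Rep.add {x y : Lam M} {f g f' g' : CuspForm (Gamma0 M) 2} (hx : Rep M x f g)
    (hy : Rep M y f' g') : Rep M (x + y) (f + f') (g + g') := by
  show castHom M ℂ ((x : Additive (Gamma0 M) →+ ℤ) + (y : Additive (Gamma0 M) →+ ℤ)) =
    periodHomPair M ((f, g) + (f', g'))
  rw [castHom_eq_compHom, map_add, map_add]
  exact congrArg₂ (· + ·) hx hy

theorem Rep.neg {x : Lam M} {f g : CuspForm (Gamma0 M) 2} (hx : Rep M x f g) :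
    Rep M (-x) (-f) (-g) := by
  show castHom M ℂ (-(x : Additive (Gamma0 M) →+ ℤ)) = periodHomPair M (-(f, g))
  rw [castHom_eq_compHom, map_neg, map_neg]
  exact congrArg Neg.neg hx

theorem Rep.sub {x y : Lam M} {f g f' g' : CuspForm (Gamma0 M) 2} (hx : Rep M x f g)
    (hy : Rep M y f' g') : Rep M (x - y) (f - f') (g - g') := by
  show castHom M ℂ ((x : Additive (Gamma0 M) →+ ℤ) - (y : Additive (Gamma0 M) →+ ℤ)) =
    periodHomPair M ((f, g) - (f', g'))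
  rw [castHom_eq_compHom, map_sub, map_sub]
  exact congrArg₂ (· - ·) hx hy

theorem Rep.zsmul {x : Lam M} {f g : CuspForm (Gamma0 M) 2} (n : ℤ) (hx : Rep M x f g) :
    Rep M (n • x) ((n : ℂ) • f) ((n : ℂ) • g) := by
  show castHom M ℂ (n • (x : Additive (Gamma0 M) →+ ℤ)) = periodHomPair M ((n : ℂ) • (f, g))
  rw [castHom_eq_compHom, map_zsmul, map_smul, Int.cast_smul_eq_zsmul]
  exact congrArg (n • ·) hx

theorem Rep.compat {x : Lam M} {f g : CuspForm (Gamma0 M) 2}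
    {t : Module.End ℂ (CuspForm (Gamma0 M) 2)} {E : Module.End ℤ (Lam M)} (hx : Rep M x f g)
    (h : Compat M t E) : Rep M (E x) (t f) (t g) :=
  h x f g hx

end rep

/-! ### The four maps on the lattices -/

section maps

variable (N q : ℕ)

/-- First degeneracy map `Lam N → Lam (N q)`: restriction. -/
def α₁ : Lam N →+ Lam (N * q) where
  toFun x := ⟨Frame.res₁ N q (x : Additive (Gamma0 N) →+ ℤ), Frame.isParabolicHom_res₁ N q x.2⟩
  map_zero' := rfl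
  map_add' _ _ := rfl

/-- Second degeneracy map `Lam N → Lam (N q)`: restriction after conjugation by `diag(q, 1)`. -/
def α₂ [NeZero q] : Lam N →+ Lam (N * q) where
  toFun x := ⟨Frame.res₂ N q (x : Additive (Gamma0 N) →+ ℤ), Frame.isParabolicHom_res₂ N q x.2⟩
  map_zero' := rfl
  map_add' _ _ := rfl

variable {N q}

@[simp] theorem coe_α₁ (x : Lam N) :
    ((α₁ N q x : Lam (N * q)) : Additive (Gamma0 (N * q)) →+ ℤ) = Frame.res₁ N q x := rfl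

@[simp] theorem coe_α₂ [NeZero q] (x : Lam N) :
    ((α₂ N q x : Lam (N * q)) : Additive (Gamma0 (N * q)) →+ ℤ) = Frame.res₂ N q x := rfl

variable [NeZero N] [hq : Fact q.Prime]

theorem Rep.α₁ {x : Lam N} {f g : CuspForm (Gamma0 N) 2} (hx : Rep N x f g) :
    Rep (N * q) (α₁ N q x) (incl N q f) (incl N q g) := by
  show castHom (N * q) ℂ (Frame.res₁ N q (x : Additive (Gamma0 N) →+ ℤ)) = _
  rw [← res₁_periodHomPair, ← hx]
  rfl

theorem Rep.α₂ (hqN : ¬ q ∣ N) {x : Lam N} {f g : CuspForm (Gamma0 N) 2} (hx : Rep N x f g) :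
    Rep (N * q) (α₂ N q x) (vmap hqN f) (vmap hqN g) := by
  show castHom (N * q) ℂ (Frame.res₂ N q (x : Additive (Gamma0 N) →+ ℤ)) = _
  rw [← res₂_periodHomPair, ← hx]
  rfl

theorem castHom_tr₁ (hqN : ¬ q ∣ N) (y : Lam (N * q)) {f g : CuspForm (Gamma0 (N * q)) 2}
    (hy : Rep (N * q) y f g) :
    castHom N ℂ (Frame.tr₁ N q (y : Additive (Gamma0 (N * q)) →+ ℤ)) =
      periodHomPair N (tr1 (bez hq.out hqN) f, tr1 (bez hq.out hqN) g) := by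
  rw [← tr₁_periodHomPair, ← hy]
  exact (Frame.tr₁_comp (Int.castAddHom ℂ) N q (y : Additive (Gamma0 (N * q)) →+ ℤ)).symm

theorem castHom_tr₂ (hqN : ¬ q ∣ N) (y : Lam (N * q)) {f g : CuspForm (Gamma0 (N * q)) 2}
    (hy : Rep (N * q) y f g) :
    castHom N ℂ (Frame.tr₂ N q (y : Additive (Gamma0 (N * q)) →+ ℤ)) =
      periodHomPair N (tr2 (bez hq.out hqN) f, tr2 (bez hq.out hqN) g) := by
  rw [← tr₂_periodHomPair, ← hy]
  exact (Frame.tr₂_comp (Int.castAddHom ℂ) N q (y : Additive (Gamma0 (N * q)) →+ ℤ)).symm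

/-- The first transfer preserves the lattices. -/
theorem tr₁_mem_Lam (hqN : ¬ q ∣ N) (y : Lam (N * q)) :
    Frame.tr₁ N q (y : Additive (Gamma0 (N * q)) →+ ℤ) ∈ Lam N := by
  obtain ⟨f, g, hy⟩ := exists_rep y
  have h3 : castHom N ℂ (Frame.tr₁ N q (y : Additive (Gamma0 (N * q)) →+ ℤ)) ∈
      parabolicHoms ℂ (Gamma0 N) ℂ := by
    rw [castHom_tr₁ hqN y hy, ← (Fermat.Agent.S21.result N).2]
    exact LinearMap.mem_range_self _ _
  exact Fermat.Agent.S30.BettiHecke.isParabolic_of_castHom ℂ h3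

/-- The second transfer preserves the lattices. -/
theorem tr₂_mem_Lam (hqN : ¬ q ∣ N) (y : Lam (N * q)) :
    Frame.tr₂ N q (y : Additive (Gamma0 (N * q)) →+ ℤ) ∈ Lam N := by
  obtain ⟨f, g, hy⟩ := exists_rep y
  have h3 : castHom N ℂ (Frame.tr₂ N q (y : Additive (Gamma0 (N * q)) →+ ℤ)) ∈
      parabolicHoms ℂ (Gamma0 N) ℂ := by
    rw [castHom_tr₂ hqN y hy, ← (Fermat.Agent.S21.result N).2]
    exact LinearMap.mem_range_self _ _
  exact Fermat.Agent.S30.BettiHecke.isParabolic_of_castHom ℂ h3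

/-- First transfer `Lam (N q) → Lam N`. -/
noncomputable def β₁ (hqN : ¬ q ∣ N) : Lam (N * q) →+ Lam N where
  toFun y := ⟨Frame.tr₁ N q (y : Additive (Gamma0 (N * q)) →+ ℤ), tr₁_mem_Lam hqN y⟩
  map_zero' := Subtype.ext (map_zero _)
  map_add' _ _ := Subtype.ext (map_add _ _ _)

/-- Second transfer `Lam (N q) → Lam N`. -/
noncomputable def β₂ (hqN : ¬ q ∣ N) : Lam (N * q) →+ Lam N where
  toFun y := ⟨Frame.tr₂ N q (y : Additive (Gamma0 (N * q)) →+ ℤ), tr₂_mem_Lam hqN y⟩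
  map_zero' := Subtype.ext (map_zero _)
  map_add' _ _ := Subtype.ext (map_add _ _ _)

@[simp] theorem coe_β₁ (hqN : ¬ q ∣ N) (y : Lam (N * q)) :
    ((β₁ hqN y : Lam N) : Additive (Gamma0 N) →+ ℤ) = Frame.tr₁ N q y := rfl

@[simp] theorem coe_β₂ (hqN : ¬ q ∣ N) (y : Lam (N * q)) :
    ((β₂ hqN y : Lam N) : Additive (Gamma0 N) →+ ℤ) = Frame.tr₂ N q y := rfl

theorem Rep.β₁ (hqN : ¬ q ∣ N) {y : Lam (N * q)} {f g : CuspForm (Gamma0 (N * q)) 2}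
    (hy : Rep (N * q) y f g) :
    Rep N (β₁ hqN y) (tr1 (bez hq.out hqN) f) (tr1 (bez hq.out hqN) g) :=
  castHom_tr₁ hqN y hy

theorem Rep.β₂ (hqN : ¬ q ∣ N) {y : Lam (N * q)} {f g : CuspForm (Gamma0 (N * q)) 2}
    (hy : Rep (N * q) y f g) :
    Rep N (β₂ hqN y) (tr2 (bez hq.out hqN) f) (tr2 (bez hq.out hqN) g) :=
  castHom_tr₂ hqN y hy

end maps

/-! ### The identities of the Ribet algebra -/

section identities

variable {N q : ℕ} [NeZero N] [hq : Fact q.Prime] (hqN : ¬ q ∣ N)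

include hqN in
theorem β₁_α₁ (x : Lam N) : β₁ hqN (α₁ N q x) = ((q : ℤ) + 1) • x := by
  obtain ⟨f, g, hx⟩ := exists_rep x
  refine Rep.ext ((hx.α₁.β₁ hqN).congr (tr1_incl _ hqN f) (tr1_incl _ hqN g)) ?_
  refine (hx.zsmul ((q : ℤ) + 1)).congr ?_ ?_ <;> push_cast <;> rfl

include hqN in
theorem β₂_α₂ (x : Lam N) : β₂ hqN (α₂ N q x) = ((q : ℤ) + 1) • x := by
  obtain ⟨f, g, hx⟩ := exists_rep x
  refine Rep.ext (((hx.α₂ hqN).β₂ hqN).congr (tr2_vmap _ hqN f) (tr2_vmap _ hqN g)) ?_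
  refine (hx.zsmul ((q : ℤ) + 1)).congr ?_ ?_ <;> push_cast <;> rfl

variable (ρ : CuspForm.heckeAlgebra N 2 ∅ →+* Module.End ℤ (Lam N))
  (hρ : ∀ t : CuspForm.heckeAlgebra N 2 ∅, Compat N t.1 (ρ t))
  (ρ' : CuspForm.heckeAlgebra (N * q) 2 ∅ →+* Module.End ℤ (Lam (N * q)))
  (hρ' : ∀ t : CuspForm.heckeAlgebra (N * q) 2 ∅, Compat (N * q) t.1 (ρ' t))

include hρ in
theorem β₁_α₂ (x : Lam N) :
    β₁ hqN (α₂ N q x) = ρ (CuspForm.heckeAlgebra.T hq.out hqN (Set.notMem_empty q)) x := by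
  obtain ⟨f, g, hx⟩ := exists_rep x
  exact Rep.ext (((hx.α₂ hqN).β₁ hqN).congr (tr1_vmap _ hqN f) (tr1_vmap _ hqN g))
    (hx.compat (hρ _))

include hρ in
theorem β₂_α₁ (x : Lam N) :
    β₂ hqN (α₁ N q x) = ρ (CuspForm.heckeAlgebra.T hq.out hqN (Set.notMem_empty q)) x := by
  obtain ⟨f, g, hx⟩ := exists_rep x
  exact Rep.ext ((hx.α₁.β₂ hqN).congr (tr2_incl _ hqN f) (tr2_incl _ hqN g))
    (hx.compat (hρ _))

include hρ hρ' in
theorem β₁_T {ℓ : ℕ} (hℓ : ℓ.Prime) (hℓN : ¬ ℓ ∣ N) (hℓM : ¬ ℓ ∣ N * q) (y : Lam (N * q)) :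
    β₁ hqN (ρ' (CuspForm.heckeAlgebra.T hℓ hℓM (Set.notMem_empty ℓ)) y) =
      ρ (CuspForm.heckeAlgebra.T hℓ hℓN (Set.notMem_empty ℓ)) (β₁ hqN y) := by
  obtain ⟨f, g, hy⟩ := exists_rep y
  exact Rep.ext (((hy.compat (hρ' _)).β₁ hqN).congr (tr1_heckeT _ hℓ hℓN hℓM f)
    (tr1_heckeT _ hℓ hℓN hℓM g)) ((hy.β₁ hqN).compat (hρ _))

include hρ hρ' in
theorem β₂_T {ℓ : ℕ} (hℓ : ℓ.Prime) (hℓN : ¬ ℓ ∣ N) (hℓM : ¬ ℓ ∣ N * q) (y : Lam (N * q)) :
    β₂ hqN (ρ' (CuspForm.heckeAlgebra.T hℓ hℓM (Set.notMem_empty ℓ)) y) =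
      ρ (CuspForm.heckeAlgebra.T hℓ hℓN (Set.notMem_empty ℓ)) (β₂ hqN y) := by
  obtain ⟨f, g, hy⟩ := exists_rep y
  exact Rep.ext (((hy.compat (hρ' _)).β₂ hqN).congr (tr2_heckeT _ hℓ hℓN hℓM f)
    (tr2_heckeT _ hℓ hℓN hℓM g)) ((hy.β₂ hqN).compat (hρ _))

include hρ hρ' in
theorem α₁_T {ℓ : ℕ} (hℓ : ℓ.Prime) (hℓN : ¬ ℓ ∣ N) (hℓM : ¬ ℓ ∣ N * q) (x : Lam N) :
    α₁ N q (ρ (CuspForm.heckeAlgebra.T hℓ hℓN (Set.notMem_empty ℓ)) x) =
      ρ' (CuspForm.heckeAlgebra.T hℓ hℓM (Set.notMem_empty ℓ)) (α₁ N q x) := by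
  obtain ⟨f, g, hx⟩ := exists_rep x
  exact Rep.ext (((hx.compat (hρ _)).α₁).congr (incl_heckeT hℓ hℓN hℓM f)
    (incl_heckeT hℓ hℓN hℓM g)) (hx.α₁.compat (hρ' _))

include hqN hρ hρ' in
theorem α₂_T {ℓ : ℕ} (hℓ : ℓ.Prime) (hℓN : ¬ ℓ ∣ N) (hℓM : ¬ ℓ ∣ N * q) (x : Lam N) :
    α₂ N q (ρ (CuspForm.heckeAlgebra.T hℓ hℓN (Set.notMem_empty ℓ)) x) =
      ρ' (CuspForm.heckeAlgebra.T hℓ hℓM (Set.notMem_empty ℓ)) (α₂ N q x) := by
  obtain ⟨f, g, hx⟩ := exists_rep x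
  exact Rep.ext (((hx.compat (hρ _)).α₂ hqN).congr (vmap_heckeT hqN hℓ hℓN hℓM f)
    (vmap_heckeT hqN hℓ hℓN hℓM g)) ((hx.α₂ hqN).compat (hρ' _))

include hρ hρ' in
/-- `U_ℓ`, `ℓ ∣ N`, commutes with `α₁`. -/
theorem α₁_U {ℓ : ℕ} (hℓ : ℓ.Prime) (hℓN : ℓ ∣ N) (hℓM : ℓ ∣ N * q) (x : Lam N) :
    α₁ N q (ρ (CuspForm.heckeAlgebra.U hℓ hℓN (Set.notMem_empty ℓ)) x) =
      ρ' (CuspForm.heckeAlgebra.U hℓ hℓM (Set.notMem_empty ℓ)) (α₁ N q x) := by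
  obtain ⟨f, g, hx⟩ := exists_rep x
  exact Rep.ext (((hx.compat (hρ _)).α₁).congr (incl_heckeU hℓN hℓM f)
    (incl_heckeU hℓN hℓM g)) (hx.α₁.compat (hρ' _))

include hqN hρ hρ' in
/-- `U_ℓ`, `ℓ ∣ N`, commutes with `α₂`. -/
theorem α₂_U {ℓ : ℕ} (hℓ : ℓ.Prime) (hℓN : ℓ ∣ N) (hℓM : ℓ ∣ N * q) (x : Lam N) :
    α₂ N q (ρ (CuspForm.heckeAlgebra.U hℓ hℓN (Set.notMem_empty ℓ)) x) =
      ρ' (CuspForm.heckeAlgebra.U hℓ hℓM (Set.notMem_empty ℓ)) (α₂ N q x) := by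
  obtain ⟨f, g, hx⟩ := exists_rep x
  exact Rep.ext (((hx.compat (hρ _)).α₂ hqN).congr (vmap_heckeU hqN hℓ hℓN hℓM f)
    (vmap_heckeU hqN hℓ hℓN hℓM g)) ((hx.α₂ hqN).compat (hρ' _))

include hρ hρ' in
/-- `U_q` on the old lattice: `U_q (α₁ x₁ + α₂ x₂) = α₁ (T_q x₁ + q x₂) + α₂ (-x₁)`. -/
theorem U_old (x₁ x₂ : Lam N) :
    ρ' (CuspForm.heckeAlgebra.U hq.out (Dvd.intro_left N rfl) (Set.notMem_empty q))
        (α₁ N q x₁ + α₂ N q x₂) =
      α₁ N q (ρ (CuspForm.heckeAlgebra.T hq.out hqN (Set.notMem_empty q)) x₁ + (q : ℤ) • x₂) +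
        α₂ N q (-x₁) := by
  obtain ⟨f₁, g₁, h₁⟩ := exists_rep x₁
  obtain ⟨f₂, g₂, h₂⟩ := exists_rep x₂
  have key : ∀ f₁ f₂ : CuspForm (Gamma0 N) 2,
      CuspForm.heckeULin 2 (Dvd.intro_left N rfl : q ∣ N * q) (incl N q f₁ + vmap hqN f₂) =
        incl N q (CuspForm.heckeTLin 2 hq.out hqN f₁ + ((q : ℤ) : ℂ) • f₂) + vmap hqN (-f₁) := by
    intro f₁ f₂
    rw [map_add, heckeU_incl hqN, heckeU_vmap hqN, map_add, map_smul, map_neg]
    push_cast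
    abel
  exact Rep.ext (((h₁.α₁.add (h₂.α₂ hqN)).compat (hρ' _)).congr (key f₁ f₂) (key g₁ g₂))
    ((((h₁.compat (hρ _)).add (h₂.zsmul (q : ℤ))).α₁).add (h₁.neg.α₂ hqN))

include hρ hρ' in
/-- `U_q² - 1` maps the lattice of level `N q` into the old lattice. -/
theorem U_sq_sub (y : Lam (N * q)) :
    ρ' (CuspForm.heckeAlgebra.U hq.out (Dvd.intro_left N rfl) (Set.notMem_empty q))
        (ρ' (CuspForm.heckeAlgebra.U hq.out (Dvd.intro_left N rfl) (Set.notMem_empty q)) y) - y =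
      α₁ N q (ρ (CuspForm.heckeAlgebra.T hq.out hqN (Set.notMem_empty q)) (β₂ hqN y) - β₁ hqN y) +
        α₂ N q (-(β₂ hqN y)) := by
  obtain ⟨f, g, hy⟩ := exists_rep y
  have key : ∀ f : CuspForm (Gamma0 (N * q)) 2,
      CuspForm.heckeULin 2 (Dvd.intro_left N rfl : q ∣ N * q)
          (CuspForm.heckeULin 2 (Dvd.intro_left N rfl : q ∣ N * q) f) - f =
        incl N q (CuspForm.heckeTLin 2 hq.out hqN (tr2 (bez hq.out hqN) f) -
          tr1 (bez hq.out hqN) f) + vmap hqN (-(tr2 (bez hq.out hqN) f)) := by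
    intro f
    rw [heckeU_heckeU (bez hq.out hqN) hqN, map_neg]
    abel
  exact Rep.ext ((((hy.compat (hρ' _)).compat (hρ' _)).sub hy).congr (key f) (key g))
    (((((hy.β₂ hqN).compat (hρ _)).sub (hy.β₁ hqN)).α₁).add ((hy.β₂ hqN).neg.α₂ hqN))

include hqN hρ hρ' in
/-- Every Hecke generator of level `N q` preserves the old lattice `α₁ L + α₂ L`. -/
theorem gen_old (g : CuspForm.heckeAlgebra (N * q) 2 ∅)
    (hg : (g : Module.End ℂ (CuspForm (Gamma0 (N * q)) 2)) ∈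
      CuspForm.heckeGenerators (N * q) 2 ∅) (x₁ x₂ : Lam N) :
    ∃ x₁' x₂' : Lam N, ρ' g (α₁ N q x₁ + α₂ N q x₂) = α₁ N q x₁' + α₂ N q x₂' := by
  rcases hg with ⟨ℓ, hℓ, hℓM, -, hgT⟩ | ⟨ℓ, hℓM, hℓ, -, hgU⟩
  · have hℓN : ¬ ℓ ∣ N := fun h => hℓM (Dvd.dvd.mul_right h q)
    have e : g = CuspForm.heckeAlgebra.T hℓ hℓM (Set.notMem_empty ℓ) := Subtype.ext hgT
    refine ⟨ρ (CuspForm.heckeAlgebra.T hℓ hℓN (Set.notMem_empty ℓ)) x₁,
      ρ (CuspForm.heckeAlgebra.T hℓ hℓN (Set.notMem_empty ℓ)) x₂, ?_⟩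
    rw [e, map_add, α₁_T ρ hρ ρ' hρ' hℓ hℓN hℓM, α₂_T hqN ρ hρ ρ' hρ' hℓ hℓN hℓM]
  · have e : g = CuspForm.heckeAlgebra.U hℓ hℓM (Set.notMem_empty ℓ) := Subtype.ext hgU
    by_cases hℓN : ℓ ∣ N
    · refine ⟨ρ (CuspForm.heckeAlgebra.U hℓ hℓN (Set.notMem_empty ℓ)) x₁,
        ρ (CuspForm.heckeAlgebra.U hℓ hℓN (Set.notMem_empty ℓ)) x₂, ?_⟩
      rw [e, map_add, α₁_U ρ hρ ρ' hρ' hℓ hℓN hℓM, α₂_U hqN ρ hρ ρ' hρ' hℓ hℓN hℓM]
    · have hℓq : ℓ = q := by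
        rcases (Nat.Prime.dvd_mul hℓ).mp hℓM with h | h
        · exact absurd h hℓN
        · exact (Nat.prime_dvd_prime_iff_eq hℓ hq.out).mp h
      subst hℓq
      exact ⟨_, _, e ▸ U_old hqN ρ hρ ρ' hρ' x₁ x₂⟩

end identities

end Fermat.Agent.S41.FrameLat
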