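import Mathlib
import Fermat.Agent.S41.FrameLat
import Fermat.Agent.S41.DegenFrameU
import Fermat.Agent.S41.SatGlue
import Fermat.Agent.S41.Assemble

/-!
# S41 frame: bridges between the Hecke actions and the frame operators, and the instance of
the assembly theorem on the lattices `Lam N`, `Lam (N q')`

* `lam_isAddTorsionFree`: the lattices are torsion-free;
* `heckeT_periodHomPair`, `heckeU_periodHomPair`, `heckeU_periodHomPair_of_dvd`: the frame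
  operators `Frame.heckeT N ℓ = tr₁ ∘ res₂`, `Frame.heckeU N ℓ = tr₂ ∘ res₁` on `periodHomPair`;
* bridges on the lattice, for any action `ρ` compatible with `periodHomPair`:
  `ρ (T_ℓ) x = Frame.heckeT N ℓ x = Frame.heckeU N ℓ x = BettiHecke.tHom ℤ x` (`ℓ ∤ N`) and
  `ρ (U_ℓ) x = Frame.heckeU N ℓ x` (`ℓ ∣ N`), also after reduction modulo `p`;
* `result_of_frame`: `Assemble.result_of_pairing` with `L = Lam N`, `L' = Lam (N q')` and the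
  frame maps; `sat_of_eis`: the lattice-level (Sat) from `SatGlue.sat_of_eis`.
-/

set_option autoImplicit false

open scoped MatrixGroups
open CongruenceSubgroup ModularCurve ModularCurve.Period
open Fermat.Agent.S41.Ihara Fermat.Agent.S41.Degen Fermat.Agent.S41.DegenFrame
  Fermat.Agent.S41.FrameDict Fermat.Agent.S41.FrameLat
open Fermat.Agent.S30.BettiHecke (Lam castHom Compat)

namespace Fermat.Agent.S41.FrameData

/-- The Betti lattices are torsion-free. -/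
theorem lam_isAddTorsionFree (M : ℕ) : IsAddTorsionFree (Lam M) := by
  refine ⟨fun n hn x y h => ?_⟩
  apply Subtype.ext
  refine AddMonoidHom.ext fun γ => ?_
  have h1 := congrArg (fun z : Lam M => (z : Additive (Gamma0 M) →+ ℤ) γ) h
  simp only [Submodule.coe_smul_of_tower, AddMonoidHom.coe_smul, Pi.smul_apply] at h1
  exact mul_left_cancel₀ (Nat.cast_ne_zero.mpr hn) (by simpa using h1)

/-! ### The frame Hecke operators on `periodHomPair` -/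

section pair

variable {N ℓ : ℕ} [NeZero N] [hℓ : Fact ℓ.Prime]

theorem heckeT_periodHomPair (hℓN : ¬ ℓ ∣ N) (f g : CuspForm (Gamma0 N) 2) :
    Frame.heckeT N ℓ (periodHomPair N (f, g)) =
      periodHomPair N (CuspForm.heckeTLin 2 hℓ.out hℓN f, CuspForm.heckeTLin 2 hℓ.out hℓN g) := by
  show Frame.tr₁ N ℓ (Frame.res₂ N ℓ (periodHomPair N (f, g))) = _
  rw [res₂_periodHomPair hℓN, tr₁_periodHomPair (bez hℓ.out hℓN), tr1_vmap, tr1_vmap]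

theorem heckeU_periodHomPair (hℓN : ¬ ℓ ∣ N) (f g : CuspForm (Gamma0 N) 2) :
    Frame.heckeU N ℓ (periodHomPair N (f, g)) =
      periodHomPair N (CuspForm.heckeTLin 2 hℓ.out hℓN f, CuspForm.heckeTLin 2 hℓ.out hℓN g) := by
  show Frame.tr₂ N ℓ (Frame.res₁ N ℓ (periodHomPair N (f, g))) = _
  rw [res₁_periodHomPair, tr₂_periodHomPair (bez hℓ.out hℓN), tr2_incl _ hℓN, tr2_incl _ hℓN]

theorem heckeU_charInvolution (R : Type*) [Semiring R] (A : Type*) [AddCommGroup A] [Module R A]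
    (ψ : Additive (Gamma0 N) →+ A) :
    Frame.heckeU N ℓ (charInvolution N R A ψ) = charInvolution N R A (Frame.heckeU N ℓ ψ) := by
  show Frame.tr₂ N ℓ (Frame.res₁ N ℓ (charInvolution N R A ψ)) =
    charInvolution N R A (Frame.tr₂ N ℓ (Frame.res₁ N ℓ ψ))
  rw [res₁_charInvolution, tr₂_charInvolution]

theorem heckeT_charInvolution (R : Type*) [Semiring R] (A : Type*) [AddCommGroup A] [Module R A]
    (ψ : Additive (Gamma0 N) →+ A) :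
    Frame.heckeT N ℓ (charInvolution N R A ψ) = charInvolution N R A (Frame.heckeT N ℓ ψ) := by
  show Frame.tr₁ N ℓ (Frame.res₂ N ℓ (charInvolution N R A ψ)) =
    charInvolution N R A (Frame.tr₁ N ℓ (Frame.res₂ N ℓ ψ))
  rw [res₂_charInvolution, tr₁_charInvolution]

/-- `Frame.heckeU N ℓ` is `U_ℓ` on `periodHomPair`, for `ℓ ∣ N`. -/
theorem heckeU_periodHomPair_of_dvd (hℓN : ℓ ∣ N) (f g : CuspForm (Gamma0 N) 2) :
    Frame.heckeU N ℓ (periodHomPair N (f, g)) =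
      periodHomPair N (CuspForm.heckeULin 2 hℓN f, CuspForm.heckeULin 2 hℓN g) := by
  rw [Fermat.Agent.S21.periodHomPair_apply, Fermat.Agent.S21.periodHomPair_apply, map_add,
    map_add, map_sub, heckeU_charInvolution ℂ ℂ, heckeU_charInvolution ℂ ℂ,
    DegenFrameU.heckeU_periodMap_of_dvd hℓN, DegenFrameU.heckeU_periodMap_of_dvd hℓN]

end pair

/-! ### Bridges on the lattice -/

section bridge

variable {N ℓ : ℕ} [NeZero N] [hℓ : Fact ℓ.Prime]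
  (ρ : CuspForm.heckeAlgebra N 2 ∅ →+* Module.End ℤ (Lam N))
  (hρ : ∀ t : CuspForm.heckeAlgebra N 2 ∅, Compat N t.1 (ρ t))

include hρ in
/-- `ρ (T_ℓ) = tr₁ ∘ res₂` on the lattice. -/
theorem coe_ρ_T (hℓN : ¬ ℓ ∣ N) (x : Lam N) :
    ((ρ (CuspForm.heckeAlgebra.T hℓ.out hℓN (Set.notMem_empty ℓ)) x : Lam N) :
      Additive (Gamma0 N) →+ ℤ) = Frame.heckeT N ℓ (x : Additive (Gamma0 N) →+ ℤ) :=
  (congrArg Subtype.val (β₁_α₂ hℓN ρ hρ x)).symm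

include hρ in
/-- `ρ (T_ℓ) = tr₂ ∘ res₁` on the lattice. -/
theorem coe_ρ_T' (hℓN : ¬ ℓ ∣ N) (x : Lam N) :
    ((ρ (CuspForm.heckeAlgebra.T hℓ.out hℓN (Set.notMem_empty ℓ)) x : Lam N) :
      Additive (Gamma0 N) →+ ℤ) = Frame.heckeU N ℓ (x : Additive (Gamma0 N) →+ ℤ) :=
  (congrArg Subtype.val (β₂_α₁ hℓN ρ hρ x)).symm

include hρ in
/-- `ρ (T_ℓ)` is `BettiHecke.tLam`. -/
theorem ρ_T_eq_tLam (hℓN : ¬ ℓ ∣ N) :
    ρ (CuspForm.heckeAlgebra.T hℓ.out hℓN (Set.notMem_empty ℓ)) =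
      Fermat.Agent.S30.BettiHecke.tLam hℓ.out hℓN :=
  Fermat.Agent.S30.BettiHecke.compat_unique (hρ _)
    (Fermat.Agent.S30.BettiHecke.compat_T hℓ.out hℓN)

include hρ in
/-- `ρ (T_ℓ)` is `BettiHecke.tHom ℤ` on the lattice. -/
theorem coe_ρ_T_tHom (hℓN : ¬ ℓ ∣ N) (x : Lam N) :
    ((ρ (CuspForm.heckeAlgebra.T hℓ.out hℓN (Set.notMem_empty ℓ)) x : Lam N) :
      Additive (Gamma0 N) →+ ℤ) =
      Fermat.Agent.S30.BettiHecke.tHom ℤ hℓ.out hℓN (x : Additive (Gamma0 N) →+ ℤ) := by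
  rw [ρ_T_eq_tLam ρ hρ hℓN]
  rfl

include hρ in
/-- `ρ (U_ℓ) = tr₂ ∘ res₁` on the lattice, for `ℓ ∣ N`. -/
theorem coe_ρ_U (hℓN : ℓ ∣ N) (x : Lam N) :
    ((ρ (CuspForm.heckeAlgebra.U hℓ.out hℓN (Set.notMem_empty ℓ)) x : Lam N) :
      Additive (Gamma0 N) →+ ℤ) = Frame.heckeU N ℓ (x : Additive (Gamma0 N) →+ ℤ) := by
  obtain ⟨f, g, hx⟩ := exists_rep x
  have h1 : Rep N (ρ (CuspForm.heckeAlgebra.U hℓ.out hℓN (Set.notMem_empty ℓ)) x)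
      (CuspForm.heckeULin 2 hℓN f) (CuspForm.heckeULin 2 hℓN g) := hx.compat (hρ _)
  have h2 : castHom N ℂ (Frame.heckeU N ℓ (x : Additive (Gamma0 N) →+ ℤ)) =
      periodHomPair N (CuspForm.heckeULin 2 hℓN f, CuspForm.heckeULin 2 hℓN g) := by
    rw [← heckeU_periodHomPair_of_dvd hℓN, ← hx]
    exact (Frame.heckeU_comp (Int.castAddHom ℂ) N ℓ (x : Additive (Gamma0 N) →+ ℤ)).symm
  exact Fermat.Agent.S30.BettiHecke.castHom_injective ℂ (h1.trans h2.symm)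

/-- On the lattice, `BettiHecke.tHom ℤ` is the frame operator `tr₁ ∘ res₂`. -/
theorem tHom_eq_heckeT (hℓN : ¬ ℓ ∣ N) (x : Lam N) :
    Fermat.Agent.S30.BettiHecke.tHom ℤ hℓ.out hℓN (x : Additive (Gamma0 N) →+ ℤ) =
      Frame.heckeT N ℓ (x : Additive (Gamma0 N) →+ ℤ) := by
  obtain ⟨f, g, hx⟩ := exists_rep x
  have h1 : Rep N (Fermat.Agent.S30.BettiHecke.tLam hℓ.out hℓN x)
      (CuspForm.heckeTLin 2 hℓ.out hℓN f) (CuspForm.heckeTLin 2 hℓ.out hℓN g) :=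
    hx.compat (Fermat.Agent.S30.BettiHecke.compat_T hℓ.out hℓN)
  have h2 : Rep N (β₁ hℓN (α₂ N ℓ x))
      (CuspForm.heckeTLin 2 hℓ.out hℓN f) (CuspForm.heckeTLin 2 hℓ.out hℓN g) :=
    ((hx.α₂ hℓN).β₁ hℓN).congr (tr1_vmap _ hℓN f) (tr1_vmap _ hℓN g)
  exact congrArg Subtype.val (h1.ext h2)

/-- On the lattice, `BettiHecke.tHom ℤ` is the frame operator `tr₂ ∘ res₁`. -/
theorem tHom_eq_heckeU (hℓN : ¬ ℓ ∣ N) (x : Lam N) :
    Fermat.Agent.S30.BettiHecke.tHom ℤ hℓ.out hℓN (x : Additive (Gamma0 N) →+ ℤ) =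
      Frame.heckeU N ℓ (x : Additive (Gamma0 N) →+ ℤ) := by
  obtain ⟨f, g, hx⟩ := exists_rep x
  have h1 : Rep N (Fermat.Agent.S30.BettiHecke.tLam hℓ.out hℓN x)
      (CuspForm.heckeTLin 2 hℓ.out hℓN f) (CuspForm.heckeTLin 2 hℓ.out hℓN g) :=
    hx.compat (Fermat.Agent.S30.BettiHecke.compat_T hℓ.out hℓN)
  have h2 : Rep N (β₂ hℓN (α₁ N ℓ x))
      (CuspForm.heckeTLin 2 hℓ.out hℓN f) (CuspForm.heckeTLin 2 hℓ.out hℓN g) :=
    (hx.α₁.β₂ hℓN).congr (tr2_incl _ hℓN f) (tr2_incl _ hℓN g)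
  exact congrArg Subtype.val (h1.ext h2)

/-- The same after extension of the coefficients `ℤ → R` (e.g. reduction modulo `p`). -/
theorem tHom_castHom_eq_heckeT (R : Type*) [AddCommGroupWithOne R] (hℓN : ¬ ℓ ∣ N) (x : Lam N) :
    Fermat.Agent.S30.BettiHecke.tHom R hℓ.out hℓN (castHom N R (x : Additive (Gamma0 N) →+ ℤ)) =
      Frame.heckeT N ℓ (castHom N R (x : Additive (Gamma0 N) →+ ℤ)) := by
  rw [Fermat.Agent.S30.BettiHecke.tHom_castHom, tHom_eq_heckeT hℓN x]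
  exact (Frame.heckeT_comp (Int.castAddHom R) N ℓ (x : Additive (Gamma0 N) →+ ℤ)).symm

theorem tHom_castHom_eq_heckeU (R : Type*) [AddCommGroupWithOne R] (hℓN : ¬ ℓ ∣ N) (x : Lam N) :
    Fermat.Agent.S30.BettiHecke.tHom R hℓ.out hℓN (castHom N R (x : Additive (Gamma0 N) →+ ℤ)) =
      Frame.heckeU N ℓ (castHom N R (x : Additive (Gamma0 N) →+ ℤ)) := by
  rw [Fermat.Agent.S30.BettiHecke.tHom_castHom, tHom_eq_heckeU hℓN x]
  exact (Frame.heckeU_comp (Int.castAddHom R) N ℓ (x : Additive (Gamma0 N) →+ ℤ)).symm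

end bridge

/-! ### (Sat) on the lattices from the Eisenstein property -/

section sat

variable {N q p ℓ : ℕ} [NeZero N] [hq : Fact q.Prime] [hℓ : Fact ℓ.Prime]
  (ρ : CuspForm.heckeAlgebra N 2 ∅ →+* Module.End ℤ (Lam N))
  (hρ : ∀ t : CuspForm.heckeAlgebra N 2 ∅, Compat N t.1 (ρ t))

include hρ in
/-- **(Sat) on the lattices**, in the shape of `Assemble.result_of_pairing`, from the Eisenstein
property of the glued characters of `Γ₀(N)[1/q]` (`SatGlue.sat_of_eis`). -/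
theorem sat_of_eis (hqN : ¬ q ∣ N) (hp : p.Prime) (hℓN : ¬ ℓ ∣ N)
    (hEis : ∀ Ψ : Additive (iharaGroup N q) →+ ZMod p,
      IsParabolicHom (Gamma0 N) (Ψ.comp (MonoidHom.toAdditive (incl N q))) →
      Fermat.Agent.S30.BettiHecke.tHom (ZMod p) hℓ.out hℓN
          (Ψ.comp (MonoidHom.toAdditive (incl N q))) =
          (ℓ + 1) • Ψ.comp (MonoidHom.toAdditive (incl N q)) ∧
        Fermat.Agent.S30.BettiHecke.tHom (ZMod p) hℓ.out hℓN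
          (Ψ.comp (MonoidHom.toAdditive (inclTw N q))) =
          (ℓ + 1) • Ψ.comp (MonoidHom.toAdditive (inclTw N q)))
    (x₁ x₂ : Lam N) (y : Lam (N * q)) (h : α₁ N q x₁ + α₂ N q x₂ = (p : ℤ) • y) :
    ∃ x₁' x₂' : Lam N,
      ρ (CuspForm.heckeAlgebra.T hℓ.out hℓN (Set.notMem_empty ℓ)) x₁ - ((ℓ : ℤ) + 1) • x₁ =
        (p : ℤ) • x₁' ∧
      ρ (CuspForm.heckeAlgebra.T hℓ.out hℓN (Set.notMem_empty ℓ)) x₂ - ((ℓ : ℤ) + 1) • x₂ =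
        (p : ℤ) • x₂' := by
  have h' : Frame.res₁ N q (x₁ : Additive (Gamma0 N) →+ ℤ) +
      Frame.res₂ N q (x₂ : Additive (Gamma0 N) →+ ℤ) =
        (p : ℤ) • (y : Additive (Gamma0 (N * q)) →+ ℤ) := congrArg Subtype.val h
  obtain ⟨x₁', x₂', hx₁', hx₂', e₁, e₂⟩ := SatGlue.sat_of_eis hq.out hqN hp hℓ.out hℓN hEis
    (x₁ : Additive (Gamma0 N) →+ ℤ) (x₂ : Additive (Gamma0 N) →+ ℤ) x₁.2 x₂.2
    (y : Additive (Gamma0 (N * q)) →+ ℤ) h'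
  refine ⟨⟨x₁', hx₁'⟩, ⟨x₂', hx₂'⟩, Subtype.ext ?_, Subtype.ext ?_⟩
  · show ((ρ (CuspForm.heckeAlgebra.T hℓ.out hℓN (Set.notMem_empty ℓ)) x₁ : Lam N) :
        Additive (Gamma0 N) →+ ℤ) - ((ℓ : ℤ) + 1) • (x₁ : Additive (Gamma0 N) →+ ℤ) = (p : ℤ) • x₁'
    rw [coe_ρ_T_tHom ρ hρ hℓN, e₁]
  · show ((ρ (CuspForm.heckeAlgebra.T hℓ.out hℓN (Set.notMem_empty ℓ)) x₂ : Lam N) :
        Additive (Gamma0 N) →+ ℤ) - ((ℓ : ℤ) + 1) • (x₂ : Additive (Gamma0 N) →+ ℤ) = (p : ℤ) • x₂'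
    rw [coe_ρ_T_tHom ρ hρ hℓN, e₂]

end sat

/-! ### The assembly theorem on the frame -/

section assemble

variable {N q' : ℕ} [NeZero N] [hq' : Fact q'.Prime]

/-- **S41 from the frame**: `Assemble.result_of_pairing` with `L = Lam N`, `L' = Lam (N q')`,
`α_i = res_i`, `β_i = tr_i`.  Remaining inputs: a faithful Hecke action `ρ` on `Lam N` and a
Hecke action `ρ'` on `Lam (N q')`, both compatible with `periodHomPair`; the auxiliary prime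
`ℓ₀`; the pairings with adjointness, self-adjointness of `T_{ℓ₀}` and nondegeneracy modulo `p`;
and (Sat) at `ℓ₀`. -/
theorem result_of_frame
    {W : WeierstrassCurve ℤ} {p : ℕ} (hp : p.Prime) (hq'N : ¬ q' ∣ N)
    (f : CuspForm (Gamma0 N) 2) (𝔪 : Ideal (integralClosure ℤ ℂ))
    (hf : f.IsNormalizedEigenform) (hmax : 𝔪.IsMaximal) (hpm : (p : integralClosure ℤ ℂ) ∈ 𝔪)
    (hcong : ∀ ℓ : ℕ, ℓ.Prime → W.IsGoodPrimeFor ℓ → ¬ ℓ ∣ N → ℓ ≠ p →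
      ∃ a : integralClosure ℤ ℂ, (a : ℂ) = ModularFormClass.qCoeff f ℓ ∧
        a - ((W.apOfModel ℓ : ℤ) : integralClosure ℤ ℂ) ∈ 𝔪)
    (hLR : ∃ a : integralClosure ℤ ℂ, (a : ℂ) = ModularFormClass.qCoeff f q' ∧
      a ^ 2 - ((q' : integralClosure ℤ ℂ) + 1) ^ 2 ∈ 𝔪)
    (ρ : CuspForm.heckeAlgebra N 2 ∅ →+* Module.End ℤ (Lam N)) (hρi : Function.Injective ρ)
    (hρ : ∀ t : CuspForm.heckeAlgebra N 2 ∅, Compat N t.1 (ρ t))
    (ρ' : CuspForm.heckeAlgebra (N * q') 2 ∅ →+* Module.End ℤ (Lam (N * q')))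
    (hρ' : ∀ t : CuspForm.heckeAlgebra (N * q') 2 ∅, Compat (N * q') t.1 (ρ' t))
    (ℓ₀ : ℕ) (hℓ₀ : ℓ₀.Prime) (hgood₀ : W.IsGoodPrimeFor ℓ₀) (hℓ₀p : ℓ₀ ≠ p)
    (hℓ₀N : ¬ ℓ₀ ∣ N) (hℓ₀M : ¬ ℓ₀ ∣ N * q')
    (hℓ₀c : ¬ (p : ℤ) ∣ W.apOfModel ℓ₀ - ((ℓ₀ : ℤ) + 1))
    (B : Lam N →+ Lam N →+ ℤ) (B' : Lam (N * q') →+ Lam (N * q') →+ ℤ)
    (hadj₁ : ∀ x y, B' (α₁ N q' x) y = B x (β₁ hq'N y))
    (hadj₂ : ∀ x y, B' (α₂ N q' x) y = B x (β₂ hq'N y))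
    (hsa : ∀ x z, B (ρ (CuspForm.heckeAlgebra.T hℓ₀ hℓ₀N (Set.notMem_empty ℓ₀)) x) z =
      B x (ρ (CuspForm.heckeAlgebra.T hℓ₀ hℓ₀N (Set.notMem_empty ℓ₀)) z))
    (hnd : ∀ x : Lam N, (∀ z, (p : ℤ) ∣ B x z) → ∃ x' : Lam N, x = (p : ℤ) • x')
    (hnd' : ∀ y₀ : Lam (N * q'), (∀ y, (p : ℤ) ∣ B' y₀ y) →
      ∃ y₁ : Lam (N * q'), y₀ = (p : ℤ) • y₁)
    (hSat : ∀ (x₁ x₂ : Lam N) (y : Lam (N * q')), α₁ N q' x₁ + α₂ N q' x₂ = (p : ℤ) • y →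
        ∃ x₁' x₂' : Lam N,
          ρ (CuspForm.heckeAlgebra.T hℓ₀ hℓ₀N (Set.notMem_empty ℓ₀)) x₁ - ((ℓ₀ : ℤ) + 1) • x₁ =
            (p : ℤ) • x₁' ∧
          ρ (CuspForm.heckeAlgebra.T hℓ₀ hℓ₀N (Set.notMem_empty ℓ₀)) x₂ - ((ℓ₀ : ℤ) + 1) • x₂ =
            (p : ℤ) • x₂') :
    ∃ (g : CuspForm (CongruenceSubgroup.Gamma0 (N * q')) 2) (𝔪' : Ideal (integralClosure ℤ ℂ)),
      g.IsNormalizedEigenform ∧ 𝔪'.IsMaximal ∧ (p : integralClosure ℤ ℂ) ∈ 𝔪' ∧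
      (∀ ℓ : ℕ, ℓ.Prime → W.IsGoodPrimeFor ℓ → ¬ ℓ ∣ N * q' → ℓ ≠ p →
        ∃ a : integralClosure ℤ ℂ, (a : ℂ) = ModularFormClass.qCoeff g ℓ ∧
          a - ((W.apOfModel ℓ : ℤ) : integralClosure ℤ ℂ) ∈ 𝔪') ∧
      g.IsNewAt q' := by
  have : IsAddTorsionFree (Lam (N * q')) := lam_isAddTorsionFree (N * q')
  exact Assemble.result_of_pairing hp hq'.out hq'N f 𝔪 hf hmax hpm hcong hLR ρ hρi ρ'
    (α₁ N q') (α₂ N q') (β₁ hq'N) (β₂ hq'N)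
    (β₁_α₁ hq'N) (β₂_α₂ hq'N) (β₁_α₂ hq'N ρ hρ) (β₂_α₁ hq'N ρ hρ)
    (fun _ hℓ hℓN hℓM y => β₁_T hq'N ρ hρ ρ' hρ' hℓ hℓN hℓM y)
    (fun _ hℓ hℓN hℓM y => β₂_T hq'N ρ hρ ρ' hρ' hℓ hℓN hℓM y)
    (fun _ hℓ hℓN hℓM x => α₁_T ρ hρ ρ' hρ' hℓ hℓN hℓM x)
    (fun _ hℓ hℓN hℓM x => α₂_T hq'N ρ hρ ρ' hρ' hℓ hℓN hℓM x)
    (gen_old hq'N ρ hρ ρ' hρ')
    (fun y => ⟨_, _, U_sq_sub hq'N ρ hρ ρ' hρ' y⟩)
    ℓ₀ hℓ₀ hgood₀ hℓ₀p hℓ₀N hℓ₀M hℓ₀c B B' hadj₁ hadj₂ hsa hnd hnd' hSat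

end assemble

end Fermat.Agent.S41.FrameData
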