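import Mathlib
import Fermat.Agent.S41.FrameDict
import Fermat.Agent.S30.BettiHecke.Occ

/-!
# S41 frame: the lattice-level identities of the Ribet algebra

`Lat M = H¹_par(Γ₀(M), ℤ)`.  The frame maps `res₁`, `res₂`, `tr₁`, `tr₂` restrict to
`resL₁`, `resL₂ : Lat N →+ Lat (N q)` and `trL₁`, `trL₂ : Lat (N q) →+ Lat N`, and for ANY actions
`ρ`, `ρ'` of the Hecke algebras of levels `N`, `N q` on the lattices which are compatible with
`periodHomPair` (`BettiHecke.Compat`), all the identities required by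
`Assemble.result_of_pairing` hold: `h11`, `h22`, `h12`, `h21`, `hβ₁`, `hβ₂`, `hα₁`, `hα₂`,
`hgen`, `hU`.

The method: `Rel M φ f g` says that `φ ∈ Lat M` has periods `(f, g)`, i.e.
`castHom φ = periodHomPair M (f, g)`; every lattice element has periods, an element is determined
by its periods, and the maps above act on periods by the forms-level maps of `Degen.lean`.
-/

set_option autoImplicit false

open scoped MatrixGroups ModularForm
open CongruenceSubgroup ModularCurve ModularCurve.Period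
open Fermat.Agent.S41.Degen Fermat.Agent.S30.BettiHecke

namespace Fermat.Agent.S41.FrameGlue

open Fermat.Agent.S41.Frame (Lat)

/-! ### Periods of lattice elements -/

section Rel

variable {M : ℕ}

/-- `φ ∈ Lat M` has periods `(f, g)`. -/
def Rel (M : ℕ) (φ : Lat M) (f g : CuspForm (Gamma0 M) 2) : Prop :=
  castHom M ℂ (φ : Additive (Gamma0 M) →+ ℤ) = periodHomPair M (f, g)

theorem rel_exists [NeZero M] (φ : Lat M) : ∃ f g, Rel M φ f g :=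
  exists_periodHomPair_eq φ

theorem Rel.unique {φ φ' : Lat M} {f g f' g' : CuspForm (Gamma0 M) 2} (h : Rel M φ f g)
    (h' : Rel M φ' f' g') (ef : f = f') (eg : g = g') : φ = φ' := by
  subst ef eg
  exact Subtype.ext (castHom_injective ℂ (h.trans h'.symm))

theorem Rel.add {φ φ' : Lat M} {f g f' g' : CuspForm (Gamma0 M) 2} (h : Rel M φ f g)
    (h' : Rel M φ' f' g') : Rel M (φ + φ') (f + f') (g + g') := by
  show castHom M ℂ ((φ : Additive (Gamma0 M) →+ ℤ) + (φ' : Additive (Gamma0 M) →+ ℤ))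
    = periodHomPair M (f + f', g + g')
  rw [castHom_add, h, h', ← map_add]
  rfl

theorem Rel.neg {φ : Lat M} {f g : CuspForm (Gamma0 M) 2} (h : Rel M φ f g) :
    Rel M (-φ) (-f) (-g) := by
  have e1 : castHom M ℂ (-(φ : Additive (Gamma0 M) →+ ℤ))
      = -castHom M ℂ (φ : Additive (Gamma0 M) →+ ℤ) := by
    refine AddMonoidHom.ext fun γ => ?_
    simp [castHom_apply]
  show castHom M ℂ (-(φ : Additive (Gamma0 M) →+ ℤ)) = periodHomPair M (-f, -g)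
  rw [e1, h, ← map_neg]
  rfl

theorem Rel.sub {φ φ' : Lat M} {f g f' g' : CuspForm (Gamma0 M) 2} (h : Rel M φ f g)
    (h' : Rel M φ' f' g') : Rel M (φ - φ') (f - f') (g - g') := by
  have := h.add h'.neg
  rwa [← sub_eq_add_neg, ← sub_eq_add_neg, ← sub_eq_add_neg] at this

theorem Rel.zsmul (n : ℤ) {φ : Lat M} {f g : CuspForm (Gamma0 M) 2} (h : Rel M φ f g) :
    Rel M (n • φ) ((n : ℂ) • f) ((n : ℂ) • g) := by
  have e1 : castHom M ℂ (n • (φ : Additive (Gamma0 M) →+ ℤ))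
      = (n : ℂ) • castHom M ℂ (φ : Additive (Gamma0 M) →+ ℤ) := by
    refine AddMonoidHom.ext fun γ => ?_
    simp [castHom_apply]
  show castHom M ℂ (n • (φ : Additive (Gamma0 M) →+ ℤ))
    = periodHomPair M ((n : ℂ) • f, (n : ℂ) • g)
  rw [e1, h, ← map_smul]
  rfl

/-- A compatible endomorphism acts on periods by the forms-level operator. -/
theorem Rel.of_compat {t : Module.End ℂ (CuspForm (Gamma0 M) 2)} {E : Module.End ℤ (Lam M)}
    (h : Compat M t E) {φ : Lat M} {f g : CuspForm (Gamma0 M) 2} (r : Rel M φ f g) :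
    Rel M (E φ) (t f) (t g) := h φ f g r

/-- The lattice is torsion-free. -/
theorem isAddTorsionFree_lat (M : ℕ) : IsAddTorsionFree (Lat M) where
  nsmul_right_injective n hn φ ψ h := by
    apply Subtype.ext
    refine AddMonoidHom.ext fun γ => ?_
    have h1 : n • ((φ : Additive (Gamma0 M) →+ ℤ) γ) = n • ((ψ : Additive (Gamma0 M) →+ ℤ) γ) :=
      congrArg (fun χ : Lat M => (χ : Additive (Gamma0 M) →+ ℤ) γ) h
    exact nsmul_right_injective hn h1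

end Rel

/-! ### The four maps on lattices -/

section Maps

variable (N q : ℕ)

/-- `res₁` on lattices. -/
def resL₁ : Lat N →+ Lat (N * q) where
  toFun φ := ⟨Frame.res₁ N q (φ : Additive (Gamma0 N) →+ ℤ), Frame.isParabolicHom_res₁ N q φ.2⟩
  map_zero' := Subtype.ext (map_zero (Frame.res₁ N q))
  map_add' a b := Subtype.ext (map_add (Frame.res₁ N q) a.1 b.1)

/-- `res₂` on lattices. -/
def resL₂ [NeZero q] : Lat N →+ Lat (N * q) where
  toFun φ := ⟨Frame.res₂ N q (φ : Additive (Gamma0 N) →+ ℤ), Frame.isParabolicHom_res₂ N q φ.2⟩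
  map_zero' := Subtype.ext (map_zero (Frame.res₂ N q))
  map_add' a b := Subtype.ext (map_add (Frame.res₂ N q) a.1 b.1)

variable {N q}

@[simp] theorem resL₁_coe (φ : Lat N) :
    ((resL₁ N q φ : Lat (N * q)) : Additive (Gamma0 (N * q)) →+ ℤ)
      = Frame.res₁ N q (φ : Additive (Gamma0 N) →+ ℤ) := rfl

@[simp] theorem resL₂_coe [NeZero q] (φ : Lat N) :
    ((resL₂ N q φ : Lat (N * q)) : Additive (Gamma0 (N * q)) →+ ℤ)
      = Frame.res₂ N q (φ : Additive (Gamma0 N) →+ ℤ) := rfl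

variable [NeZero N] [hq : Fact q.Prime]

theorem castHom_tr₁ (B : Bez N q) {ψ : Additive (Gamma0 (N * q)) →+ ℤ}
    {f g : CuspForm (Gamma0 (N * q)) 2}
    (h : castHom (N * q) ℂ ψ = periodHomPair (N * q) (f, g)) :
    castHom N ℂ (Frame.tr₁ N q ψ) = periodHomPair N (tr1 B f, tr1 B g) := by
  rw [← FrameDict.tr₁_periodHomPair, ← h]
  exact (Frame.tr₁_comp (Int.castAddHom ℂ) N q ψ).symm

theorem castHom_tr₂ (B : Bez N q) {ψ : Additive (Gamma0 (N * q)) →+ ℤ}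
    {f g : CuspForm (Gamma0 (N * q)) 2}
    (h : castHom (N * q) ℂ ψ = periodHomPair (N * q) (f, g)) :
    castHom N ℂ (Frame.tr₂ N q ψ) = periodHomPair N (tr2 B f, tr2 B g) := by
  rw [← FrameDict.tr₂_periodHomPair, ← h]
  exact (Frame.tr₂_comp (Int.castAddHom ℂ) N q ψ).symm

/-- `tr₁` preserves the lattices (`q ∤ N`). -/
theorem tr₁_mem (hqN : ¬ q ∣ N) {ψ : Additive (Gamma0 (N * q)) →+ ℤ} (hψ : ψ ∈ Lat (N * q)) :
    Frame.tr₁ N q ψ ∈ Lat N := by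
  have : NeZero (N * q) := ⟨Nat.mul_ne_zero (NeZero.ne N) hq.out.ne_zero⟩
  obtain ⟨f, g, hfg⟩ := exists_periodHomPair_eq (⟨ψ, hψ⟩ : Lam (N * q))
  have h3 : castHom N ℂ (Frame.tr₁ N q ψ) ∈ parabolicHoms ℂ (Gamma0 N) ℂ := by
    rw [castHom_tr₁ (bez hq.out hqN) hfg, ← (Fermat.Agent.S21.result N).2]
    exact LinearMap.mem_range_self _ _
  exact isParabolic_of_castHom ℂ h3

/-- `tr₂` preserves the lattices (`q ∤ N`). -/
theorem tr₂_mem (hqN : ¬ q ∣ N) {ψ : Additive (Gamma0 (N * q)) →+ ℤ} (hψ : ψ ∈ Lat (N * q)) :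
    Frame.tr₂ N q ψ ∈ Lat N := by
  have : NeZero (N * q) := ⟨Nat.mul_ne_zero (NeZero.ne N) hq.out.ne_zero⟩
  obtain ⟨f, g, hfg⟩ := exists_periodHomPair_eq (⟨ψ, hψ⟩ : Lam (N * q))
  have h3 : castHom N ℂ (Frame.tr₂ N q ψ) ∈ parabolicHoms ℂ (Gamma0 N) ℂ := by
    rw [castHom_tr₂ (bez hq.out hqN) hfg, ← (Fermat.Agent.S21.result N).2]
    exact LinearMap.mem_range_self _ _
  exact isParabolic_of_castHom ℂ h3

/-- `tr₁` on lattices. -/
noncomputable def trL₁ (hqN : ¬ q ∣ N) : Lat (N * q) →+ Lat N where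
  toFun ψ := ⟨Frame.tr₁ N q (ψ : Additive (Gamma0 (N * q)) →+ ℤ), tr₁_mem hqN ψ.2⟩
  map_zero' := Subtype.ext (map_zero (Frame.tr₁ N q))
  map_add' a b := Subtype.ext (map_add (Frame.tr₁ N q) a.1 b.1)

/-- `tr₂` on lattices. -/
noncomputable def trL₂ (hqN : ¬ q ∣ N) : Lat (N * q) →+ Lat N where
  toFun ψ := ⟨Frame.tr₂ N q (ψ : Additive (Gamma0 (N * q)) →+ ℤ), tr₂_mem hqN ψ.2⟩
  map_zero' := Subtype.ext (map_zero (Frame.tr₂ N q))
  map_add' a b := Subtype.ext (map_add (Frame.tr₂ N q) a.1 b.1)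

@[simp] theorem trL₁_coe (hqN : ¬ q ∣ N) (ψ : Lat (N * q)) :
    ((trL₁ hqN ψ : Lat N) : Additive (Gamma0 N) →+ ℤ)
      = Frame.tr₁ N q (ψ : Additive (Gamma0 (N * q)) →+ ℤ) := rfl

@[simp] theorem trL₂_coe (hqN : ¬ q ∣ N) (ψ : Lat (N * q)) :
    ((trL₂ hqN ψ : Lat N) : Additive (Gamma0 N) →+ ℤ)
      = Frame.tr₂ N q (ψ : Additive (Gamma0 (N * q)) →+ ℤ) := rfl

/-! ### The maps act on periods by the forms-level degeneracy maps -/

theorem Rel.map_res₁ {φ : Lat N} {f g : CuspForm (Gamma0 N) 2} (h : Rel N φ f g) :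
    Rel (N * q) (resL₁ N q φ) (incl N q f) (incl N q g) := by
  show castHom (N * q) ℂ (Frame.res₁ N q (φ : Additive (Gamma0 N) →+ ℤ)) = _
  rw [← FrameDict.res₁_periodHomPair, ← h]
  rfl

theorem Rel.map_res₂ (hqN : ¬ q ∣ N) {φ : Lat N} {f g : CuspForm (Gamma0 N) 2}
    (h : Rel N φ f g) : Rel (N * q) (resL₂ N q φ) (vmap hqN f) (vmap hqN g) := by
  show castHom (N * q) ℂ (Frame.res₂ N q (φ : Additive (Gamma0 N) →+ ℤ)) = _
  rw [← FrameDict.res₂_periodHomPair hqN, ← h]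
  rfl

theorem Rel.map_tr₁ (hqN : ¬ q ∣ N) {ψ : Lat (N * q)} {f g : CuspForm (Gamma0 (N * q)) 2}
    (h : Rel (N * q) ψ f g) :
    Rel N (trL₁ hqN ψ) (tr1 (bez hq.out hqN) f) (tr1 (bez hq.out hqN) g) :=
  castHom_tr₁ (bez hq.out hqN) h

theorem Rel.map_tr₂ (hqN : ¬ q ∣ N) {ψ : Lat (N * q)} {f g : CuspForm (Gamma0 (N * q)) 2}
    (h : Rel (N * q) ψ f g) :
    Rel N (trL₂ hqN ψ) (tr2 (bez hq.out hqN) f) (tr2 (bez hq.out hqN) g) :=
  castHom_tr₂ (bez hq.out hqN) h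

end Maps

/-! ### Forms-level identities in the shape used below -/

section Forms

variable {N q : ℕ} [NeZero N] [hq : Fact q.Prime]

theorem form_U_old (hqN : ¬ q ∣ N) (f₁ f₂ : CuspForm (Gamma0 N) 2) :
    CuspForm.heckeULin 2 (q_dvd (N := N) (q := q)) (incl N q f₁ + vmap hqN f₂)
      = incl N q (CuspForm.heckeTLin 2 hq.out hqN f₁ + ((q : ℤ) : ℂ) • f₂) + vmap hqN (-f₁) := by
  rw [map_add, heckeU_incl hqN, heckeU_vmap hqN, map_add, map_smul, map_neg, Int.cast_natCast]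
  abel

theorem form_UU (hqN : ¬ q ∣ N) (g : CuspForm (Gamma0 (N * q)) 2) :
    CuspForm.heckeULin 2 (q_dvd (N := N) (q := q))
        (CuspForm.heckeULin 2 (q_dvd (N := N) (q := q)) g) - g
      = incl N q (CuspForm.heckeTLin 2 hq.out hqN (tr2 (bez hq.out hqN) g)
          - tr1 (bez hq.out hqN) g) + vmap hqN (-(tr2 (bez hq.out hqN) g)) := by
  rw [heckeU_heckeU (bez hq.out hqN) hqN, map_neg]
  abel

end Forms

/-! ### The identities at level `N` (only `ρ` involved) -/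

section LevelN

variable {N q : ℕ} [NeZero N] [hq : Fact q.Prime] (hqN : ¬ q ∣ N)
  (ρ : CuspForm.heckeAlgebra N 2 ∅ →+* Module.End ℤ (Lat N))
  (hρ : ∀ t : CuspForm.heckeAlgebra N 2 ∅, Compat N t.1 (ρ t))

include hqN in
theorem h11 (x : Lat N) : trL₁ hqN (resL₁ N q x) = ((q : ℤ) + 1) • x := by
  obtain ⟨f, g, r⟩ := rel_exists x
  have e : ((((q : ℤ) + 1 : ℤ)) : ℂ) = (q : ℂ) + 1 := by push_cast; rfl
  refine (r.map_res₁.map_tr₁ hqN).unique (r.zsmul ((q : ℤ) + 1)) ?_ ?_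
  · rw [tr1_incl _ hqN, e]
  · rw [tr1_incl _ hqN, e]

include hqN in
theorem h22 (x : Lat N) : trL₂ hqN (resL₂ N q x) = ((q : ℤ) + 1) • x := by
  obtain ⟨f, g, r⟩ := rel_exists x
  have e : ((((q : ℤ) + 1 : ℤ)) : ℂ) = (q : ℂ) + 1 := by push_cast; rfl
  refine ((r.map_res₂ hqN).map_tr₂ hqN).unique (r.zsmul ((q : ℤ) + 1)) ?_ ?_
  · rw [tr2_vmap _ hqN, e]
  · rw [tr2_vmap _ hqN, e]

include hρ in
theorem h12 (x : Lat N) :
    trL₁ hqN (resL₂ N q x) = ρ (CuspForm.heckeAlgebra.T hq.out hqN (Set.notMem_empty q)) x := by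
  obtain ⟨f, g, r⟩ := rel_exists x
  refine ((r.map_res₂ hqN).map_tr₁ hqN).unique (hρ _ x f g r) ?_ ?_
  · rw [tr1_vmap _ hqN]; rfl
  · rw [tr1_vmap _ hqN]; rfl

include hρ in
theorem h21 (x : Lat N) :
    trL₂ hqN (resL₁ N q x) = ρ (CuspForm.heckeAlgebra.T hq.out hqN (Set.notMem_empty q)) x := by
  obtain ⟨f, g, r⟩ := rel_exists x
  refine (r.map_res₁.map_tr₂ hqN).unique (hρ _ x f g r) ?_ ?_
  · rw [tr2_incl _ hqN]; rfl
  · rw [tr2_incl _ hqN]; rfl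

include hρ in
/-- The action of `T_q` (`q ∤ N`) on the lattice is the frame operator `heckeT N q`. -/
theorem rho_T_coe (x : Lat N) :
    ((ρ (CuspForm.heckeAlgebra.T hq.out hqN (Set.notMem_empty q)) x : Lat N) :
        Additive (Gamma0 N) →+ ℤ) = Frame.heckeT N q (x : Additive (Gamma0 N) →+ ℤ) := by
  rw [← h12 hqN ρ hρ x]
  rfl

include hρ in
/-- The action of `T_q` (`q ∤ N`) on the lattice is also the frame operator `heckeU N q`. -/
theorem rho_T_coe' (x : Lat N) :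
    ((ρ (CuspForm.heckeAlgebra.T hq.out hqN (Set.notMem_empty q)) x : Lat N) :
        Additive (Gamma0 N) →+ ℤ) = Frame.heckeU N q (x : Additive (Gamma0 N) →+ ℤ) := by
  rw [← h21 hqN ρ hρ x]
  rfl

end LevelN

/-! ### The identities involving both levels -/

section TwoLevels

variable {N q : ℕ} [NeZero N] [hq : Fact q.Prime] [NeZero (N * q)] (hqN : ¬ q ∣ N)
  (ρ : CuspForm.heckeAlgebra N 2 ∅ →+* Module.End ℤ (Lat N))
  (hρ : ∀ t : CuspForm.heckeAlgebra N 2 ∅, Compat N t.1 (ρ t))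
  (ρ' : CuspForm.heckeAlgebra (N * q) 2 ∅ →+* Module.End ℤ (Lat (N * q)))
  (hρ' : ∀ t : CuspForm.heckeAlgebra (N * q) 2 ∅, Compat (N * q) t.1 (ρ' t))

include hρ hρ' in
theorem hβ₁ (ℓ : ℕ) (hℓ : ℓ.Prime) (hℓN : ¬ ℓ ∣ N) (hℓM : ¬ ℓ ∣ N * q) (y : Lat (N * q)) :
    trL₁ hqN (ρ' (CuspForm.heckeAlgebra.T hℓ hℓM (Set.notMem_empty ℓ)) y) =
      ρ (CuspForm.heckeAlgebra.T hℓ hℓN (Set.notMem_empty ℓ)) (trL₁ hqN y) := by
  obtain ⟨f, g, r⟩ := rel_exists y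
  refine (Rel.map_tr₁ hqN (hρ' _ y f g r)).unique (hρ _ _ _ _ (r.map_tr₁ hqN)) ?_ ?_
  · exact tr1_heckeT _ hℓ hℓN hℓM f
  · exact tr1_heckeT _ hℓ hℓN hℓM g

include hρ hρ' in
theorem hβ₂ (ℓ : ℕ) (hℓ : ℓ.Prime) (hℓN : ¬ ℓ ∣ N) (hℓM : ¬ ℓ ∣ N * q) (y : Lat (N * q)) :
    trL₂ hqN (ρ' (CuspForm.heckeAlgebra.T hℓ hℓM (Set.notMem_empty ℓ)) y) =
      ρ (CuspForm.heckeAlgebra.T hℓ hℓN (Set.notMem_empty ℓ)) (trL₂ hqN y) := by
  obtain ⟨f, g, r⟩ := rel_exists y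
  refine (Rel.map_tr₂ hqN (hρ' _ y f g r)).unique (hρ _ _ _ _ (r.map_tr₂ hqN)) ?_ ?_
  · exact tr2_heckeT _ hℓ hℓN hℓM f
  · exact tr2_heckeT _ hℓ hℓN hℓM g

include hρ hρ' in
theorem hα₁ (ℓ : ℕ) (hℓ : ℓ.Prime) (hℓN : ¬ ℓ ∣ N) (hℓM : ¬ ℓ ∣ N * q) (x : Lat N) :
    resL₁ N q (ρ (CuspForm.heckeAlgebra.T hℓ hℓN (Set.notMem_empty ℓ)) x) =
      ρ' (CuspForm.heckeAlgebra.T hℓ hℓM (Set.notMem_empty ℓ)) (resL₁ N q x) := by
  obtain ⟨f, g, r⟩ := rel_exists x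
  refine (Rel.map_res₁ (hρ _ x f g r)).unique (hρ' _ _ _ _ r.map_res₁) ?_ ?_
  · exact incl_heckeT hℓ hℓN hℓM f
  · exact incl_heckeT hℓ hℓN hℓM g

include hqN hρ hρ' in
theorem hα₂ (ℓ : ℕ) (hℓ : ℓ.Prime) (hℓN : ¬ ℓ ∣ N) (hℓM : ¬ ℓ ∣ N * q) (x : Lat N) :
    resL₂ N q (ρ (CuspForm.heckeAlgebra.T hℓ hℓN (Set.notMem_empty ℓ)) x) =
      ρ' (CuspForm.heckeAlgebra.T hℓ hℓM (Set.notMem_empty ℓ)) (resL₂ N q x) := by
  obtain ⟨f, g, r⟩ := rel_exists x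
  refine (Rel.map_res₂ hqN (hρ _ x f g r)).unique (hρ' _ _ _ _ (r.map_res₂ hqN)) ?_ ?_
  · exact vmap_heckeT hqN hℓ hℓN hℓM f
  · exact vmap_heckeT hqN hℓ hℓN hℓM g

include hqN hρ hρ' in
/-- Every Hecke generator of level `N q` preserves the old part `res₁ L + res₂ L`. -/
theorem hgen (g : CuspForm.heckeAlgebra (N * q) 2 ∅)
    (hg : (g : Module.End ℂ (CuspForm (Gamma0 (N * q)) 2)) ∈
      CuspForm.heckeGenerators (N * q) 2 ∅) (x₁ x₂ : Lat N) :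
    ∃ x₁' x₂' : Lat N, ρ' g (resL₁ N q x₁ + resL₂ N q x₂) = resL₁ N q x₁' + resL₂ N q x₂' := by
  obtain ⟨f₁, g₁, r₁⟩ := rel_exists x₁
  obtain ⟨f₂, g₂, r₂⟩ := rel_exists x₂
  have rL : Rel (N * q) (ρ' g (resL₁ N q x₁ + resL₂ N q x₂))
      (g.1 (incl N q f₁ + vmap hqN f₂)) (g.1 (incl N q g₁ + vmap hqN g₂)) :=
    hρ' g _ _ _ (r₁.map_res₁.add (r₂.map_res₂ hqN))
  rcases hg with ⟨ℓ, hℓ, hℓM, -, hgT⟩ | ⟨ℓ, hℓM, hℓ, -, hgU⟩
  · have hℓN : ¬ ℓ ∣ N := fun h => hℓM (Dvd.dvd.mul_right h q)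
    refine ⟨ρ (CuspForm.heckeAlgebra.T hℓ hℓN (Set.notMem_empty ℓ)) x₁,
      ρ (CuspForm.heckeAlgebra.T hℓ hℓN (Set.notMem_empty ℓ)) x₂, ?_⟩
    have rR := (Rel.map_res₁ (q := q)
      (hρ (CuspForm.heckeAlgebra.T hℓ hℓN (Set.notMem_empty ℓ)) x₁ f₁ g₁ r₁)).add
      (Rel.map_res₂ hqN (hρ (CuspForm.heckeAlgebra.T hℓ hℓN (Set.notMem_empty ℓ)) x₂ f₂ g₂ r₂))
    refine rL.unique rR ?_ ?_
    · rw [hgT, map_add, ← incl_heckeT hℓ hℓN hℓM, ← vmap_heckeT hqN hℓ hℓN hℓM]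
      rfl
    · rw [hgT, map_add, ← incl_heckeT hℓ hℓN hℓM, ← vmap_heckeT hqN hℓ hℓN hℓM]
      rfl
  · by_cases hℓN : ℓ ∣ N
    · refine ⟨ρ (CuspForm.heckeAlgebra.U hℓ hℓN (Set.notMem_empty ℓ)) x₁,
        ρ (CuspForm.heckeAlgebra.U hℓ hℓN (Set.notMem_empty ℓ)) x₂, ?_⟩
      have rR := (Rel.map_res₁ (q := q)
        (hρ (CuspForm.heckeAlgebra.U hℓ hℓN (Set.notMem_empty ℓ)) x₁ f₁ g₁ r₁)).add
        (Rel.map_res₂ hqN (hρ (CuspForm.heckeAlgebra.U hℓ hℓN (Set.notMem_empty ℓ)) x₂ f₂ g₂ r₂))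
      refine rL.unique rR ?_ ?_
      · rw [hgU, map_add, ← incl_heckeU hℓN hℓM, ← vmap_heckeU hqN hℓ hℓN hℓM]
        rfl
      · rw [hgU, map_add, ← incl_heckeU hℓN hℓM, ← vmap_heckeU hqN hℓ hℓN hℓM]
        rfl
    · have hℓq : q = ℓ := by
        rcases (Nat.Prime.dvd_mul hℓ).mp hℓM with h | h
        · exact absurd h hℓN
        · exact ((Nat.prime_dvd_prime_iff_eq hℓ hq.out).mp h).symm
      subst hℓq
      refine ⟨ρ (CuspForm.heckeAlgebra.T hq.out hqN (Set.notMem_empty q)) x₁ + (q : ℤ) • x₂,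
        -x₁, ?_⟩
      have rR := (Rel.map_res₁ (q := q) ((Rel.of_compat (hρ (CuspForm.heckeAlgebra.T hq.out hqN
        (Set.notMem_empty q))) r₁).add (r₂.zsmul (q : ℤ)))).add
        (Rel.map_res₂ hqN r₁.neg)
      refine rL.unique rR ?_ ?_
      · rw [hgU]
        exact form_U_old hqN f₁ f₂
      · rw [hgU]
        exact form_U_old hqN g₁ g₂

include hqN hρ hρ' in
/-- `U_q ^ 2 - 1` maps the lattice of level `N q` into the old part. -/
theorem hU (y : Lat (N * q)) : ∃ x₁ x₂ : Lat N,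
    ρ' (CuspForm.heckeAlgebra.U hq.out (dvd_mul_left q N) (Set.notMem_empty q))
        (ρ' (CuspForm.heckeAlgebra.U hq.out (dvd_mul_left q N) (Set.notMem_empty q)) y) - y =
      resL₁ N q x₁ + resL₂ N q x₂ := by
  obtain ⟨f, g, r⟩ := rel_exists y
  refine ⟨ρ (CuspForm.heckeAlgebra.T hq.out hqN (Set.notMem_empty q)) (trL₂ hqN y) - trL₁ hqN y,
    -(trL₂ hqN y), ?_⟩
  have rL := (Rel.of_compat (hρ' (CuspForm.heckeAlgebra.U hq.out (dvd_mul_left q N)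
    (Set.notMem_empty q))) (Rel.of_compat (hρ' (CuspForm.heckeAlgebra.U hq.out (dvd_mul_left q N)
    (Set.notMem_empty q))) r)).sub r
  have rR := (Rel.map_res₁ (q := q) ((Rel.of_compat (hρ (CuspForm.heckeAlgebra.T hq.out hqN
    (Set.notMem_empty q))) (r.map_tr₂ hqN)).sub (r.map_tr₁ hqN))).add
    (Rel.map_res₂ hqN (r.map_tr₂ hqN).neg)
  refine Rel.unique rL rR ?_ ?_
  · exact form_UU hqN f
  · exact form_UU hqN g

end TwoLevels

end Fermat.Agent.S41.FrameGlue
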