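import Mathlib

/-!
# S41: Ihara's lemma for the transfers from Ihara's lemma for the restrictions + a pairing

Abstract companion of `RibetAlgebra.sat_of_pairing`, in the opposite direction.  `L`, `L'` are the
COHOMOLOGY lattices, `α₁ α₂ : L →+ L'` the two restrictions, `β₁ β₂ : L' →+ L` the two transfers,
`B`, `B'` pairings with `B' (α_i x) y = B x (β_i y)`, both nondegenerate modulo `p`, and `s` a
`B`-self-adjoint operator with the saturation property
`α₁ x₁ + α₂ x₂ ∈ p L' → s x₁, s x₂ ∈ p L`.  Then `s z₁ ≡ β₁ y`, `s z₂ ≡ β₂ y` modulo `p` is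
solvable for all `z₁ z₂`.
-/

set_option autoImplicit false

namespace Fermat.Agent.S41.IhOfPairing

variable {L L' R : Type*} [AddCommGroup L] [AddCommGroup L'] [AddCommGroup R]

/-- Modulo `p`, every additive functional on a finite free `ℤ`-module `L` is represented by a
pairing which is nondegenerate modulo `p`. -/
theorem exists_repr [Module.Free ℤ L] [Module.Finite ℤ L] {p : ℕ} [Fact p.Prime]
    (B : L →+ L →+ R) (red : R →+ ZMod p)
    (hnd : ∀ x, (∀ z, red (B x z) = 0) → ∃ x', x = (p : ℤ) • x')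
    (μ : L →+ ZMod p) : ∃ v : L, ∀ z, μ z = red (B v z) := by
  classical
  let b := Module.Free.chooseBasis ℤ L
  let G : Matrix (Module.Free.ChooseBasisIndex ℤ L) (Module.Free.ChooseBasisIndex ℤ L) (ZMod p) :=
    fun i j => red (B (b i) (b j))
  -- the pairing of an integral combination with a basis vector
  have hcomb : ∀ (c : Module.Free.ChooseBasisIndex ℤ L → ℤ) (j : Module.Free.ChooseBasisIndex ℤ L),
      red (B (∑ i, c i • b i) (b j)) = Matrix.vecMul (fun i => (c i : ZMod p)) G j := by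
    intro c j
    rw [map_sum, AddMonoidHom.finsetSum_apply, map_sum]
    simp only [Matrix.vecMul, dotProduct, G]
    refine Finset.sum_congr rfl fun i _ => ?_
    rw [map_zsmul, AddMonoidHom.smul_apply, map_zsmul, zsmul_eq_mul]
  -- extension from basis vectors to all vectors
  have hext : ∀ (v : L) (μ' : L →+ ZMod p), (∀ j, μ' (b j) = red (B v (b j))) →
      ∀ z, μ' z = red (B v z) := by
    intro v μ' h z
    rw [← b.sum_repr z, map_sum, map_sum, map_sum]
    refine Finset.sum_congr rfl fun j _ => ?_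
    rw [map_zsmul, map_zsmul, map_zsmul, h j]
  -- the Gram matrix is injective on row vectors
  have hkey : ∀ c : Module.Free.ChooseBasisIndex ℤ L → ZMod p, Matrix.vecMul c G = 0 → c = 0 := by
    intro c hc
    let c' : Module.Free.ChooseBasisIndex ℤ L → ℤ := fun i => ((c i).cast : ℤ)
    have hc' : (fun i => ((c' i : ℤ) : ZMod p)) = c := by
      funext i
      exact ZMod.intCast_zmod_cast (c i)
    have h0 : ∀ z, red (B (∑ i, c' i • b i) z) = 0 := by
      have := hext (∑ i, c' i • b i) 0 (fun j => by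
        rw [hcomb c' j, hc']
        have := congrFun hc j
        rw [AddMonoidHom.zero_apply]
        exact this.symm)
      intro z
      exact (this z).symm
    obtain ⟨x', hx'⟩ := hnd _ h0
    funext i
    have h1 : b.repr (∑ i, c' i • b i) i = c' i := by
      rw [b.repr_sum_self]
    rw [hx', map_zsmul, Finsupp.smul_apply, smul_eq_mul] at h1
    have h2 : ((c' i : ℤ) : ZMod p) = 0 := by
      rw [← h1]
      push_cast
      rw [ZMod.natCast_self, zero_mul]
    have h3 : ((c' i : ℤ) : ZMod p) = c i := congrFun hc' i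
    rw [← h3, h2]
    rfl
  have hinj : Function.Injective G.vecMul := by
    have hlin : Function.Injective G.vecMulLinear := by
      rw [injective_iff_map_eq_zero]
      intro c hc
      exact hkey c hc
    exact hlin
  have hsurj : Function.Surjective G.vecMul :=
    Matrix.vecMul_surjective_iff_isUnit.mpr (Matrix.vecMul_injective_iff_isUnit.mp hinj)
  obtain ⟨c, hc⟩ := hsurj (fun j => μ (b j))
  let c' : Module.Free.ChooseBasisIndex ℤ L → ℤ := fun i => ((c i).cast : ℤ)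
  have hc' : (fun i => ((c' i : ℤ) : ZMod p)) = c := by
    funext i
    exact ZMod.intCast_zmod_cast (c i)
  refine ⟨∑ i, c' i • b i, hext _ μ fun j => ?_⟩
  rw [hcomb c' j, hc']
  exact (congrFun hc j).symm

/-- A nonzero element of a group killed by `p` is detected by an additive map to `ZMod p`. -/
theorem exists_addHom_ne_zero {Q : Type*} [AddCommGroup Q] {p : ℕ} [Fact p.Prime]
    (hQ : ∀ x : Q, p • x = 0) {u : Q} (hu : u ≠ 0) : ∃ f : Q →+ ZMod p, f u ≠ 0 := by
  let instM : Module (ZMod p) Q := AddCommGroup.zmodModule hQ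
  have hfree : Module.Free (ZMod p) Q := Module.Free.of_divisionRing _ _
  have hproj : Module.Projective (ZMod p) Q := @Module.Projective.of_free _ _ _ _ _ hfree
  obtain ⟨f, hf⟩ := @Module.Projective.exists_dual_ne_zero _ _ (ZMod p) _ instM hproj _ hu
  exact ⟨LinearMap.toAddMonoidHom f, hf⟩

/-- **Ihara's lemma for the transfers** from saturation of the restrictions and the pairing. -/
theorem ih_of_pairing [Module.Free ℤ L] [Module.Finite ℤ L] {p : ℕ} [Fact p.Prime]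
    (s : L →+ L) (α₁ α₂ : L →+ L') (β₁ β₂ : L' →+ L)
    (B : L →+ L →+ R) (B' : L' →+ L' →+ R) (red : R →+ ZMod p)
    (hadj₁ : ∀ x y, B' (α₁ x) y = B x (β₁ y)) (hadj₂ : ∀ x y, B' (α₂ x) y = B x (β₂ y))
    (hsa : ∀ x z, B (s x) z = B x (s z))
    (hnd : ∀ x, (∀ z, red (B x z) = 0) → ∃ x', x = (p : ℤ) • x')
    (hnd' : ∀ y, (∀ z, red (B' y z) = 0) → ∃ y', y = (p : ℤ) • y')
    (hSat : ∀ (x₁ x₂ : L) (y : L'), α₁ x₁ + α₂ x₂ = (p : ℤ) • y →
      ∃ x₁' x₂' : L, s x₁ = (p : ℤ) • x₁' ∧ s x₂ = (p : ℤ) • x₂')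
    (z₁ z₂ : L) :
    ∃ (y : L') (w₁ w₂ : L), s z₁ = β₁ y + (p : ℤ) • w₁ ∧ s z₂ = β₂ y + (p : ℤ) • w₂ := by
  classical
  have hp0 : NeZero p := ⟨(Fact.out : p.Prime).ne_zero⟩
  have hredp : ∀ r : R, red ((p : ℤ) • r) = 0 := by
    intro r
    rw [map_zsmul, zsmul_eq_mul]
    push_cast
    rw [ZMod.natCast_self, zero_mul]
  -- the subgroup `β L' + p L²` of `L × L`
  let ψ : L' × L × L →+ L × L :=
    { toFun := fun t => (β₁ t.1 + (p : ℤ) • t.2.1, β₂ t.1 + (p : ℤ) • t.2.2)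
      map_zero' := by simp
      map_add' := by
        intro t t'
        simp only [Prod.fst_add, Prod.snd_add, map_add, smul_add, Prod.mk_add_mk]
        refine Prod.ext ?_ ?_ <;> simp only <;> abel }
  let S : AddSubgroup (L × L) := ψ.range
  by_contra hcon
  have hnot : (s z₁, s z₂) ∉ S := by
    rintro ⟨⟨y, w₁, w₂⟩, h⟩
    have h1 := congrArg Prod.fst h
    have h2 := congrArg Prod.snd h
    exact hcon ⟨y, w₁, w₂, h1.symm, h2.symm⟩
  have hpS : ∀ x : L × L, p • x ∈ S := by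
    intro x
    refine ⟨(0, x.1, x.2), ?_⟩
    show (β₁ 0 + (p : ℤ) • x.1, β₂ 0 + (p : ℤ) • x.2) = p • x
    rw [map_zero, map_zero, zero_add, zero_add]
    refine Prod.ext ?_ ?_ <;> simp
  have hu : (QuotientAddGroup.mk (s z₁, s z₂) : (L × L) ⧸ S) ≠ 0 := by
    intro h
    exact hnot ((QuotientAddGroup.eq_zero_iff _).mp h)
  have hQ : ∀ x : (L × L) ⧸ S, p • x = 0 := by
    intro x
    induction x using QuotientAddGroup.induction_on with
    | H x =>
      rw [← QuotientAddGroup.mk_nsmul]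
      exact (QuotientAddGroup.eq_zero_iff _).mpr (hpS x)
  obtain ⟨f, hf⟩ := exists_addHom_ne_zero hQ hu
  let lam : L × L →+ ZMod p := f.comp (QuotientAddGroup.mk' S)
  have hlamS : ∀ x ∈ S, lam x = 0 := by
    intro x hx
    show f (QuotientAddGroup.mk x) = 0
    rw [(QuotientAddGroup.eq_zero_iff x).mpr hx, map_zero]
  obtain ⟨v₁, hv₁⟩ := exists_repr B red hnd (lam.comp (AddMonoidHom.inl L L))
  obtain ⟨v₂, hv₂⟩ := exists_repr B red hnd (lam.comp (AddMonoidHom.inr L L))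
  have hlam : ∀ a b : L, lam (a, b) = red (B v₁ a) + red (B v₂ b) := by
    intro a b
    have e : (a, b) = AddMonoidHom.inl L L a + AddMonoidHom.inr L L b := by
      simp
    rw [e, map_add, ← hv₁ a, ← hv₂ b]
    rfl
  -- `α₁ v₁ + α₂ v₂ ∈ p L'`
  have h1 : ∀ y', red (B' (α₁ v₁ + α₂ v₂) y') = 0 := by
    intro y'
    rw [map_add, AddMonoidHom.add_apply, hadj₁, hadj₂, map_add, ← hlam]
    apply hlamS
    refine ⟨(y', 0, 0), ?_⟩
    show (β₁ y' + (p : ℤ) • (0 : L), β₂ y' + (p : ℤ) • (0 : L)) = (β₁ y', β₂ y')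
    rw [smul_zero, add_zero, add_zero]
  obtain ⟨y₀, hy₀⟩ := hnd' _ h1
  obtain ⟨x₁', x₂', e1, e2⟩ := hSat v₁ v₂ y₀ hy₀
  apply hf
  have h2 : f (QuotientAddGroup.mk (s z₁, s z₂)) = lam (s z₁, s z₂) := rfl
  rw [h2, hlam, ← hsa, ← hsa, e1, e2, map_zsmul, map_zsmul, AddMonoidHom.smul_apply,
    AddMonoidHom.smul_apply, hredp, hredp, add_zero]

/-- The `ℤ`-valued special case, in the shape of the hypothesis `hIh` of
`RibetAlgebra.exists_hom`. -/
theorem ih_of_pairing_int [Module.Free ℤ L] [Module.Finite ℤ L] {p : ℕ} (hp : p.Prime)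
    (s : L →+ L) (α₁ α₂ : L →+ L') (β₁ β₂ : L' →+ L)
    (B : L →+ L →+ ℤ) (B' : L' →+ L' →+ ℤ)
    (hadj₁ : ∀ x y, B' (α₁ x) y = B x (β₁ y)) (hadj₂ : ∀ x y, B' (α₂ x) y = B x (β₂ y))
    (hsa : ∀ x z, B (s x) z = B x (s z))
    (hnd : ∀ x, (∀ z, (p : ℤ) ∣ B x z) → ∃ x', x = (p : ℤ) • x')
    (hnd' : ∀ y, (∀ z, (p : ℤ) ∣ B' y z) → ∃ y', y = (p : ℤ) • y')
    (hSat : ∀ (x₁ x₂ : L) (y : L'), α₁ x₁ + α₂ x₂ = (p : ℤ) • y →
      ∃ x₁' x₂' : L, s x₁ = (p : ℤ) • x₁' ∧ s x₂ = (p : ℤ) • x₂')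
    (z : L) :
    ∃ (y : L') (w₁ w₂ : L), s z = β₁ y + (p : ℤ) • w₁ ∧ 0 = β₂ y + (p : ℤ) • w₂ := by
  have : Fact p.Prime := ⟨hp⟩
  have hred : ∀ m : ℤ, Int.castAddHom (ZMod p) m = 0 ↔ (p : ℤ) ∣ m := fun m =>
    ZMod.intCast_zmod_eq_zero_iff_dvd m p
  obtain ⟨y, w₁, w₂, h1, h2⟩ := ih_of_pairing s α₁ α₂ β₁ β₂ B B' (Int.castAddHom (ZMod p))
    hadj₁ hadj₂ hsa (fun x hx => hnd x fun z => (hred _).mp (hx z))
    (fun y hy => hnd' y fun z => (hred _).mp (hy z)) hSat z 0
  rw [map_zero] at h2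
  exact ⟨y, w₁, w₂, h1, h2⟩

end Fermat.Agent.S41.IhOfPairing
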