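import Mathlib

/-!
# S41: the finite orbit product

If `F : G → K` (`G` a finite commutative group, `K` a commutative group of odd exponent `p`)
satisfies `F (w * z) = F z * D` for an element `w` whose order is divisible by `p`, then
`∏ z, F z = 1`: along an orbit `z, w z, …, w^(m-1) z` the product is `F z ^ m * D ^ (m (m-1)/2)`.

`prod_erase_eq_one_of_affine` is the same statement for an affine map `j ↦ u * j + t` of `ZMod l`
with a fixed point `j₀`, the product being over `j ≠ j₀`.
-/

set_option autoImplicit false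

open Finset

namespace Fermat.Agent.S41.OrbitProd

/-- The product along one orbit. -/
theorem prod_range_mul_pow {K : Type*} [CommGroup K] {p : ℕ} (hp : Odd p)
    (hK : ∀ x : K, x ^ p = 1) (m : ℕ) (hm : p ∣ m) (a D : K) :
    ∏ i ∈ range m, a * D ^ i = 1 := by
  have hKd : ∀ (x : K) (n : ℕ), p ∣ n → x ^ n = 1 := by
    rintro x n ⟨k, rfl⟩
    rw [pow_mul, hK, one_pow]
  rw [Finset.prod_mul_distrib, Finset.prod_const, card_range, Finset.prod_pow_eq_pow_sum,
    hKd a m hm, one_mul]
  apply hKd
  have h2 : p ∣ (∑ i ∈ range m, i) * 2 := by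
    rw [Finset.sum_range_id_mul_two]
    exact Dvd.dvd.mul_right hm _
  have hcop : Nat.Coprime p 2 := Nat.coprime_two_right.mpr hp
  exact hcop.dvd_of_dvd_mul_right h2

/-- Iterating the functional equation. -/
theorem apply_pow_mul {G K : Type*} [Group G] [CommGroup K] (w : G) (F : G → K) (D : K)
    (hF : ∀ z, F (w * z) = F z * D) (z : G) (i : ℕ) : F (w ^ i * z) = F z * D ^ i := by
  induction i with
  | zero => simp
  | succ i ih => rw [pow_succ', mul_assoc, hF, ih, pow_succ, mul_assoc]

/-- **Orbit product.**  `F (w * z) = F z * D` with `p ∣ orderOf w`, `p` odd, `K` of exponent `p`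
forces `∏ z, F z = 1`. -/
theorem prod_eq_one_of_mul {G K : Type*} [CommGroup G] [Fintype G] [CommGroup K] {p : ℕ}
    (hp : Odd p) (hK : ∀ x : K, x ^ p = 1) (w : G) (hw : p ∣ orderOf w) (F : G → K) (D : K)
    (hF : ∀ z, F (w * z) = F z * D) : ∏ z, F z = 1 := by
  classical
  let H : Subgroup G := Subgroup.zpowers w
  have hfin : IsOfFinOrder w := isOfFinOrder_of_finite w
  let φ : (G ⧸ H) × H → G := fun x => x.1.out * (x.2 : G)
  have hφ : Function.Bijective φ := by
    constructor
    · rintro ⟨c, h⟩ ⟨c', h'⟩ hEq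
      have hEq' : c.out * (h : G) = c'.out * (h' : G) := hEq
      have hc : c = c' := by
        have h1 : ((c.out * (h : G) : G) : G ⧸ H) = c := by
          rw [QuotientGroup.mk_mul_of_mem _ h.2, QuotientGroup.out_eq']
        have h2 : ((c'.out * (h' : G) : G) : G ⧸ H) = c' := by
          rw [QuotientGroup.mk_mul_of_mem _ h'.2, QuotientGroup.out_eq']
        rw [← h1, ← h2, hEq']
      subst hc
      have : (h : G) = (h' : G) := mul_left_cancel hEq'
      exact Prod.ext rfl (Subtype.ext this)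
    · intro z
      have hmem : (QuotientGroup.mk z : G ⧸ H).out⁻¹ * z ∈ H := by
        rw [← QuotientGroup.eq, QuotientGroup.out_eq']
      exact ⟨⟨QuotientGroup.mk z, ⟨_, hmem⟩⟩, by simp [φ]⟩
  rw [← (Equiv.ofBijective φ hφ).prod_comp, Fintype.prod_prod_type]
  refine Finset.prod_eq_one fun c _ => ?_
  rw [← (finEquivZPowers hfin).prod_comp]
  have hstep : ∀ i : Fin (orderOf w),
      F ((Equiv.ofBijective φ hφ) (c, (finEquivZPowers hfin) i)) = F c.out * D ^ (i : ℕ) := by
    intro i
    have : (Equiv.ofBijective φ hφ) (c, (finEquivZPowers hfin) i) = w ^ (i : ℕ) * c.out := by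
      simp [φ, finEquivZPowers_apply, mul_comm]
    rw [this, apply_pow_mul w F D hF]
  rw [Finset.prod_congr rfl fun i _ => hstep i,
    Fin.prod_univ_eq_prod_range (fun i => F c.out * D ^ i) (orderOf w)]
  exact prod_range_mul_pow hp hK _ hw _ _

/-- **Affine orbit product on `ZMod l`.**  For the affine map `j ↦ u * j + t` with fixed point
`j₀`, `u ≠ 0` of order divisible by `p`: if `F (u * j + t) = F j * D` for `j ≠ j₀`, then the
product of `F` over `j ≠ j₀` is `1`. -/
theorem prod_erase_eq_one_of_affine {l : ℕ} [Fact l.Prime] {K : Type*} [CommGroup K] {p : ℕ}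
    (hp : Odd p) (hK : ∀ x : K, x ^ p = 1) (u t j₀ : ZMod l) (hu : p ∣ orderOf u) (hu0 : u ≠ 0)
    (hfix : u * j₀ + t = j₀) (F : ZMod l → K) (D : K)
    (hF : ∀ j, j ≠ j₀ → F (u * j + t) = F j * D) :
    ∏ j ∈ Finset.univ.erase j₀, F j = 1 := by
  classical
  let w : (ZMod l)ˣ := Units.mk0 u hu0
  have hw : p ∣ orderOf w := by
    have : orderOf w = orderOf u := by
      rw [← orderOf_units]
      rfl
    rw [this]; exact hu
  have key := prod_eq_one_of_mul hp hK w hw (fun z : (ZMod l)ˣ => F (j₀ + (z : ZMod l))) D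
    (by
      intro z
      have h1 : j₀ + ((w * z : (ZMod l)ˣ) : ZMod l) = u * (j₀ + (z : ZMod l)) + t := by
        have : ((w * z : (ZMod l)ˣ) : ZMod l) = u * (z : ZMod l) := rfl
        rw [this, mul_add]
        linear_combination -hfix
      show F (j₀ + ((w * z : (ZMod l)ˣ) : ZMod l)) = F (j₀ + (z : ZMod l)) * D
      rw [h1]
      apply hF
      intro h
      simp at h)
  rw [← key]
  symm
  refine Finset.prod_bij (fun z _ => j₀ + (z : ZMod l)) ?_ ?_ ?_ ?_
  · intro z _
    rw [Finset.mem_erase]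
    refine ⟨fun h => ?_, Finset.mem_univ _⟩
    simp at h
  · intro z _ z' _ h
    exact Units.ext (add_left_cancel h)
  · intro j hj
    rw [Finset.mem_erase] at hj
    have hne : j - j₀ ≠ 0 := sub_ne_zero.2 hj.1
    exact ⟨Units.mk0 (j - j₀) hne, Finset.mem_univ _, by simp⟩
  · intro z _
    rfl

/-- The same, as a statement about the full product (no decidability in the statement):
`∏ j, F j = F j₀`. -/
theorem prod_eq_apply_of_affine {l : ℕ} [NeZero l] (hl : l.Prime) {K : Type*} [CommGroup K]
    {p : ℕ} (hp : Odd p) (hK : ∀ x : K, x ^ p = 1) (u t j₀ : ZMod l) (hu : p ∣ orderOf u)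
    (hu0 : u ≠ 0) (hfix : u * j₀ + t = j₀) (F : ZMod l → K) (D : K)
    (hF : ∀ j, j ≠ j₀ → F (u * j + t) = F j * D) :
    ∏ j, F j = F j₀ := by
  classical
  have : Fact l.Prime := ⟨hl⟩
  rw [← Finset.mul_prod_erase Finset.univ F (Finset.mem_univ j₀)]
  have h := prod_erase_eq_one_of_affine hp hK u t j₀ hu hu0 hfix F D hF
  have h' : ∏ j ∈ Finset.univ.erase j₀, F j = 1 := by
    convert h
  rw [h', mul_one]

/-- The form used for the Hecke orbit sum: the index set is `OnePoint (ZMod l)` (the `l + 1`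
coset representatives of `T_l`), and only the terms at `∞` and at the fixed point survive. -/
theorem prod_onePoint_of_affine {l : ℕ} [NeZero l] (hl : l.Prime) {K : Type*} [CommGroup K]
    {p : ℕ} (hp : Odd p) (hK : ∀ x : K, x ^ p = 1) (u t j₀ : ZMod l) (hu : p ∣ orderOf u)
    (hu0 : u ≠ 0) (hfix : u * j₀ + t = j₀) (G : OnePoint (ZMod l) → K) (D : K)
    (hG : ∀ j : ZMod l, j ≠ j₀ →
      G ((u * j + t : ZMod l) : OnePoint (ZMod l)) = G (j : OnePoint (ZMod l)) * D) :
    ∏ x, G x = G (OnePoint.infty) * G (j₀ : OnePoint (ZMod l)) := by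
  have h := prod_eq_apply_of_affine hl hp hK u t j₀ hu hu0 hfix
    (fun j => G (j : OnePoint (ZMod l))) D hG
  have h2 : ∏ x : OnePoint (ZMod l), G x
      = G (OnePoint.infty) * ∏ j : ZMod l, G (j : OnePoint (ZMod l)) :=
    Fintype.prod_option (fun x : Option (ZMod l) => G x)
  rw [h2, h]

end Fermat.Agent.S41.OrbitProd
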