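import Fermat.Agent.S41.Assemble
import Fermat.Agent.S41.FrameLat

/-!
# S41: wiring of the level-raising theorem in the cohomological frame

`result_of_frame` is the conclusion of S41 from the hypotheses of S41 on `f` and:

* Hecke actions `ρ`, `ρ'` of the full Hecke algebras of levels `N`, `N q'` on the Betti lattices
  `Lam N`, `Lam (N q')`, compatible with `periodHomPair` (`BettiHecke.Compat`), `ρ` faithful;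
* one auxiliary non-Eisenstein prime `ℓ₀`;
* `ℤ`-valued pairings on the two lattices, nondegenerate mod `p`, for which the transfers
  `β_i` are adjoint to the degeneracy maps `α_i` and `T_{ℓ₀}` is self-adjoint;
* the saturation property (Sat) at `ℓ₀` for bare homomorphisms (the conclusion of
  `SatGlue.sat_of_eis_mul`).
-/

set_option autoImplicit false

open scoped MatrixGroups
open CongruenceSubgroup ModularCurve ModularCurve.Period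
open Fermat.Agent.S30.BettiHecke (Lam castHom Compat tHom tLam)

namespace Fermat.Agent.S41.Wire

open Fermat.Agent.S41.FrameLat

/-- A compatible Hecke action sends `T_ℓ` to `tLam`. -/
theorem rho_T_eq_tLam {N : ℕ} [NeZero N]
    (ρ : CuspForm.heckeAlgebra N 2 ∅ →+* Module.End ℤ (Lam N))
    (hρ : ∀ t : CuspForm.heckeAlgebra N 2 ∅, Compat N t.1 (ρ t))
    {ℓ : ℕ} [NeZero ℓ] (hℓ : ℓ.Prime) (hℓN : ¬ ℓ ∣ N) :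
    ρ (CuspForm.heckeAlgebra.T hℓ hℓN (Set.notMem_empty ℓ)) = tLam hℓ hℓN :=
  Fermat.Agent.S30.BettiHecke.compat_unique (hρ _)
    (Fermat.Agent.S30.BettiHecke.compat_T hℓ hℓN)

/-- **S41 in the cohomological frame.** -/
theorem result_of_frame {N q' : ℕ} [NeZero N] [hq : Fact q'.Prime] (hq'N : ¬ q' ∣ N)
    {W : WeierstrassCurve ℤ} {p : ℕ} (hp : p.Prime)
    (f : CuspForm (Gamma0 N) 2) (𝔪 : Ideal (integralClosure ℤ ℂ))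
    (hf : f.IsNormalizedEigenform) (hmax : 𝔪.IsMaximal) (hpm : (p : integralClosure ℤ ℂ) ∈ 𝔪)
    (hcong : ∀ ℓ : ℕ, ℓ.Prime → W.IsGoodPrimeFor ℓ → ¬ ℓ ∣ N → ℓ ≠ p →
      ∃ a : integralClosure ℤ ℂ, (a : ℂ) = ModularFormClass.qCoeff f ℓ ∧
        a - ((W.apOfModel ℓ : ℤ) : integralClosure ℤ ℂ) ∈ 𝔪)
    (hLR : ∃ a : integralClosure ℤ ℂ, (a : ℂ) = ModularFormClass.qCoeff f q' ∧
      a ^ 2 - ((q' : integralClosure ℤ ℂ) + 1) ^ 2 ∈ 𝔪)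
    -- Hecke actions
    (ρ : CuspForm.heckeAlgebra N 2 ∅ →+* Module.End ℤ (Lam N))
    (hρ : ∀ t : CuspForm.heckeAlgebra N 2 ∅, Compat N t.1 (ρ t))
    (hρinj : Function.Injective ρ)
    (ρ' : CuspForm.heckeAlgebra (N * q') 2 ∅ →+* Module.End ℤ (Lam (N * q')))
    (hρ' : ∀ t : CuspForm.heckeAlgebra (N * q') 2 ∅, Compat (N * q') t.1 (ρ' t))
    -- the auxiliary prime
    (ℓ₀ : ℕ) [NeZero ℓ₀] (hℓ₀ : ℓ₀.Prime) (hgood₀ : W.IsGoodPrimeFor ℓ₀) (hℓ₀p : ℓ₀ ≠ p)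
    (hℓ₀N : ¬ ℓ₀ ∣ N) (hℓ₀M : ¬ ℓ₀ ∣ N * q')
    (hℓ₀c : ¬ (p : ℤ) ∣ W.apOfModel ℓ₀ - ((ℓ₀ : ℤ) + 1))
    -- pairings
    (B : Lam N →+ Lam N →+ ℤ) (B' : Lam (N * q') →+ Lam (N * q') →+ ℤ)
    (hadj₁ : ∀ x y, B' (α₁ N q' x) y = B x (β₁ hq'N y))
    (hadj₂ : ∀ x y, B' (α₂ N q' x) y = B x (β₂ hq'N y))
    (hsa : ∀ x z, B (tLam hℓ₀ hℓ₀N x) z = B x (tLam hℓ₀ hℓ₀N z))
    (hnd : ∀ x : Lam N, (∀ z, (p : ℤ) ∣ B x z) → ∃ x' : Lam N, x = (p : ℤ) • x')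
    (hnd' : ∀ y₀ : Lam (N * q'), (∀ y, (p : ℤ) ∣ B' y₀ y) →
      ∃ y₁ : Lam (N * q'), y₀ = (p : ℤ) • y₁)
    -- saturation at `ℓ₀`
    (hsat : ∀ x₁ x₂ : Additive (Gamma0 N) →+ ℤ, IsParabolicHom (Gamma0 N) x₁ →
      IsParabolicHom (Gamma0 N) x₂ → ∀ y : Additive (Gamma0 (N * q')) →+ ℤ,
      Frame.res₁ N q' x₁ + Frame.res₂ N q' x₂ = (p : ℤ) • y →
      ∃ x₁' x₂' : Additive (Gamma0 N) →+ ℤ,
        IsParabolicHom (Gamma0 N) x₁' ∧ IsParabolicHom (Gamma0 N) x₂' ∧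
        tHom ℤ hℓ₀ hℓ₀N x₁ - ((ℓ₀ : ℤ) + 1) • x₁ = (p : ℤ) • x₁' ∧
        tHom ℤ hℓ₀ hℓ₀N x₂ - ((ℓ₀ : ℤ) + 1) • x₂ = (p : ℤ) • x₂') :
    ∃ (g : CuspForm (CongruenceSubgroup.Gamma0 (N * q')) 2) (𝔪' : Ideal (integralClosure ℤ ℂ)),
      g.IsNormalizedEigenform ∧ 𝔪'.IsMaximal ∧ (p : integralClosure ℤ ℂ) ∈ 𝔪' ∧
      (∀ ℓ : ℕ, ℓ.Prime → W.IsGoodPrimeFor ℓ → ¬ ℓ ∣ N * q' → ℓ ≠ p →
        ∃ a : integralClosure ℤ ℂ, (a : ℂ) = ModularFormClass.qCoeff g ℓ ∧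
          a - ((W.apOfModel ℓ : ℤ) : integralClosure ℤ ℂ) ∈ 𝔪') ∧
      g.IsNewAt q' := by
  have hq' : q'.Prime := hq.out
  have : NeZero (N * q') := ⟨Nat.mul_ne_zero (NeZero.ne N) hq'.ne_zero⟩
  have hT : ρ (CuspForm.heckeAlgebra.T hℓ₀ hℓ₀N (Set.notMem_empty ℓ₀)) = tLam hℓ₀ hℓ₀N :=
    rho_T_eq_tLam ρ hρ hℓ₀ hℓ₀N
  have : IsAddTorsionFree (Lam (N * q')) :=
    Module.isTorsionFree_int_iff_isAddTorsionFree.mp inferInstance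
  refine Assemble.result_of_pairing hp hq' hq'N f 𝔪 hf hmax hpm hcong hLR ρ hρinj ρ'
    (α₁ N q') (α₂ N q') (β₁ hq'N) (β₂ hq'N)
    (β₁_α₁ hq'N) (β₂_α₂ hq'N) (β₁_α₂ hq'N ρ hρ) (β₂_α₁ hq'N ρ hρ)
    (fun ℓ hℓ hℓN hℓM y => β₁_T hq'N ρ hρ ρ' hρ' hℓ hℓN hℓM y)
    (fun ℓ hℓ hℓN hℓM y => β₂_T hq'N ρ hρ ρ' hρ' hℓ hℓN hℓM y)
    (fun ℓ hℓ hℓN hℓM x => α₁_T ρ hρ ρ' hρ' hℓ hℓN hℓM x)
    (fun ℓ hℓ hℓN hℓM x => α₂_T hq'N ρ hρ ρ' hρ' hℓ hℓN hℓM x)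
    (fun g hg x₁ x₂ => gen_old hq'N ρ hρ ρ' hρ' g hg x₁ x₂)
    (fun y => ⟨_, _, U_sq_sub hq'N ρ hρ ρ' hρ' y⟩)
    ℓ₀ hℓ₀ hgood₀ hℓ₀p hℓ₀N hℓ₀M hℓ₀c B B' hadj₁ hadj₂ ?_ hnd hnd' ?_
  · intro x z
    rw [hT]
    exact hsa x z
  · intro x₁ x₂ y h
    have h' : Frame.res₁ N q' (x₁ : Additive (Gamma0 N) →+ ℤ) +
        Frame.res₂ N q' (x₂ : Additive (Gamma0 N) →+ ℤ) =
        (p : ℤ) • (y : Additive (Gamma0 (N * q')) →+ ℤ) :=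
      congrArg (fun v : Lam (N * q') => (v : Additive (Gamma0 (N * q')) →+ ℤ)) h
    obtain ⟨x₁', x₂', hx₁', hx₂', e₁, e₂⟩ := hsat x₁ x₂ x₁.2 x₂.2 y h'
    refine ⟨⟨x₁', hx₁'⟩, ⟨x₂', hx₂'⟩, ?_, ?_⟩
    · rw [hT]
      exact Subtype.ext e₁
    · rw [hT]
      exact Subtype.ext e₂

end Fermat.Agent.S41.Wire
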